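/-
Item 78 (S41), block C "non-Eisenstein", piece C-CARD (helper12): `#E[n] = n²` for odd `n ≥ 3`
over an algebraically closed field of characteristic `0`, UNCONDITIONAL.
Copy of `Fermat.Agent.DPCount.card_torsionBy_eq_sq` with the ladder polynomials
`Ladder.LF W n`, `Ladder.LG W n` in place of Mathlib's `Φ`, `ΨSq`.
Exact signature of helper3's note.  No sorry.
-/
import Mathlib
import Fermat.Agent.Ladder.Eval
import Fermat.Agent.Ladder.AddSub
import Fermat.Agent.Ladder.Book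
import Fermat.Agent.DivPolyCount

set_option autoImplicit false

open WeierstrassCurve WeierstrassCurve.Affine Polynomial

namespace Fermat.Agent.S41lib

open Fermat.Agent.S51lib Fermat.Agent.Ladder Fermat.Agent.DPCount

section generic

variable {K : Type*} [Field K]

/-- the Wronskian of a monic polynomial of degree `d` and a polynomial of degree `d - 1` is
nonzero in characteristic `0` (coefficient in degree `2 d - 2`). -/
theorem neCard_wronskian_ne_zero (Φ Ψ : K[X]) (d : ℕ) (c : K) (hd : 2 ≤ d)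
    (hΦ : Top Φ d 1) (hΨ : Top Ψ (d - 1) c) (hc : c ≠ 0) :
    derivative Φ * Ψ - Φ * derivative Ψ ≠ 0 := by
  have hΦdeg : Φ.natDegree ≤ (d - 1) + 1 := by
    have := hΦ.le
    omega
  have hΦ'deg : (derivative Φ).natDegree ≤ d - 1 := by
    have h1 := natDegree_derivative_le Φ
    have := hΦ.le
    omega
  have hΨdeg : Ψ.natDegree ≤ d - 1 := hΨ.le
  have hΨ'deg : (derivative Ψ).natDegree ≤ d - 2 := by
    have h1 := natDegree_derivative_le Ψ
    omega
  have hΦc : Φ.coeff ((d - 1) + 1) = 1 := by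
    rw [show d - 1 + 1 = d by omega]
    exact hΦ.co
  have hΨc : Ψ.coeff (d - 1) = c := hΨ.co
  have c1 : (derivative Φ * Ψ).coeff ((d - 1) + (d - 1)) = (d : K) * c := by
    rw [coeff_mul_add_eq_of_natDegree_le hΦ'deg hΨdeg, coeff_derivative, hΦc, hΨc]
    have : ((d - 1 : ℕ) : K) + 1 = (d : K) := by
      have h : d - 1 + 1 = d := by omega
      rw [← Nat.cast_add_one, h]
    rw [this]
    ring
  have c2 : (Φ * derivative Ψ).coeff ((d - 1 + 1) + (d - 2)) = c * ((d : K) - 1) := by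
    rw [coeff_mul_add_eq_of_natDegree_le hΦdeg hΨ'deg, coeff_derivative, hΦc,
      show d - 2 + 1 = d - 1 by omega, hΨc]
    have : ((d - 2 : ℕ) : K) + 1 = (d : K) - 1 := by
      have : ((d - 2 : ℕ) : K) + 2 = (d : K) := by
        have h : d - 2 + 2 = d := by omega
        have h2 : ((d - 2 + 2 : ℕ) : K) = ((d - 2 : ℕ) : K) + 2 := by push_cast; ring
        rw [← h2, h]
      linear_combination this
    rw [this]
    ring
  have hidx : (d - 1 + 1) + (d - 2) = (d - 1) + (d - 1) := by omega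
  rw [hidx] at c2
  intro h0
  have : (derivative Φ * Ψ - Φ * derivative Ψ).coeff ((d - 1) + (d - 1)) = c := by
    rw [coeff_sub, c1, c2]
    ring
  rw [h0, coeff_zero] at this
  exact hc this.symm

variable [DecidableEq K]

/-- `#E[n] = n²` from ANY pair of polynomials computing `x(n • P)`. -/
theorem neCard_of_polys [IsAlgClosed K] [CharZero K] (W : Affine K) (hΔ : W.Δ ≠ 0) (n : ℕ)
    (hn0 : n ≠ 0) (Φ Ψ f : K[X])
    (hΦd : Φ.natDegree = n ^ 2) (hΨlt : Ψ.natDegree < n ^ 2)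
    (hWr : derivative Φ * Ψ - Φ * derivative Ψ ≠ 0)
    (hf0 : f ≠ 0) (hdeg : 2 * f.natDegree + 1 ≤ n ^ 2)
    (hf : ∀ P : W.Point, P ≠ 0 → n • P = 0 → f.eval (xc W P) = 0)
    (hmul' : ∀ P : W.Point, P ≠ 0 → Ψ.eval (xc W P) ≠ 0 →
      n • P ≠ 0 ∧ xc W (n • P) * Ψ.eval (xc W P) = Φ.eval (xc W P))
    (hcop : ∀ x : K, Φ.eval x = 0 → Ψ.eval x ≠ 0) :
    Nat.card (Submodule.torsionBy ℤ W.Point n) = n ^ 2 := by
  obtain ⟨hfin, hle⟩ := card_torsionBy_le W n f hf0 hf
  refine le_antisymm (hle.trans hdeg) ?_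
  obtain ⟨c, s, hscard, hs⟩ := exists_separable_fibre Φ Ψ (n ^ 2) hΦd hΨlt hcop hWr
  -- points above the fibre
  have step1 : ∀ r ∈ s, ∃ P : W.Point, P ≠ 0 ∧ xc W P = r ∧ n • P ≠ 0 ∧ xc W (n • P) = c := by
    intro r hr
    obtain ⟨P, hP, hx⟩ := exists_point_of_x W hΔ r
    obtain ⟨h1, h2⟩ := hs r hr
    have h3 := hmul' P hP (by rw [hx]; exact h2)
    rw [hx, h1] at h3
    refine ⟨P, hP, hx, h3.1, ?_⟩
    exact mul_right_cancel₀ h2 h3.2
  have hsne : s.Nonempty := by
    rw [← Finset.card_pos, hscard]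
    exact Nat.pos_of_ne_zero (pow_ne_zero 2 hn0)
  obtain ⟨r₀, hr₀⟩ := hsne
  obtain ⟨P₀, hP₀, hxP₀, hnP₀, hxnP₀⟩ := step1 r₀ hr₀
  have step3 : ∀ r : s, ∃ P : W.Point, xc W P = r ∧ n • P = n • P₀ := by
    rintro ⟨r, hr⟩
    obtain ⟨P, hP, hx, hnP, hxn⟩ := step1 r hr
    rcases eq_or_eq_neg_of_xc_eq W hnP hnP₀ (hxn.trans hxnP₀.symm) with e | e
    · exact ⟨P, hx, e⟩
    · refine ⟨-P, by rw [xc_neg]; exact hx, ?_⟩
      rw [smul_neg, e, neg_neg]
  choose g hgx hgn using step3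
  set φ : s → Submodule.torsionBy ℤ W.Point n := fun r =>
    ⟨g r - P₀, by
      rw [Submodule.mem_torsionBy_iff, natCast_zsmul, smul_sub, hgn r, sub_self]⟩ with hφ
  have hinj : Function.Injective φ := by
    intro r r' h
    have h1 : g r - P₀ = g r' - P₀ := congrArg Subtype.val h
    have h2 : g r = g r' := sub_left_injective h1
    apply Subtype.ext
    rw [← hgx r, ← hgx r', h2]
  calc n ^ 2 = s.card := hscard.symm
    _ = Nat.card s := by rw [Nat.card_eq_fintype_card, Fintype.card_coe]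
    _ ≤ Nat.card (Submodule.torsionBy ℤ W.Point n) := Nat.card_le_card_of_injective φ hinj

end generic

/-- **C-CARD.** `#E[n] = n²` for odd `n`, over an algebraically closed field of characteristic `0`,
UNCONDITIONAL. -/
theorem ne_card_torsionBy {K : Type*} [Field K] [DecidableEq K] [IsAlgClosed K] [CharZero K]
    (W : WeierstrassCurve K) [W.IsElliptic] (m : ℕ) (hm : 1 ≤ m) :
    Nat.card (Submodule.torsionBy ℤ W.toAffine.Point ((2 * m + 1 : ℕ) : ℤ)) = (2 * m + 1) ^ 2 := by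
  have hA : AddSubSpec W := fun P Q => addSubMap_sym2x W P Q
  have hΔ : W.toAffine.Δ ≠ 0 := W.isUnit_Δ.ne_zero
  have hn0 : 2 * m + 1 ≠ 0 := by omega
  have hnK : ((2 * m + 1 : ℕ) : K) ≠ 0 := by exact_mod_cast hn0
  have hn2K : ((2 * m + 1 : ℕ) : K) ^ 2 ≠ 0 := pow_ne_zero 2 hnK
  have hF := top_LF W (2 * m + 1)
  have hG := top_LG W (2 * m + 1) (by omega)
  have hT := top_torsPoly W m hm
  have hTc : -(2 * (m : K) + 1) ≠ 0 := by
    intro h
    apply hnK
    push_cast
    linear_combination -h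
  have hd2 : 2 ≤ (2 * m + 1) ^ 2 := by nlinarith
  refine neCard_of_polys W.toAffine hΔ (2 * m + 1) hn0 (LF W (2 * m + 1)) (LG W (2 * m + 1))
    (torsPoly W m) (hF.natDegree_eq one_ne_zero) ?_
    (neCard_wronskian_ne_zero _ _ _ _ hd2 hF hG hn2K) ?_ ?_ ?_ ?_ ?_
  · rw [hG.natDegree_eq hn2K]
    omega
  · intro h0
    have := hT.co
    rw [h0, coeff_zero] at this
    exact hTc this.symm
  · rw [hT.natDegree_eq hTc]
    apply le_of_eq
    ring
  · rintro (_ | ⟨x, y, h⟩) hP hnP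
    · exact absurd rfl hP
    · exact (odd_nsmul_eq_zero_iff hA h m hm).mp hnP
  · rintro (_ | ⟨x, y, h⟩) hP hΨ
    · exact absurd rfl hP
    · obtain ⟨c, hc, hF', hG'⟩ := ladder_eval hA h (2 * m + 1)
      have hne : (2 * m + 1) • Point.some x y h ≠ 0 := fun h0 =>
        hΨ ((nsmul_eq_zero_iff hA h (2 * m + 1)).mp h0)
      refine ⟨hne, ?_⟩
      rcases hP' : (2 * m + 1) • Point.some x y h with _ | ⟨x', y', h'⟩
      · exact absurd hP' hne
      · rw [hP'] at hF' hG'
        rw [xRep_some_zero] at hF'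
        rw [xRep_some_one, mul_one] at hG'
        show x' * (LG W (2 * m + 1)).eval x = (LF W (2 * m + 1)).eval x
        rw [hF', hG']
        ring
  · intro x hΦ0 hΨ0
    obtain ⟨P, hP, hx⟩ := exists_point_of_x W.toAffine hΔ x
    rcases P with _ | ⟨x₁, y₁, h⟩
    · exact absurd rfl hP
    · have hx1 : x₁ = x := hx
      subst hx1
      obtain ⟨c, hc, hF', hG'⟩ := ladder_eval hA h (2 * m + 1)
      rw [hΦ0] at hF'
      rw [hΨ0] at hG'
      have h0 : ((2 * m + 1) • Point.some x₁ y₁ h).xRep 0 = 0 :=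
        (mul_eq_zero.mp hF'.symm).resolve_left hc
      have h1 : ((2 * m + 1) • Point.some x₁ y₁ h).xRep 1 = 0 :=
        (mul_eq_zero.mp hG'.symm).resolve_left hc
      apply Point.xRep_ne_zero ((2 * m + 1) • Point.some x₁ y₁ h)
      funext i
      fin_cases i
      · exact h0
      · exact h1

end Fermat.Agent.S41lib
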