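import Mathlib
import Fermat.Prelude.Def_FLTPrelim_ModularRep
import Fermat.Prelude.Def_EllipticCurve_FrobeniusTrace
import Fermat.Prelude.Def_FLTPrelim_Ramification

/-!
# S41 block C (non-Eisenstein): shared definitions (helper3)
-/

set_option autoImplicit false

open WeierstrassCurve WeierstrassCurve.Affine WeierstrassCurve.Affine.Point

namespace Fermat.Agent.S41lib

/-- `E[p](ℚ̄)` for a Weierstrass curve over `ℚ`, as in the Prelude's `GaloisRepIsIrreducible`. -/
abbrev neTors (E : WeierstrassCurve ℚ) (p : ℕ) : Type :=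
  Submodule.torsionBy ℤ (E.toAffine⁄(AlgebraicClosure ℚ)).Point p

end Fermat.Agent.S41lib
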