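import Mathlib
import Fermat.Prelude.Def_FLTPrelim_ModularRep
import Fermat.Prelude.Def_EllipticCurve_FrobeniusTrace
import Fermat.Prelude.Def_FLTPrelim_Ramification
import Fermat.Agent.Ladder.Eval
import Fermat.Agent.Ladder.AddSub
import Fermat.Agent.Ladder.Map
import Fermat.Agent.Ladder.Book
import Fermat.Agent.DivPoly.TorsionOut
import Fermat.Agent.S41lib.NonEisDefs

/-!
# S41 block C, piece C-RED: fixed points of Frobenius on `E[p]` (helper3)

`W` an integral Weierstrass curve, `ℓ ≠ p` a prime of good reduction, `p` odd.  If `p` divides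
`#W(𝔽_ℓ) = ℓ + 1 - a_ℓ`, then every Frobenius element at `ℓ` fixes a nonzero point of
`W_ℚ[p](ℚ̄)`.

Only the `x`-only ladder (`Fermat.Agent.Ladder`) is used: the integral torsion polynomial
`torsPoly W m` (`p = 2m+1`, leading coefficient `-p`) and Mathlib's `addSubMap`.
-/

set_option autoImplicit false

open WeierstrassCurve WeierstrassCurve.Affine WeierstrassCurve.Affine.Point Polynomial

namespace Fermat.Agent.S41lib

/-! ## Valuation subrings -/

section Val

variable {K : Type*} [Field K] (A : ValuationSubring K)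

theorem ner_val_intCast_le (n : ℤ) : A.valuation (n : K) ≤ 1 :=
  (A.valuation_le_one_iff _).mpr (intCast_mem A n)

/-- a root of an integer polynomial whose leading coefficient is a unit of `A` lies in `A` -/
theorem ner_mem_of_eval₂ (f : ℤ[X]) (hlc : A.valuation ((f.leadingCoeff : ℤ) : K) = 1) (x : K)
    (hx : f.eval₂ (Int.castRingHom K) x = 0) : x ∈ A := by
  by_contra hxA
  have hv : 1 < A.valuation x := not_le.mp (mt (A.valuation_le_one_iff x).mp hxA)
  rw [eval₂_eq_sum_range, Finset.sum_range_succ] at hx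
  have h1 : A.valuation ((Int.castRingHom K) (f.coeff f.natDegree) * x ^ f.natDegree)
      = A.valuation x ^ f.natDegree := by
    rw [map_mul, map_pow]
    have : (Int.castRingHom K) (f.coeff f.natDegree) = ((f.leadingCoeff : ℤ) : K) := rfl
    rw [this, hlc, one_mul]
  have h2 : A.valuation (∑ i ∈ Finset.range f.natDegree, (Int.castRingHom K) (f.coeff i) * x ^ i)
      < A.valuation x ^ f.natDegree := by
    apply Valuation.map_sum_lt
    · exact pow_ne_zero _ (ne_of_gt (lt_trans zero_lt_one hv))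
    · intro i hi
      rw [map_mul, map_pow]
      have hi' : i < f.natDegree := Finset.mem_range.mp hi
      calc A.valuation ((Int.castRingHom K) (f.coeff i)) * A.valuation x ^ i
          ≤ 1 * A.valuation x ^ i := by
            gcongr
            exact ner_val_intCast_le A _
        _ = A.valuation x ^ i := one_mul _
        _ < A.valuation x ^ f.natDegree := pow_lt_pow_right₀ hv hi'
  have h3 : (Int.castRingHom K) (f.coeff f.natDegree) * x ^ f.natDegree
      = -(∑ i ∈ Finset.range f.natDegree, (Int.castRingHom K) (f.coeff i) * x ^ i) := by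
    linear_combination hx
  rw [h3, Valuation.map_neg] at h1
  exact absurd h1 (ne_of_lt h2)

/-- a root of a monic quadratic with coefficients in `A` lies in `A` -/
theorem ner_mem_of_quadratic {b c y : K} (hb : b ∈ A) (hc : c ∈ A) (h : y ^ 2 + b * y = c) :
    y ∈ A := by
  by_contra hyA
  have hv : 1 < A.valuation y := not_le.mp (mt (A.valuation_le_one_iff y).mp hyA)
  have hb' := (A.valuation_le_one_iff b).mpr hb
  have hc' := (A.valuation_le_one_iff c).mpr hc
  have h1 : y ^ 2 = c - b * y := by linear_combination h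
  have h2 : A.valuation (y ^ 2) = A.valuation y ^ 2 := map_pow _ _ _
  have h3 : A.valuation (c - b * y) ≤ A.valuation y := by
    refine le_trans (Valuation.map_sub _ _ _) (max_le (le_trans hc' hv.le) ?_)
    rw [map_mul]
    calc A.valuation b * A.valuation y ≤ 1 * A.valuation y := by gcongr
      _ = A.valuation y := one_mul _
  rw [h1] at h2
  rw [h2] at h3
  have h4 : A.valuation y ^ 1 < A.valuation y ^ 2 := pow_lt_pow_right₀ hv (by norm_num)
  rw [pow_one] at h4
  exact absurd h3 (not_le.mpr h4)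

end Val

/-! ## The residue field of a valuation subring of `ℚ̄` over `ℓ` -/

section Res

open IsLocalRing

variable (A : ValuationSubring (AlgebraicClosure ℚ)) {ℓ : ℕ}

theorem ner_natCast_residue_eq_zero (hA : A.LiesOverPrime ℓ) : ((ℓ : ℕ) : ResidueField A) = 0 := by
  have hℓ : (ℓ : AlgebraicClosure ℚ) ∈ A.nonunits := hA
  have h1 : ((ℓ : A) : AlgebraicClosure ℚ) = (ℓ : AlgebraicClosure ℚ) := by simp
  rw [← h1, ValuationSubring.coe_mem_nonunits_iff, ← IsLocalRing.residue_eq_zero_iff,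
    map_natCast] at hℓ
  exact hℓ

theorem ner_charP (hℓ : ℓ.Prime) (hA : A.LiesOverPrime ℓ) : CharP (ResidueField A) ℓ :=
  (CharP.charP_iff_prime_eq_zero hℓ).mpr (ner_natCast_residue_eq_zero A hA)

theorem ner_residue_eq_zero_iff (a : A) :
    residue A a = 0 ↔ A.valuation (a : AlgebraicClosure ℚ) < 1 := by
  rw [IsLocalRing.residue_eq_zero_iff, ← ValuationSubring.coe_mem_nonunits_iff,
    ValuationSubring.mem_nonunits_iff]

theorem ner_val_eq_one_of_residue_ne_zero (a : A) (h : residue A a ≠ 0) :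
    A.valuation (a : AlgebraicClosure ℚ) = 1 := by
  have h1 : A.valuation (a : AlgebraicClosure ℚ) ≤ 1 := (A.valuation_le_one_iff _).mpr a.2
  rcases lt_or_eq_of_le h1 with h2 | h2
  · exact absurd ((ner_residue_eq_zero_iff A a).mpr h2) h
  · exact h2

/-- an integer prime to `ℓ` is a unit of `A` -/
theorem ner_val_intCast_eq_one (hℓ : ℓ.Prime) (hA : A.LiesOverPrime ℓ) (n : ℤ)
    (hn : ¬ (ℓ : ℤ) ∣ n) : A.valuation ((n : ℤ) : AlgebraicClosure ℚ) = 1 := by
  have := ner_charP A hℓ hA
  have h1 : residue A (n : A) ≠ 0 := by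
    rw [map_intCast]
    intro h
    exact hn ((CharP.intCast_eq_zero_iff (ResidueField A) ℓ n).mp h)
  have := ner_val_eq_one_of_residue_ne_zero A (n : A) h1
  simpa using this

/-- evaluation of integer polynomials commutes with the inclusion `A ⊆ ℚ̄` -/
theorem ner_coe_eval₂ (f : ℤ[X]) (a : A) :
    ((f.eval₂ (Int.castRingHom A) a : A) : AlgebraicClosure ℚ)
      = f.eval₂ (Int.castRingHom (AlgebraicClosure ℚ)) (a : AlgebraicClosure ℚ) := by
  have := hom_eval₂ f (Int.castRingHom A) A.subtype a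
  rw [show A.subtype.comp (Int.castRingHom A) = Int.castRingHom (AlgebraicClosure ℚ) from
    RingHom.ext_int _ _] at this
  exact this

/-- evaluation of integer polynomials commutes with the residue map -/
theorem ner_residue_eval₂ (f : ℤ[X]) (a : A) :
    residue A (f.eval₂ (Int.castRingHom A) a)
      = f.eval₂ (Int.castRingHom (ResidueField A)) (residue A a) := by
  have := hom_eval₂ f (Int.castRingHom A) (residue A) a
  rw [show (residue A).comp (Int.castRingHom A) = Int.castRingHom (ResidueField A) from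
    RingHom.ext_int _ _] at this
  exact this

/-- **Lifting roots.** A root in the residue field of an integer polynomial with unit leading
coefficient is the reduction of a root in `A`. -/
theorem ner_exists_lift_root (f : ℤ[X])
    (hlc : A.valuation ((f.leadingCoeff : ℤ) : AlgebraicClosure ℚ) = 1)
    (xbar : ResidueField A) (hx : f.eval₂ (Int.castRingHom (ResidueField A)) xbar = 0) :
    ∃ a : A, f.eval₂ (Int.castRingHom (AlgebraicClosure ℚ)) (a : AlgebraicClosure ℚ) = 0 ∧
      residue A a = xbar := by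
  obtain ⟨xt, rfl⟩ := IsLocalRing.residue_surjective xbar
  set fb : (AlgebraicClosure ℚ)[X] := f.map (Int.castRingHom (AlgebraicClosure ℚ)) with hfb
  have hlc0 : ((f.leadingCoeff : ℤ) : AlgebraicClosure ℚ) ≠ 0 := by
    intro h
    rw [h, _root_.map_zero] at hlc
    exact zero_ne_one hlc
  have hinj : Function.Injective (Int.castRingHom (AlgebraicClosure ℚ)) :=
    RingHom.injective_int _
  have hlcb : fb.leadingCoeff = ((f.leadingCoeff : ℤ) : AlgebraicClosure ℚ) := by
    rw [hfb, leadingCoeff_map_of_injective hinj]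
    rfl
  have hfb0 : fb ≠ 0 := by
    intro h
    rw [h, leadingCoeff_zero] at hlcb
    exact hlc0 hlcb.symm
  have hsplit : fb.Splits := IsAlgClosed.splits fb
  have heq := hsplit.eq_prod_roots
  have hroot : ∀ r ∈ fb.roots, r ∈ A := by
    intro r hr
    have h1 : fb.eval r = 0 := (mem_roots hfb0).mp hr
    rw [hfb, eval_map] at h1
    exact ner_mem_of_eval₂ A f hlc r h1
  -- the value at the lift
  have hval : A.valuation (fb.eval (xt : AlgebraicClosure ℚ)) < 1 := by
    have h1 : fb.eval (xt : AlgebraicClosure ℚ)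
        = ((f.eval₂ (Int.castRingHom A) xt : A) : AlgebraicClosure ℚ) := by
      rw [hfb, eval_map, ner_coe_eval₂]
    rw [h1, ← ner_residue_eq_zero_iff, ner_residue_eval₂]
    exact hx
  by_contra hcon
  have hall : ∀ r ∈ fb.roots, A.valuation ((xt : AlgebraicClosure ℚ) - r) = 1 := by
    intro r hr
    have hrA := hroot r hr
    have h1 : residue A (xt - ⟨r, hrA⟩) ≠ 0 := by
      intro h
      apply hcon
      refine ⟨⟨r, hrA⟩, ?_, ?_⟩
      · have h2 : fb.eval r = 0 := (mem_roots hfb0).mp hr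
        rw [hfb, eval_map] at h2
        exact h2
      · rw [map_sub, sub_eq_zero] at h
        exact h.symm
    have := ner_val_eq_one_of_residue_ne_zero A _ h1
    simpa using this
  have hprod : A.valuation (fb.eval (xt : AlgebraicClosure ℚ)) = 1 := by
    conv_lhs => rw [heq]
    rw [eval_mul, eval_C, eval_multiset_prod, map_mul, hlcb, hlc, one_mul, map_multiset_prod,
      Multiset.map_map, Multiset.map_map]
    apply Multiset.prod_eq_one
    intro g hg
    obtain ⟨r, hr, rfl⟩ := Multiset.mem_map.mp hg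
    simp only [Function.comp_apply, eval_sub, eval_X, eval_C]
    exact hall r hr
  rw [hprod] at hval
  exact lt_irrefl _ hval

/-- **Lifting the `y`-coordinate.** -/
theorem ner_exists_lift_y (W : WeierstrassCurve ℤ) (a : A) (ybar : ResidueField A)
    (h : (W.map (Int.castRingHom (ResidueField A))).toAffine.Equation (residue A a) ybar) :
    ∃ y : A, (W.map (Int.castRingHom (AlgebraicClosure ℚ))).toAffine.Equation
        (a : AlgebraicClosure ℚ) (y : AlgebraicClosure ℚ) ∧ residue A y = ybar := by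
  obtain ⟨b, hb⟩ := Fermat.Agent.DivPoly.exists_equation_of_x
    (W.map (Int.castRingHom (AlgebraicClosure ℚ))).toAffine (a : AlgebraicClosure ℚ)
  rw [equation_iff] at hb h
  simp only [map_a₁, map_a₂, map_a₃, map_a₄, map_a₆, eq_intCast] at hb h
  have ha₁ : ((W.a₁ : ℤ) : AlgebraicClosure ℚ) ∈ A := intCast_mem A _
  have ha₂ : ((W.a₂ : ℤ) : AlgebraicClosure ℚ) ∈ A := intCast_mem A _
  have ha₃ : ((W.a₃ : ℤ) : AlgebraicClosure ℚ) ∈ A := intCast_mem A _
  have ha₄ : ((W.a₄ : ℤ) : AlgebraicClosure ℚ) ∈ A := intCast_mem A _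
  have ha₆ : ((W.a₆ : ℤ) : AlgebraicClosure ℚ) ∈ A := intCast_mem A _
  have hbA : b ∈ A := by
    refine ner_mem_of_quadratic A (b := (W.a₁ : AlgebraicClosure ℚ) * a + W.a₃)
      (c := (a : AlgebraicClosure ℚ) ^ 3 + W.a₂ * (a : AlgebraicClosure ℚ) ^ 2 + W.a₄ * a + W.a₆)
      ?_ ?_ ?_
    · exact A.add_mem _ _ (A.mul_mem _ _ ha₁ a.2) ha₃
    · exact A.add_mem _ _ (A.add_mem _ _ (A.add_mem _ _ (pow_mem a.2 3)
        (A.mul_mem _ _ ha₂ (pow_mem a.2 2))) (A.mul_mem _ _ ha₄ a.2)) ha₆
    · linear_combination hb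
  set bA : A := ⟨b, hbA⟩ with hbAdef
  have eqA : bA ^ 2 + (W.a₁ : A) * a * bA + (W.a₃ : A) * bA
      = a ^ 3 + (W.a₂ : A) * a ^ 2 + (W.a₄ : A) * a + (W.a₆ : A) := by
    apply Subtype.ext
    push_cast
    exact hb
  have eqk := congrArg (residue A) eqA
  simp only [map_add, map_mul, map_pow, map_intCast] at eqk
  have key : (ybar - residue A bA) * (ybar - residue A (-bA - (W.a₁ : A) * a - (W.a₃ : A))) = 0 := by
    simp only [map_sub, map_neg, map_mul, map_intCast]
    linear_combination h - eqk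
  rcases mul_eq_zero.mp key with h1 | h1
  · refine ⟨bA, ?_, (sub_eq_zero.mp h1).symm⟩
    rw [equation_iff]
    simp only [map_a₁, map_a₂, map_a₃, map_a₄, map_a₆, eq_intCast]
    exact hb
  · refine ⟨-bA - (W.a₁ : A) * a - (W.a₃ : A), ?_, (sub_eq_zero.mp h1).symm⟩
    rw [equation_iff]
    simp only [map_a₁, map_a₂, map_a₃, map_a₄, map_a₆, eq_intCast]
    push_cast
    linear_combination hb

end Res

/-! ## Points of odd order are not of order two -/

section Field

variable {k : Type*} [Field k]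

theorem ner_isElliptic_of_Δ_ne_zero (Wk : WeierstrassCurve k) (h : Wk.Δ ≠ 0) : Wk.IsElliptic :=
  ⟨isUnit_iff_ne_zero.mpr h⟩

/-- a point whose `x`-coordinate is a root of the odd torsion polynomial is not 2-torsion -/
theorem ner_not_two_torsion (Wk : WeierstrassCurve k) [Wk.IsElliptic] (m : ℕ) (hm : 1 ≤ m)
    {x y : k} (h : Wk.toAffine.Equation x y) (hx : (Ladder.torsPoly Wk m).eval x = 0) :
    y ≠ Wk.toAffine.negY x y := by
  classical
  intro hy
  have hns : Wk.toAffine.Nonsingular x y := equation_iff_nonsingular.mp h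
  have hspec : Ladder.AddSubSpec Wk := fun P Q => Ladder.addSubMap_sym2x Wk P Q
  have h1 : (2 * m + 1) • (Point.some x y hns) = 0 :=
    (Ladder.odd_nsmul_eq_zero_iff hspec hns m hm).mpr hx
  have h2 : (Point.some x y hns) + Point.some x y hns = 0 := Point.add_of_Y_eq rfl hy
  have h3 : Point.some x y hns = 0 := by
    have e : (2 * m + 1) • Point.some x y hns
        = m • (Point.some x y hns + Point.some x y hns) + Point.some x y hns := by
      rw [add_smul, one_smul, mul_comm, mul_smul, two_smul]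
    rw [e, h2, smul_zero, zero_add] at h1
    exact h1
  exact Point.some_ne_zero _ h3

end Field

/-! ## A point of order `p` in the residue field -/

section Mod

open IsLocalRing

variable (A : ValuationSubring (AlgebraicClosure ℚ)) {ℓ : ℕ}

theorem ner_Δ_residue_ne_zero (W : WeierstrassCurve ℤ) (hℓ : ℓ.Prime) (hA : A.LiesOverPrime ℓ)
    (hgood : W.IsGoodPrimeFor ℓ) : (W.map (Int.castRingHom (ResidueField A))).Δ ≠ 0 := by
  have := ner_charP A hℓ hA
  rw [map_Δ, eq_intCast]
  intro h
  exact hgood ((CharP.intCast_eq_zero_iff (ResidueField A) ℓ _).mp h)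

theorem ner_exists_point_mod (W : WeierstrassCurve ℤ) {p : ℕ} (hp : p.Prime) (hℓ : ℓ.Prime)
    (hgood : W.IsGoodPrimeFor ℓ) (hA : A.LiesOverPrime ℓ) (m : ℕ) (hm : 1 ≤ m)
    (hpm : p = 2 * m + 1) (hdvd : (p : ℤ) ∣ (ℓ : ℤ) + 1 - W.apOfModel ℓ) :
    ∃ xbar ybar : ResidueField A,
      (W.map (Int.castRingHom (ResidueField A))).toAffine.Equation xbar ybar ∧
      (Ladder.torsPoly W m).eval₂ (Int.castRingHom (ResidueField A)) xbar = 0 ∧
      xbar ^ ℓ = xbar ∧ ybar ^ ℓ = ybar := by
  have : Fact ℓ.Prime := ⟨hℓ⟩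
  have : Fact p.Prime := ⟨hp⟩
  have : CharP (ResidueField A) ℓ := ner_charP A hℓ hA
  set Wl : WeierstrassCurve (ZMod ℓ) := W.map (Int.castRingHom (ZMod ℓ)) with hWl
  have hΔ : Wl.Δ ≠ 0 := by
    rw [hWl, map_Δ, eq_intCast]
    intro h
    exact hgood ((ZMod.intCast_zmod_eq_zero_iff_dvd _ _).mp h)
  have : Wl.IsElliptic := ner_isElliptic_of_Δ_ne_zero Wl hΔ
  have hcard : (ℓ : ℤ) + 1 - W.apOfModel ℓ = (Nat.card Wl.toAffine.Point : ℤ) := by
    have h1 : W.apOfModel ℓ = (Nat.card (ZMod ℓ) : ℤ) + 1 - (Nat.card Wl.toAffine.Point : ℤ) := rfl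
    rw [h1, Nat.card_zmod]
    ring
  rw [hcard] at hdvd
  have hdvd' : p ∣ Nat.card Wl.toAffine.Point := Int.natCast_dvd_natCast.mp hdvd
  obtain ⟨Q, hQ⟩ := exists_prime_addOrderOf_dvd_card' p hdvd'
  have hQ0 : p • Q = 0 := by rw [← hQ]; exact addOrderOf_nsmul_eq_zero Q
  rcases Q with _ | ⟨x0, y0, h0⟩
  · exfalso
    have : addOrderOf (0 : Wl.toAffine.Point) = p := hQ
    rw [addOrderOf_zero] at this
    exact hp.one_lt.ne this
  have hspec : Ladder.AddSubSpec Wl := fun P Q => Ladder.addSubMap_sym2x Wl P Q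
  rw [hpm] at hQ0
  have ht : (Ladder.torsPoly Wl m).eval x0 = 0 :=
    (Ladder.odd_nsmul_eq_zero_iff hspec h0 m hm).mp hQ0
  rw [hWl, Ladder.map_torsPoly, eval_map] at ht
  let ι : ZMod ℓ →+* ResidueField A := ZMod.castHom (dvd_refl ℓ) (ResidueField A)
  have hcomp : ι.comp (Int.castRingHom (ZMod ℓ)) = Int.castRingHom (ResidueField A) :=
    RingHom.ext_int _ _
  refine ⟨ι x0, ι y0, ?_, ?_, ?_, ?_⟩
  · have h1 := Equation.map ι h0.1
    have e : (W.map (Int.castRingHom (ZMod ℓ))).map ι
        = W.map (Int.castRingHom (ResidueField A)) := by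
      rw [WeierstrassCurve.map_map, hcomp]
    change ((W.map (Int.castRingHom (ZMod ℓ))).map ι).toAffine.Equation _ _ at h1
    rw [e] at h1
    exact h1
  · have := hom_eval₂ (Ladder.torsPoly W m) (Int.castRingHom (ZMod ℓ)) ι x0
    rw [ht, hcomp, _root_.map_zero] at this
    exact this.symm
  · rw [← map_pow, ZMod.pow_card]
  · rw [← map_pow, ZMod.pow_card]

/-- the leading coefficient of the torsion polynomial -/
theorem ner_leadingCoeff_torsPoly (W : WeierstrassCurve ℤ) (m : ℕ) (hm : 1 ≤ m) :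
    (Ladder.torsPoly W m).leadingCoeff = -(2 * (m : ℤ) + 1) := by
  refine (Ladder.top_torsPoly W m hm).leadingCoeff_eq ?_
  omega

/-- `x`-coordinates of points of order `p` of `W(ℚ̄)` lie in `A` (`p ≠ ℓ`) -/
theorem ner_torsion_x_mem (W : WeierstrassCurve ℤ) (hℓ : ℓ.Prime) (hA : A.LiesOverPrime ℓ)
    (m : ℕ) (hm : 1 ≤ m) (hmℓ : ¬ (ℓ : ℤ) ∣ 2 * (m : ℤ) + 1) (x : AlgebraicClosure ℚ)
    (hx : (Ladder.torsPoly W m).eval₂ (Int.castRingHom (AlgebraicClosure ℚ)) x = 0) : x ∈ A := by
  refine ner_mem_of_eval₂ A _ ?_ x hx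
  rw [ner_leadingCoeff_torsPoly W m hm]
  apply ner_val_intCast_eq_one A hℓ hA
  rwa [Int.dvd_neg]

/-- **Injectivity of the reduction on `x`-coordinates of `p`-torsion.** -/
theorem ner_x_eq_of_residue_eq (W : WeierstrassCurve ℤ) (hℓ : ℓ.Prime) (hA : A.LiesOverPrime ℓ)
    (hgood : W.IsGoodPrimeFor ℓ) (m : ℕ) (hm : 1 ≤ m) (hmℓ : ¬ (ℓ : ℤ) ∣ 2 * (m : ℤ) + 1)
    {a y a' y' : A}
    (h : (W.map (Int.castRingHom (AlgebraicClosure ℚ))).toAffine.Equation
      (a : AlgebraicClosure ℚ) (y : AlgebraicClosure ℚ))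
    (h' : (W.map (Int.castRingHom (AlgebraicClosure ℚ))).toAffine.Equation
      (a' : AlgebraicClosure ℚ) (y' : AlgebraicClosure ℚ))
    (ht : (Ladder.torsPoly W m).eval₂ (Int.castRingHom (AlgebraicClosure ℚ)) a = 0)
    (ht' : (Ladder.torsPoly W m).eval₂ (Int.castRingHom (AlgebraicClosure ℚ)) a' = 0)
    (hres : residue A a = residue A a') : a = a' := by
  classical
  by_contra hne
  have hne' : (a : AlgebraicClosure ℚ) ≠ a' := fun e => hne (Subtype.ext e)
  set Wb : WeierstrassCurve (AlgebraicClosure ℚ) := W.map (Int.castRingHom (AlgebraicClosure ℚ))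
    with hWb
  have hΔ0 : W.Δ ≠ 0 := by
    intro e
    apply hgood
    rw [e]
    exact dvd_zero _
  have hΔ : Wb.Δ ≠ 0 := by
    rw [hWb, map_Δ, eq_intCast]
    exact_mod_cast hΔ0
  have : Wb.IsElliptic := ner_isElliptic_of_Δ_ne_zero Wb hΔ
  have hspec : Ladder.AddSubSpec Wb := fun P Q => Ladder.addSubMap_sym2x Wb P Q
  have hns : Wb.toAffine.Nonsingular (a : AlgebraicClosure ℚ) y := equation_iff_nonsingular.mp h
  have hns' : Wb.toAffine.Nonsingular (a' : AlgebraicClosure ℚ) y' :=
    equation_iff_nonsingular.mp h'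
  have htp : (Ladder.torsPoly Wb m) = (Ladder.torsPoly W m).map (Int.castRingHom _) := by
    rw [hWb, Ladder.map_torsPoly]
  have hP : (2 * m + 1) • (Point.some _ _ hns) = 0 := by
    rw [Ladder.odd_nsmul_eq_zero_iff hspec hns m hm, htp, eval_map]
    exact ht
  have hP' : (2 * m + 1) • (Point.some _ _ hns') = 0 := by
    rw [Ladder.odd_nsmul_eq_zero_iff hspec hns' m hm, htp, eval_map]
    exact ht'
  -- the sum and the difference are affine
  have hadd : (2 * m + 1) • (Point.some _ _ hns + Point.some _ _ hns') = 0 := by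
    rw [nsmul_add, hP, hP', add_zero]
  have hsub : (2 * m + 1) • (Point.some _ _ hns - Point.some _ _ hns') = 0 := by
    rw [nsmul_sub, hP, hP', sub_zero]
  obtain ⟨c, hc, hcs⟩ := Ladder.addSubMap_sym2x Wb (Point.some _ _ hns) (Point.some _ _ hns')
  rcases hRp : Point.some _ _ hns + Point.some _ _ hns' with _ | ⟨xp, yp, hp⟩
  · exfalso
    have e1 : Point.some _ _ hns = -Point.some _ _ hns' := eq_neg_of_add_eq_zero_left hRp
    rw [Point.neg_some] at e1
    injection e1 with e2 e3
    exact hne' e2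
  rcases hRm : Point.some _ _ hns - Point.some _ _ hns' with _ | ⟨xm, ym, hm'⟩
  · exfalso
    have e1 : Point.some _ _ hns = Point.some _ _ hns' := sub_eq_zero.mp hRm
    injection e1 with e2 e3
    exact hne' e2
  rw [hRp] at hadd
  rw [hRm] at hsub
  have hxp : xp ∈ A := by
    apply ner_torsion_x_mem A W hℓ hA m hm hmℓ
    rw [Ladder.odd_nsmul_eq_zero_iff hspec hp m hm, htp, eval_map] at hadd
    exact hadd
  have hxm : xm ∈ A := by
    apply ner_torsion_x_mem A W hℓ hA m hm hmℓ
    rw [Ladder.odd_nsmul_eq_zero_iff hspec hm' m hm, htp, eval_map] at hsub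
    exact hsub
  rw [hRp, hRm, Point.sym2x_some_some, Point.sym2x_some_some] at hcs
  have e0 := congrFun hcs 0
  have e1 := congrFun hcs 1
  have e2 := congrFun hcs 2
  simp only [Ladder.eval_addSubMap_zero, Ladder.eval_addSubMap_one, Ladder.eval_addSubMap_two,
    Matrix.cons_val_zero, Matrix.cons_val_one, Matrix.cons_val, Pi.smul_apply, smul_eq_mul,
    hWb, map_b₂, map_b₄, map_b₆, map_b₈, eq_intCast] at e0 e1 e2
  -- move to `A`
  have E0 : (a * a') ^ 2 - (W.b₄ : A) * (a * a') - (W.b₆ : A) * (a + a') - (W.b₈ : A)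
      = (a - a') ^ 2 * ((⟨xp, hxp⟩ : A) * ⟨xm, hxm⟩) := by
    apply Subtype.ext
    push_cast
    linear_combination e0 - (xp * xm) * e2
  have E1 : (a + a') * (a * a') + (a + a') * (a * a') + (W.b₂ : A) * (a * a')
      + (W.b₄ : A) * (a + a') + (W.b₆ : A)
      = (a - a') ^ 2 * ((⟨xp, hxp⟩ : A) + ⟨xm, hxm⟩) := by
    apply Subtype.ext
    push_cast
    linear_combination e1 - (xp + xm) * e2
  have K0 := congrArg (residue A) E0
  have K1 := congrArg (residue A) E1
  simp only [map_sub, map_add, map_mul, map_pow, map_intCast, ← hres, sub_self,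
    ne_eq, OfNat.ofNat_ne_zero, not_false_eq_true, zero_pow, zero_mul] at K0 K1
  -- contradiction with the non-vanishing of `addSubMap` over the residue field
  set Wk : WeierstrassCurve (ResidueField A) := W.map (Int.castRingHom (ResidueField A)) with hWk
  have : Wk.IsElliptic := ner_isElliptic_of_Δ_ne_zero Wk (ner_Δ_residue_ne_zero A W hℓ hA hgood)
  have hv : (![residue A a * residue A a, residue A a + residue A a, 1] : Fin 3 → ResidueField A)
      ≠ 0 := by
    intro e
    have := congrFun e 2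
    simp at this
  apply WeierstrassCurve.addSubMap_ne_zero Wk hv
  funext i
  fin_cases i
  · simp only [Fin.zero_eta, Ladder.eval_addSubMap_zero, Matrix.cons_val_zero, Matrix.cons_val_one,
      Matrix.cons_val, Pi.zero_apply, hWk, map_b₄, map_b₆, map_b₈, eq_intCast]
    linear_combination K0
  · simp only [Fin.mk_one, Ladder.eval_addSubMap_one, Matrix.cons_val_zero, Matrix.cons_val_one,
      Matrix.cons_val, Pi.zero_apply, hWk, map_b₂, map_b₄, map_b₆, eq_intCast]
    linear_combination K1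
  · simp only [Fin.reduceFinMk, Ladder.eval_addSubMap_two, Matrix.cons_val_zero,
      Matrix.cons_val_one, Matrix.cons_val, Pi.zero_apply]
    ring

/-- the curve `W_ℚ ⁄ ℚ̄` is `W` mapped to `ℚ̄` -/
theorem ner_baseChange_eq (W : WeierstrassCurve ℤ) :
    (W.map (Int.castRingHom ℚ)).baseChange (AlgebraicClosure ℚ)
      = W.map (Int.castRingHom (AlgebraicClosure ℚ)) := by
  rw [WeierstrassCurve.baseChange, WeierstrassCurve.map_map]
  congr 1

/-- **C-RED: fixed points of Frobenius.**  `W` integral, good at `ℓ ≠ p`, `p` odd: if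
`p ∣ #W(𝔽_ℓ)` then every Frobenius element at `ℓ` fixes a nonzero point of `W_ℚ[p](ℚ̄)`. -/
theorem ne_exists_fixed_of_dvd (W : WeierstrassCurve ℤ) {p ℓ : ℕ} (hp : p.Prime) (hp2 : p ≠ 2)
    (hℓ : ℓ.Prime) (hℓp : ℓ ≠ p) (hgood : W.IsGoodPrimeFor ℓ)
    (A : ValuationSubring (AlgebraicClosure ℚ)) (hA : A.LiesOverPrime ℓ)
    (τ : AlgebraicClosure ℚ ≃ₐ[ℚ] AlgebraicClosure ℚ) (hτ : A.IsFrobeniusAt τ ℓ)
    (hdvd : (p : ℤ) ∣ (ℓ : ℤ) + 1 - W.apOfModel ℓ) :
    ∃ x : neTors (W.map (Int.castRingHom ℚ)) p, x ≠ 0 ∧ τ • x = x := by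
  obtain ⟨m, hpm⟩ : ∃ m, p = 2 * m + 1 := (hp.eq_two_or_odd'.resolve_left hp2)
  have hm : 1 ≤ m := by
    have := hp.two_le
    omega
  have hmℓ : ¬ (ℓ : ℤ) ∣ 2 * (m : ℤ) + 1 := by
    intro h
    have h1 : (ℓ : ℤ) ∣ (p : ℤ) := by
      rw [hpm]
      push_cast
      exact h
    exact hℓp ((Nat.prime_dvd_prime_iff_eq hℓ hp).mp (Int.natCast_dvd_natCast.mp h1))
  obtain ⟨xbar, ybar, heq, htors, hxℓ, hyℓ⟩ :=
    ner_exists_point_mod A W hp hℓ hgood hA m hm hpm hdvd
  have hlc : A.valuation (((Ladder.torsPoly W m).leadingCoeff : ℤ) : AlgebraicClosure ℚ) = 1 := by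
    rw [ner_leadingCoeff_torsPoly W m hm]
    apply ner_val_intCast_eq_one A hℓ hA
    rwa [Int.dvd_neg]
  obtain ⟨a, ha, hares⟩ := ner_exists_lift_root A _ hlc xbar htors
  obtain ⟨y, hy, hyres⟩ := ner_exists_lift_y A W a ybar (by rw [hares]; exact heq)
  -- the curves
  have hE := ner_baseChange_eq W
  have hΔ0 : W.Δ ≠ 0 := by
    intro e
    apply hgood
    rw [e]
    exact dvd_zero _
  have hΔ : ((W.map (Int.castRingHom ℚ)).baseChange (AlgebraicClosure ℚ)).Δ ≠ 0 := by
    rw [hE, map_Δ, eq_intCast]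
    exact_mod_cast hΔ0
  have hell : ((W.map (Int.castRingHom ℚ)).baseChange (AlgebraicClosure ℚ)).IsElliptic :=
    ner_isElliptic_of_Δ_ne_zero _ hΔ
  have hspec : Ladder.AddSubSpec ((W.map (Int.castRingHom ℚ)).baseChange (AlgebraicClosure ℚ)) :=
    fun P Q => Ladder.addSubMap_sym2x _ P Q
  have htp : Ladder.torsPoly ((W.map (Int.castRingHom ℚ)).baseChange (AlgebraicClosure ℚ)) m
      = (Ladder.torsPoly W m).map (Int.castRingHom _) := by
    rw [hE, Ladder.map_torsPoly]
  have hy' : ((W.map (Int.castRingHom ℚ)).baseChange (AlgebraicClosure ℚ)).toAffine.Equation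
      (a : AlgebraicClosure ℚ) (y : AlgebraicClosure ℚ) := by
    rw [hE]
    exact hy
  have hns : ((W.map (Int.castRingHom ℚ)).baseChange (AlgebraicClosure ℚ)).toAffine.Nonsingular
      (a : AlgebraicClosure ℚ) (y : AlgebraicClosure ℚ) := equation_iff_nonsingular.mp hy'
  have hP : (2 * m + 1) • (Point.some _ _ hns) = 0 := by
    rw [Ladder.odd_nsmul_eq_zero_iff hspec hns m hm, htp, eval_map]
    exact ha
  -- the action of Frobenius
  obtain ⟨hσ, hact⟩ := hτ
  have hra : residue A ((⟨τ, hσ⟩ : A.decompositionSubgroup ℚ) • a) = residue A a := by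
    rw [IsLocalRing.ResidueField.residue_smul, hact, hares, hxℓ]
  have hry : residue A ((⟨τ, hσ⟩ : A.decompositionSubgroup ℚ) • y) = residue A y := by
    rw [IsLocalRing.ResidueField.residue_smul, hact, hyres, hyℓ]
  have hga : ((((⟨τ, hσ⟩ : A.decompositionSubgroup ℚ) • a : A)) : AlgebraicClosure ℚ) = τ a := rfl
  have hgy : ((((⟨τ, hσ⟩ : A.decompositionSubgroup ℚ) • y : A)) : AlgebraicClosure ℚ) = τ y := rfl
  have hcomp : (τ : AlgebraicClosure ℚ →+* AlgebraicClosure ℚ).comp
      (Int.castRingHom (AlgebraicClosure ℚ)) = Int.castRingHom (AlgebraicClosure ℚ) :=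
    RingHom.ext_int _ _
  have hτeq : (W.map (Int.castRingHom (AlgebraicClosure ℚ))).toAffine.Equation (τ a) (τ y) := by
    have h1 := Equation.map (τ : AlgebraicClosure ℚ →+* AlgebraicClosure ℚ) hy
    change ((W.map (Int.castRingHom (AlgebraicClosure ℚ))).map
      (τ : AlgebraicClosure ℚ →+* AlgebraicClosure ℚ)).toAffine.Equation _ _ at h1
    rw [WeierstrassCurve.map_map, hcomp] at h1
    exact h1
  have hτa : (Ladder.torsPoly W m).eval₂ (Int.castRingHom (AlgebraicClosure ℚ)) (τ a) = 0 := by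
    have h1 := hom_eval₂ (Ladder.torsPoly W m) (Int.castRingHom (AlgebraicClosure ℚ))
      (τ : AlgebraicClosure ℚ →+* AlgebraicClosure ℚ) a
    rw [ha, hcomp, _root_.map_zero] at h1
    exact h1.symm
  have hxeq : (⟨τ, hσ⟩ : A.decompositionSubgroup ℚ) • a = a :=
    ner_x_eq_of_residue_eq A W hℓ hA hgood m hm hmℓ
      (a := (⟨τ, hσ⟩ : A.decompositionSubgroup ℚ) • a)
      (y := (⟨τ, hσ⟩ : A.decompositionSubgroup ℚ) • y) (a' := a) (y' := y)
      (by rw [hga, hgy]; exact hτeq) hy (by rw [hga]; exact hτa) ha hra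
  have hτa' : τ a = a := by
    rw [← hga, hxeq]
  -- the `y`-coordinate
  have hτy' : τ y = y := by
    by_contra hne
    rw [hτa'] at hτeq
    rw [equation_iff] at hτeq hy
    simp only [map_a₁, map_a₂, map_a₃, map_a₄, map_a₆, eq_intCast] at hτeq hy
    have hprod : (τ (y : AlgebraicClosure ℚ) - y) * (τ (y : AlgebraicClosure ℚ) + y
        + (W.a₁ : AlgebraicClosure ℚ) * a + W.a₃) = 0 := by
      linear_combination hτeq - hy
    have hsum : τ (y : AlgebraicClosure ℚ) + y + (W.a₁ : AlgebraicClosure ℚ) * a + W.a₃ = 0 := by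
      rcases mul_eq_zero.mp hprod with h1 | h1
      · exact absurd (sub_eq_zero.mp h1) hne
      · exact h1
    have hsumA : (⟨τ, hσ⟩ : A.decompositionSubgroup ℚ) • y + y + (W.a₁ : A) * a + (W.a₃ : A)
        = 0 := by
      apply Subtype.ext
      push_cast
      rw [hgy]
      exact hsum
    have hk := congrArg (residue A) hsumA
    simp only [map_add, map_mul, map_intCast, hry, _root_.map_zero, hyres, hares] at hk
    have hell_k : (W.map (Int.castRingHom (ResidueField A))).IsElliptic :=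
      ner_isElliptic_of_Δ_ne_zero _ (ner_Δ_residue_ne_zero A W hℓ hA hgood)
    refine ner_not_two_torsion (W.map (Int.castRingHom (ResidueField A))) m hm heq ?_ ?_
    · rw [Ladder.map_torsPoly, eval_map]
      exact htors
    · rw [Affine.negY]
      simp only [map_a₁, map_a₃, eq_intCast]
      linear_combination hk
  refine ⟨⟨Point.some _ _ hns, ?_⟩, ?_, ?_⟩
  · rw [Submodule.mem_torsionBy_iff, natCast_zsmul, hpm]
    exact hP
  · intro h0
    have h1 := congrArg Subtype.val h0
    exact Point.some_ne_zero hns h1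
  · apply Subtype.ext
    change Point.map τ.toAlgHom (Point.some _ _ hns) = Point.some _ _ hns
    rw [Point.map_some]
    congr 1

end Mod

end Fermat.Agent.S41lib
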