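/-
S41 (item 78, level raising), block D (helper25): the algebraic core of Ribet's argument.

Abstract setting: abelian groups `L`, `L'` (`L` finitely generated), degeneracy maps
`α₁ α₂ : L → L'`, transfers `β₁ β₂ : L' → L` with Gram matrix `[[q+1, T_q],[T_q, q+1]]`,
families of operators `T i` on `L`, `T' i` on `L'` intertwined by the four maps.
Input: an eigenvector `x` modulo `p` on `L` with `T_q x ≡ ε (q+1) x`, an operator
`r = T i₀ - c₀` with `p ∤ a i₀ - c₀` killing `ker (α mod p)` (Ihara + non-Eisenstein) and with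
`r (L²) ⊆ β (L') + p L²` (duality).  Output: an eigenvector modulo `p` in `ker β₁ ∩ ker β₂`.
-/
import Mathlib

set_option autoImplicit false

namespace Fermat.Agent.S41lib

/-- divisibility by `p` in an abelian group -/
def PDiv {M : Type*} [AddCommGroup M] (p : ℕ) (x : M) : Prop := ∃ y : M, x = (p : ℤ) • y

section basic

variable {M M' : Type*} [AddCommGroup M] [AddCommGroup M'] {p : ℕ}

theorem PDiv.zero : PDiv p (0 : M) := ⟨0, by simp⟩

theorem PDiv.add {x y : M} (hx : PDiv p x) (hy : PDiv p y) : PDiv p (x + y) := by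
  obtain ⟨a, rfl⟩ := hx
  obtain ⟨b, rfl⟩ := hy
  exact ⟨a + b, by rw [smul_add]⟩

theorem PDiv.neg {x : M} (hx : PDiv p x) : PDiv p (-x) := by
  obtain ⟨a, rfl⟩ := hx
  exact ⟨-a, by rw [smul_neg]⟩

theorem PDiv.sub {x y : M} (hx : PDiv p x) (hy : PDiv p y) : PDiv p (x - y) := by
  rw [sub_eq_add_neg]
  exact hx.add hy.neg

theorem PDiv.zsmul {x : M} (hx : PDiv p x) (n : ℤ) : PDiv p (n • x) := by
  obtain ⟨a, rfl⟩ := hx
  exact ⟨n • a, by rw [smul_comm]⟩

theorem PDiv.smul_self (x : M) : PDiv p ((p : ℤ) • x) := ⟨x, rfl⟩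

theorem PDiv.map (f : M →+ M') {x : M} (hx : PDiv p x) : PDiv p (f x) := by
  obtain ⟨a, rfl⟩ := hx
  exact ⟨f a, by rw [map_zsmul]⟩

/-- cancellation of a scalar prime to `p` -/
theorem PDiv.of_zsmul (hp : p.Prime) {a : ℤ} (ha : ¬ (p : ℤ) ∣ a) {x : M}
    (h : PDiv p (a • x)) : PDiv p x := by
  have hcop : IsCoprime a (p : ℤ) := by
    have hpp : Prime (p : ℤ) := Nat.prime_iff_prime_int.mp hp
    exact (hpp.coprime_iff_not_dvd.mpr ha).symm
  obtain ⟨u, v, huv⟩ := hcop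
  have hx : x = u • (a • x) + (p : ℤ) • (v • x) := by
    rw [smul_smul, smul_smul, ← add_smul, mul_comm (p : ℤ) v, huv, one_smul]
  rw [hx]
  exact (h.zsmul u).add (PDiv.smul_self _)

theorem PDiv.of_pow_zsmul (hp : p.Prime) {a : ℤ} (ha : ¬ (p : ℤ) ∣ a) (k : ℕ) {x : M}
    (h : PDiv p (a ^ k • x)) : PDiv p x := by
  refine PDiv.of_zsmul hp (a := a ^ k) ?_ h
  intro hdvd
  exact ha ((Nat.prime_iff_prime_int.mp hp).dvd_of_dvd_pow hdvd)

/-- congruence modulo `p` -/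
theorem PDiv.congr {x y : M} (hxy : PDiv p (x - y)) (hy : PDiv p y) : PDiv p x := by
  have : x = (x - y) + y := by abel
  rw [this]
  exact hxy.add hy

end basic

section stab

/-- In a noetherian `ℤ`-module `P` with a submodule `B` stable under an endomorphism `r` such
that `r P ⊆ B + p P`: if `p w ∈ B` then `r ^ m w ∈ B` for some `m`. -/
theorem ac_exists_pow_mem {P : Type*} [AddCommGroup P] [Module.Finite ℤ P]
    (p : ℕ) (B : AddSubgroup P) (r : P →+ P) (hrB : ∀ b ∈ B, r b ∈ B)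
    (hr : ∀ w : P, ∃ b ∈ B, ∃ y : P, r w = b + (p : ℤ) • y)
    (w : P) (hw : (p : ℤ) • w ∈ B) : ∃ m : ℕ, (⇑r)^[m] w ∈ B := by
  classical
  -- the ascending chain `N n = {v | p ^ n v ∈ B}`
  let Bs : Submodule ℤ P := AddSubgroup.toIntSubmodule B
  let Nn : ℕ → Submodule ℤ P := fun n =>
    Bs.comap ((p : ℤ) ^ n • (LinearMap.id : P →ₗ[ℤ] P))
  have hNn : ∀ n v, v ∈ Nn n ↔ ((p : ℤ) ^ n) • v ∈ B := fun n v => Iff.rfl
  have hmono : Monotone Nn := by
    refine monotone_nat_of_le_succ fun n v hv => ?_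
    rw [hNn] at hv ⊢
    rw [pow_succ, mul_comm, mul_smul]
    exact B.zsmul_mem hv _
  have hnoeth : IsNoetherian ℤ P := isNoetherian_of_isNoetherianRing_of_finite ℤ P
  obtain ⟨m, hm⟩ := monotone_stabilizes_iff_noetherian.mpr hnoeth ⟨Nn, hmono⟩
  have hm' : Nn m = Nn (m + 1) := hm (m + 1) (Nat.le_succ m)
  -- `r ^ j P ⊆ B + p ^ j P`
  have hpowB : ∀ j : ℕ, ∀ b ∈ B, (⇑r)^[j] b ∈ B := by
    intro j
    induction j with
    | zero => intro b hb; simpa using hb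
    | succ j ih =>
      intro b hb
      rw [Function.iterate_succ_apply]
      exact ih _ (hrB b hb)
  have hpowsmul : ∀ (j : ℕ) (n : ℤ) (v : P), (⇑r)^[j] (n • v) = n • (⇑r)^[j] v := by
    intro j
    induction j with
    | zero => intro n v; rfl
    | succ j ih =>
      intro n v
      rw [Function.iterate_succ_apply, Function.iterate_succ_apply, map_zsmul, ih]
  have hpow : ∀ j : ℕ, ∀ v : P, ∃ b ∈ B, ∃ y : P, (⇑r)^[j] v = b + ((p : ℤ) ^ j) • y := by
    intro j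
    induction j with
    | zero => intro v; exact ⟨0, B.zero_mem, v, by simp⟩
    | succ j ih =>
      intro v
      obtain ⟨b, hb, y, hy⟩ := ih v
      obtain ⟨b', hb', y', hy'⟩ := hr y
      refine ⟨r b + ((p : ℤ) ^ j) • b', B.add_mem (hrB b hb) (B.zsmul_mem hb' _), y', ?_⟩
      rw [Function.iterate_succ_apply', hy, map_add, map_zsmul, hy', smul_add, smul_smul,
        ← pow_succ, add_assoc]
  refine ⟨m, ?_⟩
  obtain ⟨b, hb, y, hy⟩ := hpow m w
  have h1 : y ∈ Nn (m + 1) := by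
    rw [hNn]
    have h2 : ((p : ℤ) ^ (m + 1)) • y = (⇑r)^[m] ((p : ℤ) • w) - (p : ℤ) • b := by
      rw [hpowsmul, hy, smul_add, pow_succ', mul_smul]
      abel
    rw [h2]
    exact B.sub_mem (hpowB m _ hw) (B.zsmul_mem hb _)
  have h3 : y ∈ Nn m := by
    rw [hm']
    exact h1
  rw [hNn] at h3
  rw [hy]
  exact B.add_mem hb h3

end stab

section core

variable {L L' : Type*} [AddCommGroup L] [AddCommGroup L']

/-- `(T - c)^k z ≡ (a - c)^k z` modulo `p` if `T z ≡ a z` -/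
theorem ac_pow_congr (p : ℕ) (T : L' →+ L') (a c : ℤ) (z : L')
    (hz : PDiv p (T z - a • z)) (k : ℕ) :
    PDiv p ((⇑(T - c • (AddMonoidHom.id L')))^[k] z - (a - c) ^ k • z) := by
  induction k with
  | zero => simpa using PDiv.zero
  | succ k ih =>
    set r := T - c • (AddMonoidHom.id L') with hr
    have h2 : r z = T z - c • z := by
      simp [hr]
    have h1 : (⇑r)^[k + 1] z - (a - c) ^ (k + 1) • z
        = r ((⇑r)^[k] z - (a - c) ^ k • z) + (a - c) ^ k • (T z - a • z) := by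
      rw [Function.iterate_succ_apply', map_sub, map_zsmul, h2, pow_succ, mul_smul, sub_smul]
      simp only [smul_sub]
      abel
    rw [h1]
    exact (ih.map r).add (hz.zsmul _)

/-- **The algebraic core of level raising.** -/
theorem algCore (p : ℕ) (hp : p.Prime) [Module.Finite ℤ L]
    (α₁ α₂ : L →+ L') (β₁ β₂ : L' →+ L) (Tq : L →+ L) (q ε : ℤ) (hε : ε * ε = 1)
    (hG11 : ∀ x, β₁ (α₁ x) = (q + 1) • x) (hG22 : ∀ x, β₂ (α₂ x) = (q + 1) • x)
    (hG21 : ∀ x, β₂ (α₁ x) = Tq x) (hG12 : ∀ x, β₁ (α₂ x) = Tq x)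
    {ι : Type*} (T : ι → (L →+ L)) (T' : ι → (L' →+ L'))
    (hα₁ : ∀ i x, α₁ (T i x) = T' i (α₁ x)) (hα₂ : ∀ i x, α₂ (T i x) = T' i (α₂ x))
    (hβ₁ : ∀ i z, β₁ (T' i z) = T i (β₁ z)) (hβ₂ : ∀ i z, β₂ (T' i z) = T i (β₂ z))
    (a : ι → ℤ) (x : L) (hx : ¬ PDiv p x)
    (hTx : ∀ i, PDiv p (T i x - a i • x))
    (hTqx : PDiv p (Tq x - (ε * (q + 1)) • x))
    (i₀ : ι) (c₀ : ℤ) (hc₀ : ¬ (p : ℤ) ∣ a i₀ - c₀)
    (hA : ∀ u₁ u₂ : L, PDiv p (α₁ u₁ + α₂ u₂) →
      PDiv p (T i₀ u₁ - c₀ • u₁) ∧ PDiv p (T i₀ u₂ - c₀ • u₂))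
    (hB : ∀ w₁ w₂ : L, ∃ (u : L') (y₁ y₂ : L),
      T i₀ w₁ - c₀ • w₁ = β₁ u + (p : ℤ) • y₁ ∧ T i₀ w₂ - c₀ • w₂ = β₂ u + (p : ℤ) • y₂) :
    ∃ z : L', β₁ z = 0 ∧ β₂ z = 0 ∧ ¬ PDiv p z ∧ ∀ i, PDiv p (T' i z - a i • z) := by
  classical
  -- the old vector
  set z' : L' := α₁ x - ε • α₂ x with hz'
  have hz'T : ∀ i, PDiv p (T' i z' - a i • z') := by
    intro i
    have h1 : T' i z' - a i • z' = α₁ (T i x - a i • x) - ε • α₂ (T i x - a i • x) := by
      rw [hz', map_sub, map_sub, map_sub, map_zsmul, map_zsmul, map_zsmul, hα₁, hα₂]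
      simp only [smul_sub]
      rw [smul_comm ε (a i)]
      abel
    rw [h1]
    exact ((hTx i).map α₁).sub (((hTx i).map α₂).zsmul ε)
  have hβ₁z' : PDiv p (β₁ z') := by
    have h1 : β₁ z' = -(ε • (Tq x - (ε * (q + 1)) • x)) := by
      rw [hz', map_sub, map_zsmul, hG11, hG12, smul_sub, smul_smul, ← mul_assoc, hε, one_mul]
      abel
    rw [h1]
    exact (hTqx.zsmul ε).neg
  have hβ₂z' : PDiv p (β₂ z') := by
    have h1 : β₂ z' = Tq x - (ε * (q + 1)) • x := by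
      rw [hz', map_sub, map_zsmul, hG21, hG22, smul_smul]
    rw [h1]
    exact hTqx
  have hz'p : ¬ PDiv p z' := by
    intro h
    have h1 : PDiv p (α₁ x + α₂ (-(ε • x))) := by
      have : α₁ x + α₂ (-(ε • x)) = z' := by
        rw [hz', map_neg, map_zsmul]
        abel
      rw [this]
      exact h
    have h2 := (hA x (-(ε • x)) h1).1
    have h3 : PDiv p ((a i₀ - c₀) • x) := by
      have : (a i₀ - c₀) • x = (T i₀ x - c₀ • x) - (T i₀ x - a i₀ • x) := by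
        rw [sub_smul]
        abel
      rw [this]
      exact h2.sub (hTx i₀)
    exact hx (PDiv.of_zsmul hp hc₀ h3)
  -- the correction
  obtain ⟨w₁, hw₁⟩ := hβ₁z'
  obtain ⟨w₂, hw₂⟩ := hβ₂z'
  set r : L →+ L := T i₀ - c₀ • (AddMonoidHom.id L) with hr
  set r' : L' →+ L' := T' i₀ - c₀ • (AddMonoidHom.id L') with hr'
  have hr_apply : ∀ v, r v = T i₀ v - c₀ • v := fun v => by simp [hr]
  have hr'_apply : ∀ v, r' v = T' i₀ v - c₀ • v := fun v => by simp [hr']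
  have hβr₁ : ∀ v, β₁ (r' v) = r (β₁ v) := fun v => by
    rw [hr_apply, hr'_apply, map_sub, map_zsmul, hβ₁]
  have hβr₂ : ∀ v, β₂ (r' v) = r (β₂ v) := fun v => by
    rw [hr_apply, hr'_apply, map_sub, map_zsmul, hβ₂]
  let β : L' →+ L × L := β₁.prod β₂
  let rr : L × L →+ L × L := r.prodMap r
  let B : AddSubgroup (L × L) := β.range
  have hrrβ : ∀ v, rr (β v) = β (r' v) := fun v => by
    show (r (β₁ v), r (β₂ v)) = (β₁ (r' v), β₂ (r' v))
    rw [hβr₁, hβr₂]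
  have hrrβpow : ∀ (k : ℕ) v, (⇑rr)^[k] (β v) = β ((⇑r')^[k] v) := by
    intro k
    induction k with
    | zero => intro v; rfl
    | succ k ih =>
      intro v
      rw [Function.iterate_succ_apply, hrrβ, ih, Function.iterate_succ_apply]
  have hrrsmul : ∀ (k : ℕ) (n : ℤ) (v : L × L), (⇑rr)^[k] (n • v) = n • (⇑rr)^[k] v := by
    intro k
    induction k with
    | zero => intro n v; rfl
    | succ k ih =>
      intro n v
      rw [Function.iterate_succ_apply, Function.iterate_succ_apply, map_zsmul, ih]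
  have hrB : ∀ b ∈ B, rr b ∈ B := by
    rintro _ ⟨v, rfl⟩
    exact ⟨r' v, (hrrβ v).symm⟩
  have hrP : ∀ w : L × L, ∃ b ∈ B, ∃ y : L × L, rr w = b + (p : ℤ) • y := by
    rintro ⟨v₁, v₂⟩
    obtain ⟨u, y₁, y₂, h1, h2⟩ := hB v₁ v₂
    refine ⟨β u, ⟨u, rfl⟩, (y₁, y₂), ?_⟩
    show (r v₁, r v₂) = (β₁ u, β₂ u) + (p : ℤ) • (y₁, y₂)
    rw [hr_apply, hr_apply, h1, h2]
    rfl
  have hwB : (p : ℤ) • ((w₁, w₂) : L × L) ∈ B := by
    refine ⟨z', ?_⟩
    show (β₁ z', β₂ z') = (p : ℤ) • ((w₁, w₂) : L × L)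
    rw [hw₁, hw₂]
    rfl
  obtain ⟨m, u, hu⟩ := ac_exists_pow_mem p B rr hrB hrP (w₁, w₂) hwB
  -- the new vector
  refine ⟨(⇑r')^[m] z' - (p : ℤ) • u, ?_, ?_, ?_, ?_⟩
  · have h1 : β ((⇑r')^[m] z' - (p : ℤ) • u) = 0 := by
      rw [map_sub, map_zsmul, hu, ← hrrβpow, ← hrrsmul]
      have : β z' = (p : ℤ) • ((w₁, w₂) : L × L) := by
        show (β₁ z', β₂ z') = (p : ℤ) • ((w₁, w₂) : L × L)
        rw [hw₁, hw₂]
        rfl
      rw [this, sub_self]
    exact congrArg Prod.fst h1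
  · have h1 : β ((⇑r')^[m] z' - (p : ℤ) • u) = 0 := by
      rw [map_sub, map_zsmul, hu, ← hrrβpow, ← hrrsmul]
      have : β z' = (p : ℤ) • ((w₁, w₂) : L × L) := by
        show (β₁ z', β₂ z') = (p : ℤ) • ((w₁, w₂) : L × L)
        rw [hw₁, hw₂]
        rfl
      rw [this, sub_self]
    exact congrArg Prod.snd h1
  · intro h
    have h1 : PDiv p ((⇑r')^[m] z') := by
      have : (⇑r')^[m] z' = ((⇑r')^[m] z' - (p : ℤ) • u) + (p : ℤ) • u := by abel
      rw [this]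
      exact h.add (PDiv.smul_self _)
    have h2 := ac_pow_congr p (T' i₀) (a i₀) c₀ z' (hz'T i₀) m
    have h3 : PDiv p ((a i₀ - c₀) ^ m • z') := by
      have : (a i₀ - c₀) ^ m • z'
          = (⇑r')^[m] z' - ((⇑r')^[m] z' - (a i₀ - c₀) ^ m • z') := by abel
      rw [this]
      exact h1.sub h2
    exact hz'p (PDiv.of_pow_zsmul hp hc₀ m h3)
  · intro i
    have h2 := ac_pow_congr p (T' i₀) (a i₀) c₀ z' (hz'T i₀) m
    -- modulo `p`: `z ≡ (a - c)^m z'`
    set s : ℤ := (a i₀ - c₀) ^ m with hs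
    set z₁ := (⇑r')^[m] z' with hz₁
    have h4 : T' i (z₁ - (p : ℤ) • u) - a i • (z₁ - (p : ℤ) • u)
        = T' i (z₁ - s • z') - a i • (z₁ - s • z') + s • (T' i z' - a i • z')
          - (p : ℤ) • (T' i u - a i • u) := by
      simp only [map_sub, map_zsmul, smul_sub]
      rw [smul_comm (a i) s z', smul_comm (a i) (p : ℤ) u]
      abel
    rw [h4]
    exact (((h2.map (T' i)).sub (h2.zsmul _)).add ((hz'T i).zsmul s)).sub (PDiv.smul_self _)

end core

end Fermat.Agent.S41lib
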