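/-
Item 78 (S41), block D, piece DSp (helper21): the Deligne–Serre lifting lemma for a prime `p`,
for a finitely generated lattice `M` which need not span (the eigenvector lies in `span ℂ M`).
Generalisation of `Fermat/Agent/S49_DeligneSerre.lean` (`3 ↦ p`, no spanning hypothesis).
No sorry.
-/
import Mathlib
import Fermat.Agent.S49_DeligneSerre

set_option autoImplicit false

namespace Fermat.Agent.S41lib

open Module Fermat.Agent.S49lib

/-- An eigenvalue, on an eigenvector in `span ℂ M`, of an endomorphism preserving the finitely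
generated lattice `M` is an algebraic integer. -/
theorem dsp_isIntegral_of_eigen {V : Type*} [AddCommGroup V] [Module ℂ V]
    (M : Submodule ℤ V) (hfg : M.FG) (t : Module.End ℂ V) (hstab : ∀ m ∈ M, t m ∈ M)
    (g : V) (hgM : g ∈ Submodule.span ℂ (M : Set V)) (hg : g ≠ 0) (c : ℂ) (hc : t g = c • g) :
    IsIntegral ℤ c := by
  have : Module.Finite ℤ M := Module.Finite.iff_fg.2 hfg
  obtain ⟨P, hP, hP0⟩ := LinearMap.exists_monic_and_aeval_eq_zero ℤ (latticeRestrict M t hstab)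
  refine ⟨P, hP, ?_⟩
  have hM0 : ∀ m ∈ M, (Polynomial.aeval t P) m = 0 := by
    intro m hm
    have h := latticeRestrict_aeval_apply M t hstab P ⟨m, hm⟩
    rw [hP0] at h
    simpa using h.symm
  have hspan0 : ∀ v ∈ Submodule.span ℂ (M : Set V), (Polynomial.aeval t P) v = 0 := by
    intro v hv
    induction hv using Submodule.span_induction with
    | mem x hx => exact hM0 x hx
    | zero => exact map_zero _
    | add x y _ _ hx hy => rw [map_add, hx, hy, add_zero]
    | smul a x _ hx => rw [map_smul, hx, smul_zero]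
  have hev : t.HasEigenvector c g := ⟨Module.End.mem_eigenspace_iff.2 hc, hg⟩
  have h1 := Module.End.aeval_apply_of_hasEigenvector (p := P.map (algebraMap ℤ ℂ)) hev
  rw [Polynomial.aeval_map_algebraMap, hspan0 g hgM] at h1
  have h2 : Polynomial.eval c (P.map (algebraMap ℤ ℂ)) = 0 := by
    rcases smul_eq_zero.1 h1.symm with h | h
    · exact h
    · exact absurd h hg
  rwa [Polynomial.eval_map] at h2

/-- Abstract Deligne–Serre lifting lemma for a prime `p`, ring form. -/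
theorem dsp_ring (p : ℕ) (hp : p.Prime)
    {V : Type*} [AddCommGroup V] [Module ℂ V] [FiniteDimensional ℂ V]
    {R : Type*} [CommRing R] (ρ : R →+* Module.End ℂ V)
    (M : Submodule ℤ V) (hfg : M.FG)
    (hstab : ∀ r, ∀ m ∈ M, ρ r m ∈ M)
    (f : V) (hfM : f ∈ M) (hfp : ∀ g ∈ M, f ≠ (p : ℤ) • g)
    (hc : ∀ r, ∃ c : ℤ, ∃ g ∈ M, ρ r f - c • f = (p : ℤ) • g) :
    ∃ (g : V) (χ : R →+* integralClosure ℤ ℂ) (𝔪' : Ideal (integralClosure ℤ ℂ)),
      g ∈ Submodule.span ℂ (M : Set V) ∧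
      g ≠ 0 ∧ 𝔪'.IsMaximal ∧ ((p : ℕ) : integralClosure ℤ ℂ) ∈ 𝔪' ∧
      (∀ r, ρ r g = ((χ r : integralClosure ℤ ℂ) : ℂ) • g) ∧
      ∀ r (c : ℤ), (∃ g ∈ M, ρ r f - c • f = (p : ℤ) • g) →
        χ r - (c : integralClosure ℤ ℂ) ∈ 𝔪' := by
  classical
  -- the maximal ideal
  let 𝔪 : Ideal R :=
    { carrier := {r | ∃ g ∈ M, ρ r f = (p : ℤ) • g}
      zero_mem' := ⟨0, M.zero_mem, by simp⟩
      add_mem' := by
        rintro a b ⟨ga, hga, ha⟩ ⟨gb, hgb, hb⟩
        exact ⟨ga + gb, M.add_mem hga hgb, by simp [map_add, ha, hb, smul_add]⟩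
      smul_mem' := by
        rintro s r ⟨g, hg, hr⟩
        refine ⟨ρ s g, hstab s g hg, ?_⟩
        rw [smul_eq_mul, map_mul, Module.End.mul_apply, hr, map_zsmul] }
  have hmem : ∀ r, r ∈ 𝔪 ↔ ∃ g ∈ M, ρ r f = (p : ℤ) • g := fun r => Iff.rfl
  have hcast : ∀ (c : ℤ) (v : V), ρ (c : R) v = c • v := by
    intro c v
    rw [map_intCast]
    simp
  have h1 : (1 : R) ∉ 𝔪 := by
    rintro ⟨g, hg, h⟩
    rw [map_one, Module.End.one_apply] at h
    exact hfp g hg h
  have hmax : 𝔪.IsMaximal := by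
    rw [Ideal.isMaximal_iff]
    refine ⟨h1, ?_⟩
    intro J x hJ hx hxJ
    obtain ⟨c, g, hg, hcx⟩ := hc x
    have hcp : ¬ (p : ℤ) ∣ c := by
      rintro ⟨k, rfl⟩
      apply hx
      refine ⟨k • f + g, M.add_mem (M.smul_mem k hfM) hg, ?_⟩
      rw [sub_eq_iff_eq_add] at hcx
      rw [hcx, smul_add, smul_smul]
      abel
    have hcop : IsCoprime c (p : ℤ) := by
      have hpz : Prime (p : ℤ) := Nat.prime_iff_prime_int.mp hp
      exact ((hpz.coprime_iff_not_dvd).2 hcp).symm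
    obtain ⟨c', k, hck⟩ := hcop
    have hkey : (1 : R) - (c' : R) * x ∈ 𝔪 := by
      refine ⟨k • f - c' • g, M.sub_mem (M.smul_mem k hfM) (M.smul_mem c' hg), ?_⟩
      rw [map_sub, map_one, map_mul, LinearMap.sub_apply, Module.End.one_apply,
        Module.End.mul_apply, hcast]
      rw [sub_eq_iff_eq_add] at hcx
      rw [hcx]
      have e1 : f = (c' * c + k * (p : ℤ)) • f := by rw [hck, one_smul]
      calc f - c' • ((p : ℤ) • g + c • f)
          = (c' * c + k * (p : ℤ)) • f - c' • ((p : ℤ) • g + c • f) := by rw [← e1]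
        _ = (p : ℤ) • (k • f - c' • g) := by module
    have : (1 : R) = ((1 : R) - (c' : R) * x) + (c' : R) * x := by ring
    rw [this]
    exact J.add_mem (hJ hkey) (J.mul_mem_left _ hxJ)
  have hprime : 𝔪.IsPrime := hmax.isPrime
  -- the span of the lattice
  let V' : Submodule ℂ V := Submodule.span ℂ (M : Set V)
  have hV'stab : ∀ r, ∀ v ∈ V', ρ r v ∈ V' := by
    intro r v hv
    induction hv using Submodule.span_induction with
    | mem x hx => exact Submodule.subset_span (hstab r x hx)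
    | zero => rw [map_zero]; exact V'.zero_mem
    | add x y _ _ hx hy => rw [map_add]; exact V'.add_mem hx hy
    | smul a x _ hx => rw [map_smul]; exact V'.smul_mem a hx
  -- choose `s₀ ∉ 𝔪` of minimal rank on `V'`
  let P : ℕ → Prop := fun n => ∃ s : R, s ∉ 𝔪 ∧ finrank ℂ (V'.map (ρ s)) = n
  have hP : ∃ n, P n := ⟨_, 1, h1, rfl⟩
  obtain ⟨s₀, hs₀, hrk⟩ := Nat.find_spec hP
  have hmin : ∀ s, s ∉ 𝔪 → Nat.find hP ≤ finrank ℂ (V'.map (ρ s)) :=
    fun s hs => Nat.find_min' hP ⟨s, hs, rfl⟩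
  let W : Submodule ℂ V := V'.map (ρ s₀)
  have hcommρ : ∀ a b : R, ∀ v : V, ρ a (ρ b v) = ρ b (ρ a v) := by
    intro a b v
    rw [← Module.End.mul_apply, ← Module.End.mul_apply, ← map_mul, ← map_mul, mul_comm]
  have hWstab : ∀ r, ∀ w ∈ W, ρ r w ∈ W := by
    rintro r w ⟨v, hv, rfl⟩
    exact ⟨ρ r v, hV'stab r v hv, hcommρ _ _ _⟩
  have hWV' : W ≤ V' := by
    rintro w ⟨v, hv, rfl⟩
    exact hV'stab s₀ v hv
  have hWne : W ≠ ⊥ := by
    intro h
    have hf0 : ρ s₀ f ∈ W := ⟨f, Submodule.subset_span hfM, rfl⟩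
    rw [h, Submodule.mem_bot] at hf0
    exact hs₀ ⟨0, M.zero_mem, by rw [hf0, smul_zero]⟩
  have hinj : ∀ s, s ∉ 𝔪 → ∀ w ∈ W, ρ s w = 0 → w = 0 := by
    intro s hs w hw hsw
    have hss : s * s₀ ∉ 𝔪 := fun h => (hprime.mem_or_mem h).elim hs hs₀
    have hle : V'.map (ρ (s * s₀)) ≤ W := by
      rintro _ ⟨v, hv, rfl⟩
      rw [map_mul, Module.End.mul_apply]
      exact hWstab s _ ⟨v, hv, rfl⟩
    have heq : V'.map (ρ (s * s₀)) = W := by
      apply Submodule.eq_of_le_of_finrank_le hle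
      have := hmin _ hss
      rw [← hrk] at this
      exact this
    have hsurj : Function.Surjective ((ρ s).restrict (hWstab s)) := by
      rintro ⟨y, hy⟩
      have hy' : y ∈ V'.map (ρ (s * s₀)) := by rw [heq]; exact hy
      obtain ⟨v, hvV', hv⟩ := hy'
      refine ⟨⟨ρ s₀ v, ⟨v, hvV', rfl⟩⟩, ?_⟩
      apply Subtype.ext
      show ρ s (ρ s₀ v) = y
      rw [← hv, map_mul, Module.End.mul_apply]
    have hinj' : Function.Injective ((ρ s).restrict (hWstab s)) :=
      LinearMap.injective_iff_surjective.2 hsurj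
    have h0 : (ρ s).restrict (hWstab s) ⟨w, hw⟩ = (ρ s).restrict (hWstab s) 0 := by
      apply Subtype.ext
      rw [map_zero]
      exact hsw
    have := hinj' h0
    exact congrArg Subtype.val this
  -- common eigenvector in `W`
  obtain ⟨g, χ₀, hgW, hg0, hg⟩ := exists_common_eigenvector_in (fun r : R => ρ r)
    (fun a b => by
      show ρ a * ρ b = ρ b * ρ a
      rw [← map_mul, ← map_mul, mul_comm]) W hWne hWstab
  have hsinj : Function.Injective (fun c : ℂ => c • g) := smul_left_injective ℂ hg0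
  let χ₁ : R →+* ℂ :=
    { toFun := χ₀
      map_one' := by
        apply hsinj
        show χ₀ 1 • g = (1 : ℂ) • g
        rw [← hg, map_one, Module.End.one_apply, one_smul]
      map_mul' := by
        intro a b
        apply hsinj
        show χ₀ (a * b) • g = (χ₀ a * χ₀ b) • g
        rw [← hg, map_mul, Module.End.mul_apply, hg b, map_smul, hg a, smul_smul, mul_comm]
      map_zero' := by
        apply hsinj
        show χ₀ 0 • g = (0 : ℂ) • g
        rw [← hg, map_zero, LinearMap.zero_apply, zero_smul]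
      map_add' := by
        intro a b
        apply hsinj
        show χ₀ (a + b) • g = (χ₀ a + χ₀ b) • g
        rw [← hg, map_add, LinearMap.add_apply, hg a, hg b, add_smul] }
  have hχ₁ : ∀ r, χ₁ r = χ₀ r := fun r => rfl
  have hint : ∀ r, χ₁ r ∈ integralClosure ℤ ℂ := fun r =>
    dsp_isIntegral_of_eigen M hfg (ρ r) (hstab r) g (hWV' hgW) hg0 (χ₀ r) (hg r)
  let χ : R →+* integralClosure ℤ ℂ := χ₁.codRestrict (integralClosure ℤ ℂ) hint
  have hχ : ∀ r, ((χ r : integralClosure ℤ ℂ) : ℂ) = χ₀ r := fun r => rfl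
  have hker : RingHom.ker χ ≤ 𝔪 := by
    intro r hr
    by_contra hrm
    have h0 : χ₀ r = 0 := by
      rw [← hχ, (RingHom.mem_ker).1 hr]
      rfl
    apply hg0
    apply hinj r hrm g hgW
    rw [hg, h0, zero_smul]
  letI : Algebra R (integralClosure ℤ ℂ) := χ.toAlgebra
  haveI : Algebra.IsIntegral R (integralClosure ℤ ℂ) := by
    constructor
    intro x
    have hx : IsIntegral ℤ x := integralClosure.isIntegral x
    exact hx.tower_top
  obtain ⟨𝔪', h𝔪'max, h𝔪'⟩ := Ideal.exists_ideal_over_maximal_of_isIntegral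
    (S := integralClosure ℤ ℂ) 𝔪 hker
  have hmem' : ∀ r, r ∈ 𝔪 → χ r ∈ 𝔪' := by
    intro r hr
    rw [← h𝔪'] at hr
    exact hr
  refine ⟨g, χ, 𝔪', hWV' hgW, hg0, h𝔪'max, ?_, ?_, ?_⟩
  · have h3 : (((p : ℕ) : ℤ) : R) ∈ 𝔪 := ⟨f, hfM, hcast _ f⟩
    have h3' := hmem' _ h3
    rw [map_intCast] at h3'
    exact_mod_cast h3'
  · intro r
    rw [hχ, hg]
  · rintro r c ⟨g', hg', h⟩
    have hrc : r - (c : R) ∈ 𝔪 := by
      refine ⟨g', hg', ?_⟩
      rw [map_sub, LinearMap.sub_apply, hcast, h]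
    have := hmem' _ hrc
    simpa using this

open scoped IsMulCommutative in
/-- **DSp.** Deligne–Serre lifting lemma for a prime `p`, for a commuting family of endomorphisms
preserving a finitely generated lattice. -/
theorem deligneSerre_family_p (p : ℕ) (hp : p.Prime)
    {V : Type*} [AddCommGroup V] [Module ℂ V] [FiniteDimensional ℂ V]
    {ι : Type*} (T : ι → Module.End ℂ V) (hcomm : ∀ i j, Commute (T i) (T j))
    (M : Submodule ℤ V) (hfg : M.FG) (hstab : ∀ i, ∀ m ∈ M, T i m ∈ M)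
    (f : V) (hfM : f ∈ M) (hfp : ∀ g ∈ M, f ≠ (p : ℤ) • g)
    (a : ι → ℤ) (ha : ∀ i, ∃ g ∈ M, T i f - a i • f = (p : ℤ) • g) :
    ∃ (g : V) (c : ι → integralClosure ℤ ℂ) (𝔪' : Ideal (integralClosure ℤ ℂ)),
      g ∈ Submodule.span ℂ (M : Set V) ∧ g ≠ 0 ∧ 𝔪'.IsMaximal ∧
      ((p : ℕ) : integralClosure ℤ ℂ) ∈ 𝔪' ∧
      ∀ i, T i g = ((c i : integralClosure ℤ ℂ) : ℂ) • g ∧
        c i - (a i : integralClosure ℤ ℂ) ∈ 𝔪' := by
  have hcomm' : ∀ x ∈ Set.range T, ∀ y ∈ Set.range T, x * y = y * x := by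
    rintro _ ⟨i, rfl⟩ _ ⟨j, rfl⟩
    exact (hcomm i j).eq
  have hC := Algebra.isMulCommutative_adjoin ℤ hcomm'
  let ρ : Algebra.adjoin ℤ (Set.range T) →+* Module.End ℂ V :=
    (Algebra.adjoin ℤ (Set.range T)).val.toRingHom
  have hρ : ∀ r : Algebra.adjoin ℤ (Set.range T), ρ r = (r : Module.End ℂ V) := fun r => rfl
  have hboth : ∀ t ∈ Algebra.adjoin ℤ (Set.range T),
      (∀ m ∈ M, t m ∈ M) ∧ ∃ c : ℤ, ∃ g ∈ M, t f - c • f = (p : ℤ) • g := by
    intro t ht
    induction ht using Algebra.adjoin_induction with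
    | mem x hx =>
      obtain ⟨i, rfl⟩ := hx
      exact ⟨hstab i, a i, ha i⟩
    | algebraMap n =>
      refine ⟨fun m hm => ?_, n, 0, M.zero_mem, ?_⟩
      · rw [Algebra.algebraMap_eq_smul_one, LinearMap.smul_apply, Module.End.one_apply]
        exact M.smul_mem n hm
      · rw [Algebra.algebraMap_eq_smul_one, LinearMap.smul_apply, Module.End.one_apply,
          sub_self, smul_zero]
    | add x y _ _ hx hy =>
      obtain ⟨hx1, cx, gx, hgx, hx2⟩ := hx
      obtain ⟨hy1, cy, gy, hgy, hy2⟩ := hy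
      refine ⟨fun m hm => ?_, cx + cy, gx + gy, M.add_mem hgx hgy, ?_⟩
      · rw [LinearMap.add_apply]
        exact M.add_mem (hx1 m hm) (hy1 m hm)
      · rw [LinearMap.add_apply, add_smul, smul_add, ← hx2, ← hy2]
        abel
    | mul x y _ _ hx hy =>
      obtain ⟨hx1, cx, gx, hgx, hx2⟩ := hx
      obtain ⟨hy1, cy, gy, hgy, hy2⟩ := hy
      refine ⟨fun m hm => ?_, cx * cy, cy • gx + x gy,
        M.add_mem (M.smul_mem cy hgx) (hx1 gy hgy), ?_⟩
      · rw [Module.End.mul_apply]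
        exact hx1 _ (hy1 m hm)
      · rw [Module.End.mul_apply]
        rw [sub_eq_iff_eq_add] at hx2 hy2
        rw [hy2, map_add, map_zsmul, map_zsmul, hx2]
        module
  obtain ⟨g, χ, 𝔪', hgspan, hg0, hmax, h3, hg, hcong⟩ := dsp_ring p hp ρ M hfg
    (fun r => (hboth r r.2).1) f hfM hfp (fun r => (hboth r r.2).2)
  refine ⟨g, fun i => χ ⟨T i, Algebra.subset_adjoin ⟨i, rfl⟩⟩, 𝔪', hgspan, hg0, hmax, h3,
    fun i => ?_⟩
  exact ⟨hg ⟨T i, Algebra.subset_adjoin ⟨i, rfl⟩⟩,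
    hcong ⟨T i, Algebra.subset_adjoin ⟨i, rfl⟩⟩ (a i) (ha i)⟩

end Fermat.Agent.S41lib
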