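/-
Item 78 (S41, level raising), block D, piece EigenForm (helper16): steps (1a) and (7) of
NOTES/S41_blueprint.md.

* `ef_heckeFormsGen_eigen`, `ef_heckeHom_periodMap`: a normalised eigenform `f` is an eigenvector of
  every `heckeFormsGen N 2 ℓ`, and its period vector `periodMap N f` is an eigenvector of every
  `heckeHom N ℓ ℂ`, with eigenvalue `a_ℓ(f)`; `ef_periodMap_ne_zero`, `ef_periodMap_mem`.
* `ef_heckeHom_periodHomPair`: `periodHomPair` is Hecke-equivariant.
* `ef_exists_eigenform_of_eigenvector`: a nonzero common eigenvector of all `heckeHom N ℓ ℂ` in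
  `H¹_par(Γ₀(N), ℂ)` gives a normalised eigenform with the same eigenvalues (Eichler–Shimura S21).
-/
import Mathlib
import Fermat.Agent.GalRep.EigenChar
import Fermat.Agent.GalRep.HeckePeriod
import Fermat.Agent.GalRep.HeckeInvol
import Fermat.Agent.S21
import Fermat.Agent.S21_Par
import Fermat.Agent.S49_Normalize

set_option autoImplicit false

open CongruenceSubgroup ModularCurve ModularCurve.Period ModularFormClass UpperHalfPlane
open Fermat.Agent.GalRep Fermat.Agent.S21lib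
open scoped MatrixGroups

namespace Fermat.Agent.S41lib

noncomputable section

variable (N : ℕ) [NeZero N]

/-- **(1a)** a normalised eigenform is an eigenvector of every `heckeFormsGen N 2 ℓ`. -/
theorem ef_heckeFormsGen_eigen {f : CuspForm (Gamma0 N) 2} (hf : f.IsNormalizedEigenform)
    (ℓ : Nat.Primes) :
    (CuspForm.heckeFormsGen N 2 ℓ : Module.End ℂ (CuspForm (Gamma0 N) 2)) f
      = qCoeff (⇑f) (ℓ : ℕ) • f := by
  by_cases h : (ℓ : ℕ) ∣ N
  · rw [CuspForm.heckeFormsGen_of_dvd h, CuspForm.heckeAlgebra.coe_U]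
    exact ec_heckeU_eq hf ℓ.2 h
  · rw [CuspForm.heckeFormsGen_of_not_dvd h, CuspForm.heckeAlgebra.coe_T]
    exact ec_heckeT_eq hf ℓ.2 h

omit [NeZero N] in
/-- `heckeHom` is `ℂ`-homogeneous. -/
theorem ef_heckeHom_smul (ℓ : Nat.Primes) (c : ℂ) (ψ : Additive (Gamma0 N) →+ ℂ) :
    heckeHom N ℓ ℂ (c • ψ) = c • heckeHom N ℓ ℂ ψ := by
  have h := heckeHom_comp (N := N) ℓ (AddMonoidHom.mulLeft c) ψ
  have e1 : (AddMonoidHom.mulLeft c).comp ψ = c • ψ := by
    refine AddMonoidHom.ext fun γ => ?_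
    rfl
  have e2 : (AddMonoidHom.mulLeft c).comp (heckeHom N ℓ ℂ ψ) = c • heckeHom N ℓ ℂ ψ := by
    refine AddMonoidHom.ext fun γ => ?_
    rfl
  rw [e1, e2] at h
  exact h

theorem ef_periodMap_smul (c : ℂ) (f : CuspForm (Gamma0 N) 2) :
    periodMap N (c • f) = c • periodMap N f :=
  (periodMapLinear N).map_smul c f

theorem ef_periodMap_add (f g : CuspForm (Gamma0 N) 2) :
    periodMap N (f + g) = periodMap N f + periodMap N g :=
  (periodMapLinear N).map_add f g

theorem ef_periodMap_sub (f g : CuspForm (Gamma0 N) 2) :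
    periodMap N (f - g) = periodMap N f - periodMap N g :=
  (periodMapLinear N).map_sub f g

/-- **(1a)** the period vector of a normalised eigenform is an eigenvector of every
`heckeHom N ℓ ℂ`. -/
theorem ef_heckeHom_periodMap {f : CuspForm (Gamma0 N) 2} (hf : f.IsNormalizedEigenform)
    (ℓ : Nat.Primes) :
    heckeHom N ℓ ℂ (periodMap N f) = qCoeff (⇑f) (ℓ : ℕ) • periodMap N f := by
  rw [← periodMap_hecke N ℓ f, ef_heckeFormsGen_eigen N hf ℓ, ef_periodMap_smul]

/-- the period vector is parabolic -/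
theorem ef_periodMap_mem (f : CuspForm (Gamma0 N) 2) :
    periodMap N f ∈ parabolicHoms ℂ (Gamma0 N) ℂ :=
  periodMap_mem_parabolicHoms N f

/-- the period map is injective -/
theorem ef_periodMap_ne_zero {f : CuspForm (Gamma0 N) 2} (hf : f ≠ 0) : periodMap N f ≠ 0 := by
  intro h0
  apply hf
  have h1 : periodHomPair N (f, f) = 0 := by
    rw [periodHomPair_apply, h0]
    simp
  have h2 := periodHomPair_injective N (h1.trans (map_zero _).symm)
  exact (Prod.ext_iff.mp h2).1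

/-- `periodHomPair` is Hecke-equivariant. -/
theorem ef_heckeHom_periodHomPair (ℓ : Nat.Primes) (f g : CuspForm (Gamma0 N) 2) :
    heckeHom N ℓ ℂ (periodHomPair N (f, g))
      = periodHomPair N
          ((CuspForm.heckeFormsGen N 2 ℓ : Module.End ℂ (CuspForm (Gamma0 N) 2)) f,
           (CuspForm.heckeFormsGen N 2 ℓ : Module.End ℂ (CuspForm (Gamma0 N) 2)) g) := by
  rw [periodHomPair_apply, periodHomPair_apply, map_add, map_add, map_sub,
    heckeHom_charInvolution, heckeHom_charInvolution, periodMap_hecke, periodMap_hecke]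

/-- **(7)** a nonzero common eigenvector of all Hecke operators in `H¹_par(Γ₀(N), ℂ)` gives a
normalised eigenform with the same eigenvalues. -/
theorem ef_exists_eigenform_of_eigenvector (v : Additive (Gamma0 N) →+ ℂ)
    (hv : v ∈ parabolicHoms ℂ (Gamma0 N) ℂ) (hv0 : v ≠ 0) (c : Nat.Primes → ℂ)
    (hc : ∀ ℓ : Nat.Primes, heckeHom N ℓ ℂ v = c ℓ • v) :
    ∃ g : CuspForm (Gamma0 N) 2, g.IsNormalizedEigenform ∧
      ∀ ℓ : Nat.Primes, qCoeff (⇑g) (ℓ : ℕ) = c ℓ := by
  classical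
  have hrange := (Fermat.Agent.S21.result N).2
  rw [← hrange] at hv
  obtain ⟨⟨f, g⟩, rfl⟩ := hv
  -- both components are eigenvectors
  have heig : ∀ ℓ : Nat.Primes,
      (CuspForm.heckeFormsGen N 2 ℓ : Module.End ℂ (CuspForm (Gamma0 N) 2)) f = c ℓ • f ∧
      (CuspForm.heckeFormsGen N 2 ℓ : Module.End ℂ (CuspForm (Gamma0 N) 2)) g = c ℓ • g := by
    intro ℓ
    have h1 := hc ℓ
    rw [ef_heckeHom_periodHomPair, ← map_smul] at h1
    have h2 := periodHomPair_injective N h1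
    exact ⟨(Prod.ext_iff.mp h2).1, (Prod.ext_iff.mp h2).2⟩
  -- one of the components is not zero
  have hne : f ≠ 0 ∨ g ≠ 0 := by
    by_contra hcon
    push Not at hcon
    apply hv0
    rw [hcon.1, hcon.2]
    exact map_zero _
  -- the eigenvalue function on `ℕ`
  set lam : ℕ → ℂ := fun n => if h : n.Prime then c ⟨n, h⟩ else 0 with hlam
  have hlamc : ∀ ℓ : Nat.Primes, lam (ℓ : ℕ) = c ℓ := by
    rintro ⟨ℓ, hℓ⟩
    simp only [hlam, hℓ, dif_pos]
  have key : ∀ g₀ : CuspForm (Gamma0 N) 2, g₀ ≠ 0 →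
      (∀ ℓ : Nat.Primes,
        (CuspForm.heckeFormsGen N 2 ℓ : Module.End ℂ (CuspForm (Gamma0 N) 2)) g₀ = c ℓ • g₀) →
      ∃ g : CuspForm (Gamma0 N) 2, g.IsNormalizedEigenform ∧
        ∀ ℓ : Nat.Primes, qCoeff (⇑g) (ℓ : ℕ) = c ℓ := by
    intro g₀ hg₀ h
    obtain ⟨g, hg, hgc⟩ := Fermat.Agent.S49norm.exists_normalizedEigenform_of_eigenvector
      (N := N) g₀ hg₀ lam
      (fun ℓ hℓ hℓN => by
        have := h ⟨ℓ, hℓ⟩
        rw [CuspForm.heckeFormsGen_of_not_dvd (show ¬ ((⟨ℓ, hℓ⟩ : Nat.Primes) : ℕ) ∣ N from hℓN),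
          CuspForm.heckeAlgebra.coe_T] at this
        rw [this, hlamc ⟨ℓ, hℓ⟩])
      (fun q hq hqN => by
        have := h ⟨q, hq⟩
        rw [CuspForm.heckeFormsGen_of_dvd (show ((⟨q, hq⟩ : Nat.Primes) : ℕ) ∣ N from hqN),
          CuspForm.heckeAlgebra.coe_U] at this
        rw [this, hlamc ⟨q, hq⟩])
    exact ⟨g, hg, fun ℓ => by rw [hgc ℓ ℓ.2, hlamc]⟩
  rcases hne with hf | hg
  · exact key f hf fun ℓ => (heig ℓ).1
  · exact key g hg fun ℓ => (heig ℓ).2

end

end Fermat.Agent.S41lib
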