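/-
Item 78 (S41), block D, piece RDS (helper5): REVERSE Deligne–Serre.
A common eigenvector `v ∈ ℂ ⊗ M` of a commuting family `T i` preserving the lattice `M`, with
eigenvalues `c i ≡ a i` modulo a maximal ideal `𝔪 ∋ p` of `ℤ̄`, gives `x ∈ M ∖ pM` with
`T i x ≡ a i x mod pM`.
Proof: else (finite-module lemma `rds_finite_module`) some `u` in the ideal `𝔫 = (p, T i - a i)` of
the ring generated by the `T i` acts as the identity on `M / pM`; `(1 - u)/p` preserves `M`, so its
eigenvalue `(1 - e)/p` on `v` is an algebraic integer, `e ∈ 𝔪`: `1 ∈ 𝔪`.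
Helper lemmas are prefixed `rds_`.  Mathlib only.
-/
import Mathlib

set_option autoImplicit false
set_option linter.style.haveILetI false

namespace Fermat.Agent.S41lib

universe u

/-- **Finite-module lemma**: a finite module `X` over a commutative ring with `X[𝔫] = 0` is fixed
pointwise by some `u ∈ 𝔫` (i.e. killed by `1 - u`). -/
theorem rds_finite_module {R : Type*} [CommRing R] (𝔫 : Ideal R) :
    ∀ (n : ℕ) (X : Type u) [AddCommGroup X] [Module R X] [Finite X], Nat.card X = n →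
      (∀ x : X, (∀ s ∈ 𝔫, s • x = 0) → x = 0) → ∃ u ∈ 𝔫, ∀ x : X, u • x = x := by
  intro n
  induction n using Nat.strong_induction_on with
  | _ n ih =>
    intro X _ _ _ hn hX
    by_cases h0 : ∀ x : X, x = 0
    · exact ⟨0, 𝔫.zero_mem, fun x => by rw [zero_smul, h0 x]⟩
    push Not at h0
    obtain ⟨x₀, hx₀⟩ := h0
    have hex : ∃ s ∈ 𝔫, s • x₀ ≠ 0 := by
      by_contra hcon
      push Not at hcon
      exact hx₀ (hX x₀ hcon)
    obtain ⟨s, hs, hsx⟩ := hex
    let f : X →ₗ[R] X := LinearMap.lsmul R X s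
    have hf : ∀ x, f x = s • x := fun x => rfl
    have hcard : ∀ W : Submodule R X, W ≠ ⊤ → Nat.card W < n := by
      intro W hW
      rw [← hn]
      have hlt : (W : Set X) ⊂ Set.univ := by
        rw [Set.ssubset_univ_iff]
        intro h
        exact hW (SetLike.coe_injective (by simpa using h))
      have := Set.ncard_lt_ncard hlt (Set.toFinite _)
      rwa [Set.ncard_univ, ← Nat.card_coe_set_eq] at this
    have hsub : ∀ W : Submodule R X, ∀ k : W, (∀ s' ∈ 𝔫, s' • k = 0) → k = 0 := by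
      intro W k hk
      apply Subtype.ext
      apply hX
      intro s' hs'
      have := congrArg Subtype.val (hk s' hs')
      simpa using this
    have hKtop : LinearMap.ker f ≠ ⊤ := by
      intro htop
      apply hsx
      have : x₀ ∈ LinearMap.ker f := htop ▸ Submodule.mem_top
      exact this
    obtain ⟨u1, hu1, hu1K⟩ := ih _ (hcard _ hKtop) (LinearMap.ker f) rfl (hsub _)
    by_cases hK : LinearMap.ker f = ⊥
    · -- `s` acts bijectively: a power of it is the identity
      have hinj : Function.Injective f := LinearMap.ker_eq_bot.1 hK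
      have hbij : Function.Bijective f := ⟨hinj, Finite.injective_iff_surjective.1 hinj⟩
      let σ : Equiv.Perm X := Equiv.ofBijective f hbij
      have hσ : IsOfFinOrder σ := isOfFinOrder_of_finite σ
      have hpos : 0 < orderOf σ := hσ.orderOf_pos
      have hpow := pow_orderOf_eq_one σ
      have h1 : ∀ (k : ℕ) (x : X), (σ ^ k) x = s ^ k • x := by
        intro k
        induction k with
        | zero => intro x; simp
        | succ k ihk =>
          intro x
          rw [pow_succ, Equiv.Perm.mul_apply, ihk, pow_succ, mul_smul]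
          rfl
      refine ⟨s ^ orderOf σ, Ideal.pow_mem_of_mem 𝔫 hs _ hpos, fun x => ?_⟩
      rw [← h1, hpow]
      rfl
    · have hI : LinearMap.range f ≠ ⊤ := by
        intro htop
        apply hK
        have hsurj : Function.Surjective f := LinearMap.range_eq_top.1 htop
        exact LinearMap.ker_eq_bot.2 (Finite.injective_iff_surjective.2 hsurj)
      obtain ⟨u2, hu2, hu2I⟩ := ih _ (hcard _ hI) (LinearMap.range f) rfl (hsub _)
      refine ⟨u1 + u2 - u1 * u2, 𝔫.sub_mem (𝔫.add_mem hu1 hu2) (𝔫.mul_mem_left _ hu2),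
        fun x => ?_⟩
      have h2 : u2 • (s • x) = s • x := by
        have := hu2I ⟨s • x, ⟨x, rfl⟩⟩
        exact congrArg Subtype.val this
      have h3 : x - u2 • x ∈ LinearMap.ker f := by
        rw [LinearMap.mem_ker, hf, smul_sub, smul_comm s u2 x, h2, sub_self]
      have h4 : u1 • (x - u2 • x) = x - u2 • x := by
        have := hu1K ⟨_, h3⟩
        exact congrArg Subtype.val this
      rw [smul_sub] at h4
      rw [sub_smul, add_smul, mul_smul, add_sub_right_comm, h4, sub_add_cancel]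

/-- the restriction of an endomorphism to a stable `ℤ`-lattice -/
noncomputable def rds_restrict {V : Type*} [AddCommGroup V] [Module ℂ V]
    (M : Submodule ℤ V) (t : Module.End ℂ V) (hstab : ∀ m ∈ M, t m ∈ M) : Module.End ℤ M :=
  (t.restrictScalars ℤ).restrict hstab

theorem rds_restrict_apply {V : Type*} [AddCommGroup V] [Module ℂ V]
    (M : Submodule ℤ V) (t : Module.End ℂ V) (hstab : ∀ m ∈ M, t m ∈ M) (m : M) :
    ((rds_restrict M t hstab m : M) : V) = t m := rfl

theorem rds_restrict_pow_apply {V : Type*} [AddCommGroup V] [Module ℂ V]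
    (M : Submodule ℤ V) (t : Module.End ℂ V) (hstab : ∀ m ∈ M, t m ∈ M) (n : ℕ) (m : M) :
    ((((rds_restrict M t hstab) ^ n) m : M) : V) = (t ^ n) m := by
  induction n generalizing m with
  | zero => simp
  | succ n ih =>
    rw [pow_succ, pow_succ, Module.End.mul_apply, Module.End.mul_apply, ih, rds_restrict_apply]

theorem rds_restrict_aeval_apply {V : Type*} [AddCommGroup V] [Module ℂ V]
    (M : Submodule ℤ V) (t : Module.End ℂ V) (hstab : ∀ m ∈ M, t m ∈ M)
    (q : Polynomial ℤ) (m : M) :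
    (((Polynomial.aeval (rds_restrict M t hstab) q) m : M) : V)
      = (Polynomial.aeval t q) m := by
  induction q using Polynomial.induction_on' with
  | add p q hp hq =>
    simp only [map_add, LinearMap.add_apply, Submodule.coe_add, hp, hq]
  | monomial n a =>
    rw [Polynomial.aeval_monomial, Polynomial.aeval_monomial]
    simp only [Algebra.algebraMap_eq_smul_one, smul_mul_assoc, one_mul, LinearMap.smul_apply,
      Submodule.coe_smul, rds_restrict_pow_apply]

/-- An eigenvalue, on a nonzero vector of the `ℂ`-span of a finitely generated lattice `M`, of an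
endomorphism preserving `M` is an algebraic integer. -/
theorem rds_isIntegral_of_eigen {V : Type*} [AddCommGroup V] [Module ℂ V]
    (M : Submodule ℤ V) (hfg : M.FG) (t : Module.End ℂ V) (hstab : ∀ m ∈ M, t m ∈ M)
    (v : V) (hvM : v ∈ Submodule.span ℂ (M : Set V)) (hv : v ≠ 0) (c : ℂ) (hc : t v = c • v) :
    IsIntegral ℤ c := by
  have : Module.Finite ℤ M := Module.Finite.iff_fg.2 hfg
  obtain ⟨q, hq, hq0⟩ := LinearMap.exists_monic_and_aeval_eq_zero ℤ (rds_restrict M t hstab)
  refine ⟨q, hq, ?_⟩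
  have hker : (M : Set V) ⊆ LinearMap.ker (Polynomial.aeval t q) := by
    intro m hm
    have h := rds_restrict_aeval_apply M t hstab q ⟨m, hm⟩
    rw [hq0] at h
    rw [SetLike.mem_coe, LinearMap.mem_ker, ← h]
    rfl
  have hle : Submodule.span ℂ (M : Set V) ≤ LinearMap.ker (Polynomial.aeval t q) :=
    Submodule.span_le.2 hker
  have hv0 : Polynomial.aeval t q v = 0 := LinearMap.mem_ker.1 (hle hvM)
  have hev : t.HasEigenvector c v := ⟨Module.End.mem_eigenspace_iff.2 hc, hv⟩
  have h1 := Module.End.aeval_apply_of_hasEigenvector (p := q.map (algebraMap ℤ ℂ)) hev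
  rw [Polynomial.aeval_map_algebraMap, hv0] at h1
  have h2 : Polynomial.eval c (q.map (algebraMap ℤ ℂ)) = 0 := by
    rcases smul_eq_zero.1 h1.symm with h | h
    · exact h
    · exact absurd h hv
  rwa [Polynomial.eval_map] at h2

/-- **Reverse Deligne–Serre**, ring form. -/
theorem rds_ring {V : Type*} [AddCommGroup V] [Module ℂ V]
    {R : Type*} [CommRing R] (ρ : R →+* Module.End ℂ V) (p : ℕ) (hp : p.Prime)
    (M : Submodule ℤ V) (hfg : M.FG) (hstab : ∀ r, ∀ m ∈ M, ρ r m ∈ M)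
    (v : V) (hvM : v ∈ Submodule.span ℂ (M : Set V)) (hv : v ≠ 0)
    (𝔪 : Ideal (integralClosure ℤ ℂ)) (hmax : 𝔪.IsMaximal)
    (hpm : ((p : ℕ) : integralClosure ℤ ℂ) ∈ 𝔪)
    (𝔫 : Ideal R)
    (h𝔫 : ∀ r ∈ 𝔫, ∃ e ∈ 𝔪, ρ r v = ((e : integralClosure ℤ ℂ) : ℂ) • v) :
    ∃ x ∈ M, (∀ g ∈ M, x ≠ (p : ℤ) • g) ∧ ∀ r ∈ 𝔫, ∃ g ∈ M, ρ r x = (p : ℤ) • g := by
  classical
  by_contra hcon
  push Not at hcon
  have hMfin : Module.Finite ℤ M := Module.Finite.iff_fg.2 hfg
  have hp0 : (p : ℂ) ≠ 0 := by exact_mod_cast hp.ne_zero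
  let ρM : R →+* Module.End ℤ M :=
    { toFun := fun r => rds_restrict M (ρ r) (hstab r)
      map_one' := by
        ext m
        rw [rds_restrict_apply, map_one]
        rfl
      map_mul' := fun a b => by
        ext m
        rw [rds_restrict_apply, map_mul]
        rfl
      map_zero' := by
        ext m
        rw [rds_restrict_apply, map_zero]
        rfl
      map_add' := fun a b => by
        ext m
        rw [rds_restrict_apply, map_add]
        rfl }
  letI : Module R M := Module.compHom M ρM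
  have hsmul : ∀ (r : R) (m : M), ((r • m : M) : V) = ρ r m := fun _ _ => rfl
  let P : Submodule R M :=
    { carrier := {m | ∃ g : M, m = (p : ℤ) • g}
      zero_mem' := ⟨0, by simp⟩
      add_mem' := by
        rintro a b ⟨ga, rfl⟩ ⟨gb, rfl⟩
        exact ⟨ga + gb, by rw [smul_add]⟩
      smul_mem' := by
        rintro c m ⟨g, rfl⟩
        refine ⟨c • g, ?_⟩
        apply Subtype.ext
        rw [hsmul, Submodule.coe_smul, Submodule.coe_smul, hsmul, map_zsmul] }
  have hP : ∀ m : M, m ∈ P ↔ ∃ g : M, m = (p : ℤ) • g := fun m => Iff.rfl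
  have hXfin : Finite (M ⧸ P) := by
    let π : M →ₗ[ℤ] (M ⧸ P) := (P.mkQ).toAddMonoidHom.toIntLinearMap
    have hπ : Function.Surjective π := P.mkQ_surjective
    have : Module.Finite ℤ (M ⧸ P) := Module.Finite.of_surjective π hπ
    apply Module.finite_of_fg_torsion
    intro x
    obtain ⟨m, rfl⟩ := P.mkQ_surjective x
    refine ⟨⟨(p : ℤ), mem_nonZeroDivisors_of_ne_zero (by exact_mod_cast hp.ne_zero)⟩, ?_⟩
    show (p : ℤ) • π m = 0
    rw [← map_zsmul]
    show P.mkQ ((p : ℤ) • m) = 0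
    rw [Submodule.mkQ_apply, Submodule.Quotient.mk_eq_zero]
    exact ⟨m, rfl⟩
  obtain ⟨u, hu, hux⟩ := rds_finite_module 𝔫 (Nat.card (M ⧸ P)) (M ⧸ P) rfl (by
    intro x hx
    obtain ⟨m, rfl⟩ := P.mkQ_surjective x
    by_contra hne
    have hm : ∀ g ∈ M, (m : V) ≠ (p : ℤ) • g := by
      intro g hg hmg
      apply hne
      rw [Submodule.mkQ_apply, Submodule.Quotient.mk_eq_zero]
      exact ⟨⟨g, hg⟩, Subtype.ext hmg⟩
    obtain ⟨r, hr, hrm⟩ := hcon m m.2 hm
    have h1 := hx r hr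
    rw [Submodule.mkQ_apply, ← Submodule.Quotient.mk_smul, Submodule.Quotient.mk_eq_zero] at h1
    obtain ⟨g, hg⟩ := h1
    apply hrm g g.2
    have := congrArg Subtype.val hg
    rw [hsmul] at this
    rw [this]
    rfl)
  obtain ⟨e, he, hev⟩ := h𝔫 u hu
  -- `(1 - u) M ⊆ p M`
  have hkey : ∀ m ∈ M, ∃ g ∈ M, m - ρ u m = (p : ℤ) • g := by
    intro m hm
    have h1 := hux (P.mkQ ⟨m, hm⟩)
    rw [Submodule.mkQ_apply, ← Submodule.Quotient.mk_smul, eq_comm, ← sub_eq_zero,
      ← Submodule.Quotient.mk_sub, Submodule.Quotient.mk_eq_zero] at h1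
    obtain ⟨g, hg⟩ := h1
    refine ⟨g, g.2, ?_⟩
    have := congrArg Subtype.val hg
    rw [Submodule.coe_sub, hsmul] at this
    rw [this]
    rfl
  let w : Module.End ℂ V := (p : ℂ)⁻¹ • (1 - ρ u)
  have hw : ∀ m ∈ M, w m ∈ M := by
    intro m hm
    obtain ⟨g, hg, hmg⟩ := hkey m hm
    have : w m = g := by
      show ((p : ℂ)⁻¹ • (1 - ρ u)) m = g
      rw [LinearMap.smul_apply, LinearMap.sub_apply, Module.End.one_apply, hmg,
        ← Int.cast_smul_eq_zsmul ℂ, smul_smul]
      push_cast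
      rw [inv_mul_cancel₀ hp0, one_smul]
    rw [this]
    exact hg
  have hwv : w v = ((p : ℂ)⁻¹ * (1 - (e : ℂ))) • v := by
    show ((p : ℂ)⁻¹ • (1 - ρ u)) v = _
    rw [LinearMap.smul_apply, LinearMap.sub_apply, Module.End.one_apply, hev, mul_smul,
      sub_smul, one_smul]
  have hint : IsIntegral ℤ ((p : ℂ)⁻¹ * (1 - (e : ℂ))) :=
    rds_isIntegral_of_eigen M hfg w hw v hvM hv _ hwv
  let z : integralClosure ℤ ℂ := ⟨_, hint⟩
  have hz : ((p : ℕ) : integralClosure ℤ ℂ) * z = 1 - e := by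
    apply Subtype.ext
    show ((p : ℕ) : ℂ) * ((p : ℂ)⁻¹ * (1 - (e : ℂ))) = 1 - (e : ℂ)
    rw [← mul_assoc, mul_inv_cancel₀ hp0, one_mul]
  have h1 : (1 : integralClosure ℤ ℂ) ∈ 𝔪 := by
    have h2 : 1 - e ∈ 𝔪 := hz ▸ 𝔪.mul_mem_right z hpm
    have := 𝔪.add_mem h2 he
    rwa [sub_add_cancel] at this
  exact hmax.ne_top ((Ideal.eq_top_iff_one 𝔪).2 h1)

open scoped IsMulCommutative in
/-- **Reverse Deligne–Serre** (block D, step (1)): a common eigenvector in `ℂ ⊗ M` with
eigenvalues `≡ a i mod 𝔪` gives an element of `M ∖ pM` which is an eigenvector mod `pM` with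
eigenvalues `a i`. -/
theorem reverse_deligneSerre (p : ℕ) (hp : p.Prime)
    {V : Type*} [AddCommGroup V] [Module ℂ V] [FiniteDimensional ℂ V]
    {ι : Type*} (T : ι → Module.End ℂ V) (hcomm : ∀ i j, Commute (T i) (T j))
    (M : Submodule ℤ V) (hfg : M.FG) (hstab : ∀ i, ∀ m ∈ M, T i m ∈ M)
    (v : V) (hvM : v ∈ Submodule.span ℂ (M : Set V)) (hv : v ≠ 0)
    (c : ι → integralClosure ℤ ℂ) (hc : ∀ i, T i v = ((c i : integralClosure ℤ ℂ) : ℂ) • v)
    (𝔪 : Ideal (integralClosure ℤ ℂ)) (hmax : 𝔪.IsMaximal)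
    (hpm : ((p : ℕ) : integralClosure ℤ ℂ) ∈ 𝔪)
    (a : ι → ℤ) (ha : ∀ i, c i - (a i : integralClosure ℤ ℂ) ∈ 𝔪) :
    ∃ x ∈ M, (∀ g ∈ M, x ≠ (p : ℤ) • g) ∧ ∀ i, ∃ g ∈ M, T i x - a i • x = (p : ℤ) • g := by
  classical
  have hcomm' : ∀ x ∈ Set.range T, ∀ y ∈ Set.range T, x * y = y * x := by
    rintro _ ⟨i, rfl⟩ _ ⟨j, rfl⟩
    exact (hcomm i j).eq
  have hC := Algebra.isMulCommutative_adjoin ℤ hcomm'
  let ρ : Algebra.adjoin ℤ (Set.range T) →+* Module.End ℂ V :=
    (Algebra.adjoin ℤ (Set.range T)).val.toRingHom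
  have hρ : ∀ r : Algebra.adjoin ℤ (Set.range T), ρ r = (r : Module.End ℂ V) := fun r => rfl
  -- every element of the adjoin preserves `M` and has `v` as an eigenvector, with eigenvalue in `ℤ̄`
  have hboth : ∀ t ∈ Algebra.adjoin ℤ (Set.range T),
      (∀ m ∈ M, t m ∈ M) ∧ ∃ e : integralClosure ℤ ℂ, t v = (e : ℂ) • v := by
    intro t ht
    induction ht using Algebra.adjoin_induction with
    | mem x hx =>
      obtain ⟨i, rfl⟩ := hx
      exact ⟨hstab i, c i, hc i⟩
    | algebraMap n =>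
      refine ⟨fun m hm => ?_, (n : integralClosure ℤ ℂ), ?_⟩
      · rw [Algebra.algebraMap_eq_smul_one, LinearMap.smul_apply, Module.End.one_apply]
        exact M.smul_mem n hm
      · rw [Algebra.algebraMap_eq_smul_one, LinearMap.smul_apply, Module.End.one_apply,
          ← Int.cast_smul_eq_zsmul ℂ]
        push_cast
        rfl
    | add x y _ _ hx hy =>
      obtain ⟨hx1, ex, hx2⟩ := hx
      obtain ⟨hy1, ey, hy2⟩ := hy
      refine ⟨fun m hm => ?_, ex + ey, ?_⟩
      · rw [LinearMap.add_apply]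
        exact M.add_mem (hx1 m hm) (hy1 m hm)
      · rw [LinearMap.add_apply, hx2, hy2, ← add_smul]
        push_cast
        rfl
    | mul x y _ _ hx hy =>
      obtain ⟨hx1, ex, hx2⟩ := hx
      obtain ⟨hy1, ey, hy2⟩ := hy
      refine ⟨fun m hm => ?_, ex * ey, ?_⟩
      · rw [Module.End.mul_apply]
        exact hx1 _ (hy1 m hm)
      · rw [Module.End.mul_apply, hy2, map_smul, hx2, smul_smul, mul_comm]
        push_cast
        rfl
  -- the generators of the ideal `𝔫`
  let gen : ι → Algebra.adjoin ℤ (Set.range T) := fun i =>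
    ⟨T i, Algebra.subset_adjoin ⟨i, rfl⟩⟩ - ((a i : ℤ) : Algebra.adjoin ℤ (Set.range T))
  have hgen : ∀ (i : ι) (x : V), ρ (gen i) x = T i x - a i • x := by
    intro i x
    have h1 : ρ (gen i) = T i - ((a i : ℤ) : Module.End ℂ V) := by
      show ρ (⟨T i, Algebra.subset_adjoin ⟨i, rfl⟩⟩ -
        ((a i : ℤ) : Algebra.adjoin ℤ (Set.range T))) = _
      rw [map_sub, map_intCast]
      rfl
    rw [h1, LinearMap.sub_apply, Module.End.intCast_apply]
  let 𝔫 : Ideal (Algebra.adjoin ℤ (Set.range T)) := Ideal.span (Set.range gen)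
  have h𝔫 : ∀ r ∈ 𝔫, ∃ e ∈ 𝔪, ρ r v = ((e : integralClosure ℤ ℂ) : ℂ) • v := by
    intro r hr
    induction hr using Submodule.span_induction with
    | mem x hx =>
      obtain ⟨i, rfl⟩ := hx
      refine ⟨c i - (a i : integralClosure ℤ ℂ), ha i, ?_⟩
      rw [hgen, hc i, ← Int.cast_smul_eq_zsmul ℂ, ← sub_smul]
      push_cast
      rfl
    | zero =>
      refine ⟨0, 𝔪.zero_mem, ?_⟩
      rw [map_zero, LinearMap.zero_apply]
      simp
    | add x y _ _ hx hy =>
      obtain ⟨ex, hex, hx2⟩ := hx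
      obtain ⟨ey, hey, hy2⟩ := hy
      refine ⟨ex + ey, 𝔪.add_mem hex hey, ?_⟩
      rw [map_add, LinearMap.add_apply, hx2, hy2, ← add_smul]
      push_cast
      rfl
    | smul b x _ hx =>
      obtain ⟨ex, hex, hx2⟩ := hx
      obtain ⟨eb, hb2⟩ := (hboth b b.2).2
      refine ⟨eb * ex, 𝔪.mul_mem_left _ hex, ?_⟩
      rw [smul_eq_mul, map_mul, Module.End.mul_apply, hx2, map_smul, hρ b, hb2, smul_smul,
        mul_comm]
      push_cast
      rfl
  obtain ⟨x, hxM, hxp, hx⟩ := rds_ring ρ p hp M hfg (fun r => (hboth r r.2).1) v hvM hv 𝔪 hmax hpm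
    𝔫 h𝔫
  refine ⟨x, hxM, hxp, fun i => ?_⟩
  obtain ⟨g, hg, hgx⟩ := hx (gen i) (Ideal.subset_span ⟨i, rfl⟩)
  exact ⟨g, hg, by rw [← hgen, hgx]⟩

end Fermat.Agent.S41lib
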