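/-
Item 78 (S41, level raising), block D, piece EigenForm (helper16): the two exact shapes `EF1`
(`ef_exists_lattice_eigen`) and `EF2` (`ef_exists_eigenform`) of NOTES/S41_signatures.lean.txt.

* `efm_heckeHom_comm`: the Hecke operators commute on `H¹_par(Γ₀(N), ℂ)`.
* `efm_finiteDimensional`: `H¹_par(Γ₀(N), ℂ)` is finite-dimensional.
* `ef_exists_lattice_eigen` (**EF1**): a normalised eigenform congruent to integers `a ℓ` modulo
  `𝔪 ∋ p` gives a parabolic integral class `x ∉ p L` with `T_ℓ x ≡ a ℓ x mod p`.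
* `ef_exists_eigenform` (**EF2**): an eigenvector modulo `p` in a Hecke-stable, `p`-saturated group
  of parabolic integral classes on which `U_q² = 1` gives a normalised eigenform, congruent to the
  given eigenvalues, with `a_q² = 1`.
-/
import Mathlib
import Fermat.Agent.S41lib.EigenForm
import Fermat.Agent.S41lib.DSp
import Fermat.Agent.S41lib.RDS
import Fermat.Agent.S41lib.AlgCore
import Fermat.Agent.GalRep.HeckeLat
import Fermat.Agent.GalRep.HeckeLatBC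
import Fermat.Prelude.Def_FreyPackage_LevelRaising

set_option autoImplicit false

open CongruenceSubgroup ModularCurve ModularCurve.Period ModularFormClass UpperHalfPlane
open Fermat.Agent.GalRep Fermat.Agent.S21lib
open scoped MatrixGroups

namespace Fermat.Agent.S41lib

noncomputable section

variable (N : ℕ) [NeZero N]

/-- the Hecke operators commute on `H¹_par(Γ₀(N), ℂ)`. -/
theorem efm_heckeHom_comm (ℓ ℓ' : Nat.Primes) (ψ : Additive (Gamma0 N) →+ ℂ)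
    (hψ : ψ ∈ parabolicHoms ℂ (Gamma0 N) ℂ) :
    heckeHom N ℓ ℂ (heckeHom N ℓ' ℂ ψ) = heckeHom N ℓ' ℂ (heckeHom N ℓ ℂ ψ) := by
  have hrange := (Fermat.Agent.S21.result N).2
  rw [← hrange] at hψ
  obtain ⟨⟨f, g⟩, rfl⟩ := hψ
  have hc : ∀ h : CuspForm (Gamma0 N) 2,
      (CuspForm.heckeFormsGen N 2 ℓ : Module.End ℂ (CuspForm (Gamma0 N) 2))
        ((CuspForm.heckeFormsGen N 2 ℓ' : Module.End ℂ (CuspForm (Gamma0 N) 2)) h)
      = (CuspForm.heckeFormsGen N 2 ℓ' : Module.End ℂ (CuspForm (Gamma0 N) 2))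
        ((CuspForm.heckeFormsGen N 2 ℓ : Module.End ℂ (CuspForm (Gamma0 N) 2)) h) := by
    intro h
    have e := mul_comm (CuspForm.heckeFormsGen N 2 ℓ) (CuspForm.heckeFormsGen N 2 ℓ')
    have e' := congrArg (fun t : CuspForm.heckeAlgebra N 2 ∅ =>
      (t : Module.End ℂ (CuspForm (Gamma0 N) 2)) h) e
    simpa only [Subalgebra.coe_mul, Module.End.mul_apply] using e'
  rw [ef_heckeHom_periodHomPair, ef_heckeHom_periodHomPair, ef_heckeHom_periodHomPair,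
    ef_heckeHom_periodHomPair, hc f, hc g]

/-- the Hecke operators on `H¹_par(Γ₀(N), ℂ)` commute. -/
theorem efm_heckePar_commute (ℓ ℓ' : Nat.Primes) :
    Commute (heckePar N ℓ ℂ ℂ) (heckePar N ℓ' ℂ ℂ) := by
  refine LinearMap.ext fun ψ => Subtype.ext ?_
  exact efm_heckeHom_comm N ℓ ℓ' ψ.1 ψ.2

/-- `H¹_par(Γ₀(N), ℂ)` is finite-dimensional. -/
theorem efm_finiteDimensional : FiniteDimensional ℂ (parabolicHoms ℂ (Gamma0 N) ℂ) :=
  Module.Finite.equiv (hlBCEquiv N)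

omit [NeZero N] in
theorem efm_hlCast_injective : Function.Injective (hlCast N) := by
  intro φ φ' h
  refine Subtype.ext (AddMonoidHom.ext fun γ => ?_)
  have h1 := congrArg (fun t : parabolicHoms ℂ (Gamma0 N) ℂ => t.1 γ) h
  simp only [hlCast_apply] at h1
  exact_mod_cast h1

/-- the cast map is Hecke-equivariant. -/
theorem efm_heckePar_hlCast (ℓ : Nat.Primes) (φ : HLat N) :
    heckePar N ℓ ℂ ℂ (hlCast N φ) = hlCast N (heckeLat N ℓ φ) := by
  refine Subtype.ext ?_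
  rw [heckePar_coe]
  show heckeHom N ℓ ℂ ((Int.castAddHom ℂ).comp φ.1) = (Int.castAddHom ℂ).comp (heckeHom N ℓ ℤ φ.1)
  exact heckeHom_comp ℓ (Int.castAddHom ℂ) φ.1

omit [NeZero N] in
/-- a parabolic class divisible by `p` is `p` times a parabolic class. -/
theorem efm_isParabolicHom_of_smul {p : ℕ} (hp : p ≠ 0) {y : Additive (Gamma0 N) →+ ℤ}
    (h : IsParabolicHom (Gamma0 N) ((p : ℤ) • y)) : IsParabolicHom (Gamma0 N) y := by
  intro γ hγ
  have h1 := h γ hγ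
  have h2 : (p : ℤ) * y (Additive.ofMul γ) = 0 := by simpa using h1
  rcases mul_eq_zero.mp h2 with h3 | h3
  · exact absurd (by exact_mod_cast h3) hp
  · exact h3

/-- the span of the lattice is everything. -/
theorem efm_span_range_hlCast :
    Submodule.span ℂ (Set.range (hlCast N)) = ⊤ := by
  have key : ∀ t : TensorProduct ℤ ℂ (HLat N),
      hlBC N t ∈ Submodule.span ℂ (Set.range (hlCast N)) := by
    intro t
    induction t using TensorProduct.induction_on with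
    | zero => simp
    | add x y hx hy =>
      rw [map_add]
      exact Submodule.add_mem _ hx hy
    | tmul z φ =>
      rw [hlBC_tmul]
      exact Submodule.smul_mem _ _ (Submodule.subset_span ⟨φ, rfl⟩)
  rw [eq_top_iff]
  intro v _
  obtain ⟨t, rfl⟩ := hlBC_surjective N v
  exact key t

/-- **EF1** (step 1): a normalised eigenform congruent to integers `a ℓ` (`ℓ ∈ I`) modulo `𝔪 ∋ p`
gives a parabolic integral class `x ∉ p L` with `T_ℓ x ≡ a ℓ x mod p` for `ℓ ∈ I`. -/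
theorem ef_exists_lattice_eigen (N : ℕ) [NeZero N] (p : ℕ) (hp : p.Prime)
    (f : CuspForm (Gamma0 N) 2) (hf : f.IsNormalizedEigenform)
    (𝔪 : Ideal (integralClosure ℤ ℂ)) (hmax : 𝔪.IsMaximal)
    (hpm : ((p : ℕ) : integralClosure ℤ ℂ) ∈ 𝔪)
    (a : Nat.Primes → ℤ) (I : Set Nat.Primes)
    (ha : ∀ ℓ ∈ I, ∃ c : integralClosure ℤ ℂ, (c : ℂ) = qCoeff f (ℓ : ℕ) ∧
      c - (a ℓ : integralClosure ℤ ℂ) ∈ 𝔪) :
    ∃ x : Additive (Gamma0 N) →+ ℤ, IsParabolicHom (Gamma0 N) x ∧ ¬ PDiv p x ∧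
      ∀ ℓ ∈ I, PDiv p (heckeHom N ℓ ℤ x - a ℓ • x) := by
  classical
  have hfd : FiniteDimensional ℂ (parabolicHoms ℂ (Gamma0 N) ℂ) := efm_finiteDimensional N
  -- the lattice
  let ML : Submodule ℤ (parabolicHoms ℂ (Gamma0 N) ℂ) := LinearMap.range (hlCast N)
  have hfg : ML.FG := by
    have h1 : (⊤ : Submodule ℤ (HLat N)).FG := Module.Finite.fg_top
    have h2 := h1.map (hlCast N)
    rwa [Submodule.map_top] at h2
  have hMLstab : ∀ (ℓ : Nat.Primes), ∀ m ∈ ML, heckePar N ℓ ℂ ℂ m ∈ ML := by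
    rintro ℓ m ⟨φ, rfl⟩
    exact ⟨heckeLat N ℓ φ, (efm_heckePar_hlCast N ℓ φ).symm⟩
  -- the eigenvector
  have hf0 : f ≠ 0 := by
    intro h0
    have h1 := hf.1
    rw [h0] at h1
    have h2 : qCoeff (⇑(0 : CuspForm (Gamma0 N) 2)) 1 = 0 := by
      have h3 : (⇑(0 : CuspForm (Gamma0 N) 2) : ℍ → ℂ) = 0 := rfl
      rw [h3]
      unfold ModularFormClass.qCoeff
      rw [UpperHalfPlane.qExpansion_zero]
      simp
    rw [h2] at h1
    exact zero_ne_one h1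
  let v : parabolicHoms ℂ (Gamma0 N) ℂ := ⟨periodMap N f, ef_periodMap_mem N f⟩
  have hv0 : v ≠ 0 := fun h => ef_periodMap_ne_zero N hf0 (congrArg Subtype.val h)
  have hvspan : v ∈ Submodule.span ℂ (ML : Set (parabolicHoms ℂ (Gamma0 N) ℂ)) := by
    have h1 : (ML : Set (parabolicHoms ℂ (Gamma0 N) ℂ)) = Set.range (hlCast N) := rfl
    rw [h1, efm_span_range_hlCast]
    exact Submodule.mem_top
  choose c hc1 hc2 using ha
  have hveig : ∀ i : I, heckePar N i.1 ℂ ℂ v = ((c i.1 i.2 : integralClosure ℤ ℂ) : ℂ) • v := by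
    intro i
    refine Subtype.ext ?_
    rw [heckePar_coe]
    show heckeHom N i.1 ℂ (periodMap N f) = ((c i.1 i.2 : integralClosure ℤ ℂ) : ℂ) • periodMap N f
    rw [ef_heckeHom_periodMap N hf, hc1]
  obtain ⟨x, ⟨φ, rfl⟩, hxp, hxa⟩ := reverse_deligneSerre p hp (fun i : I => heckePar N i.1 ℂ ℂ)
    (fun i j => efm_heckePar_commute N i.1 j.1) ML hfg (fun i => hMLstab i.1) v hvspan hv0
    (fun i => c i.1 i.2) hveig 𝔪 hmax hpm (fun i => a i.1) (fun i => hc2 i.1 i.2)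
  refine ⟨φ.1, φ.2, ?_, ?_⟩
  · rintro ⟨y, hy⟩
    have hypar : IsParabolicHom (Gamma0 N) y := by
      refine efm_isParabolicHom_of_smul N hp.ne_zero ?_
      rw [← hy]
      exact φ.2
    refine hxp (hlCast N ⟨y, hypar⟩) ⟨⟨y, hypar⟩, rfl⟩ ?_
    rw [← map_zsmul]
    congr 1
    exact Subtype.ext hy
  · intro ℓ hℓ
    obtain ⟨g, ⟨ψ, rfl⟩, hg⟩ := hxa ⟨ℓ, hℓ⟩
    simp only at hg
    rw [efm_heckePar_hlCast, ← map_zsmul, ← map_sub, ← map_zsmul] at hg
    have h1 := efm_hlCast_injective N hg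
    exact ⟨ψ.1, congrArg Subtype.val h1⟩

/-- **EF2** (steps 6, 7): an eigenvector modulo `p` in a Hecke-stable, `p`-saturated group `K` of
parabolic integral classes of level `M` on which `U_q² = 1` gives a normalised eigenform `g` of
level `M`, congruent to the `a ℓ` (`ℓ ∈ I`) modulo some `𝔪' ∋ p`, with `a_q(g)² = 1`. -/
theorem ef_exists_eigenform (M : ℕ) [NeZero M] (p : ℕ) (hp : p.Prime) (q : Nat.Primes)
    (K : AddSubgroup (Additive (Gamma0 M) →+ ℤ))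
    (hKpar : ∀ z ∈ K, IsParabolicHom (Gamma0 M) z)
    (hKsat : ∀ z : Additive (Gamma0 M) →+ ℤ, (p : ℤ) • z ∈ K → z ∈ K)
    (hKstab : ∀ (ℓ : Nat.Primes), ∀ z ∈ K, heckeHom M ℓ ℤ z ∈ K)
    (hKq : ∀ z ∈ K, heckeHom M q ℤ (heckeHom M q ℤ z) = z)
    (z : Additive (Gamma0 M) →+ ℤ) (hzK : z ∈ K) (hz : ¬ PDiv p z)
    (a : Nat.Primes → ℤ) (I : Set Nat.Primes)
    (hza : ∀ ℓ ∈ I, PDiv p (heckeHom M ℓ ℤ z - a ℓ • z)) :
    ∃ (g : CuspForm (Gamma0 M) 2) (𝔪' : Ideal (integralClosure ℤ ℂ)),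
      g.IsNormalizedEigenform ∧ 𝔪'.IsMaximal ∧ ((p : ℕ) : integralClosure ℤ ℂ) ∈ 𝔪' ∧
      (∀ ℓ ∈ I, ∃ c : integralClosure ℤ ℂ, (c : ℂ) = qCoeff g (ℓ : ℕ) ∧
        c - (a ℓ : integralClosure ℤ ℂ) ∈ 𝔪') ∧
      g.IsNewAt (q : ℕ) := by
  classical
  have hfd : FiniteDimensional ℂ (parabolicHoms ℂ (Gamma0 M) ℂ) := efm_finiteDimensional M
  -- the lattice
  let KL : Submodule ℤ (HLat M) :=
    { carrier := {φ | φ.1 ∈ K}
      add_mem' := fun {φ ψ} hφ hψ => K.add_mem hφ hψ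
      zero_mem' := K.zero_mem
      smul_mem' := fun c φ hφ => K.zsmul_mem hφ c }
  have hKL : ∀ φ : HLat M, φ ∈ KL ↔ φ.1 ∈ K := fun _ => Iff.rfl
  let ML : Submodule ℤ (parabolicHoms ℂ (Gamma0 M) ℂ) := KL.map (hlCast M)
  have hfg : ML.FG := (IsNoetherian.noetherian KL).map _
  have hMLstab : ∀ (ℓ : Nat.Primes), ∀ m ∈ ML, heckePar M ℓ ℂ ℂ m ∈ ML := by
    rintro ℓ m ⟨φ, hφ, rfl⟩
    refine ⟨heckeLat M ℓ φ, ?_, (efm_heckePar_hlCast M ℓ φ).symm⟩
    exact hKstab ℓ φ.1 hφ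
  -- the starting vector
  let z' : HLat M := ⟨z, hKpar z hzK⟩
  have hz'K : z' ∈ KL := hzK
  have hfp : ∀ g ∈ ML, hlCast M z' ≠ (p : ℤ) • g := by
    rintro g ⟨φ, -, rfl⟩ h
    rw [← map_zsmul] at h
    have h1 := efm_hlCast_injective M h
    exact hz ⟨φ.1, congrArg Subtype.val h1⟩
  have ha : ∀ i : I, ∃ g ∈ ML,
      heckePar M i.1 ℂ ℂ (hlCast M z') - a i.1 • hlCast M z' = (p : ℤ) • g := by
    rintro ⟨ℓ, hℓ⟩
    obtain ⟨y, hy⟩ := hza ℓ hℓ
    have hyK : y ∈ K := by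
      refine hKsat y ?_
      rw [← hy]
      exact K.sub_mem (hKstab ℓ z hzK) (K.zsmul_mem hzK _)
    refine ⟨hlCast M ⟨y, hKpar y hyK⟩, ⟨⟨y, hKpar y hyK⟩, hyK, rfl⟩, ?_⟩
    rw [efm_heckePar_hlCast, ← map_zsmul, ← map_sub, ← map_zsmul]
    congr 1
    exact Subtype.ext hy
  obtain ⟨g₀, c, 𝔪', hg₀span, hg₀, hmax, hpm, hc⟩ :=
    deligneSerre_family_p p hp (fun i : I => heckePar M i.1 ℂ ℂ)
      (fun i j => efm_heckePar_commute M i.1 j.1) ML hfg (fun i => hMLstab i.1)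
      (hlCast M z') ⟨z', hz'K, rfl⟩ hfp (fun i => a i.1) ha
  -- the eigenspace inside the span
  let S : Submodule ℂ (parabolicHoms ℂ (Gamma0 M) ℂ) :=
    Submodule.span ℂ (ML : Set (parabolicHoms ℂ (Gamma0 M) ℂ))
  have hSstab : ∀ (ℓ : Nat.Primes), ∀ v ∈ S, heckePar M ℓ ℂ ℂ v ∈ S := by
    intro ℓ v hv
    induction hv using Submodule.span_induction with
    | mem x hx => exact Submodule.subset_span (hMLstab ℓ x hx)
    | zero => rw [map_zero]; exact S.zero_mem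
    | add x y _ _ hx hy => rw [map_add]; exact S.add_mem hx hy
    | smul t x _ hx => rw [map_smul]; exact S.smul_mem t hx
  have hSq : ∀ v ∈ S, heckePar M q ℂ ℂ (heckePar M q ℂ ℂ v) = v := by
    intro v hv
    induction hv using Submodule.span_induction with
    | mem x hx =>
      obtain ⟨φ, hφ, rfl⟩ := hx
      rw [efm_heckePar_hlCast, efm_heckePar_hlCast]
      congr 1
      exact Subtype.ext (hKq φ.1 hφ)
    | zero => rw [map_zero, map_zero]
    | add x y _ _ hx hy => rw [map_add, map_add, hx, hy]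
    | smul t x _ hx => rw [map_smul, map_smul, hx]
  let W : Submodule ℂ (parabolicHoms ℂ (Gamma0 M) ℂ) :=
    S ⊓ ⨅ i : I, LinearMap.ker (heckePar M i.1 ℂ ℂ
      - ((c i : integralClosure ℤ ℂ) : ℂ) • (1 : Module.End ℂ (parabolicHoms ℂ (Gamma0 M) ℂ)))
  have hW : ∀ v, v ∈ W ↔ v ∈ S ∧
      ∀ i : I, heckePar M i.1 ℂ ℂ v = ((c i : integralClosure ℤ ℂ) : ℂ) • v := by
    intro v
    simp only [W, Submodule.mem_inf, Submodule.mem_iInf, LinearMap.mem_ker, LinearMap.sub_apply,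
      LinearMap.smul_apply, Module.End.one_apply, sub_eq_zero]
  have hWne : W ≠ ⊥ := by
    intro h
    have : g₀ ∈ W := (hW g₀).2 ⟨hg₀span, fun i => (hc i).1⟩
    rw [h, Submodule.mem_bot] at this
    exact hg₀ this
  have hWstab : ∀ (ℓ : Nat.Primes), ∀ w ∈ W, heckePar M ℓ ℂ ℂ w ∈ W := by
    intro ℓ w hw
    rw [hW] at hw ⊢
    refine ⟨hSstab ℓ w hw.1, fun i => ?_⟩
    have h1 := (efm_heckePar_commute M i.1 ℓ).eq
    have h2 := congrArg (fun t : Module.End ℂ (parabolicHoms ℂ (Gamma0 M) ℂ) => t w) h1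
    simp only [Module.End.mul_apply] at h2
    rw [h2, hw.2 i, map_smul]
  obtain ⟨v, e, hvW, hv0, hve⟩ := Fermat.Agent.S49lib.exists_common_eigenvector_in
    (fun ℓ : Nat.Primes => heckePar M ℓ ℂ ℂ) (fun ℓ ℓ' => efm_heckePar_commute M ℓ ℓ') W hWne hWstab
  rw [hW] at hvW
  obtain ⟨hvS, hvc⟩ := hvW
  have hv0' : v.1 ≠ 0 := fun h => hv0 (Subtype.ext h)
  obtain ⟨g, hg, hgc⟩ := ef_exists_eigenform_of_eigenvector M v.1 v.2 hv0' e (fun ℓ => by
    have := congrArg Subtype.val (hve ℓ)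
    rw [heckePar_coe] at this
    exact this)
  refine ⟨g, 𝔪', hg, hmax, hpm, ?_, ?_⟩
  · intro ℓ hℓ
    refine ⟨c ⟨ℓ, hℓ⟩, ?_, (hc ⟨ℓ, hℓ⟩).2⟩
    rw [hgc ℓ]
    have h1 : heckePar M ℓ ℂ ℂ v = ((c ⟨ℓ, hℓ⟩ : integralClosure ℤ ℂ) : ℂ) • v := hvc ⟨ℓ, hℓ⟩
    have h2 : heckePar M ℓ ℂ ℂ v = e ℓ • v := hve ℓ
    rw [h2] at h1
    exact (smul_left_injective ℂ hv0 h1).symm
  · show qCoeff (⇑g) (q : ℕ) ^ 2 = 1
    rw [hgc q]
    have h1 := hSq v hvS
    have h2 : heckePar M q ℂ ℂ v = e q • v := hve q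
    rw [h2, map_smul, h2, smul_smul] at h1
    have h3 : (e q * e q) • v = (1 : ℂ) • v := by rw [h1, one_smul]
    rw [sq]
    exact smul_left_injective ℂ hv0 h3

end

end Fermat.Agent.S41lib
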