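/-
Item 78 (S41, level raising), block C (non-Eisenstein), piece C-CYC (helper14):
roots of unity.  `ne_frob_root`: a Frobenius element at `ℓ` raises the roots of unity of order
prime to `ℓ` to the `ℓ`-th power.  `ne_exists_galois_pow`: the cyclotomic character is onto.
Exact signatures of NOTES/S41_C_signatures.lean.txt.
-/
import Mathlib
import Fermat.Prelude.Def_EllipticCurve_FrobeniusTrace
import Fermat.Prelude.Def_FLTPrelim_Ramification
import Fermat.Agent.GalRep.Cyclo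

set_option autoImplicit false

namespace Fermat.Agent.S41lib

open IsLocalRing

/-- a Frobenius element at `ℓ` raises the roots of unity of order prime to `ℓ` to the `ℓ`-th power -/
theorem ne_frob_root (A : ValuationSubring (AlgebraicClosure ℚ)) {ℓ M : ℕ} (hℓ : ℓ.Prime)
    (hA : A.LiesOverPrime ℓ) (hM : Nat.Coprime M ℓ) (τ : AlgebraicClosure ℚ ≃ₐ[ℚ] AlgebraicClosure ℚ)
    (hτ : A.IsFrobeniusAt τ ℓ) (ζ : AlgebraicClosure ℚ) (hζ : ζ ^ M = 1) : τ ζ = ζ ^ ℓ := by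
  have hM0 : M ≠ 0 := by
    rintro rfl
    rw [Nat.coprime_zero_left] at hM
    exact hℓ.one_lt.ne' hM
  obtain ⟨hσ, hact⟩ := hτ
  have h1 : (τ ζ) ^ M = 1 := by rw [← map_pow, hζ, map_one]
  have h2 : (ζ ^ ℓ) ^ M = 1 := by rw [← pow_mul, mul_comm, pow_mul, hζ, one_pow]
  refine GalRep.cyclo_eq_of_residue A hM0 hA hM h1 h2 ?_
  have hmem : ζ ∈ A := GalRep.cyclo_mem_of_pow_eq_one A hM0 hζ
  have h3 := hact (residue A ⟨ζ, hmem⟩)
  rw [← IsLocalRing.ResidueField.residue_smul, ← map_pow] at h3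
  exact h3

/-- the cyclotomic character is onto: every primitive `M`-th root of unity is a conjugate of `ζ` -/
theorem ne_exists_galois_pow {M : ℕ} (hM : 0 < M) (ζ : AlgebraicClosure ℚ) (hζ : IsPrimitiveRoot ζ M)
    (r : ℕ) (hr : Nat.Coprime r M) :
    ∃ σ : AlgebraicClosure ℚ ≃ₐ[ℚ] AlgebraicClosure ℚ, σ ζ = ζ ^ r := by
  have hint : IsIntegral ℤ ζ := hζ.isIntegral hM
  have hint' : IsIntegral ℤ (ζ ^ r) := hint.pow r
  have h1 : minpoly ℤ ζ = minpoly ℤ (ζ ^ r) := hζ.minpoly_eq_pow_coprime hr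
  have h2 : minpoly ℚ (ζ ^ r) = minpoly ℚ ζ := by
    rw [minpoly.isIntegrallyClosed_eq_field_fractions' ℚ hint,
      minpoly.isIntegrallyClosed_eq_field_fractions' ℚ hint', h1]
  have hnorm : Normal ℚ (AlgebraicClosure ℚ) :=
    normal_iff.mpr fun x =>
      ⟨((AlgebraicClosure.isAlgebraic ℚ).isAlgebraic x).isIntegral, IsAlgClosed.splits _⟩
  have h3 := (Normal.minpoly_eq_iff_mem_orbit (F := ℚ) (E := AlgebraicClosure ℚ)).mp h2
  obtain ⟨σ, hσ⟩ := h3
  exact ⟨σ, hσ⟩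

end Fermat.Agent.S41lib
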