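/-
Item 78 (S41, level raising), block C (non-Eisenstein), piece C-FIN (helper14):
the field of definition of `E[p]`.  `ne_exists_field`: a number field `L ∋ ζ` such that the
action of `σ` on `E[p](ℚ̄)` only depends on `σ|_L`.  Exact signature of
NOTES/S41_C_signatures.lean.txt.  Also `ne_finite_tors`: `E[n](ℚ̄)` is finite (`n ≠ 0`).
-/
import Mathlib
import Fermat.Agent.S41lib.NonEisDefs
import Fermat.Agent.Ladder.AddSub
import Fermat.Agent.Ladder.Eval
import Fermat.Agent.Ladder.Book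
import Fermat.Agent.S51lib.TorsionCard

set_option autoImplicit false

open WeierstrassCurve WeierstrassCurve.Affine WeierstrassCurve.Affine.Point

namespace Fermat.Agent.S41lib

/-- The coordinates of a point. -/
def neCoords {E : WeierstrassCurve ℚ} :
    (E.toAffine⁄(AlgebraicClosure ℚ)).Point → Set (AlgebraicClosure ℚ)
  | .zero => ∅
  | .some x y _ => {x, y}

lemma neCoords_finite {E : WeierstrassCurve ℚ} (x : (E.toAffine⁄(AlgebraicClosure ℚ)).Point) :
    (neCoords x).Finite := by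
  rcases x with _ | ⟨x, y, h⟩
  · exact Set.finite_empty
  · exact (Set.finite_singleton y).insert x

lemma ne_smul_eq_of_coords {E : WeierstrassCurve ℚ}
    (σ τ : AlgebraicClosure ℚ ≃ₐ[ℚ] AlgebraicClosure ℚ)
    (x : (E.toAffine⁄(AlgebraicClosure ℚ)).Point) (h : ∀ a ∈ neCoords x, σ a = τ a) :
    σ • x = τ • x := by
  rcases x with _ | ⟨x, y, hxy⟩
  · rfl
  · have hx : σ x = τ x := h x (by simp [neCoords])
    have hy : σ y = τ y := h y (by simp [neCoords])
    rw [algEquiv_smul_def, algEquiv_smul_def, Point.map_some, Point.map_some]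
    congr 1

/-- `E[n](ℚ̄)` is finite for `n ≠ 0`. -/
theorem ne_finite_tors (E : WeierstrassCurve ℚ) [E.IsElliptic] (n : ℕ) (hn : n ≠ 0) :
    Finite (neTors E n) := by
  classical
  have hell : (E.toAffine⁄(AlgebraicClosure ℚ)).IsElliptic :=
    inferInstanceAs (E.map (algebraMap ℚ (AlgebraicClosure ℚ))).IsElliptic
  have hA : Ladder.AddSubSpec (E.toAffine⁄(AlgebraicClosure ℚ)) :=
    Ladder.addSubMap_sym2x (E.toAffine⁄(AlgebraicClosure ℚ))
  have htop := Ladder.top_LG (E.toAffine⁄(AlgebraicClosure ℚ)) n (Nat.one_le_iff_ne_zero.mpr hn)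
  have hf : Ladder.LG (E.toAffine⁄(AlgebraicClosure ℚ)) n ≠ 0 := by
    intro h0
    have h1 := htop.co
    rw [h0, Polynomial.coeff_zero] at h1
    have h2 : ((n : AlgebraicClosure ℚ)) ^ 2 ≠ 0 := pow_ne_zero 2 (by exact_mod_cast hn)
    exact h2 h1.symm
  refine (S51lib.card_torsionBy_le (E.toAffine⁄(AlgebraicClosure ℚ)) n _ hf ?_).1
  rintro (_ | ⟨x, y, h⟩) hP hnP
  · exact absurd rfl hP
  · exact (Ladder.nsmul_eq_zero_iff hA h n).mp hnP

/-- a finite-dimensional field over which the Galois action on `E[p]` and on `ζ` is determined -/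
theorem ne_exists_field (E : WeierstrassCurve ℚ) [E.IsElliptic] (p : ℕ) (hp : p.Prime)
    (ζ : AlgebraicClosure ℚ) (hζ : IsIntegral ℚ ζ) :
    ∃ L : IntermediateField ℚ (AlgebraicClosure ℚ), FiniteDimensional ℚ L ∧ ζ ∈ L ∧
      ∀ σ τ : AlgebraicClosure ℚ ≃ₐ[ℚ] AlgebraicClosure ℚ, (∀ x ∈ L, σ x = τ x) →
        ∀ v : neTors E p, σ • v = τ • v := by
  have _hζ := hζ
  have hfinT : Finite (neTors E p) := ne_finite_tors E p hp.ne_zero
  set S : Set (AlgebraicClosure ℚ) :=
    insert ζ (⋃ x : neTors E p, neCoords (x : (E.toAffine⁄(AlgebraicClosure ℚ)).Point)) with hS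
  have hSfin : S.Finite := (Set.finite_iUnion fun x => neCoords_finite _).insert ζ
  have : Finite S := hSfin.to_subtype
  refine ⟨IntermediateField.adjoin ℚ S,
    IntermediateField.finiteDimensional_adjoin fun a _ =>
      ((AlgebraicClosure.isAlgebraic ℚ).isAlgebraic a).isIntegral,
    IntermediateField.subset_adjoin ℚ S (Set.mem_insert _ _), ?_⟩
  intro σ τ hστ v
  apply Subtype.ext
  show σ • (v : (E.toAffine⁄(AlgebraicClosure ℚ)).Point) = τ • (v : (E.toAffine⁄(AlgebraicClosure ℚ)).Point)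
  apply ne_smul_eq_of_coords
  intro a ha
  exact hστ a (IntermediateField.subset_adjoin ℚ S
    (Set.mem_insert_of_mem _ (Set.mem_iUnion.mpr ⟨v, ha⟩)))

end Fermat.Agent.S41lib
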