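/-
Item 78 (S41), block C "non-Eisenstein", piece C-GT (helper12): pure linear algebra in dimension 2.
* `ne_trivial_of_fixed`: a normal subgroup all of whose elements have a nonzero fixed vector acts
  trivially in an irreducible 2-dimensional representation.
* `ne_exists_eigenvector`: an endomorphism `g` of a nonzero `𝔽_p`-space with `g ^ (p - 1) = 1` has
  an eigenvector.
Exact signatures of NOTES/S41_C_signatures.lean.txt.  No sorry.
-/
import Mathlib

set_option autoImplicit false
set_option linter.style.haveILetI false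

namespace Fermat.Agent.S41lib

open Polynomial

section Eigen

/-- An endomorphism of a nonzero `𝔽_p`-space with `g ^ (p - 1) = 1` has an eigenvector. -/
theorem ne_exists_eigenvector {p : ℕ} [Fact p.Prime] {V : Type*} [AddCommGroup V] [Module (ZMod p) V]
    [Nontrivial V] (g : V →ₗ[ZMod p] V) (hg : g ^ (p - 1) = 1) :
    ∃ (v : V) (c : ZMod p), v ≠ 0 ∧ g v = c • v := by
  classical
  by_contra hcon
  push Not at hcon
  have hinj : ∀ s : Finset (ZMod p),
      Function.Injective (Polynomial.aeval g (∏ a ∈ s, (X - C a) : (ZMod p)[X])) := by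
    intro s
    induction s using Finset.induction_on with
    | empty =>
      simp only [Finset.prod_empty, map_one]
      exact fun x y h => h
    | insert a s ha ih =>
      rw [Finset.prod_insert ha, map_mul]
      have h1 : Function.Injective (Polynomial.aeval g (X - C a : (ZMod p)[X])) := by
        intro x y hxy
        by_contra hne
        refine hcon (x - y) a (sub_ne_zero.mpr hne) ?_
        have h2 : Polynomial.aeval g (X - C a : (ZMod p)[X]) (x - y) = 0 := by
          rw [map_sub, hxy, sub_self]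
        simp only [map_sub, Polynomial.aeval_X, Polynomial.aeval_C, LinearMap.sub_apply,
          Module.algebraMap_end_apply] at h2
        have h3 : g (x - y) = a • (x - y) := by
          rw [map_sub, smul_sub]
          have h4 : g x - g y - (a • x - a • y) = g x - a • x - (g y - a • y) := by abel
          exact sub_eq_zero.mp (h4.trans h2)
        exact h3
      have hmul : ⇑((aeval g) (X - C a : (ZMod p)[X]) * (aeval g) (∏ x ∈ s, (X - C x))) =
          ⇑((aeval g) (X - C a : (ZMod p)[X])) ∘ ⇑((aeval g) (∏ x ∈ s, (X - C x) : (ZMod p)[X])) := rfl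
      rw [hmul]
      exact Function.Injective.comp h1 ih
  have hp1 : 1 < p := (Fact.out : p.Prime).one_lt
  have hcard : Fintype.card (ZMod p) = p := ZMod.card p
  have hroots : (X ^ p - X : (ZMod p)[X]).roots = Finset.univ.val := by
    have := FiniteField.roots_X_pow_card_sub_X (ZMod p)
    rwa [hcard] at this
  have hmonic : (X ^ p - X : (ZMod p)[X]).Monic := by
    apply Polynomial.monic_X_pow_sub
    rw [Polynomial.degree_X]
    exact_mod_cast hp1
  have hdeg : (X ^ p - X : (ZMod p)[X]).natDegree = p :=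
    FiniteField.X_pow_card_sub_X_natDegree_eq (ZMod p) hp1
  have hprod : (∏ a : ZMod p, (X - C a) : (ZMod p)[X]) = X ^ p - X := by
    have h := Polynomial.prod_multiset_X_sub_C_of_monic_of_roots_card_eq hmonic
      (by rw [hroots, hdeg]; simp [hcard])
    rw [hroots] at h
    rw [← h]
    rfl
  have h0 : Polynomial.aeval g (X ^ p - X : (ZMod p)[X]) = 0 := by
    have hpp : g ^ p = g := by
      have h1 : g ^ p = g ^ (p - 1) * g := by
        rw [← pow_succ]
        congr 1
        omega
      rw [h1, hg, one_mul]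
    rw [map_sub, map_pow, Polynomial.aeval_X, hpp]
    exact sub_self g
  have hfin := hinj Finset.univ
  rw [hprod, h0] at hfin
  obtain ⟨v, hv⟩ := exists_ne (0 : V)
  exact hv (hfin (by simp))

end Eigen

section Fix

variable {F : Type*} [Field F] {V : Type*} [AddCommGroup V] [Module F V]
variable {G : Type*} [Group G]

/-- the common fixed vectors of a subgroup -/
def neFix (ρ : G →* (V →ₗ[F] V)) (K : Subgroup G) : Submodule F V where
  carrier := {v | ∀ k ∈ K, ρ k v = v}
  add_mem' := fun {a b} ha hb k hk => by rw [map_add, ha k hk, hb k hk]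
  zero_mem' := fun k _ => map_zero _
  smul_mem' := fun c v hv k hk => by rw [map_smul, hv k hk]

theorem mem_neFix (ρ : G →* (V →ₗ[F] V)) (K : Subgroup G) (v : V) :
    v ∈ neFix ρ K ↔ ∀ k ∈ K, ρ k v = v := Iff.rfl

theorem ne_rho_mul_apply (ρ : G →* (V →ₗ[F] V)) (a b : G) (v : V) :
    ρ (a * b) v = ρ a (ρ b v) := by
  rw [map_mul]
  rfl

/-- the fixed space of a normal subgroup is stable under the whole group -/
theorem neFix_stable (ρ : G →* (V →ₗ[F] V)) (K : Subgroup G) [hK : K.Normal] (g : G) {v : V}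
    (hv : v ∈ neFix ρ K) : ρ g v ∈ neFix ρ K := by
  intro k hk
  have hconj : g⁻¹ * k * g ∈ K := by
    have := hK.conj_mem k hk g⁻¹
    simpa using this
  have h1 : ρ k (ρ g v) = ρ g (ρ (g⁻¹ * k * g) v) := by
    rw [← ne_rho_mul_apply, ← ne_rho_mul_apply]
    congr 2
    group
  rw [h1, hv _ hconj]

/-- a normal subgroup with a nonzero common fixed vector acts trivially (irreducible case) -/
theorem ne_trivial_of_mem_neFix (ρ : G →* (V →ₗ[F] V))
    (hirr : ∀ W : Submodule F V, (∀ g : G, ∀ w ∈ W, ρ g w ∈ W) → W = ⊥ ∨ W = ⊤)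
    (K : Subgroup G) [K.Normal] {v : V} (hv0 : v ≠ 0) (hv : v ∈ neFix ρ K) :
    ∀ k ∈ K, ρ k = 1 := by
  rcases hirr (neFix ρ K) (fun g w hw => neFix_stable ρ K g hw) with h | h
  · rw [h] at hv
    exact absurd ((Submodule.mem_bot F).mp hv) hv0
  · intro k hk
    ext w
    have hw : w ∈ neFix ρ K := by rw [h]; exact Submodule.mem_top
    exact hw k hk

/-- in dimension 2 every vector is a combination of two independent ones -/
theorem ne_exists_repr (hV : Module.finrank F V = 2) {e u : V}
    (hli : LinearIndependent F ![e, u]) (v : V) : ∃ x y : F, v = x • e + y • u := by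
  haveI : FiniteDimensional F V := FiniteDimensional.of_finrank_eq_succ hV
  let b : Module.Basis (Fin 2) F V :=
    basisOfLinearIndependentOfCardEqFinrank hli (by simp [hV])
  have hb : ⇑b = ![e, u] := coe_basisOfLinearIndependentOfCardEqFinrank hli _
  refine ⟨b.repr v 0, b.repr v 1, ?_⟩
  have h := b.sum_repr v
  rw [Fin.sum_univ_two, hb] at h
  simpa using h.symm

/-- **Lemma A**: an endomorphism of a plane fixing `e ≠ 0` is `det • 1` modulo `e`. -/
theorem ne_apply_eq_det_smul_add (hV : Module.finrank F V = 2) (f : V →ₗ[F] V) {e : V}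
    (he : e ≠ 0) (hfe : f e = e) (v : V) : ∃ c : F, f v = (LinearMap.det f) • v + c • e := by
  classical
  haveI : FiniteDimensional F V := FiniteDimensional.of_finrank_eq_succ hV
  obtain ⟨w, hw⟩ := exists_linearIndependent_pair_of_one_lt_finrank
    (R := F) (M := V) (by rw [hV]; norm_num) he
  let b : Module.Basis (Fin 2) F V :=
    basisOfLinearIndependentOfCardEqFinrank hw (by simp [hV])
  have hb : ⇑b = ![e, w] := coe_basisOfLinearIndependentOfCardEqFinrank hw _
  have hb0 : b 0 = e := by rw [hb]; rfl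
  have hb1 : b 1 = w := by rw [hb]; rfl
  have hdet : LinearMap.det f = (LinearMap.toMatrix b b f).det := (LinearMap.det_toMatrix b f).symm
  have h00 : LinearMap.toMatrix b b f 0 0 = 1 := by
    rw [LinearMap.toMatrix_apply, hb0, hfe, ← hb0, Module.Basis.repr_self]
    simp
  have h10 : LinearMap.toMatrix b b f 1 0 = 0 := by
    rw [LinearMap.toMatrix_apply, hb0, hfe, ← hb0, Module.Basis.repr_self]
    simp
  rw [Matrix.det_fin_two, h00, h10, one_mul, mul_zero, sub_zero] at hdet
  have hfw : f w = (LinearMap.toMatrix b b f 0 1) • e + (LinearMap.det f) • w := by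
    have h := b.sum_repr (f w)
    rw [Fin.sum_univ_two, hb0, hb1] at h
    rw [hdet, LinearMap.toMatrix_apply, LinearMap.toMatrix_apply, hb1]
    exact h.symm
  obtain ⟨x, y, hxy⟩ := ne_exists_repr hV hw v
  refine ⟨x - LinearMap.det f * x + y * LinearMap.toMatrix b b f 0 1, ?_⟩
  rw [hxy, map_add, map_smul, map_smul, hfe, hfw]
  module

/-- the fixed vectors of a non-identity endomorphism of a plane fixing `e ≠ 0` are multiples of
`e` -/
theorem ne_fixed_eq_smul (hV : Module.finrank F V = 2) (f : V →ₗ[F] V) {e : V}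
    (he : e ≠ 0) (hfe : f e = e) (hf : f ≠ 1) {u : V} (hu : f u = u) : ∃ r : F, u = r • e := by
  by_contra hcon
  push Not at hcon
  have hli : LinearIndependent F ![e, u] := by
    rw [LinearIndependent.pair_iff' he]
    intro a ha
    exact hcon a ha.symm
  apply hf
  ext v
  obtain ⟨x, y, hxy⟩ := ne_exists_repr hV hli v
  rw [hxy, map_add, map_smul, map_smul, hfe, hu]
  rfl

/-- **Lemma B**: two unipotent endomorphisms of a plane with unipotent product share the fixed
line. -/
theorem ne_unipotent_pair (hV : Module.finrank F V = 2) (f0 f : V →ₗ[F] V) {e : V} (he : e ≠ 0)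
    (hf0e : f0 e = e) (hdet0 : LinearMap.det f0 = 1) (hf0 : f0 ≠ 1)
    (hdet : LinearMap.det f = 1) (hfix : ∃ v, v ≠ 0 ∧ f v = v)
    (hfix2 : ∃ u, u ≠ 0 ∧ f (f0 u) = u) : f e = e := by
  obtain ⟨e', he', hfe'⟩ := hfix
  by_cases hli : LinearIndependent F ![e, e']
  · obtain ⟨u, hu, hfu⟩ := hfix2
    obtain ⟨c0, hc0⟩ := ne_apply_eq_det_smul_add hV f0 he hf0e u
    obtain ⟨c', hc'⟩ := ne_apply_eq_det_smul_add hV f he' hfe' (f0 u)
    rw [hdet0, one_smul] at hc0
    rw [hdet, one_smul, hfu] at hc'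
    have hz : c0 • e + c' • e' = 0 := by
      have h1 : u = u + c0 • e + c' • e' := by
        conv_lhs => rw [hc']
        rw [hc0]
      have h2 : u + (c0 • e + c' • e') = u + 0 := by
        rw [add_zero, ← add_assoc]
        exact h1.symm
      exact add_left_cancel h2
    have hc00 : c0 = 0 := ((LinearIndependent.pair_iff.mp hli) c0 c' hz).1
    rw [hc00, zero_smul, add_zero] at hc0
    obtain ⟨r, hr⟩ := ne_fixed_eq_smul hV f0 he hf0e hf0 hc0
    have hr0 : r ≠ 0 := by
      intro h0
      rw [h0, zero_smul] at hr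
      exact hu hr
    rw [hc0, hr, map_smul] at hfu
    exact smul_right_injective V hr0 hfu
  · rw [LinearIndependent.pair_iff' he] at hli
    push Not at hli
    obtain ⟨r, hr⟩ := hli
    have hr0 : r ≠ 0 := by
      intro h0
      rw [h0, zero_smul] at hr
      exact he' hr.symm
    rw [← hr, map_smul] at hfe'
    exact smul_right_injective V hr0 hfe'

end Fix

/-- A normal subgroup all of whose elements have a nonzero fixed vector acts trivially
(2-dimensional irreducible representation). -/
theorem ne_trivial_of_fixed {F : Type*} [Field F] {V : Type*} [AddCommGroup V] [Module F V]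
    (hV : Module.finrank F V = 2) {G : Type*} [Group G] (ρ : G →* (V →ₗ[F] V))
    (hirr : ∀ W : Submodule F V, (∀ g : G, ∀ w ∈ W, ρ g w ∈ W) → W = ⊥ ∨ W = ⊤)
    (H : Subgroup G) [H.Normal] (hfix : ∀ h ∈ H, ∃ v : V, v ≠ 0 ∧ ρ h v = v) :
    ∀ h ∈ H, ρ h = 1 := by
  classical
  -- the determinant character and the unipotent normal subgroup `N`
  let dρ : G →* F := LinearMap.det.comp ρ
  have hdρ : ∀ g, dρ g = LinearMap.det (ρ g) := fun g => rfl
  let N : Subgroup G := H ⊓ dρ.ker
  haveI hNn : N.Normal := Subgroup.normal_inf_normal H dρ.ker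
  -- Step 1: `N` acts trivially
  have hN : ∀ n ∈ N, ρ n = 1 := by
    by_contra hcon
    push Not at hcon
    obtain ⟨n0, hn0, hne⟩ := hcon
    obtain ⟨e, he, hfe⟩ := hfix n0 hn0.1
    have hdet0 : LinearMap.det (ρ n0) = 1 := by
      rw [← hdρ]
      exact MonoidHom.mem_ker.mp hn0.2
    have hcommon : e ∈ neFix ρ N := by
      intro n hn
      have hdet : LinearMap.det (ρ n) = 1 := by
        rw [← hdρ]
        exact MonoidHom.mem_ker.mp hn.2
      refine ne_unipotent_pair hV (ρ n0) (ρ n) he hfe hdet0 hne hdet (hfix n hn.1) ?_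
      obtain ⟨u, hu, hfu⟩ := hfix (n * n0) (H.mul_mem hn.1 hn0.1)
      exact ⟨u, hu, by rw [← ne_rho_mul_apply]; exact hfu⟩
    exact hne (ne_trivial_of_mem_neFix ρ hirr N he hcommon n0 hn0)
  -- Step 2: `ρ(H)` is commutative
  have hcomm : ∀ h ∈ H, ∀ h' ∈ H, ρ (h * h') = ρ (h' * h) := by
    intro h hh h' hh'
    have hmem : h * h' * h⁻¹ * h'⁻¹ ∈ N := by
      refine Subgroup.mem_inf.mpr
        ⟨H.mul_mem (H.mul_mem (H.mul_mem hh hh') (H.inv_mem hh)) (H.inv_mem hh'), ?_⟩
      rw [MonoidHom.mem_ker]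
      have h1 : dρ h * dρ h⁻¹ = 1 := by rw [← map_mul, mul_inv_cancel, map_one]
      have h2 : dρ h' * dρ h'⁻¹ = 1 := by rw [← map_mul, mul_inv_cancel, map_one]
      calc dρ (h * h' * h⁻¹ * h'⁻¹) = dρ h * dρ h' * dρ h⁻¹ * dρ h'⁻¹ := by
            rw [map_mul, map_mul, map_mul]
        _ = (dρ h * dρ h⁻¹) * (dρ h' * dρ h'⁻¹) := by ring
        _ = 1 := by rw [h1, h2, one_mul]
    have h1 := hN _ hmem
    have e1 : h * h' = (h * h' * h⁻¹ * h'⁻¹) * (h' * h) := by group
    conv_lhs => rw [e1, map_mul, h1, one_mul]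
  have hcomm' : ∀ h ∈ H, ∀ h' ∈ H, ∀ v : V, ρ h (ρ h' v) = ρ h' (ρ h v) := by
    intro h hh h' hh' v
    rw [← ne_rho_mul_apply, ← ne_rho_mul_apply, hcomm h hh h' hh']
  -- Step 3
  by_contra hcon
  push Not at hcon
  obtain ⟨h1, hh1, hne1⟩ := hcon
  obtain ⟨e1, he1, hfe1⟩ := hfix h1 hh1
  have hd1 : LinearMap.det (ρ h1) ≠ 1 := fun hd =>
    hne1 (hN h1 ⟨hh1, MonoidHom.mem_ker.mpr ((hdρ h1).trans hd)⟩)
  generalize hd1def : LinearMap.det (ρ h1) = d1 at hd1
  -- the second eigenvector
  obtain ⟨v0, hv0⟩ : ∃ v0, ρ h1 v0 ≠ v0 := by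
    by_contra hall
    push Not at hall
    exact hne1 (LinearMap.ext hall)
  obtain ⟨e2, he2def⟩ : ∃ e2, e2 = ρ h1 v0 - v0 := ⟨_, rfl⟩
  have he2 : e2 ≠ 0 := by rw [he2def]; exact sub_ne_zero.mpr hv0
  have hfe2 : ρ h1 e2 = d1 • e2 := by
    obtain ⟨c, hc⟩ := ne_apply_eq_det_smul_add hV (ρ h1) he1 hfe1 v0
    rw [hd1def] at hc
    have h2 : ρ h1 (ρ h1 v0) = d1 • ρ h1 v0 + c • e1 := by
      conv_lhs => rw [hc]
      rw [map_add, map_smul, map_smul, hfe1]
    rw [he2def, map_sub, h2, smul_sub]
    have h4 : c • e1 = (ρ h1) v0 - d1 • v0 := by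
      rw [hc]
      abel
    rw [h4]
    abel
  have hsub : ∀ t : F, t • d1 • e2 - t • e2 = 0 → t = 0 := by
    intro t ht
    have h3 : (t * (d1 - 1)) • e2 = 0 := by
      rw [← ht]
      module
    rcases smul_eq_zero.mp h3 with h | h
    · rcases mul_eq_zero.mp h with h | h
      · exact h
      · exact absurd (sub_eq_zero.mp h) hd1
    · exact absurd h he2
  have hsub1 : ∀ t : F, t • e1 - t • d1 • e1 = 0 → t = 0 := by
    intro t ht
    have h3 : (t * (1 - d1)) • e1 = 0 := by
      rw [← ht]
      module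
    rcases smul_eq_zero.mp h3 with h | h
    · rcases mul_eq_zero.mp h with h | h
      · exact h
      · exact absurd (sub_eq_zero.mp h).symm hd1
    · exact absurd h he1
  have hli : LinearIndependent F ![e1, e2] := by
    rw [LinearIndependent.pair_iff]
    intro s t hst
    have h2 := congrArg (ρ h1) hst
    rw [map_add, map_smul, map_smul, hfe1, hfe2, map_zero] at h2
    have ht : t = 0 := by
      apply hsub
      have : t • d1 • e2 - t • e2 = (s • e1 + t • d1 • e2) - (s • e1 + t • e2) := by abel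
      rw [this, h2, hst, sub_zero]
    rw [ht, zero_smul, add_zero] at hst
    exact ⟨(smul_eq_zero.mp hst).resolve_right he1, ht⟩
  -- every element of `H` preserves the two eigenlines
  have hline1 : ∀ h ∈ H, ∃ a : F, ρ h e1 = a • e1 := by
    intro h hh
    obtain ⟨x, y, hxy⟩ := ne_exists_repr hV hli (ρ h e1)
    have h2 : ρ h1 (ρ h e1) = ρ h e1 := by rw [hcomm' h1 hh1 h hh, hfe1]
    rw [hxy, map_add, map_smul, map_smul, hfe1, hfe2] at h2
    have hy : y = 0 := by
      apply hsub
      have : y • d1 • e2 - y • e2 = (x • e1 + y • d1 • e2) - (x • e1 + y • e2) := by abel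
      rw [this, h2, sub_self]
    exact ⟨x, by rw [hxy, hy, zero_smul, add_zero]⟩
  have hline2 : ∀ h ∈ H, ∃ b : F, ρ h e2 = b • e2 := by
    intro h hh
    obtain ⟨x, y, hxy⟩ := ne_exists_repr hV hli (ρ h e2)
    have h2 : ρ h1 (ρ h e2) = d1 • ρ h e2 := by rw [hcomm' h1 hh1 h hh, hfe2, map_smul]
    rw [hxy, map_add, map_smul, map_smul, hfe1, hfe2, smul_add] at h2
    have hx : x = 0 := by
      apply hsub1
      have : x • e1 - x • d1 • e1 = (x • e1 + y • d1 • e2) - (d1 • x • e1 + d1 • y • e2) := by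
        module
      rw [this, h2, sub_self]
    exact ⟨y, by rw [hxy, hx, zero_smul, zero_add]⟩
  -- every element of `H` fixes `e1` or `e2`
  have hor : ∀ h ∈ H, ρ h e1 = e1 ∨ ρ h e2 = e2 := by
    intro h hh
    obtain ⟨a, ha⟩ := hline1 h hh
    obtain ⟨b, hb⟩ := hline2 h hh
    obtain ⟨u, hu, hfu⟩ := hfix h hh
    obtain ⟨x, y, hxy⟩ := ne_exists_repr hV hli u
    rw [hxy, map_add, map_smul, map_smul, ha, hb] at hfu
    have hz : (x * (a - 1)) • e1 + (y * (b - 1)) • e2 = 0 := by
      have : (x * (a - 1)) • e1 + (y * (b - 1)) • e2 =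
          (x • a • e1 + y • b • e2) - (x • e1 + y • e2) := by module
      rw [this, hfu, sub_self]
    obtain ⟨hxa, hyb⟩ := (LinearIndependent.pair_iff.mp hli) _ _ hz
    by_cases hx : x = 0
    · have hy : y ≠ 0 := by
        intro hy
        apply hu
        rw [hxy, hx, hy, zero_smul, zero_smul, add_zero]
      right
      have hb1 : b = 1 := sub_eq_zero.mp ((mul_eq_zero.mp hyb).resolve_left hy)
      rw [hb, hb1, one_smul]
    · left
      have ha1 : a = 1 := sub_eq_zero.mp ((mul_eq_zero.mp hxa).resolve_left hx)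
      rw [ha, ha1, one_smul]
  -- a group is not the union of two proper subgroups
  by_cases hall1 : ∀ h ∈ H, ρ h e1 = e1
  · exact hne1 (ne_trivial_of_mem_neFix ρ hirr H he1 hall1 h1 hh1)
  by_cases hall2 : ∀ h ∈ H, ρ h e2 = e2
  · exact hne1 (ne_trivial_of_mem_neFix ρ hirr H he2 hall2 h1 hh1)
  push Not at hall1 hall2
  obtain ⟨a, ha, hae1⟩ := hall1
  obtain ⟨b, hb, hbe2⟩ := hall2
  have hae2 : ρ a e2 = e2 := (hor a ha).resolve_left hae1
  have hbe1 : ρ b e1 = e1 := (hor b hb).resolve_right hbe2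
  rcases hor (a * b) (H.mul_mem ha hb) with h | h
  · rw [ne_rho_mul_apply, hbe1] at h
    exact hae1 h
  · rw [ne_rho_mul_apply, hcomm' a ha b hb, hae2] at h
    exact hbe2 h

end Fermat.Agent.S41lib
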