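/-
Item 78 (S41, level raising), block C (non-Eisenstein), piece C-MAIN (helper3):
`nonEisenstein`: if the mod-`p` representation of `E` is irreducible (`p` odd), then for every
`D > 0` and every finite set `S` of primes there is a good prime `ℓ ∉ S`, `ℓ ≠ p`, with
`ℓ ≡ 1 mod D p` or `p ∣ ℓ + 1`, and `p ∤ ℓ + 1 - a_ℓ`.
-/
import Mathlib
import Fermat.Agent.S41lib.NonEisDefs
import Fermat.Agent.S41lib.NonEisGT
import Fermat.Agent.S41lib.NonEisCyc
import Fermat.Agent.S41lib.NonEisTrans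
import Fermat.Agent.S41lib.NonEisFin
import Fermat.Agent.S41lib.NonEisRed
import Fermat.Agent.S41lib.NonEisCard
import Fermat.Agent.Cheb.WeakQbar

set_option autoImplicit false

open WeierstrassCurve WeierstrassCurve.Affine WeierstrassCurve.Affine.Point

namespace Fermat.Agent.S41lib

section Abstract

/-- The abstract group-theoretic core of the non-Eisenstein argument: an irreducible
two-dimensional representation over `𝔽_p` cannot have a nonzero fixed vector for every element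
of `N1` (a normal subgroup containing all commutators) and for every element of `M1` (the
elements of "cyclotomic character `-1`"). -/
theorem nem_abstract {G : Type*} [Group G] {p : ℕ} [Fact p.Prime] {V : Type*} [AddCommGroup V]
    [Module (ZMod p) V] (hV : Module.finrank (ZMod p) V = 2)
    (ρ : G →* (V →ₗ[ZMod p] V))
    (hirr : ∀ W : Submodule (ZMod p) V, (∀ g : G, ∀ w ∈ W, ρ g w ∈ W) → W = ⊥ ∨ W = ⊤)
    (N1 : Subgroup G) [N1.Normal] (P1 M1 : Set G)
    (hcomm : ∀ g h : G, (h * g)⁻¹ * (g * h) ∈ N1)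
    (hPM : ∀ h ∈ P1, ∀ s ∈ M1, h * s ∈ M1)
    (hM1 : ∃ s0, s0 ∈ M1)
    (hpow : ∀ g : G, g ^ (p - 1) ∈ P1)
    (ha : ∀ g ∈ N1, ∃ v : V, v ≠ 0 ∧ ρ g v = v)
    (hb : ∀ g ∈ M1, ∃ v : V, v ≠ 0 ∧ ρ g v = v) : False := by
  classical
  have hfin : Module.Finite (ZMod p) V := Module.finite_of_finrank_eq_succ hV
  have hnt : Nontrivial V := by
    refine Module.nontrivial_of_finrank_pos (R := ZMod p) ?_
    rw [hV]; norm_num
  -- `ρ` is trivial on `N1`
  have htriv : ∀ h ∈ N1, ρ h = 1 := ne_trivial_of_fixed hV ρ hirr N1 ha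
  -- hence the image of `ρ` is commutative
  have hcom : ∀ g h : G, ρ g * ρ h = ρ h * ρ g := by
    intro g h
    have h1 := htriv _ (hcomm g h)
    have h2 : ρ (g * h) = ρ (h * g) * ρ ((h * g)⁻¹ * (g * h)) := by
      rw [← map_mul, mul_inv_cancel_left]
    rw [h1, mul_one] at h2
    rw [← map_mul, ← map_mul, h2]
  -- an eigenspace of `ρ s` is stable, hence everything if nonzero
  have heig : ∀ (s : G) (c : ZMod p), (∃ v : V, v ≠ 0 ∧ ρ s v = c • v) →
      ∀ w : V, ρ s w = c • w := by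
    intro s c ⟨v, hv0, hv⟩
    let W : Submodule (ZMod p) V := LinearMap.ker (ρ s - c • LinearMap.id)
    have hmemW : ∀ w : V, w ∈ W ↔ ρ s w = c • w := by
      intro w
      simp only [W, LinearMap.mem_ker, LinearMap.sub_apply, LinearMap.smul_apply,
        LinearMap.id_apply, sub_eq_zero]
    have hstab : ∀ g : G, ∀ w ∈ W, ρ g w ∈ W := by
      intro g w hw
      rw [hmemW] at hw ⊢
      have h1 : ρ s (ρ g w) = ρ g (ρ s w) := by
        have := congrArg (fun f : V →ₗ[ZMod p] V => f w) (hcom s g)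
        simpa using this
      rw [h1, hw, map_smul]
    rcases hirr W hstab with h | h
    · exfalso
      have : v ∈ W := (hmemW v).mpr hv
      rw [h, Submodule.mem_bot] at this
      exact hv0 this
    · intro w
      exact (hmemW w).mp (by rw [h]; exact Submodule.mem_top)
  -- elements of `M1` act trivially
  have hM1triv : ∀ s ∈ M1, ρ s = 1 := by
    intro s hs
    obtain ⟨v, hv0, hv⟩ := hb s hs
    have := heig s 1 ⟨v, hv0, by rw [one_smul]; exact hv⟩
    ext w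
    rw [this w, one_smul]; rfl
  -- elements of `P1` act trivially
  obtain ⟨s0, hs0⟩ := hM1
  have hP1triv : ∀ h ∈ P1, ρ h = 1 := by
    intro h hh
    have h1 := hM1triv _ (hPM h hh s0 hs0)
    rw [map_mul, hM1triv s0 hs0, mul_one] at h1
    exact h1
  -- every element acts by a scalar
  have hscal : ∀ g : G, ∃ c : ZMod p, ∀ w : V, ρ g w = c • w := by
    intro g
    have h1 : (ρ g) ^ (p - 1) = 1 := by
      rw [← map_pow]; exact hP1triv _ (hpow g)
    obtain ⟨v, c, hv0, hv⟩ := ne_exists_eigenvector (ρ g) h1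
    exact ⟨c, heig g c ⟨v, hv0, hv⟩⟩
  -- a line is stable
  obtain ⟨v0, hv0⟩ := exists_ne (0 : V)
  have hstab : ∀ g : G, ∀ w ∈ Submodule.span (ZMod p) {v0}, ρ g w ∈ Submodule.span (ZMod p) {v0} := by
    intro g w hw
    obtain ⟨c, hc⟩ := hscal g
    rw [hc w]
    exact Submodule.smul_mem _ c hw
  rcases hirr _ hstab with h | h
  · rw [Submodule.span_singleton_eq_bot] at h
    exact hv0 h
  · have h1 : Module.finrank (ZMod p) (Submodule.span (ZMod p) {v0}) = 1 :=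
      finrank_span_singleton hv0
    rw [h, finrank_top, hV] at h1
    norm_num at h1

end Abstract

section Roots

/-- the absolute Galois group of `ℚ` -/
abbrev nemGQ : Type := AlgebraicClosure ℚ ≃ₐ[ℚ] AlgebraicClosure ℚ

/-- congruent exponents give equal powers of a root of unity -/
lemma nem_pow_eq_of_modEq {ζ : AlgebraicClosure ℚ} {M : ℕ} (hζ : ζ ^ M = 1) {i j : ℕ}
    (h : i ≡ j [MOD M]) : ζ ^ i = ζ ^ j := by
  rw [← Nat.mod_add_div i M, ← Nat.mod_add_div j M, pow_add, pow_add, pow_mul, pow_mul, hζ,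
    one_pow, one_pow, mul_one, mul_one, h]

/-- equal powers of a primitive root of unity have congruent exponents -/
lemma nem_modEq_of_pow_eq {ζ : AlgebraicClosure ℚ} {M : ℕ} (hM : 0 < M)
    (hζ : IsPrimitiveRoot ζ M) {i j : ℕ} (h : ζ ^ i = ζ ^ j) : i ≡ j [MOD M] := by
  have h1 : ζ ^ (i % M) = ζ ^ (j % M) := by
    rw [nem_pow_eq_of_modEq hζ.pow_eq_one (Nat.mod_modEq i M),
      nem_pow_eq_of_modEq hζ.pow_eq_one (Nat.mod_modEq j M), h]
  exact hζ.pow_inj (Nat.mod_lt _ hM) (Nat.mod_lt _ hM) h1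

/-- every Galois element raises a primitive root of unity to a power -/
lemma nem_gal_eq_pow {M : ℕ} (hM : 0 < M) {ζ : AlgebraicClosure ℚ} (hζ : IsPrimitiveRoot ζ M)
    (g : nemGQ) : ∃ a : ℕ, g ζ = ζ ^ a := by
  have : NeZero M := ⟨hM.ne'⟩
  have h1 : (g ζ) ^ M = 1 := by rw [← map_pow, hζ.pow_eq_one, map_one]
  obtain ⟨i, -, hi⟩ := hζ.eq_pow_of_pow_eq_one h1
  exact ⟨i, hi.symm⟩

/-- the Galois action on the roots of unity is commutative -/
lemma nem_gal_comm {M : ℕ} (hM : 0 < M) {ζ : AlgebraicClosure ℚ} (hζ : IsPrimitiveRoot ζ M)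
    (g h : nemGQ) : g (h ζ) = h (g ζ) := by
  obtain ⟨a, ha⟩ := nem_gal_eq_pow hM hζ g
  obtain ⟨b, hb⟩ := nem_gal_eq_pow hM hζ h
  rw [ha, hb, map_pow, map_pow, ha, hb, ← pow_mul, ← pow_mul, mul_comm]

/-- the subgroup of the Galois elements fixing `ζ` -/
def nemStab (ζ : AlgebraicClosure ℚ) : Subgroup nemGQ where
  carrier := {g | g ζ = ζ}
  one_mem' := rfl
  mul_mem' := by
    intro a b ha hb
    show a (b ζ) = ζ
    rw [hb, ha]
  inv_mem' := by
    intro a ha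
    show a⁻¹ ζ = ζ
    calc a⁻¹ ζ = a⁻¹ (a ζ) := by rw [ha]
      _ = ζ := a.symm_apply_apply ζ

lemma mem_nemStab {ζ : AlgebraicClosure ℚ} {g : nemGQ} : g ∈ nemStab ζ ↔ g ζ = ζ := Iff.rfl

lemma nemStab_normal {M : ℕ} (hM : 0 < M) {ζ : AlgebraicClosure ℚ} (hζ : IsPrimitiveRoot ζ M) :
    (nemStab ζ).Normal := by
  refine ⟨fun n hn g => ?_⟩
  rw [mem_nemStab] at hn ⊢
  show g (n (g⁻¹ ζ)) = ζ
  rw [nem_gal_comm hM hζ n g⁻¹, hn]
  exact g.apply_symm_apply ζ

lemma nemStab_comm {M : ℕ} (hM : 0 < M) {ζ : AlgebraicClosure ℚ} (hζ : IsPrimitiveRoot ζ M)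
    (g h : nemGQ) : (h * g)⁻¹ * (g * h) ∈ nemStab ζ := by
  rw [mem_nemStab]
  show (h * g)⁻¹ (g (h ζ)) = ζ
  rw [nem_gal_comm hM hζ g h]
  exact (h * g).symm_apply_apply ζ

/-- powers of an element fixing `x` fix `x` -/
lemma nem_pow_fix (g : nemGQ) (x : AlgebraicClosure ℚ) (h : g x = x) (k : ℕ) : (g ^ k) x = x := by
  induction k with
  | zero => rfl
  | succ k ih =>
    rw [pow_succ]
    show (g ^ k) (g x) = x
    rw [h, ih]

/-- powers of an element inverting `x` fix or invert `x` -/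
lemma nem_pow_inv (g : nemGQ) (x : AlgebraicClosure ℚ) (h : g x = x⁻¹) (k : ℕ) :
    (g ^ k) x = x ∨ (g ^ k) x = x⁻¹ := by
  induction k with
  | zero => exact Or.inl rfl
  | succ k ih =>
    rw [pow_succ]
    show (g ^ k) (g x) = x ∨ (g ^ k) (g x) = x⁻¹
    rw [h, map_inv₀]
    rcases ih with ih | ih
    · right; rw [ih]
    · left; rw [ih, inv_inv]

/-- `g ^ (p - 1)` fixes the `p`-th roots of unity -/
lemma nem_pow_pred_fix {p : ℕ} (hp : p.Prime) {ζ : AlgebraicClosure ℚ} (hζ : IsPrimitiveRoot ζ p)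
    (g : nemGQ) : (g ^ (p - 1)) ζ = ζ := by
  obtain ⟨a, ha⟩ := nem_gal_eq_pow hp.pos hζ g
  have hpow : ∀ k : ℕ, (g ^ k) ζ = ζ ^ (a ^ k) := by
    intro k
    induction k with
    | zero => simp
    | succ k ih =>
      rw [pow_succ]
      show (g ^ k) (g ζ) = _
      rw [ha, map_pow, ih, ← pow_mul, ← pow_succ]
  rw [hpow]
  -- `a` is prime to `p`
  have hap : ¬ p ∣ a := by
    intro hdvd
    obtain ⟨c, rfl⟩ := hdvd
    rw [pow_mul, hζ.pow_eq_one, one_pow] at ha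
    have h1 : ζ = 1 := by
      have := congrArg g.symm ha
      rwa [g.symm_apply_apply, map_one] at this
    exact hζ.ne_one hp.one_lt h1
  have h1 : a ^ (p - 1) ≡ 1 [MOD p] := by
    have hcop : Nat.Coprime a p := ((Nat.Prime.coprime_iff_not_dvd hp).mpr hap).symm
    have := Nat.ModEq.pow_totient hcop
    rwa [Nat.totient_prime hp] at this
  rw [nem_pow_eq_of_modEq hζ.pow_eq_one h1, pow_one]

end Roots

section Rep

/-- The Galois action on `E[p](ℚ̄)` as a representation. -/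
noncomputable def nemRho (E : WeierstrassCurve ℚ) (p : ℕ) :
    nemGQ →* (neTors E p →ₗ[ZMod p] neTors E p) where
  toFun σ := (DistribSMul.toAddMonoidHom (neTors E p) σ).toZModLinearMap p
  map_one' := by
    apply LinearMap.ext
    intro v
    show (1 : nemGQ) • v = v
    exact one_smul _ v
  map_mul' σ τ := by
    apply LinearMap.ext
    intro v
    show (σ * τ) • v = σ • (τ • v)
    exact mul_smul σ τ v

lemma nemRho_apply (E : WeierstrassCurve ℚ) (p : ℕ) (σ : nemGQ) (v : neTors E p) :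
    nemRho E p σ v = σ • v := rfl

/-- `E[p](ℚ̄)` is a plane over `𝔽_p` (`p` odd). -/
lemma nem_finrank (E : WeierstrassCurve ℚ) [E.IsElliptic] {p : ℕ} [Fact p.Prime] (hp2 : p ≠ 2) :
    Module.finrank (ZMod p) (neTors E p) = 2 := by
  have hp : p.Prime := Fact.out
  obtain ⟨m, hpm⟩ : ∃ m, p = 2 * m + 1 := hp.eq_two_or_odd'.resolve_left hp2
  have hm : 1 ≤ m := by
    have := hp.two_le
    omega
  have hell : (E.toAffine⁄(AlgebraicClosure ℚ)).IsElliptic :=
    inferInstanceAs (E.map (algebraMap ℚ (AlgebraicClosure ℚ))).IsElliptic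
  have hcard : Nat.card (neTors E p) = p ^ 2 := by
    have h1 := ne_card_torsionBy (E.toAffine⁄(AlgebraicClosure ℚ)) m hm
    subst hpm
    exact h1
  have : Finite (neTors E p) :=
    Nat.finite_of_card_ne_zero (by rw [hcard]; exact pow_ne_zero _ hp.ne_zero)
  have h := Module.natCard_eq_pow_finrank (K := ZMod p) (V := neTors E p)
  rw [hcard, Nat.card_zmod] at h
  exact (Nat.pow_right_injective hp.two_le h).symm

/-- the common continuation: a Frobenius element at a good prime `ℓ ≠ p` with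
`p ∣ ℓ + 1 - a_ℓ` fixes a nonzero vector of `E[p]`, and so does every `g` which agrees on `L`
with a power of it. -/
lemma nem_fixed_of_frob (E : WeierstrassCurve ℚ) [E.IsElliptic] {W : WeierstrassCurve ℤ}
    (hW : W.IsIntegralModelOf E) {p : ℕ} (hp : p.Prime) (hp2 : p ≠ 2)
    (L : IntermediateField ℚ (AlgebraicClosure ℚ))
    (hL : ∀ σ τ : nemGQ, (∀ x ∈ L, σ x = τ x) → ∀ v : neTors E p, σ • v = τ • v)
    {ℓ : ℕ} (hℓ : ℓ.Prime) (hℓp : ℓ ≠ p) (hgood : W.IsGoodPrimeFor ℓ)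
    (A : ValuationSubring (AlgebraicClosure ℚ)) (hA : A.LiesOverPrime ℓ)
    (τ : nemGQ) (hτ : A.IsFrobeniusAt τ ℓ)
    (hdvd : (p : ℤ) ∣ (ℓ : ℤ) + 1 - W.apOfModel ℓ)
    (g : nemGQ) (k' : ℕ) (hg : ∀ x ∈ L, g x = (τ ^ k') x) :
    ∃ v : neTors E p, v ≠ 0 ∧ g • v = v := by
  obtain ⟨C, hC⟩ := hW
  obtain ⟨x, hx0, hx⟩ := ne_exists_fixed_of_dvd W hp hp2 hℓ hℓp hgood A hA τ hτ hdvd
  obtain ⟨φ, hφ⟩ := ne_exists_equiv_of_variableChange E (W.map (Int.castRingHom ℚ)) C hC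
  have hmem : φ.symm (x : ((W.map (Int.castRingHom ℚ)).toAffine⁄(AlgebraicClosure ℚ)).Point) ∈
      Submodule.torsionBy ℤ (E.toAffine⁄(AlgebraicClosure ℚ)).Point p := by
    rw [Submodule.mem_torsionBy_iff]
    have h1 := x.2
    rw [Submodule.mem_torsionBy_iff] at h1
    rw [← map_zsmul, h1, _root_.map_zero]
  have hv0 : (⟨φ.symm x, hmem⟩ : neTors E p) ≠ 0 := by
    intro h0
    have h1 : φ.symm (x : ((W.map (Int.castRingHom ℚ)).toAffine⁄(AlgebraicClosure ℚ)).Point) = 0 :=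
      congrArg Subtype.val h0
    have h2 : (x : ((W.map (Int.castRingHom ℚ)).toAffine⁄(AlgebraicClosure ℚ)).Point) = 0 := by
      have := congrArg φ h1
      rwa [φ.apply_symm_apply, _root_.map_zero] at this
    exact hx0 (Subtype.ext h2)
  have hτv : τ • (⟨φ.symm x, hmem⟩ : neTors E p) = ⟨φ.symm x, hmem⟩ := by
    apply Subtype.ext
    show τ • φ.symm (x : ((W.map (Int.castRingHom ℚ)).toAffine⁄(AlgebraicClosure ℚ)).Point)
      = φ.symm x
    apply φ.injective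
    rw [hφ, φ.apply_symm_apply]
    exact congrArg Subtype.val hx
  have hpow : ∀ k : ℕ, (τ ^ k) • (⟨φ.symm x, hmem⟩ : neTors E p) = ⟨φ.symm x, hmem⟩ := by
    intro k
    induction k with
    | zero => rw [pow_zero, one_smul]
    | succ k ih => rw [pow_succ, mul_smul, hτv, ih]
  refine ⟨⟨φ.symm x, hmem⟩, hv0, ?_⟩
  rw [hL g (τ ^ k') hg, hpow]

end Rep

/-- **C-MAIN (non-Eisenstein primes).**  If the mod-`p` representation of `E` is irreducible
(`p` odd), then for every `D > 0` and every finite set `S` of primes there is a good prime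
`ℓ ∉ S`, `ℓ ≠ p`, with `ℓ ≡ 1 mod D p` or `p ∣ ℓ + 1`, such that `p ∤ ℓ + 1 - a_ℓ`. -/
theorem nonEisenstein (E : WeierstrassCurve ℚ) [E.IsElliptic] {W : WeierstrassCurve ℤ}
    (hW : W.IsIntegralModelOf E) {p : ℕ} (hp : p.Prime) (hp2 : p ≠ 2)
    (hirr : GaloisRepIsIrreducible (K := AlgebraicClosure ℚ) ℚ E p) (D : ℕ) (hD : 0 < D)
    (S : Finset ℕ) :
    ∃ ℓ : ℕ, ℓ.Prime ∧ ℓ ∉ S ∧ W.IsGoodPrimeFor ℓ ∧ ℓ ≠ p ∧
      (ℓ ≡ 1 [MOD D * p] ∨ p ∣ ℓ + 1) ∧ ¬ (p : ℤ) ∣ (ℓ : ℤ) + 1 - W.apOfModel ℓ := by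
  by_contra hcon
  push Not at hcon
  have hfact : Fact p.Prime := ⟨hp⟩
  have hDp : 0 < D * p := Nat.mul_pos hD hp.pos
  -- roots of unity
  obtain ⟨ζ, hζ⟩ : ∃ ζ : AlgebraicClosure ℚ, IsPrimitiveRoot ζ (D * p) := by
    have : NeZero ((D * p : ℕ) : AlgebraicClosure ℚ) := ⟨by exact_mod_cast hDp.ne'⟩
    exact HasEnoughRootsOfUnity.exists_primitiveRoot (AlgebraicClosure ℚ) (D * p)
  have hζp : IsPrimitiveRoot (ζ ^ D) p := hζ.pow hDp rfl
  have hζp0 : ζ ^ D ≠ 0 := hζp.ne_zero hp.ne_zero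
  -- the field of definition
  obtain ⟨L, hLfin, hζL, hL⟩ := ne_exists_field E p hp ζ
    ((AlgebraicClosure.isAlgebraic ℚ).isAlgebraic ζ).isIntegral
  have hζDL : ζ ^ D ∈ L := pow_mem hζL D
  -- the discriminant of the model
  have hWΔ : W.Δ ≠ 0 := by
    obtain ⟨C, hC⟩ := hW
    intro h0
    have h1 : (W.map (Int.castRingHom ℚ)).Δ = 0 := by
      rw [WeierstrassCurve.map_Δ, h0, _root_.map_zero]
    rw [← hC, WeierstrassCurve.variableChange_Δ] at h1
    have h2 : E.Δ ≠ 0 := E.isUnit_Δ.ne_zero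
    have h3 : ((C.u⁻¹ : ℚˣ) : ℚ) ^ 12 ≠ 0 := pow_ne_zero _ (Units.ne_zero _)
    exact mul_ne_zero h3 h2 h1
  -- the key claim
  have key : ∀ g : nemGQ, (g ζ = ζ ∨ g (ζ ^ D) = (ζ ^ D)⁻¹) →
      ∃ v : neTors E p, v ≠ 0 ∧ g • v = v := by
    intro g hg
    obtain ⟨ℓ, A, τ, k, k', hℓ, hℓS, hA, hτ, hτg, hgτ⟩ := Fermat.Agent.GalRep.weakCheb L hLfin
      (S ∪ {p} ∪ D.primeFactors ∪ W.Δ.natAbs.primeFactors) g
    simp only [Finset.mem_union, Finset.mem_singleton, not_or] at hℓS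
    obtain ⟨⟨⟨hℓS1, hℓp⟩, hℓD⟩, hℓΔ⟩ := hℓS
    have hℓD' : ¬ ℓ ∣ D := fun h => hℓD (Nat.mem_primeFactors.mpr ⟨hℓ, h, hD.ne'⟩)
    have hgood : W.IsGoodPrimeFor ℓ := by
      intro h
      apply hℓΔ
      rw [Nat.mem_primeFactors]
      refine ⟨hℓ, ?_, Int.natAbs_ne_zero.mpr hWΔ⟩
      exact Int.natCast_dvd.mp h
    have hcopr : Nat.Coprime (D * p) ℓ := by
      apply Nat.Coprime.symm
      rw [Nat.Prime.coprime_iff_not_dvd hℓ, Nat.Prime.dvd_mul hℓ]
      rintro (h | h)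
      · exact hℓD' h
      · exact hℓp ((Nat.prime_dvd_prime_iff_eq hℓ hp).mp h)
    have hτζ : τ ζ = ζ ^ ℓ := ne_frob_root A hℓ hA hcopr τ hτ ζ hζ.pow_eq_one
    have hcong : ℓ ≡ 1 [MOD D * p] ∨ p ∣ ℓ + 1 := by
      rcases hg with hg | hg
      · left
        have h1 : τ ζ = ζ := by
          rw [hτg ζ hζL]
          exact nem_pow_fix g ζ hg k
        rw [hτζ] at h1
        exact nem_modEq_of_pow_eq hDp hζ (by rw [h1, pow_one])
      · right
        have hτζD : τ (ζ ^ D) = (ζ ^ D) ^ ℓ := by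
          rw [map_pow, hτζ, ← pow_mul, ← pow_mul, mul_comm]
        rcases nem_pow_inv g (ζ ^ D) hg k with h | h
        · exfalso
          have h1 : τ (ζ ^ D) = ζ ^ D := by rw [hτg _ hζDL, h]
          have h2 : g (ζ ^ D) = ζ ^ D := by
            rw [hgτ _ hζDL]
            exact nem_pow_fix τ _ h1 k'
          rw [hg] at h2
          have h3 : (ζ ^ D) ^ 2 = 1 := by
            rw [pow_two]
            nth_rewrite 1 [← h2]
            exact inv_mul_cancel₀ hζp0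
          have h4 := hζp.dvd_of_pow_eq_one 2 h3
          have h5 := Nat.le_of_dvd (by norm_num) h4
          have h6 := hp.two_le
          omega
        · have h1 : τ (ζ ^ D) = (ζ ^ D)⁻¹ := by rw [hτg _ hζDL, h]
          rw [hτζD] at h1
          have h2 : (ζ ^ D) ^ (ℓ + 1) = 1 := by
            rw [pow_succ, h1]
            exact inv_mul_cancel₀ hζp0
          exact hζp.dvd_of_pow_eq_one _ h2
    have hdvd := hcon ℓ hℓ hℓS1 hgood hℓp hcong
    exact nem_fixed_of_frob E hW hp hp2 L hL hℓ hℓp hgood A hA τ hτ hdvd g k' hgτ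
  -- the abstract argument
  have hnorm : (nemStab ζ).Normal := nemStab_normal hDp hζ
  refine nem_abstract (G := nemGQ) (p := p) (V := neTors E p) (nem_finrank E hp2) (nemRho E p)
    (fun N hN => hirr.2 N (fun σ x hx => hN σ x hx)) (nemStab ζ)
    {g | g (ζ ^ D) = ζ ^ D} {g | g (ζ ^ D) = (ζ ^ D)⁻¹}
    (nemStab_comm hDp hζ) ?_ ?_ ?_ ?_ ?_
  · intro h hh s hs
    show h (s (ζ ^ D)) = (ζ ^ D)⁻¹
    rw [Set.mem_ofPred_eq] at hh hs
    rw [hs, map_inv₀, hh]
  · obtain ⟨σ, hσ⟩ := ne_exists_galois_pow hp.pos (ζ ^ D) hζp (p - 1) (by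
      have h1 : ¬ p ∣ p - 1 := Nat.not_dvd_of_pos_of_lt (by have := hp.two_le; omega)
        (by have := hp.two_le; omega)
      exact ((Nat.Prime.coprime_iff_not_dvd hp).mpr h1).symm)
    refine ⟨σ, ?_⟩
    rw [Set.mem_ofPred_eq, hσ]
    apply eq_inv_of_mul_eq_one_left
    rw [← pow_succ, Nat.sub_add_cancel hp.one_le, hζp.pow_eq_one]
  · intro g
    exact nem_pow_pred_fix hp hζp g
  · intro g hg
    exact key g (Or.inl (mem_nemStab.mp hg))
  · intro g hg
    exact key g (Or.inr hg)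

end Fermat.Agent.S41lib
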