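/-
Item 78 (S41), block C, piece C-TRANS (helper21): an admissible change of variables
`(X, Y) ↦ (u²X + r, u³Y + u²sX + t)` induces an additive bijection on the points of Weierstrass
curves, Galois equivariant when the change of variables is defined over the base field.
No sorry.
-/
import Mathlib
import Fermat.Prelude.Def_FLTPrelim_GaloisRep

set_option autoImplicit false

noncomputable section

namespace Fermat.Agent.S41lib

open WeierstrassCurve WeierstrassCurve.Affine

section Formulas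

variable {F : Type*} [Field F] (W : WeierstrassCurve F) (C : VariableChange F)

/-- the `X`-coordinate of the image -/
def neX (x : F) : F := (C.u : F) ^ 2 * x + C.r

/-- the `Y`-coordinate of the image -/
def neY (x y : F) : F := (C.u : F) ^ 3 * y + (C.u : F) ^ 2 * C.s * x + C.t

theorem ne_u_ne_zero : (C.u : F) ≠ 0 := C.u.ne_zero

theorem ne_a₁ : (C • W).a₁ * (C.u : F) = W.a₁ + 2 * C.s := by
  rw [variableChange_a₁, Units.val_inv_eq_inv_val]
  field_simp [ne_u_ne_zero C]

theorem ne_a₂ : (C • W).a₂ * (C.u : F) ^ 2 = W.a₂ - C.s * W.a₁ + 3 * C.r - C.s ^ 2 := by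
  rw [variableChange_a₂, Units.val_inv_eq_inv_val]
  field_simp [ne_u_ne_zero C]

theorem ne_a₃ : (C • W).a₃ * (C.u : F) ^ 3 = W.a₃ + C.r * W.a₁ + 2 * C.t := by
  rw [variableChange_a₃, Units.val_inv_eq_inv_val]
  field_simp [ne_u_ne_zero C]

theorem ne_a₄ : (C • W).a₄ * (C.u : F) ^ 4 =
    W.a₄ - C.s * W.a₃ + 2 * C.r * W.a₂ - (C.t + C.r * C.s) * W.a₁ + 3 * C.r ^ 2
      - 2 * C.s * C.t := by
  rw [variableChange_a₄, Units.val_inv_eq_inv_val]
  field_simp [ne_u_ne_zero C]

theorem ne_a₆ : (C • W).a₆ * (C.u : F) ^ 6 =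
    W.a₆ + C.r * W.a₄ + C.r ^ 2 * W.a₂ + C.r ^ 3 - C.t * W.a₃ - C.t ^ 2
      - C.r * C.t * W.a₁ := by
  rw [variableChange_a₆, Units.val_inv_eq_inv_val]
  field_simp [ne_u_ne_zero C]

/-- the defining polynomial is multiplied by `u⁶` -/
theorem ne_polynomial (x y : F) :
    (neY C x y) ^ 2 + W.a₁ * (neX C x) * (neY C x y) + W.a₃ * (neY C x y)
      - ((neX C x) ^ 3 + W.a₂ * (neX C x) ^ 2 + W.a₄ * (neX C x) + W.a₆)
    = (C.u : F) ^ 6 * (y ^ 2 + (C • W).a₁ * x * y + (C • W).a₃ * y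
      - (x ^ 3 + (C • W).a₂ * x ^ 2 + (C • W).a₄ * x + (C • W).a₆)) := by
  have h1 := ne_a₁ W C
  have h2 := ne_a₂ W C
  have h3 := ne_a₃ W C
  have h4 := ne_a₄ W C
  have h6 := ne_a₆ W C
  simp only [neX, neY]
  linear_combination (-(C.u : F) ^ 5 * x * y) * h1 + ((C.u : F) ^ 4 * x ^ 2) * h2
    + (-(C.u : F) ^ 3 * y) * h3 + ((C.u : F) ^ 2 * x) * h4 + h6

theorem ne_equation_iff (x y : F) :
    W.toAffine.Equation (neX C x) (neY C x y) ↔ (C • W).toAffine.Equation x y := by
  rw [equation_iff', equation_iff', ne_polynomial]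
  constructor
  · intro h
    rcases mul_eq_zero.mp h with h0 | h0
    · exact absurd (pow_eq_zero_iff (n := 6) (by norm_num) |>.mp h0) (ne_u_ne_zero C)
    · exact h0
  · intro h
    rw [h, mul_zero]

/-- the `Y`-derivative is multiplied by `u³` -/
theorem ne_polynomialY (x y : F) :
    2 * (neY C x y) + W.a₁ * (neX C x) + W.a₃
      = (C.u : F) ^ 3 * (2 * y + (C • W).a₁ * x + (C • W).a₃) := by
  have h1 := ne_a₁ W C
  have h3 := ne_a₃ W C
  simp only [neX, neY]
  linear_combination (-(C.u : F) ^ 2 * x) * h1 - h3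

/-- the `X`-derivative -/
theorem ne_polynomialX (x y : F) :
    W.a₁ * (neY C x y) - (3 * (neX C x) ^ 2 + 2 * W.a₂ * (neX C x) + W.a₄)
      = (C.u : F) ^ 4 * ((C • W).a₁ * y - (3 * x ^ 2 + 2 * (C • W).a₂ * x + (C • W).a₄))
        - C.s * ((C.u : F) ^ 3 * (2 * y + (C • W).a₁ * x + (C • W).a₃)) := by
  have h1 := ne_a₁ W C
  have h2 := ne_a₂ W C
  have h3 := ne_a₃ W C
  have h4 := ne_a₄ W C
  simp only [neX, neY]
  linear_combination (-(C.u : F) ^ 3 * y + C.s * (C.u : F) ^ 2 * x) * h1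
    + (2 * (C.u : F) ^ 2 * x) * h2 + C.s * h3 + h4

theorem ne_nonsingular {x y : F} (h : (C • W).toAffine.Nonsingular x y) :
    W.toAffine.Nonsingular (neX C x) (neY C x y) := by
  rw [nonsingular_iff'] at h ⊢
  obtain ⟨he, hd⟩ := h
  refine ⟨(ne_equation_iff W C x y).mpr he, ?_⟩
  by_contra hcon
  rw [not_or, not_not, not_not] at hcon
  obtain ⟨hX, hY⟩ := hcon
  rw [ne_polynomialY] at hY
  rw [ne_polynomialX, hY, mul_zero, sub_zero] at hX
  have hu3 : (C.u : F) ^ 3 ≠ 0 := pow_ne_zero _ (ne_u_ne_zero C)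
  have hu4 : (C.u : F) ^ 4 ≠ 0 := pow_ne_zero _ (ne_u_ne_zero C)
  have hY' := (mul_eq_zero.mp hY).resolve_left hu3
  have hX' := (mul_eq_zero.mp hX).resolve_left hu4
  rcases hd with hd | hd
  · exact hd hX'
  · exact hd hY'

theorem ne_negY (x y : F) :
    W.toAffine.negY (neX C x) (neY C x y) = neY C x ((C • W).toAffine.negY x y) := by
  have h1 := ne_a₁ W C
  have h3 := ne_a₃ W C
  simp only [negY, neX, neY]
  linear_combination ((C.u : F) ^ 2 * x) * h1 + h3

theorem neX_injective : Function.Injective (neX C) := by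
  intro x x' h
  simp only [neX] at h
  have hu2 : (C.u : F) ^ 2 ≠ 0 := pow_ne_zero _ (ne_u_ne_zero C)
  exact mul_left_cancel₀ hu2 (add_right_cancel h)

theorem neY_injective (x : F) : Function.Injective (neY C x) := by
  intro y y' h
  simp only [neY] at h
  have hu3 : (C.u : F) ^ 3 ≠ 0 := pow_ne_zero _ (ne_u_ne_zero C)
  exact mul_left_cancel₀ hu3 (add_right_cancel (add_right_cancel h))

theorem ne_addX (x₁ x₂ ℓ : F) :
    W.toAffine.addX (neX C x₁) (neX C x₂) ((C.u : F) * ℓ + C.s)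
      = neX C ((C • W).toAffine.addX x₁ x₂ ℓ) := by
  have h1 := ne_a₁ W C
  have h2 := ne_a₂ W C
  simp only [addX, neX]
  linear_combination (-(C.u : F) * ℓ) * h1 + h2

theorem ne_negAddY (x₁ x₂ y₁ ℓ : F) :
    W.toAffine.negAddY (neX C x₁) (neX C x₂) (neY C x₁ y₁) ((C.u : F) * ℓ + C.s)
      = neY C ((C • W).toAffine.addX x₁ x₂ ℓ) ((C • W).toAffine.negAddY x₁ x₂ y₁ ℓ) := by
  rw [negAddY, ne_addX, negAddY]
  simp only [neX, neY]
  ring

theorem ne_addY (x₁ x₂ y₁ ℓ : F) :
    W.toAffine.addY (neX C x₁) (neX C x₂) (neY C x₁ y₁) ((C.u : F) * ℓ + C.s)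
      = neY C ((C • W).toAffine.addX x₁ x₂ ℓ) ((C • W).toAffine.addY x₁ x₂ y₁ ℓ) := by
  rw [addY, ne_negAddY, ne_addX, ne_negY, addY]

variable [DecidableEq F]

/-- the slope is transformed by `ℓ ↦ u ℓ + s` (outside the vertical case) -/
theorem ne_slope {x₁ x₂ y₁ y₂ : F} (h₁ : (C • W).toAffine.Equation x₁ y₁)
    (h₂ : (C • W).toAffine.Equation x₂ y₂)
    (hxy : ¬(x₁ = x₂ ∧ y₁ = (C • W).toAffine.negY x₂ y₂)) :
    W.toAffine.slope (neX C x₁) (neX C x₂) (neY C x₁ y₁) (neY C x₂ y₂)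
      = (C.u : F) * (C • W).toAffine.slope x₁ x₂ y₁ y₂ + C.s := by
  have hu : (C.u : F) ≠ 0 := ne_u_ne_zero C
  by_cases hx : x₁ = x₂
  · have hy : y₁ ≠ (C • W).toAffine.negY x₂ y₂ := fun h => hxy ⟨hx, h⟩
    have hy' : neY C x₁ y₁ ≠ W.toAffine.negY (neX C x₂) (neY C x₂ y₂) := by
      rw [ne_negY, ← hx]
      exact fun h => hy (hx ▸ neY_injective C x₁ h)
    rw [slope_of_Y_ne (congrArg (neX C) hx) hy', slope_of_Y_ne hx hy]
    have hyy : y₁ = y₂ := Y_eq_of_Y_ne h₁ h₂ hx hy
    have hden' : y₁ - (C • W).toAffine.negY x₁ y₁ ≠ 0 := by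
      intro h0
      apply hy
      rw [← hx, ← hyy]
      exact sub_eq_zero.mp h0
    have hB : y₁ - (C • W).toAffine.negY x₁ y₁ = 2 * y₁ + (C • W).a₁ * x₁ + (C • W).a₃ := by
      simp only [negY]
      ring
    have hden : neY C x₁ y₁ - W.toAffine.negY (neX C x₁) (neY C x₁ y₁)
        = (C.u : F) ^ 3 * (y₁ - (C • W).toAffine.negY x₁ y₁) := by
      rw [hB, ← ne_polynomialY]
      simp only [negY]
      ring
    have hnum : 3 * neX C x₁ ^ 2 + 2 * W.a₂ * neX C x₁ + W.a₄ - W.a₁ * neY C x₁ y₁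
        = (C.u : F) ^ 4 * (3 * x₁ ^ 2 + 2 * (C • W).a₂ * x₁ + (C • W).a₄ - (C • W).a₁ * y₁)
          + C.s * ((C.u : F) ^ 3 * (y₁ - (C • W).toAffine.negY x₁ y₁)) := by
      have := ne_polynomialX W C x₁ y₁
      rw [hB]
      linear_combination -this
    rw [hden, hnum]
    have hu3 : (C.u : F) ^ 3 ≠ 0 := pow_ne_zero _ hu
    field_simp
  · have hx' : neX C x₁ ≠ neX C x₂ := fun h => hx (neX_injective C h)
    rw [slope_of_X_ne hx', slope_of_X_ne hx]
    have hd : x₁ - x₂ ≠ 0 := sub_ne_zero.mpr hx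
    have hd' : neX C x₁ - neX C x₂ ≠ 0 := sub_ne_zero.mpr hx'
    rw [div_eq_iff hd']
    simp only [neX, neY]
    field_simp
    ring

omit [DecidableEq F] in
theorem ne_nonsingular_iff (x y : F) :
    W.toAffine.Nonsingular (neX C x) (neY C x y) ↔ (C • W).toAffine.Nonsingular x y := by
  refine ⟨fun h => ?_, ne_nonsingular W C⟩
  rw [nonsingular_iff'] at h ⊢
  obtain ⟨he, hd⟩ := h
  refine ⟨(ne_equation_iff W C x y).mp he, ?_⟩
  by_contra hcon
  rw [not_or, not_not, not_not] at hcon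
  obtain ⟨hX, hY⟩ := hcon
  rw [ne_polynomialX, ne_polynomialY, hX, hY] at hd
  simp at hd

end Formulas

section PointMap

variable {F : Type*} [Field F] [DecidableEq F] (W : WeierstrassCurve F) (C : VariableChange F)

/-- the map on points `(C • W)(F) → W(F)`, `(x, y) ↦ (u²x + r, u³y + u²sx + t)` -/
def nePointFun : (C • W).toAffine.Point → W.toAffine.Point
  | .zero => 0
  | .some x y h => .some (neX C x) (neY C x y) (ne_nonsingular W C h)

theorem nePointFun_zero : nePointFun W C 0 = 0 := rfl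

theorem nePointFun_some {x y : F} (h : (C • W).toAffine.Nonsingular x y) :
    nePointFun W C (.some x y h) = .some (neX C x) (neY C x y) (ne_nonsingular W C h) := rfl

theorem nePointFun_add (P Q : (C • W).toAffine.Point) :
    nePointFun W C (P + Q) = nePointFun W C P + nePointFun W C Q := by
  rcases P with _ | ⟨x₁, y₁, h₁⟩
  · change nePointFun W C (0 + Q) = 0 + nePointFun W C Q
    rw [zero_add, zero_add]
  rcases Q with _ | ⟨x₂, y₂, h₂⟩
  · change nePointFun W C (_ + 0) = _ + 0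
    rw [add_zero, add_zero]
  by_cases hxy : x₁ = x₂ ∧ y₁ = (C • W).toAffine.negY x₂ y₂
  · rw [Point.add_of_Y_eq hxy.1 hxy.2, nePointFun_some, nePointFun_some]
    rw [Point.add_of_Y_eq (congrArg (neX C) hxy.1) (by rw [ne_negY, hxy.2, hxy.1])]
    rfl
  · have hxy' : ¬(neX C x₁ = neX C x₂ ∧
        neY C x₁ y₁ = W.toAffine.negY (neX C x₂) (neY C x₂ y₂)) := by
      rintro ⟨hx, hy⟩
      have hx' : x₁ = x₂ := neX_injective C hx
      refine hxy ⟨hx', ?_⟩
      rw [ne_negY, ← hx'] at hy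
      exact hx' ▸ neY_injective C x₁ hy
    rw [Point.add_some hxy, nePointFun_some, nePointFun_some, nePointFun_some,
      Point.add_some hxy']
    simp only [Point.some.injEq]
    rw [ne_slope W C h₁.1 h₂.1 hxy]
    exact ⟨(ne_addX W C _ _ _).symm, (ne_addY W C _ _ _ _).symm⟩

/-- the homomorphism on points -/
def nePointHom : (C • W).toAffine.Point →+ W.toAffine.Point where
  toFun := nePointFun W C
  map_zero' := rfl
  map_add' := nePointFun_add W C

theorem nePointHom_injective : Function.Injective (nePointHom W C) := by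
  rintro (_ | ⟨x₁, y₁, h₁⟩) (_ | ⟨x₂, y₂, h₂⟩) h
  · rfl
  · exact absurd h.symm (Point.some_ne_zero _)
  · exact absurd h (Point.some_ne_zero _)
  · have h' : Point.some (neX C x₁) (neY C x₁ y₁) (ne_nonsingular W C h₁)
        = Point.some (neX C x₂) (neY C x₂ y₂) (ne_nonsingular W C h₂) := h
    rw [Point.some.injEq] at h'
    obtain ⟨hx, hy⟩ := h'
    have hx' : x₁ = x₂ := neX_injective C hx
    subst hx'
    have hy' : y₁ = y₂ := neY_injective C x₁ hy
    subst hy'
    rfl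

theorem nePointHom_surjective : Function.Surjective (nePointHom W C) := by
  rintro (_ | ⟨X, Y, h⟩)
  · exact ⟨0, rfl⟩
  · have hu : (C.u : F) ≠ 0 := ne_u_ne_zero C
    have hX : neX C ((X - C.r) / (C.u : F) ^ 2) = X := by
      simp only [neX]
      field_simp
      ring
    have hY : neY C ((X - C.r) / (C.u : F) ^ 2)
        ((Y - C.s * (X - C.r) - C.t) / (C.u : F) ^ 3) = Y := by
      simp only [neY]
      field_simp
      ring
    have hns : (C • W).toAffine.Nonsingular ((X - C.r) / (C.u : F) ^ 2)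
        ((Y - C.s * (X - C.r) - C.t) / (C.u : F) ^ 3) := by
      rw [← ne_nonsingular_iff, hX, hY]
      exact h
    refine ⟨.some _ _ hns, ?_⟩
    show Point.some _ _ _ = Point.some X Y h
    rw [Point.some.injEq]
    exact ⟨hX, hY⟩

/-- the additive equivalence on points induced by a change of variables -/
def nePointEquiv : (C • W).toAffine.Point ≃+ W.toAffine.Point :=
  AddEquiv.ofBijective (nePointHom W C) ⟨nePointHom_injective W C, nePointHom_surjective W C⟩

theorem nePointEquiv_some {x y : F} (h : (C • W).toAffine.Nonsingular x y) :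
    nePointEquiv W C (.some x y h) = .some (neX C x) (neY C x y) (ne_nonsingular W C h) := rfl

/-- the form with an equation `C • W = W'` -/
theorem ne_exists_pointEquiv (W W' : WeierstrassCurve F) (C : VariableChange F)
    (h : C • W = W') :
    ∃ ψ : W'.toAffine.Point ≃+ W.toAffine.Point,
      ∀ (x y : F) (hns : W'.toAffine.Nonsingular x y),
        ∃ hns' : W.toAffine.Nonsingular (neX C x) (neY C x y),
          ψ (.some x y hns) = .some (neX C x) (neY C x y) hns' := by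
  subst h
  exact ⟨nePointEquiv W C, fun x y hns => ⟨ne_nonsingular W C hns, rfl⟩⟩

end PointMap

/-- **C-TRANS.** A variable change over `ℚ` induces a Galois-equivariant additive bijection on
`ℚ̄`-points. -/
theorem ne_exists_equiv_of_variableChange (E E' : WeierstrassCurve ℚ) (C : VariableChange ℚ)
    (h : C • E = E') :
    ∃ φ : (E.toAffine⁄(AlgebraicClosure ℚ)).Point ≃+ (E'.toAffine⁄(AlgebraicClosure ℚ)).Point,
      ∀ (σ : AlgebraicClosure ℚ ≃ₐ[ℚ] AlgebraicClosure ℚ) (P : (E.toAffine⁄(AlgebraicClosure ℚ)).Point),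
        φ (σ • P) = σ • φ P := by
  have hK : (C.map (algebraMap ℚ (AlgebraicClosure ℚ))) • (E.map (algebraMap ℚ (AlgebraicClosure ℚ)))
      = E'.map (algebraMap ℚ (AlgebraicClosure ℚ)) := by
    rw [map_variableChange, h]
  obtain ⟨ψ, hψ⟩ : ∃ ψ : (E'.toAffine⁄(AlgebraicClosure ℚ)).Point ≃+
      (E.toAffine⁄(AlgebraicClosure ℚ)).Point,
      ∀ (x y : AlgebraicClosure ℚ) (hns : (E'.toAffine⁄(AlgebraicClosure ℚ)).Nonsingular x y),
        ∃ hns' : (E.toAffine⁄(AlgebraicClosure ℚ)).Nonsingular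
            (neX (C.map (algebraMap ℚ (AlgebraicClosure ℚ))) x)
            (neY (C.map (algebraMap ℚ (AlgebraicClosure ℚ))) x y),
          ψ (.some x y hns) = .some (neX (C.map (algebraMap ℚ (AlgebraicClosure ℚ))) x)
            (neY (C.map (algebraMap ℚ (AlgebraicClosure ℚ))) x y) hns' :=
    ne_exists_pointEquiv (E.map (algebraMap ℚ (AlgebraicClosure ℚ)))
      (E'.map (algebraMap ℚ (AlgebraicClosure ℚ))) (C.map (algebraMap ℚ (AlgebraicClosure ℚ))) hK
  -- `ψ` commutes with the Galois action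
  have hsome : ∀ (W : WeierstrassCurve ℚ) (σ : AlgebraicClosure ℚ ≃ₐ[ℚ] AlgebraicClosure ℚ)
      (x y : AlgebraicClosure ℚ) (hns : (W.toAffine⁄(AlgebraicClosure ℚ)).Nonsingular x y),
      ∃ hσ : (W.toAffine⁄(AlgebraicClosure ℚ)).Nonsingular (σ x) (σ y),
        σ • (Point.some x y hns : (W.toAffine⁄(AlgebraicClosure ℚ)).Point)
          = Point.some (σ x) (σ y) hσ :=
    fun W σ x y hns => ⟨_, Point.map_some σ.toAlgHom hns⟩
  have hψσ : ∀ (σ : AlgebraicClosure ℚ ≃ₐ[ℚ] AlgebraicClosure ℚ)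
      (Q : (E'.toAffine⁄(AlgebraicClosure ℚ)).Point), ψ (σ • Q) = σ • ψ Q := by
    intro σ Q
    rcases Q with _ | ⟨x, y, hns⟩
    · have e0 : σ • (0 : (E'.toAffine⁄(AlgebraicClosure ℚ)).Point) = 0 := rfl
      have e0' : σ • (0 : (E.toAffine⁄(AlgebraicClosure ℚ)).Point) = 0 := rfl
      change ψ (σ • 0) = σ • ψ 0
      rw [e0, map_zero, e0']
    · obtain ⟨hns', e1⟩ := hψ x y hns
      obtain ⟨hσ, e2⟩ := hsome E' σ x y hns
      obtain ⟨hns'', e3⟩ := hψ (σ x) (σ y) hσ
      obtain ⟨hσ', e4⟩ := hsome E σ _ _ hns'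
      rw [e2, e3, e1, e4, Point.some.injEq]
      constructor
      · simp only [neX, VariableChange.map_u, VariableChange.map_r, Units.coe_map,
          MonoidHom.coe_coe, map_add, map_mul, map_pow, AlgEquiv.commutes]
      · simp only [neY, VariableChange.map_u, VariableChange.map_s, VariableChange.map_t,
          Units.coe_map, MonoidHom.coe_coe, map_add, map_mul, map_pow, AlgEquiv.commutes]
  refine ⟨ψ.symm, fun σ P => ?_⟩
  apply ψ.injective
  rw [AddEquiv.apply_symm_apply, hψσ, AddEquiv.apply_symm_apply]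

end Fermat.Agent.S41lib

end
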