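import Mathlib

/-!
# Item 78 (S41), block A1: the amalgam `Γ₀(N)[1/q] = Γ₀(N) *_{Γ₀(Nq)} Γ₀(N)` — definitions

* `amCast : SL(2,ℤ) →* SL(2,ℚ)` the (injective) cast.
* `amConj q : SL(2,ℚ) →* SL(2,ℚ)`, `[[a,b],[c,d]] ↦ [[a, b/q],[q c, d]]`
  (conjugation by `diag(1,q)`).
* `amIota N q : Γ₀(N q) →* Γ₀(N)`, `[[a,b],[c,d]] ↦ [[a, q b],[c/q, d]]`
  (so that `amConj q (amCast (amIota N q γ)) = amCast γ`).
* `amGammaS N q : Subgroup SL(2,ℚ)`: matrices with entries in `ℤ[1/q]` whose lower-left entry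
  lies in `N ℤ[1/q]`.
-/

namespace Fermat.Agent.S41lib

open Matrix CongruenceSubgroup
open scoped MatrixGroups

/-- Build an element of `SL(2,R)` from its four entries. -/
def amMk {R : Type*} [CommRing R] (a b c d : R) (h : a * d - b * c = 1) : SL(2, R) :=
  ⟨!![a, b; c, d], by rw [Matrix.det_fin_two_of, h]⟩

section mk
variable {R : Type*} [CommRing R] (a b c d : R) (h : a * d - b * c = 1)

@[simp] lemma amMk_00 : (amMk a b c d h : SL(2, R)) 0 0 = a := rfl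
@[simp] lemma amMk_01 : (amMk a b c d h : SL(2, R)) 0 1 = b := rfl
@[simp] lemma amMk_10 : (amMk a b c d h : SL(2, R)) 1 0 = c := rfl
@[simp] lemma amMk_11 : (amMk a b c d h : SL(2, R)) 1 1 = d := rfl

end mk

lemma am_det_eq {R : Type*} [CommRing R] (M : SL(2, R)) :
    M 0 0 * M 1 1 - M 0 1 * M 1 0 = 1 := by
  have := M.2
  rwa [Matrix.det_fin_two] at this

lemma am_ext {R : Type*} [CommRing R] {A B : SL(2, R)} (h00 : A 0 0 = B 0 0)
    (h01 : A 0 1 = B 0 1) (h10 : A 1 0 = B 1 0) (h11 : A 1 1 = B 1 1) : A = B := by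
  apply Matrix.SpecialLinearGroup.ext
  intro i j
  fin_cases i <;> fin_cases j <;> assumption

lemma am_mul_00 {R : Type*} [CommRing R] (A B : SL(2, R)) :
    (A * B) 0 0 = A 0 0 * B 0 0 + A 0 1 * B 1 0 := by
  simp [Matrix.SpecialLinearGroup.coe_mul, Matrix.mul_apply, Fin.sum_univ_two]

lemma am_mul_01 {R : Type*} [CommRing R] (A B : SL(2, R)) :
    (A * B) 0 1 = A 0 0 * B 0 1 + A 0 1 * B 1 1 := by
  simp [Matrix.SpecialLinearGroup.coe_mul, Matrix.mul_apply, Fin.sum_univ_two]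

lemma am_mul_10 {R : Type*} [CommRing R] (A B : SL(2, R)) :
    (A * B) 1 0 = A 1 0 * B 0 0 + A 1 1 * B 1 0 := by
  simp [Matrix.SpecialLinearGroup.coe_mul, Matrix.mul_apply, Fin.sum_univ_two]

lemma am_mul_11 {R : Type*} [CommRing R] (A B : SL(2, R)) :
    (A * B) 1 1 = A 1 0 * B 0 1 + A 1 1 * B 1 1 := by
  simp [Matrix.SpecialLinearGroup.coe_mul, Matrix.mul_apply, Fin.sum_univ_two]

lemma am_inv_00 {R : Type*} [CommRing R] (A : SL(2, R)) : (A⁻¹) 0 0 = A 1 1 := by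
  simp [Matrix.SpecialLinearGroup.coe_inv, Matrix.adjugate_fin_two]

lemma am_inv_01 {R : Type*} [CommRing R] (A : SL(2, R)) : (A⁻¹) 0 1 = - A 0 1 := by
  simp [Matrix.SpecialLinearGroup.coe_inv, Matrix.adjugate_fin_two]

lemma am_inv_10 {R : Type*} [CommRing R] (A : SL(2, R)) : (A⁻¹) 1 0 = - A 1 0 := by
  simp [Matrix.SpecialLinearGroup.coe_inv, Matrix.adjugate_fin_two]

lemma am_inv_11 {R : Type*} [CommRing R] (A : SL(2, R)) : (A⁻¹) 1 1 = A 0 0 := by
  simp [Matrix.SpecialLinearGroup.coe_inv, Matrix.adjugate_fin_two]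

lemma am_one_00 {R : Type*} [CommRing R] : (1 : SL(2, R)) 0 0 = 1 := by simp
lemma am_one_01 {R : Type*} [CommRing R] : (1 : SL(2, R)) 0 1 = 0 := by simp
lemma am_one_10 {R : Type*} [CommRing R] : (1 : SL(2, R)) 1 0 = 0 := by simp
lemma am_one_11 {R : Type*} [CommRing R] : (1 : SL(2, R)) 1 1 = 1 := by simp

/-- The cast `SL(2,ℤ) →* SL(2,ℚ)`. -/
def amCast : SL(2, ℤ) →* SL(2, ℚ) := Matrix.SpecialLinearGroup.map (Int.castRingHom ℚ)

@[simp] lemma amCast_apply (γ : SL(2, ℤ)) (i j : Fin 2) :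
    (amCast γ) i j = ((γ i j : ℤ) : ℚ) := by
  simp [amCast, Matrix.SpecialLinearGroup.map_apply_coe]

lemma amCast_injective : Function.Injective amCast := by
  intro A B h
  apply Matrix.SpecialLinearGroup.ext
  intro i j
  have := congrArg (fun M : SL(2, ℚ) => M i j) h
  simpa using this

/-- Conjugation by `diag(1,q)`: `[[a,b],[c,d]] ↦ [[a, b/q],[q c, d]]`. -/
noncomputable def amConj (q : ℕ) [NeZero q] : SL(2, ℚ) →* SL(2, ℚ) where
  toFun M := amMk (M 0 0) (M 0 1 / q) (q * M 1 0) (M 1 1) (by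
    have hq : (q : ℚ) ≠ 0 := Nat.cast_ne_zero.mpr (NeZero.ne q)
    have := am_det_eq M
    field_simp
    linear_combination this)
  map_one' := by
    apply am_ext <;> simp
  map_mul' A B := by
    have hq : (q : ℚ) ≠ 0 := Nat.cast_ne_zero.mpr (NeZero.ne q)
    apply am_ext
    · simp only [amMk_00, amMk_01, amMk_10, am_mul_00]; field_simp
    · simp only [amMk_00, amMk_01, amMk_11, am_mul_01]; field_simp
    · simp only [amMk_00, amMk_10, amMk_11, am_mul_10]; ring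
    · simp only [amMk_01, amMk_10, amMk_11, am_mul_11]; field_simp

section conj
variable (q : ℕ) [NeZero q] (M : SL(2, ℚ))
@[simp] lemma amConj_00 : (amConj q M) 0 0 = M 0 0 := rfl
@[simp] lemma amConj_01 : (amConj q M) 0 1 = M 0 1 / q := rfl
@[simp] lemma amConj_10 : (amConj q M) 1 0 = q * M 1 0 := rfl
@[simp] lemma amConj_11 : (amConj q M) 1 1 = M 1 1 := rfl
end conj

lemma amConj_injective (q : ℕ) [NeZero q] : Function.Injective (amConj q) := by
  intro A B h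
  have hq : (q : ℚ) ≠ 0 := Nat.cast_ne_zero.mpr (NeZero.ne q)
  have h00 := congrArg (fun M : SL(2, ℚ) => M 0 0) h
  have h01 := congrArg (fun M : SL(2, ℚ) => M 0 1) h
  have h10 := congrArg (fun M : SL(2, ℚ) => M 1 0) h
  have h11 := congrArg (fun M : SL(2, ℚ) => M 1 1) h
  simp only [amConj_00, amConj_01, amConj_10, amConj_11] at h00 h01 h10 h11
  apply am_ext h00 _ _ h11
  · field_simp at h01; exact h01
  · exact mul_left_cancel₀ hq h10

lemma am_mem_Gamma0_iff {N : ℕ} {A : SL(2, ℤ)} : A ∈ Gamma0 N ↔ (N : ℤ) ∣ A 1 0 := by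
  rw [Gamma0_mem, ZMod.intCast_zmod_eq_zero_iff_dvd]

lemma am_Gamma0_le (N q : ℕ) : Gamma0 (N * q) ≤ Gamma0 N := by
  intro A hA
  rw [am_mem_Gamma0_iff] at hA ⊢
  exact dvd_trans (by push_cast; exact dvd_mul_right _ _) hA

/-- The second degeneracy inclusion `Γ₀(N q) → Γ₀(N)`, `[[a,b],[c,d]] ↦ [[a, q b],[c/q, d]]`. -/
noncomputable def amIotaFun (N q : ℕ) (γ : ↥(Gamma0 (N * q))) : SL(2, ℤ) :=
  amMk (γ.1 0 0) (q * γ.1 0 1) (γ.1 1 0 / q) (γ.1 1 1) (by
    have h := am_det_eq γ.1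
    have hd : (q : ℤ) ∣ γ.1 1 0 := by
      have := am_mem_Gamma0_iff.1 γ.2
      exact dvd_trans (by push_cast; exact dvd_mul_left _ _) this
    obtain ⟨c, hc⟩ := hd
    by_cases hq : (q : ℤ) = 0
    · rw [hq] at hc ⊢
      simp only [zero_mul] at hc
      rw [hc] at h
      simp only [mul_zero, sub_zero, Int.ediv_zero, zero_mul] at h ⊢
      exact h
    · rw [hc, Int.mul_ediv_cancel_left _ hq]
      rw [hc] at h
      linear_combination h)

lemma amIotaFun_mem (N q : ℕ) [NeZero q] (γ : ↥(Gamma0 (N * q))) :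
    amIotaFun N q γ ∈ Gamma0 N := by
  rw [am_mem_Gamma0_iff]
  have hq : (q : ℤ) ≠ 0 := Nat.cast_ne_zero.mpr (NeZero.ne q)
  have := am_mem_Gamma0_iff.1 γ.2
  obtain ⟨c, hc⟩ := this
  show (N : ℤ) ∣ γ.1 1 0 / q
  rw [hc]
  push_cast
  rw [show (N : ℤ) * q * c = q * (N * c) by ring, Int.mul_ediv_cancel_left _ hq]
  exact dvd_mul_right _ _

lemma amConj_amCast_amIotaFun (N q : ℕ) [NeZero q] (γ : ↥(Gamma0 (N * q))) :
    amConj q (amCast (amIotaFun N q γ)) = amCast γ.1 := by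
  have hq : (q : ℚ) ≠ 0 := Nat.cast_ne_zero.mpr (NeZero.ne q)
  have hq' : (q : ℤ) ≠ 0 := Nat.cast_ne_zero.mpr (NeZero.ne q)
  have hd : (q : ℤ) ∣ γ.1 1 0 := by
    have := am_mem_Gamma0_iff.1 γ.2
    exact dvd_trans (by push_cast; exact dvd_mul_left _ _) this
  apply am_ext
  · simp [amIotaFun]
  · simp only [amConj_01, amCast_apply, amIotaFun, amMk_01]
    push_cast
    field_simp
  · simp only [amConj_10, amCast_apply, amIotaFun, amMk_10]
    obtain ⟨c, hc⟩ := hd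
    rw [hc, Int.mul_ediv_cancel_left _ hq']
    push_cast
    ring
  · simp [amIotaFun]

/-- The second degeneracy inclusion `Γ₀(N q) →* Γ₀(N)`. -/
noncomputable def amIota (N q : ℕ) [NeZero q] : ↥(Gamma0 (N * q)) →* ↥(Gamma0 N) where
  toFun γ := ⟨amIotaFun N q γ, amIotaFun_mem N q γ⟩
  map_one' := by
    apply Subtype.ext
    apply amCast_injective
    apply amConj_injective q
    rw [amConj_amCast_amIotaFun]
    simp
  map_mul' A B := by
    apply Subtype.ext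
    apply amCast_injective
    apply amConj_injective q
    simp only [Subgroup.coe_mul, map_mul, amConj_amCast_amIotaFun]

lemma amConj_amCast_amIota (N q : ℕ) [NeZero q] (γ : ↥(Gamma0 (N * q))) :
    amConj q (amCast (amIota N q γ : SL(2, ℤ))) = amCast (γ : SL(2, ℤ)) :=
  amConj_amCast_amIotaFun N q γ

lemma amIota_injective (N q : ℕ) [NeZero q] : Function.Injective (amIota N q) := by
  intro A B h
  apply Subtype.ext
  apply amCast_injective
  rw [← amConj_amCast_amIota, ← amConj_amCast_amIota, h]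

lemma amIota_01 (N q : ℕ) [NeZero q] (γ : ↥(Gamma0 (N * q))) :
    (amIota N q γ : SL(2, ℤ)) 0 1 = q * (γ : SL(2, ℤ)) 0 1 := rfl

/-- The range of `amIota` is `{β ∈ Γ₀(N) : q ∣ β₀₁}`. -/
lemma mem_range_amIota_iff (N q : ℕ) [NeZero q] (β : ↥(Gamma0 N)) :
    β ∈ (amIota N q).range ↔ (q : ℤ) ∣ (β : SL(2, ℤ)) 0 1 := by
  have hq' : (q : ℤ) ≠ 0 := Nat.cast_ne_zero.mpr (NeZero.ne q)
  constructor
  · rintro ⟨γ, rfl⟩
    rw [amIota_01]
    exact dvd_mul_right _ _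
  · rintro ⟨b, hb⟩
    have hdet := am_det_eq β.1
    have hN := am_mem_Gamma0_iff.1 β.2
    have hmem : amMk (β.1 0 0) b (q * β.1 1 0) (β.1 1 1)
        (by rw [hb] at hdet; linear_combination hdet) ∈ Gamma0 (N * q) := by
      rw [am_mem_Gamma0_iff]
      obtain ⟨c, hc⟩ := hN
      show ((N * q : ℕ) : ℤ) ∣ q * β.1 1 0
      rw [hc]
      push_cast
      exact ⟨c, by ring⟩
    refine ⟨⟨_, hmem⟩, ?_⟩
    apply Subtype.ext
    apply am_ext
    · rfl
    · show (q : ℤ) * b = _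
      rw [hb]
    · show (q * β.1 1 0) / (q : ℤ) = _
      rw [Int.mul_ediv_cancel_left _ hq']
    · rfl

/-- The range of the inclusion `Γ₀(N q) ≤ Γ₀(N)` (for `q` coprime to `N`) is
`{α ∈ Γ₀(N) : q ∣ α₁₀}`. -/
lemma mem_range_inclusion_iff (N q : ℕ) (hNq : Nat.Coprime N q) (α : ↥(Gamma0 N)) :
    α ∈ (Subgroup.inclusion (am_Gamma0_le N q)).range ↔ (q : ℤ) ∣ (α : SL(2, ℤ)) 1 0 := by
  have hN := am_mem_Gamma0_iff.1 α.2
  constructor
  · rintro ⟨γ, rfl⟩
    have := am_mem_Gamma0_iff.1 γ.2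
    exact dvd_trans (by push_cast; exact dvd_mul_left _ _) this
  · intro hq
    have hcop : IsCoprime (N : ℤ) (q : ℤ) := Nat.isCoprime_iff_coprime.mpr hNq
    have : ((N * q : ℕ) : ℤ) ∣ (α : SL(2, ℤ)) 1 0 := by
      push_cast
      exact hcop.mul_dvd hN hq
    exact ⟨⟨α.1, am_mem_Gamma0_iff.2 this⟩, rfl⟩

/-- `Γ₀(N)[1/q]`: the matrices in `SL(2,ℚ)` with entries in `ℤ[1/q]` and lower-left entry in
`N ℤ[1/q]`, i.e. `q ^ k • M` is an integral matrix with lower-left entry divisible by `N` for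
some `k`. -/
def amGammaS (N q : ℕ) : Subgroup SL(2, ℚ) where
  carrier := {M | ∃ (k : ℕ) (Z : Matrix (Fin 2) (Fin 2) ℤ),
    (∀ i j, (q : ℚ) ^ k * M i j = (Z i j : ℚ)) ∧ (N : ℤ) ∣ Z 1 0}
  one_mem' := ⟨0, 1, by
    intro i j
    fin_cases i <;> fin_cases j <;> simp, by simp⟩
  mul_mem' := by
    rintro A B ⟨k, Z, hZ, hN⟩ ⟨l, W, hW, hN'⟩
    refine ⟨k + l, Z * W, ?_, ?_⟩
    · intro i j
      have e : ∀ i j, (A * B) i j = A i 0 * B 0 j + A i 1 * B 1 j := by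
        intro i j
        simp [Matrix.SpecialLinearGroup.coe_mul, Matrix.mul_apply, Fin.sum_univ_two]
      rw [e, Matrix.mul_apply, Fin.sum_univ_two]
      push_cast
      rw [← hZ i 0, ← hZ i 1, ← hW 0 j, ← hW 1 j]
      ring
    · rw [Matrix.mul_apply, Fin.sum_univ_two]
      exact dvd_add (Dvd.dvd.mul_right hN _) (Dvd.dvd.mul_left hN' _)
  inv_mem' := by
    rintro A ⟨k, Z, hZ, hN⟩
    refine ⟨k, !![Z 1 1, -Z 0 1; -Z 1 0, Z 0 0], ?_, ?_⟩
    · intro i j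
      fin_cases i <;> fin_cases j
      · simpa [am_inv_00] using hZ 1 1
      · simpa [am_inv_01] using hZ 0 1
      · simpa [am_inv_10] using hZ 1 0
      · simpa [am_inv_11] using hZ 0 0
    · simpa using hN

lemma mem_amGammaS_iff {N q : ℕ} {M : SL(2, ℚ)} :
    M ∈ amGammaS N q ↔ ∃ (k : ℕ) (Z : Matrix (Fin 2) (Fin 2) ℤ),
      (∀ i j, (q : ℚ) ^ k * M i j = (Z i j : ℚ)) ∧ (N : ℤ) ∣ Z 1 0 := Iff.rfl

lemma amCast_mem_amGammaS (N q : ℕ) (γ : ↥(Gamma0 N)) : amCast (γ : SL(2, ℤ)) ∈ amGammaS N q :=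
  ⟨0, γ.1.1, by intro i j; simp, am_mem_Gamma0_iff.1 γ.2⟩

lemma amConj_amCast_mem_amGammaS (N q : ℕ) [NeZero q] (γ : ↥(Gamma0 N)) :
    amConj q (amCast (γ : SL(2, ℤ))) ∈ amGammaS N q := by
  have hq : (q : ℚ) ≠ 0 := Nat.cast_ne_zero.mpr (NeZero.ne q)
  refine ⟨1, !![q * γ.1 0 0, γ.1 0 1; q * (q * γ.1 1 0), q * γ.1 1 1], ?_, ?_⟩
  · intro i j
    fin_cases i <;> fin_cases j
    · simp
    · simp only [Fin.zero_eta, Fin.isValue, Fin.mk_one, pow_one, amConj_01, amCast_apply,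
        of_apply, cons_val', cons_val_one, cons_val_fin_one, cons_val_zero]
      field_simp
    · simp
    · simp
  · have := am_mem_Gamma0_iff.1 γ.2
    simp only [of_apply, cons_val', cons_val_zero, cons_val_fin_one, cons_val_one]
    exact Dvd.dvd.mul_left (Dvd.dvd.mul_left this _) _

end Fermat.Agent.S41lib
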