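import Mathlib
import Fermat.Prelude.Def_ModularCurve_PeriodMap
import Fermat.Agent.S41lib.AmalgamDefs

/-!
# Item 78 (S41), block A, piece A3-FIN (core): the conclusion of the mod-`p` congruence subgroup
property of `Γ₀(N)[1/q]`, from Lemma A (symbol algebra) and Lemma B (number theory), both taken
as hypotheses here (`A3fLemmaA`, `A3fNT`, `A3fL1`).

Everything is in terms of integral matrices: `φ : Γ₀(N) → ZMod p` is a parabolic homomorphism.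
-/

set_option autoImplicit false
set_option linter.style.haveILetI false

namespace Fermat.Agent.S41lib

open Matrix CongruenceSubgroup ModularCurve.Period
open scoped MatrixGroups

/-- Lemma A for `φ`, as a hypothesis (the statement of `a3_lemmaA`). -/
def A3fLemmaA (N q : ℕ) {X : Type*} [AddCommGroup X] (φ : Additive (Gamma0 N) →+ X) : Prop :=
  ∀ (c : ℤ) (d₂ : ℕ) (s L : ℤ) (j k : ℕ), 1 < d₂ →
    IsCoprime (d₂ : ℤ) c →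
    s * L = (q : ℤ) ^ (2 * j) * d₂ - 1 → L * (q : ℤ) ^ (2 * k) ≡ 1 [ZMOD (d₂ : ℤ)] →
    ∀ (γs γ₁ γ₂ : Gamma0 N),
    (γs : SL(2, ℤ)) 1 0 = c → (γs : SL(2, ℤ)) 1 1 = s →
    (γ₁ : SL(2, ℤ)) 1 0 = c → (γ₁ : SL(2, ℤ)) 1 1 * d₂ ≡ s [ZMOD c] →
    (γ₂ : SL(2, ℤ)) 1 0 = c → (γ₂ : SL(2, ℤ)) 1 1 = d₂ →
    φ (Additive.ofMul γs) = φ (Additive.ofMul γ₁) + φ (Additive.ofMul γ₂)

/-- Lemma B (number theory) at the auxiliary prime `l₁`, as a hypothesis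
(the statement of `a3nt_exists_sL`). -/
def A3fNT (N q l₁ : ℕ) : Prop :=
  ∀ (x z : ℤ), x ≡ 1 [ZMOD (N : ℤ)] → z ≡ 1 [ZMOD (N : ℤ)] → ¬ (l₁ : ℤ) ∣ x → ¬ (l₁ : ℤ) ∣ z →
    ∃ (d₂ : ℕ) (s L : ℤ) (j k : ℕ), d₂.Prime ∧
      (d₂ : ℤ) ≡ x [ZMOD ((N * l₁ : ℕ) : ℤ)] ∧
      s ≡ x * z [ZMOD ((N * l₁ : ℕ) : ℤ)] ∧
      s * L = (q : ℤ) ^ (2 * j) * d₂ - 1 ∧
      L * (q : ℤ) ^ (2 * k) ≡ 1 [ZMOD (d₂ : ℤ)]

/-- The choice of the auxiliary prime `l₁` (the statement of `a3f_exists_l1`). -/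
def A3fL1 (N q p : ℕ) : Prop :=
  ∀ (c' : ℤ) (d : ℕ), 0 < d → Nat.Coprime d p → Nat.Coprime d N → IsCoprime c' (d : ℤ) →
    ∃ l₁ : ℕ, l₁.Prime ∧ l₁ ≠ 2 ∧ ¬ l₁ ∣ N ∧ l₁ ≠ q ∧ l₁ ≠ p ∧ ¬ p ∣ l₁ - 1 ∧
      (∀ s : ℕ, s.Prime → s ≠ 2 → s ∣ N → ¬ s ∣ l₁ - 1) ∧ (l₁ : ℤ) ≡ c' [ZMOD (d : ℤ)]

/-! ### The symbol: basic invariances -/

section symbol

variable {N : ℕ} {X : Type*} [AddCommGroup X] (φ : Additive (Gamma0 N) →+ X)

lemma a3f_map_mul (γ δ : Gamma0 N) :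
    φ (Additive.ofMul (γ * δ)) = φ (Additive.ofMul γ) + φ (Additive.ofMul δ) := by
  rw [ofMul_mul, map_add]

lemma a3f_map_inv (γ : Gamma0 N) :
    φ (Additive.ofMul γ⁻¹) = - φ (Additive.ofMul γ) := by
  rw [ofMul_inv, map_neg]

/-- Existence of an element of `Γ₀(N)` with a given bottom row. -/
lemma a3f_exists_row {c d : ℤ} (hc : (N : ℤ) ∣ c) (hcd : IsCoprime c d) :
    ∃ γ : Gamma0 N, (γ : SL(2, ℤ)) 1 0 = c ∧ (γ : SL(2, ℤ)) 1 1 = d := by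
  obtain ⟨u, v, huv⟩ := hcd
  refine ⟨⟨amMk v (-u) c d (by linear_combination huv), ?_⟩, ?_, ?_⟩
  · rw [am_mem_Gamma0_iff]; simpa using hc
  · simp
  · simp

/-- Well-definedness: `φ` depends only on the bottom row. -/
lemma a3f_wd (hpar : IsParabolicHom (Gamma0 N) φ) (γ γ' : Gamma0 N)
    (h0 : (γ' : SL(2, ℤ)) 1 0 = (γ : SL(2, ℤ)) 1 0)
    (h1 : (γ' : SL(2, ℤ)) 1 1 = (γ : SL(2, ℤ)) 1 1) :
    φ (Additive.ofMul γ') = φ (Additive.ofMul γ) := by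
  have hdet := am_det_eq (γ : SL(2, ℤ))
  have hdet' := am_det_eq (γ' : SL(2, ℤ))
  have key : φ (Additive.ofMul (γ' * γ⁻¹)) = 0 := by
    apply hpar
    have htr : (((γ' * γ⁻¹ : Gamma0 N) : SL(2, ℤ)) : Matrix (Fin 2) (Fin 2) ℤ).trace = 2 := by
      rw [Matrix.trace_fin_two]
      have e1 : ((γ' * γ⁻¹ : Gamma0 N) : SL(2, ℤ)) = (γ' : SL(2, ℤ)) * (γ : SL(2, ℤ))⁻¹ := rfl
      rw [e1]
      have a00 := am_mul_00 (γ' : SL(2, ℤ)) (γ : SL(2, ℤ))⁻¹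
      have a11 := am_mul_11 (γ' : SL(2, ℤ)) (γ : SL(2, ℤ))⁻¹
      rw [am_inv_00, am_inv_10] at a00
      rw [am_inv_01, am_inv_11] at a11
      rw [a00, a11, h0, h1]
      rw [h0, h1] at hdet'
      linear_combination hdet' + hdet
    rw [htr]; norm_num
  rw [a3f_map_mul, a3f_map_inv] at key
  exact eq_of_sub_eq_zero (by rw [sub_eq_add_neg]; exact key)

/-- (P1): `F(c, d + t c) = F(c, d)`. -/
lemma a3f_p1 (hpar : IsParabolicHom (Gamma0 N) φ) (γ γ' : Gamma0 N)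
    (h0 : (γ' : SL(2, ℤ)) 1 0 = (γ : SL(2, ℤ)) 1 0)
    (h1 : (γ' : SL(2, ℤ)) 1 1 ≡ (γ : SL(2, ℤ)) 1 1 [ZMOD (γ : SL(2, ℤ)) 1 0]) :
    φ (Additive.ofMul γ') = φ (Additive.ofMul γ) := by
  obtain ⟨t, ht⟩ := h1.symm.dvd
  -- `x = [[1, t], [0, 1]]`
  let x : Gamma0 N := ⟨amMk 1 t 0 1 (by ring), by rw [am_mem_Gamma0_iff]; simp⟩
  have hx : φ (Additive.ofMul x) = 0 := by
    apply hpar
    rw [Matrix.trace_fin_two]
    change ((amMk (1 : ℤ) t 0 1 (by ring) : SL(2, ℤ)) 0 0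
      + (amMk (1 : ℤ) t 0 1 (by ring) : SL(2, ℤ)) 1 1) ^ 2 = 4
    simp
  have e : φ (Additive.ofMul γ') = φ (Additive.ofMul (γ * x)) := by
    apply a3f_wd φ hpar
    · have e1 : ((γ * x : Gamma0 N) : SL(2, ℤ)) = (γ : SL(2, ℤ)) * (x : SL(2, ℤ)) := rfl
      rw [e1, am_mul_10, h0]
      change _ = _ * (amMk (1 : ℤ) t 0 1 (by ring) : SL(2, ℤ)) 0 0
        + _ * (amMk (1 : ℤ) t 0 1 (by ring) : SL(2, ℤ)) 1 0
      simp
    · have e1 : ((γ * x : Gamma0 N) : SL(2, ℤ)) = (γ : SL(2, ℤ)) * (x : SL(2, ℤ)) := rfl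
      rw [e1, am_mul_11]
      change _ = _ * (amMk (1 : ℤ) t 0 1 (by ring) : SL(2, ℤ)) 0 1
        + _ * (amMk (1 : ℤ) t 0 1 (by ring) : SL(2, ℤ)) 1 1
      simp
      linear_combination ht
  rw [e, a3f_map_mul, hx, add_zero]

/-- (P2): `F(c + N t d, d) = F(c, d)`. -/
lemma a3f_p2 (hpar : IsParabolicHom (Gamma0 N) φ) (γ γ' : Gamma0 N)
    (h1 : (γ' : SL(2, ℤ)) 1 1 = (γ : SL(2, ℤ)) 1 1)
    (h0 : (γ' : SL(2, ℤ)) 1 0 ≡ (γ : SL(2, ℤ)) 1 0 [ZMOD (N : ℤ) * (γ : SL(2, ℤ)) 1 1]) :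
    φ (Additive.ofMul γ') = φ (Additive.ofMul γ) := by
  obtain ⟨t, ht⟩ := h0.symm.dvd
  -- `y = [[1, 0], [N t, 1]]`
  let y : Gamma0 N := ⟨amMk 1 0 ((N : ℤ) * t) 1 (by ring), by rw [am_mem_Gamma0_iff]; simp⟩
  have hy : φ (Additive.ofMul y) = 0 := by
    apply hpar
    rw [Matrix.trace_fin_two]
    change ((amMk (1 : ℤ) 0 ((N : ℤ) * t) 1 (by ring) : SL(2, ℤ)) 0 0
      + (amMk (1 : ℤ) 0 ((N : ℤ) * t) 1 (by ring) : SL(2, ℤ)) 1 1) ^ 2 = 4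
    simp
  have e : φ (Additive.ofMul γ') = φ (Additive.ofMul (γ * y)) := by
    apply a3f_wd φ hpar
    · have e1 : ((γ * y : Gamma0 N) : SL(2, ℤ)) = (γ : SL(2, ℤ)) * (y : SL(2, ℤ)) := rfl
      rw [e1, am_mul_10]
      change _ = _ * (amMk (1 : ℤ) 0 ((N : ℤ) * t) 1 (by ring) : SL(2, ℤ)) 0 0
        + _ * (amMk (1 : ℤ) 0 ((N : ℤ) * t) 1 (by ring) : SL(2, ℤ)) 1 0
      simp
      linear_combination ht
    · have e1 : ((γ * y : Gamma0 N) : SL(2, ℤ)) = (γ : SL(2, ℤ)) * (y : SL(2, ℤ)) := rfl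
      rw [e1, am_mul_11, h1]
      change _ = _ * (amMk (1 : ℤ) 0 ((N : ℤ) * t) 1 (by ring) : SL(2, ℤ)) 0 1
        + _ * (amMk (1 : ℤ) 0 ((N : ℤ) * t) 1 (by ring) : SL(2, ℤ)) 1 1
      simp
  rw [e, a3f_map_mul, hy, add_zero]

/-- `F(c, 1) = 0`. -/
lemma a3f_row_one (hpar : IsParabolicHom (Gamma0 N) φ) (γ : Gamma0 N)
    (h1 : (γ : SL(2, ℤ)) 1 1 ≡ 1 [ZMOD (γ : SL(2, ℤ)) 1 0]) :
    φ (Additive.ofMul γ) = 0 := by
  have hN : (N : ℤ) ∣ (γ : SL(2, ℤ)) 1 0 := am_mem_Gamma0_iff.1 γ.2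
  let y : Gamma0 N := ⟨amMk 1 0 ((γ : SL(2, ℤ)) 1 0) 1 (by ring), by
    rw [am_mem_Gamma0_iff]; simpa using hN⟩
  have hy : φ (Additive.ofMul y) = 0 := by
    apply hpar
    rw [Matrix.trace_fin_two]
    change ((amMk (1 : ℤ) 0 ((γ : SL(2, ℤ)) 1 0) 1 (by ring) : SL(2, ℤ)) 0 0
      + (amMk (1 : ℤ) 0 ((γ : SL(2, ℤ)) 1 0) 1 (by ring) : SL(2, ℤ)) 1 1) ^ 2 = 4
    simp
  rw [← hy]
  apply a3f_p1 φ hpar
  · rfl
  · exact h1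

end symbol


/-! ### Small arithmetic helpers -/

lemma a3f_isCoprime_row {N : ℕ} (γ : Gamma0 N) :
    IsCoprime ((γ : SL(2, ℤ)) 1 0) ((γ : SL(2, ℤ)) 1 1) := by
  have hdet := am_det_eq (γ : SL(2, ℤ))
  exact ⟨-(γ : SL(2, ℤ)) 0 1, (γ : SL(2, ℤ)) 0 0, by linear_combination hdet⟩

lemma a3f_isCoprime_congr {c d d' : ℤ} (h : IsCoprime c d) (hd : d' ≡ d [ZMOD c]) :
    IsCoprime c d' := by
  obtain ⟨t, ht⟩ := hd.symm.dvd
  obtain ⟨u, v, huv⟩ := h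
  exact ⟨u - v * t, v, by linear_combination huv + v * ht⟩

lemma a3f_isCoprime_congr_left {c c' d : ℤ} (h : IsCoprime c d) (hc : c' ≡ c [ZMOD d]) :
    IsCoprime c' d :=
  (a3f_isCoprime_congr h.symm hc).symm

/-! ### Level `N l₁` -/

section level

variable {N : ℕ} {X : Type*} [AddCommGroup X] (φ : Additive (Gamma0 N) →+ X)

/-- Multiplicativity of the symbol at level `c = N l₁` on the classes `≡ 1 mod N`. -/
lemma a3f_mul (q l₁ : ℕ) (hl₁ : l₁.Prime)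
    (hpar : IsParabolicHom (Gamma0 N) φ) (hA : A3fLemmaA N q φ) (hNT : A3fNT N q l₁)
    (γx γz γw : Gamma0 N)
    (hx0 : (γx : SL(2, ℤ)) 1 0 = ((N * l₁ : ℕ) : ℤ))
    (hz0 : (γz : SL(2, ℤ)) 1 0 = ((N * l₁ : ℕ) : ℤ))
    (hw0 : (γw : SL(2, ℤ)) 1 0 = ((N * l₁ : ℕ) : ℤ))
    (hxN : (γx : SL(2, ℤ)) 1 1 ≡ 1 [ZMOD (N : ℤ)])
    (hzN : (γz : SL(2, ℤ)) 1 1 ≡ 1 [ZMOD (N : ℤ)])
    (hw : (γw : SL(2, ℤ)) 1 1 ≡ (γx : SL(2, ℤ)) 1 1 * (γz : SL(2, ℤ)) 1 1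
      [ZMOD ((N * l₁ : ℕ) : ℤ)]) :
    φ (Additive.ofMul γw) = φ (Additive.ofMul γx) + φ (Additive.ofMul γz) := by
  set c : ℤ := ((N * l₁ : ℕ) : ℤ) with hc
  set x : ℤ := (γx : SL(2, ℤ)) 1 1 with hx
  set z : ℤ := (γz : SL(2, ℤ)) 1 1 with hz
  have hNc : (N : ℤ) ∣ c := by rw [hc]; push_cast; exact dvd_mul_right _ _
  have hlc : (l₁ : ℤ) ∣ c := by rw [hc]; push_cast; exact dvd_mul_left _ _
  have hcx : IsCoprime c x := by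
    have := a3f_isCoprime_row γx; rwa [hx0] at this
  have hcz : IsCoprime c z := by
    have := a3f_isCoprime_row γz; rwa [hz0] at this
  have hl1 : ¬ IsUnit (l₁ : ℤ) := by
    intro h
    have := Int.isUnit_iff_natAbs_eq.1 h
    simp at this
    exact hl₁.one_lt.ne' this
  have hlx : ¬ (l₁ : ℤ) ∣ x := fun h => hl1 (hcx.isUnit_of_dvd' hlc h)
  have hlz : ¬ (l₁ : ℤ) ∣ z := fun h => hl1 (hcz.isUnit_of_dvd' hlc h)
  obtain ⟨d₂, s, L, j, k, hd₂, hd₂x, hsxz, hsL, hLk⟩ := hNT x z hxN hzN hlx hlz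
  have hcd₂ : IsCoprime c (d₂ : ℤ) := a3f_isCoprime_congr hcx hd₂x
  have hcs : IsCoprime c s := a3f_isCoprime_congr (hcx.mul_right hcz) hsxz
  obtain ⟨γs, hs0, hs1⟩ := a3f_exists_row (N := N) hNc hcs
  obtain ⟨γ₂, h20, h21⟩ := a3f_exists_row (N := N) hNc hcd₂
  have h11 : (γz : SL(2, ℤ)) 1 1 * (d₂ : ℤ) ≡ s [ZMOD c] := by
    have h1 : z * (d₂ : ℤ) ≡ z * x [ZMOD c] := hd₂x.mul_left z
    have h2 : z * x ≡ s [ZMOD c] := by rw [mul_comm]; exact hsxz.symm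
    exact h1.trans h2
  have key := hA c d₂ s L j k hd₂.one_lt hcd₂.symm hsL hLk γs γz γ₂ hs0 hs1 hz0 h11 h20 h21
  -- `φ γs = φ γw`, `φ γ₂ = φ γx`
  have e1 : φ (Additive.ofMul γw) = φ (Additive.ofMul γs) := by
    apply a3f_p1 φ hpar
    · rw [hw0, hs0]
    · rw [hs0, hs1]; exact hw.trans hsxz.symm
  have e2 : φ (Additive.ofMul γ₂) = φ (Additive.ofMul γx) := by
    apply a3f_p1 φ hpar
    · rw [h20, hx0]
    · rw [hx0, h21]; exact hd₂x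
  rw [e1, key, e2, add_comm]

/-- Powers: `F(c, x^n) = n F(c, x)` at level `c = N l₁`. -/
lemma a3f_pow (q l₁ : ℕ) (hl₁ : l₁.Prime)
    (hpar : IsParabolicHom (Gamma0 N) φ) (hA : A3fLemmaA N q φ) (hNT : A3fNT N q l₁)
    (γx : Gamma0 N)
    (hx0 : (γx : SL(2, ℤ)) 1 0 = ((N * l₁ : ℕ) : ℤ))
    (hxN : (γx : SL(2, ℤ)) 1 1 ≡ 1 [ZMOD (N : ℤ)]) :
    ∀ (n : ℕ) (γn : Gamma0 N), (γn : SL(2, ℤ)) 1 0 = ((N * l₁ : ℕ) : ℤ) →
      (γn : SL(2, ℤ)) 1 1 ≡ (γx : SL(2, ℤ)) 1 1 ^ n [ZMOD ((N * l₁ : ℕ) : ℤ)] →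
      φ (Additive.ofMul γn) = n • φ (Additive.ofMul γx) := by
  have hNc : (N : ℤ) ∣ ((N * l₁ : ℕ) : ℤ) := by push_cast; exact dvd_mul_right _ _
  have hcx : IsCoprime (((N * l₁ : ℕ) : ℤ)) ((γx : SL(2, ℤ)) 1 1) := by
    have := a3f_isCoprime_row γx; rwa [hx0] at this
  intro n
  induction n with
  | zero =>
    intro γn hn0 hn1
    rw [zero_smul]
    apply a3f_row_one φ hpar
    rw [hn0]; simpa using hn1
  | succ n ih =>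
    intro γn hn0 hn1
    obtain ⟨γ', h'0, h'1⟩ := a3f_exists_row (N := N) hNc (hcx.pow_right (n := n))
    have ih' := ih γ' h'0 (by rw [h'1])
    have h'N : (γ' : SL(2, ℤ)) 1 1 ≡ 1 [ZMOD (N : ℤ)] := by
      rw [h'1]
      have := hxN.pow n
      simpa using this
    have hw : (γn : SL(2, ℤ)) 1 1 ≡ (γ' : SL(2, ℤ)) 1 1 * (γx : SL(2, ℤ)) 1 1
        [ZMOD ((N * l₁ : ℕ) : ℤ)] := by
      rw [h'1, ← pow_succ]; exact hn1
    rw [a3f_mul φ q l₁ hl₁ hpar hA hNT γ' γx γn h'0 hx0 hn0 h'N hxN hw, ih', succ_nsmul]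

end level

/-- At level `c = N l₁` (with `p ∤ l₁ - 1`) the symbol vanishes on the classes `≡ 1 mod N`. -/
lemma a3f_level {N p : ℕ} (hp : p.Prime) (φ : Additive (Gamma0 N) →+ ZMod p)
    (q l₁ : ℕ) (hl₁ : l₁.Prime) (hl₁N : ¬ l₁ ∣ N) (hpl : ¬ p ∣ l₁ - 1)
    (hpar : IsParabolicHom (Gamma0 N) φ) (hA : A3fLemmaA N q φ) (hNT : A3fNT N q l₁)
    (γ : Gamma0 N)
    (h0 : (γ : SL(2, ℤ)) 1 0 = ((N * l₁ : ℕ) : ℤ))
    (hN : (γ : SL(2, ℤ)) 1 1 ≡ 1 [ZMOD (N : ℤ)]) :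
    φ (Additive.ofMul γ) = 0 := by
  haveI : Fact p.Prime := ⟨hp⟩
  set x : ℤ := (γ : SL(2, ℤ)) 1 1 with hx
  have hNc : (N : ℤ) ∣ ((N * l₁ : ℕ) : ℤ) := by push_cast; exact dvd_mul_right _ _
  have hcx : IsCoprime (((N * l₁ : ℕ) : ℤ)) x := by
    have := a3f_isCoprime_row γ; rwa [h0] at this
  have hxl : IsCoprime x (l₁ : ℤ) := by
    have h1 : IsCoprime ((N : ℤ) * (l₁ : ℤ)) x := by
      have := hcx; push_cast at this; exact this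
    exact (IsCoprime.of_mul_left_right h1).symm
  -- `x ^ (l₁ - 1) ≡ 1 mod N l₁`
  have hpow : (1 : ℤ) ≡ x ^ (l₁ - 1) [ZMOD ((N * l₁ : ℕ) : ℤ)] := by
    have h1 : x ^ (l₁ - 1) ≡ 1 [ZMOD (l₁ : ℤ)] := Int.ModEq.pow_card_sub_one_eq_one hl₁ hxl
    have h2 : x ^ (l₁ - 1) ≡ 1 [ZMOD (N : ℤ)] := by
      have := hN.pow (l₁ - 1)
      simpa using this
    have hcop : IsCoprime (N : ℤ) (l₁ : ℤ) := by
      rw [Nat.isCoprime_iff_coprime]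
      exact ((Nat.Prime.coprime_iff_not_dvd hl₁).2 hl₁N).symm
    have hdvd : (N : ℤ) * (l₁ : ℤ) ∣ x ^ (l₁ - 1) - 1 :=
      hcop.mul_dvd (Int.modEq_iff_dvd.1 h2.symm) (Int.modEq_iff_dvd.1 h1.symm)
    apply Int.modEq_iff_dvd.2
    push_cast
    exact hdvd
  obtain ⟨γ₁, h10, h11⟩ := a3f_exists_row (N := N) (c := ((N * l₁ : ℕ) : ℤ)) (d := 1) hNc
    isCoprime_one_right
  have hpw := a3f_pow φ q l₁ hl₁ hpar hA hNT γ h0 hN (l₁ - 1) γ₁ h10 (by rw [h11]; exact hpow)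
  have hz : φ (Additive.ofMul γ₁) = 0 := by
    apply a3f_row_one φ hpar
    rw [h11]
  rw [hz, nsmul_eq_mul] at hpw
  have hne : ((l₁ - 1 : ℕ) : ZMod p) ≠ 0 := by
    rw [Ne, ZMod.natCast_eq_zero_iff]; exact hpl
  rcases mul_eq_zero.1 hpw.symm with h | h
  · exact absurd h hne
  · exact h

/-- **A3 core**, from Lemma A, Lemma B and the choice of `l₁` as hypotheses. -/
theorem a3_core_of (N q p : ℕ) [NeZero N] (hp : p.Prime)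
    (φ : Additive (Gamma0 N) →+ ZMod p) (hpar : IsParabolicHom (Gamma0 N) φ)
    (hA : A3fLemmaA N q φ)
    (hNT : ∀ l₁ : ℕ, l₁.Prime → l₁ ≠ 2 → ¬ l₁ ∣ N → l₁ ≠ q →
      (∀ s : ℕ, s.Prime → s ≠ 2 → s ∣ N → ¬ s ∣ l₁ - 1) → A3fNT N q l₁)
    (hL1 : A3fL1 N q p) :
    ∀ γ : Gamma0 N, (((γ : SL(2, ℤ)) 1 1 : ℤ) : ZMod N) = 1 → φ (Additive.ofMul γ) = 0 := by
  intro γ hγ
  have hdN : (γ : SL(2, ℤ)) 1 1 ≡ 1 [ZMOD (N : ℤ)] := by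
    rw [← ZMod.intCast_eq_intCast_iff]; simpa using hγ
  have hNc : (N : ℤ) ∣ (γ : SL(2, ℤ)) 1 0 := am_mem_Gamma0_iff.1 γ.2
  have hdet := am_det_eq (γ : SL(2, ℤ))
  have hcd : IsCoprime ((γ : SL(2, ℤ)) 1 0) ((γ : SL(2, ℤ)) 1 1) := a3f_isCoprime_row γ
  by_cases hc0 : (γ : SL(2, ℤ)) 1 0 = 0
  · -- `c = 0`: `γ = ± upper unipotent`
    apply hpar
    rw [Matrix.trace_fin_two]
    rw [hc0, mul_zero, sub_zero] at hdet
    rcases Int.eq_one_or_neg_one_of_mul_eq_one hdet with h | h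
    · rw [h, one_mul] at hdet
      change ((γ : SL(2, ℤ)) 0 0 + (γ : SL(2, ℤ)) 1 1) ^ 2 = 4
      rw [h, hdet]; norm_num
    · rw [h] at hdet
      have hd : (γ : SL(2, ℤ)) 1 1 = -1 := by linarith
      change ((γ : SL(2, ℤ)) 0 0 + (γ : SL(2, ℤ)) 1 1) ^ 2 = 4
      rw [h, hd]; norm_num
  · -- `c ≠ 0`: first make `d` a prime `d' > p`
    set c : ℤ := (γ : SL(2, ℤ)) 1 0 with hc
    set d : ℤ := (γ : SL(2, ℤ)) 1 1 with hd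
    haveI : NeZero c.natAbs := ⟨by simpa using hc0⟩
    have hunit : IsUnit ((d : ZMod c.natAbs)) := by
      obtain ⟨u, v, huv⟩ := hcd
      have hcz : ((c : ℤ) : ZMod c.natAbs) = 0 := by
        rw [ZMod.intCast_zmod_eq_zero_iff_dvd]; exact Int.natAbs_dvd.2 dvd_rfl
      have : ((u * c + v * d : ℤ) : ZMod c.natAbs) = 1 := by rw [huv]; simp
      push_cast at this
      rw [hcz, mul_zero, zero_add] at this
      exact IsUnit.of_mul_eq_one _ (by rw [mul_comm]; exact this)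
    obtain ⟨d', hd'p, hd'prime, hd'eq⟩ :=
      Nat.forall_exists_prime_gt_and_eq_mod hunit p
    have hd'c : (d' : ℤ) ≡ d [ZMOD c] := by
      have h1 : ((d' : ℤ) : ZMod c.natAbs) = ((d : ℤ) : ZMod c.natAbs) := by
        rw [← hd'eq]; simp
      have h2 := (ZMod.intCast_eq_intCast_iff _ _ _).1 h1
      exact Int.ModEq.of_dvd (Int.dvd_natAbs.2 (dvd_refl c)) h2
    have hcd' : IsCoprime c (d' : ℤ) := a3f_isCoprime_congr hcd hd'c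
    obtain ⟨γ', h'0, h'1⟩ := a3f_exists_row (N := N) hNc hcd'
    have e1 : φ (Additive.ofMul γ) = φ (Additive.ofMul γ') := by
      apply a3f_p1 φ hpar
      · rw [h'0]
      · rw [h'0, h'1]; exact hd'c.symm
    have hd'N : (d' : ℤ) ≡ 1 [ZMOD (N : ℤ)] := (Int.ModEq.of_dvd hNc hd'c).trans hdN
    have hd'Ncop : Nat.Coprime d' N := by
      rw [← Nat.isCoprime_iff_coprime]
      obtain ⟨t, ht⟩ := hd'N.symm.dvd
      exact ⟨1, -t, by linear_combination ht⟩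
    have hd'pcop : Nat.Coprime d' p := by
      rw [Nat.coprime_primes hd'prime hp]
      exact (Nat.ne_of_gt hd'p)
    obtain ⟨c', hc'⟩ := hNc
    have hc'd' : IsCoprime c' (d' : ℤ) := by
      rw [hc'] at hcd'
      exact IsCoprime.of_mul_left_right hcd'
    obtain ⟨l₁, hl₁, hl₁2, hl₁N, hl₁q, hl₁p, hpl, hs, hl₁c⟩ :=
      hL1 c' d' hd'prime.pos hd'pcop hd'Ncop hc'd'
    -- the row `(N l₁, d')`
    have hNl : (N : ℤ) ∣ ((N * l₁ : ℕ) : ℤ) := by push_cast; exact dvd_mul_right _ _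
    have hcop'' : IsCoprime (((N * l₁ : ℕ) : ℤ)) (d' : ℤ) := by
      push_cast
      apply IsCoprime.mul_left
      · exact (Nat.isCoprime_iff_coprime.2 hd'Ncop).symm
      · exact a3f_isCoprime_congr_left hc'd' hl₁c
    obtain ⟨γ'', h''0, h''1⟩ := a3f_exists_row (N := N) hNl hcop''
    have e2 : φ (Additive.ofMul γ') = φ (Additive.ofMul γ'') := by
      apply a3f_p2 φ hpar
      · rw [h'1, h''1]
      · rw [h'0, h''0, h''1, hc']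
        push_cast
        exact (hl₁c.symm.mul_left' (c := (N : ℤ)))
    have e3 : φ (Additive.ofMul γ'') = 0 := by
      apply a3f_level hp φ q l₁ hl₁ hl₁N hpl hpar hA (hNT l₁ hl₁ hl₁2 hl₁N hl₁q hs) γ'' h''0
      rw [h''1]; exact hd'N
    rw [e1, e2, e3]

end Fermat.Agent.S41lib
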