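import Mathlib

/-!
# Item 78 (S41), block A3-FIN, sub-lemma: Dirichlet + CRT choice of the auxiliary prime `l₁`

`a3f_exists_l1`: for `d` prime to `p N` and `c'` prime to `d` there is a prime `l₁ ≡ c' mod d`,
`l₁ ∤ 2 N q p`, with `p ∤ l₁ - 1` and `s ∤ l₁ - 1` for every odd prime `s ∣ N`.
(Mathlib only.)
-/

namespace Fermat.Agent.S41lib

/-- CRT over `ℤ` for two coprime moduli, in the form used below. -/
lemma a3f_crt (d K : ℤ) (h : IsCoprime d K) (a b : ℤ) :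
    ∃ r : ℤ, r ≡ a [ZMOD d] ∧ r ≡ b [ZMOD K] := by
  obtain ⟨u, v, huv⟩ := h
  refine ⟨a * (v * K) + b * (u * d), ?_, ?_⟩
  · have h1 : v * K = 1 - u * d := by linear_combination huv
    rw [h1]
    apply Int.modEq_iff_dvd.mpr
    exact ⟨a * u - b * u, by ring⟩
  · have h1 : u * d = 1 - v * K := by linear_combination huv
    rw [h1]
    apply Int.modEq_iff_dvd.mpr
    exact ⟨b * v - a * v, by ring⟩

/-- coprimality is invariant under congruence. -/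
lemma a3f_isCoprime_of_modEq {r a m : ℤ} (h : r ≡ a [ZMOD m]) (ha : IsCoprime a m) :
    IsCoprime r m := by
  obtain ⟨t, ht⟩ := Int.modEq_iff_dvd.mp h
  -- a - r = m * t
  have hr : r = a + (-t) * m := by linear_combination -ht
  rw [hr]
  exact (IsCoprime.add_mul_right_left_iff).mpr ha

/-- if `l ≡ 2 mod s` and `1 < s` then `s ∤ l - 1` (natural subtraction). -/
lemma a3f_not_dvd_pred {l s : ℕ} (hs : 1 < s) (hl : 0 < l) (h : (l : ℤ) ≡ 2 [ZMOD (s : ℤ)]) :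
    ¬ s ∣ l - 1 := by
  intro hdiv
  have h1 : (s : ℤ) ∣ (l : ℤ) - 1 := by
    have := Int.natCast_dvd_natCast.mpr hdiv
    rwa [Nat.cast_sub hl, Nat.cast_one] at this
  have h2 : (s : ℤ) ∣ 2 - (l : ℤ) := Int.modEq_iff_dvd.mp h
  have h3 : (s : ℤ) ∣ 1 := by
    have := dvd_add h1 h2
    rwa [show (l : ℤ) - 1 + (2 - (l : ℤ)) = 1 by ring] at this
  have h4 : s ∣ 1 := by exact_mod_cast h3
  have := Nat.le_of_dvd Nat.one_pos h4
  omega

/-- **Dirichlet + CRT choice of `l₁`** (sub-lemma of A3-FIN). -/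
theorem a3f_exists_l1 (N q p : ℕ) (hN : 0 < N) (hp : p.Prime) (hp2 : p ≠ 2)
    (c' : ℤ) (d : ℕ) (hd : 0 < d) (hdp : Nat.Coprime d p) (hdN : Nat.Coprime d N)
    (hcd : IsCoprime c' (d : ℤ)) :
    ∃ l₁ : ℕ, l₁.Prime ∧ l₁ ≠ 2 ∧ ¬ l₁ ∣ N ∧ l₁ ≠ q ∧ l₁ ≠ p ∧ ¬ p ∣ l₁ - 1 ∧
      (∀ s : ℕ, s.Prime → s ≠ 2 → s ∣ N → ¬ s ∣ l₁ - 1) ∧ (l₁ : ℤ) ≡ c' [ZMOD (d : ℤ)] := by
  classical
  have hN0 : N ≠ 0 := hN.ne'
  -- the odd part of `N`
  set No : ℕ := N / 2 ^ N.factorization 2 with hNo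
  have hNoN : No ∣ N := Nat.ordCompl_dvd N 2
  have hNo2 : Nat.Coprime 2 No := Nat.coprime_ordCompl Nat.prime_two hN0
  have hNo0 : No ≠ 0 := fun h => hN0 (by rcases hNoN with ⟨t, ht⟩; rw [ht, h, zero_mul])
  -- `K = p * No` is odd and prime to `d`
  set K : ℕ := p * No with hK
  have hK0 : K ≠ 0 := Nat.mul_ne_zero hp.ne_zero hNo0
  have hp2' : Nat.Coprime 2 p := by
    rw [Nat.coprime_primes Nat.prime_two hp]
    exact fun h => hp2 h.symm
  have hK2 : Nat.Coprime 2 K := Nat.Coprime.mul_right hp2' hNo2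
  have hdNo : Nat.Coprime d No := Nat.Coprime.coprime_dvd_right hNoN hdN
  have hdK : Nat.Coprime d K := Nat.Coprime.mul_right hdp hdNo
  have hdKZ : IsCoprime (d : ℤ) (K : ℤ) := Nat.isCoprime_iff_coprime.mpr hdK
  -- CRT
  obtain ⟨r, hrd, hrK⟩ := a3f_crt (d : ℤ) (K : ℤ) hdKZ c' 2
  have hrd' : IsCoprime r (d : ℤ) := a3f_isCoprime_of_modEq hrd hcd
  have h2K : IsCoprime (2 : ℤ) (K : ℤ) := by
    have := Nat.isCoprime_iff_coprime.mpr hK2
    simpa using this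
  have hrK' : IsCoprime r (K : ℤ) := a3f_isCoprime_of_modEq hrK h2K
  have hrM : IsCoprime r ((d * K : ℕ) : ℤ) := by
    push_cast
    exact IsCoprime.mul_right hrd' hrK'
  have hM0 : d * K ≠ 0 := Nat.mul_ne_zero hd.ne' hK0
  -- Dirichlet
  obtain ⟨l, hlgt, hlp, hlr⟩ :=
    Nat.forall_exists_prime_gt_and_zmodEq (N + q + p + 2) (q := d * K) (a := r) hM0 hrM
  have hld : (l : ℤ) ≡ r [ZMOD (d : ℤ)] :=
    Int.ModEq.of_mul_right (K : ℤ) (by push_cast at hlr; exact hlr)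
  have hlK : (l : ℤ) ≡ r [ZMOD (K : ℤ)] :=
    Int.ModEq.of_mul_left (d : ℤ) (by push_cast at hlr; exact hlr)
  have hlK2 : (l : ℤ) ≡ 2 [ZMOD (K : ℤ)] := hlK.trans hrK
  have hl0 : 0 < l := hlp.pos
  have key : ∀ s : ℕ, 1 < s → s ∣ K → ¬ s ∣ l - 1 := by
    intro s hs hsK
    apply a3f_not_dvd_pred hs hl0
    exact Int.ModEq.of_dvd (Int.natCast_dvd_natCast.mpr hsK) hlK2
  refine ⟨l, hlp, by omega, ?_, by omega, by omega, ?_, ?_, hld.trans hrd⟩
  · intro h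
    have := Nat.le_of_dvd hN h
    omega
  · exact key p hp.one_lt (Dvd.intro _ rfl)
  · intro s hs hs2 hsN
    apply key s hs.one_lt
    -- `s ∣ No`
    have hs2' : Nat.Coprime s (2 ^ N.factorization 2) := by
      apply Nat.Coprime.pow_right
      rw [Nat.coprime_primes hs Nat.prime_two]
      exact hs2
    have hprod : 2 ^ N.factorization 2 * No = N := Nat.ordProj_mul_ordCompl_eq_self N 2
    have hsNo : s ∣ No := by
      rw [← hprod] at hsN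
      exact hs2'.dvd_of_dvd_mul_left hsN
    exact Dvd.dvd.mul_left hsNo p

end Fermat.Agent.S41lib
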