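import Mathlib

set_option autoImplicit false

namespace Fermat.Agent.S41lib

lemma a3h11_isSquare_zmod_two (y : ZMod 2) : IsSquare y := by
  revert y
  decide

/-- **NT2 (cyclic index)**: `q` a non-residue and `l` a residue modulo the prime `d`, and no odd
prime divides both `P` and `d - 1`.  Then `l ^ m ∈ ⟨q²⟩` for some large `m ≡ 1 mod P`. -/
lemma a3h11_index (d q l P : ℕ) (hd : d.Prime)
    (hq : ¬ IsSquare ((q : ℕ) : ZMod d)) (hl : IsSquare ((l : ℕ) : ZMod d))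
    (hl0 : ((l : ℕ) : ZMod d) ≠ 0)
    (hP : ∀ s : ℕ, s.Prime → s ≠ 2 → s ∣ P → ¬ s ∣ d - 1) (hP0 : 0 < P) (a' : ℕ) :
    ∃ m k : ℕ, a' ≤ m ∧ m ≡ 1 [MOD P] ∧
      ((l : ℕ) : ZMod d) ^ m = ((q : ℕ) : ZMod d) ^ (2 * k) := by
  have : Fact d.Prime := ⟨hd⟩
  have : NeZero P := ⟨hP0.ne'⟩
  have hq0 : ((q : ℕ) : ZMod d) ≠ 0 := by
    intro h
    apply hq
    rw [h]
    exact ⟨0, by simp⟩
  have hd2 : d ≠ 2 := by
    intro h2d
    subst h2d
    apply hq
    -- every element of `ZMod 2` is a square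
    exact a3h11_isSquare_zmod_two _
  have hdodd : Odd d := hd.odd_of_ne_two hd2
  have hqpow : ((q : ℕ) : ZMod d) ^ (d - 1) = 1 := ZMod.pow_card_sub_one_eq_one hq0
  have hlpow : ((l : ℕ) : ZMod d) ^ (d - 1) = 1 := ZMod.pow_card_sub_one_eq_one hl0
  set t := orderOf ((q : ℕ) : ZMod d) with ht
  have htd : t ∣ d - 1 := orderOf_dvd_of_pow_eq_one hqpow
  have ht0 : 0 < t := by
    rcases Nat.eq_zero_or_pos t with h | h
    · rw [h, zero_dvd_iff] at htd
      have := hd.two_le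
      omega
    · exact h
  obtain ⟨i, hi⟩ := htd
  have hi0 : 0 < i := by
    rcases Nat.eq_zero_or_pos i with h | h
    · rw [h, mul_zero] at hi
      have := hd.two_le
      omega
    · exact h
  -- `i` is odd
  have hiodd : Odd i := by
    by_contra hne
    rw [Nat.not_odd_iff_even] at hne
    obtain ⟨u, hu⟩ := hne
    apply hq
    rw [ZMod.euler_criterion d hq0]
    have hd' : d / 2 = t * u := by
      obtain ⟨e, he⟩ := hdodd
      rw [hu] at hi
      have h3 : d - 1 = 2 * (t * u) := by rw [hi]; ring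
      omega
    rw [hd', pow_mul, ht, pow_orderOf_eq_one, one_pow]
  -- `l ^ i` is a power of `q`
  have hprim : IsPrimitiveRoot ((q : ℕ) : ZMod d) t := IsPrimitiveRoot.orderOf _
  have : NeZero t := ⟨ht0.ne'⟩
  have hli : (((l : ℕ) : ZMod d) ^ i) ^ t = 1 := by
    rw [← pow_mul, mul_comm, ← hi, hlpow]
  obtain ⟨k0, -, hk0⟩ := hprim.eq_pow_of_pow_eq_one hli
  -- `i` is coprime to `P`
  have hcop : Nat.Coprime i P := by
    apply Nat.Coprime.symm
    apply Nat.coprime_of_dvd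
    intro s hs hsP hsi
    have hs2 : s ≠ 2 := by
      rintro rfl
      exact (Nat.not_even_iff_odd.mpr hiodd) (even_iff_two_dvd.mpr hsi)
    exact hP s hs hs2 hsP (dvd_trans hsi ⟨t, by rw [hi, mul_comm]⟩)
  -- choose `m'`
  have hinv : ((i : ℕ) : ZMod P) * ((i : ℕ) : ZMod P)⁻¹ = 1 := ZMod.coe_mul_inv_eq_one i hcop
  set m0 := (((i : ℕ) : ZMod P)⁻¹).val with hm0
  have hm0' : i * m0 ≡ 1 [MOD P] := by
    rw [← ZMod.natCast_eq_natCast_iff]
    push_cast
    rw [hm0, ZMod.natCast_zmod_val]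
    exact hinv
  set m' := m0 + P * a' with hm'
  have hmle : a' ≤ i * m' := by
    calc a' ≤ P * a' := Nat.le_mul_of_pos_left _ hP0
      _ ≤ m' := by omega
      _ ≤ i * m' := Nat.le_mul_of_pos_left _ hi0
  have hmmod : i * m' ≡ 1 [MOD P] := by
    have : i * m' = i * m0 + P * (i * a') := by rw [hm']; ring
    rw [this]
    calc i * m0 + P * (i * a') ≡ 1 + 0 [MOD P] :=
          Nat.ModEq.add hm0' ((Nat.modEq_zero_iff_dvd).mpr (dvd_mul_right _ _))
      _ = 1 := by simp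
  have hlm : ((l : ℕ) : ZMod d) ^ (i * m') = ((q : ℕ) : ZMod d) ^ (k0 * m') := by
    rw [pow_mul, ← hk0, ← pow_mul]
  -- parity
  have heven : Even (k0 * m') := by
    by_contra hne
    rw [Nat.not_even_iff_odd] at hne
    obtain ⟨k, hk⟩ := hne
    apply hq
    have hsq : IsSquare (((l : ℕ) : ZMod d) ^ (i * m')) := hl.pow _
    rw [hlm, hk, pow_succ] at hsq
    obtain ⟨r, hr⟩ := hsq
    have hqk : ((q : ℕ) : ZMod d) ^ k ≠ 0 := pow_ne_zero _ hq0
    refine ⟨r / ((q : ℕ) : ZMod d) ^ k, ?_⟩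
    field_simp
    rw [← sq] at hr
    rw [← hr]
    ring
  obtain ⟨k, hk⟩ := heven
  refine ⟨i * m', k, hmle, hmmod, ?_⟩
  rw [hlm, hk]
  congr 1
  ring

end Fermat.Agent.S41lib
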