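import Mathlib

set_option autoImplicit false

namespace Fermat.Agent.S41lib

/-- LTE consequence: exact `l`-adic valuation of `g ^ (l ^ n) - 1`. -/
lemma a3h11_lte (l : ℕ) (hl : l.Prime) (hl2 : l ≠ 2) (g : ℤ) (a : ℕ) (ha : 1 ≤ a)
    (hga : (l : ℤ) ^ a ∣ g - 1) (hga' : ¬ (l : ℤ) ^ (a + 1) ∣ g - 1) (n : ℕ) :
    (l : ℤ) ^ (a + n) ∣ g ^ (l ^ n) - 1 ∧ ¬ (l : ℤ) ^ (a + n + 1) ∣ g ^ (l ^ n) - 1 := by
  have hodd : Odd l := hl.odd_of_ne_two hl2
  have hlg : (l : ℤ) ∣ g - 1 := dvd_trans (dvd_pow_self _ (by omega)) hga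
  have hlng : ¬ (l : ℤ) ∣ g := by
    intro h
    have h1 : (l : ℤ) ∣ 1 := by
      have := dvd_sub h hlg
      simpa using this
    have := Int.isUnit_iff.mp (isUnit_of_dvd_one h1)
    have hl2' := hl.two_le
    omega
  have key := Int.emultiplicity_pow_sub_pow hl hodd (x := g) (y := 1) hlg hlng (l ^ n)
  rw [one_pow] at key
  have e1 : emultiplicity (l : ℤ) (g - 1) = a := emultiplicity_eq_coe.mpr ⟨hga, hga'⟩
  have e2 : emultiplicity l (l ^ n) = n := Nat.Prime.emultiplicity_pow_self hl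
  rw [e1, e2] at key
  have key' : emultiplicity (l : ℤ) (g ^ l ^ n - 1) = ((a + n : ℕ) : ℕ∞) := by
    rw [key]; push_cast; rfl
  exact emultiplicity_eq_coe.mp key'

/-- Binomial congruence: `(1 + l^m w)^i ≡ 1 + i l^m w mod l^(m+1)` for `m ≥ 1`. -/
lemma a3h11_binom (l : ℤ) (m : ℕ) (hm : 1 ≤ m) (w : ℤ) (i : ℕ) :
    l ^ (m + 1) ∣ (1 + l ^ m * w) ^ i - (1 + i * (l ^ m * w)) := by
  induction i with
  | zero => simp
  | succ i ih =>
    obtain ⟨r, hr⟩ := ih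
    have h2 : l ^ (m + 1) ∣ l ^ m * l ^ m := by
      rw [← pow_add]
      exact pow_dvd_pow _ (by omega)
    obtain ⟨r2, hr2⟩ := h2
    refine ⟨(1 + l ^ m * w) * r + i * w * w * r2, ?_⟩
    have e : (1 + l ^ m * w) ^ (i + 1) - (1 + ((i + 1 : ℕ) : ℤ) * (l ^ m * w))
        = (1 + l ^ m * w) * ((1 + l ^ m * w) ^ i - (1 + i * (l ^ m * w)))
          + i * w * w * (l ^ m * l ^ m) := by
      push_cast
      ring
    rw [e, hr, hr2]
    ring

/-- **NT1 (procyclic)**: if `v_l(g - 1) = a ≥ 1` (`l` odd) and `u ≡ 1 mod l^a`, then `u⁻¹` is a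
power of `g` modulo every power of `l`. -/
lemma a3h11_procyclic (l : ℕ) (hl : l.Prime) (hl2 : l ≠ 2) (g : ℤ) (a : ℕ) (ha : 1 ≤ a)
    (hga : (l : ℤ) ^ a ∣ g - 1) (hga' : ¬ (l : ℤ) ^ (a + 1) ∣ g - 1) (u : ℤ)
    (hu : (l : ℤ) ^ a ∣ u - 1) (m : ℕ) :
    ∃ j : ℕ, (l : ℤ) ^ m ∣ g ^ j * u - 1 := by
  induction m with
  | zero => exact ⟨0, by simp⟩
  | succ m ih =>
    obtain ⟨j, hj⟩ := ih
    by_cases hma : m < a
    · refine ⟨0, ?_⟩
      simp only [pow_zero, one_mul]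
      exact dvd_trans (pow_dvd_pow _ (by omega)) hu
    · rw [not_lt] at hma
      obtain ⟨n, rfl⟩ : ∃ n, m = a + n := ⟨m - a, by omega⟩
      obtain ⟨⟨w, hw⟩, hw'⟩ := a3h11_lte l hl hl2 g a ha hga hga' n
      obtain ⟨t, ht⟩ := hj
      -- `l ∤ w`
      have hlw : ¬ (l : ℤ) ∣ w := by
        rintro ⟨w', rfl⟩
        apply hw'
        rw [hw]
        exact ⟨w', by ring⟩
      -- find `i` with `l ∣ t + i * w`
      have : Fact l.Prime := ⟨hl⟩
      have hwz : ((w : ℤ) : ZMod l) ≠ 0 := by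
        rw [Ne, ZMod.intCast_zmod_eq_zero_iff_dvd]
        exact hlw
      obtain ⟨i, hi⟩ : ∃ i : ℕ, (l : ℤ) ∣ t + i * w := by
        refine ⟨(-(t : ZMod l) * ((w : ℤ) : ZMod l)⁻¹).val, ?_⟩
        rw [← ZMod.intCast_zmod_eq_zero_iff_dvd]
        push_cast
        rw [ZMod.natCast_zmod_val]
        field_simp
        ring
      obtain ⟨e, he⟩ := hi
      refine ⟨j + i * l ^ n, ?_⟩
      have hb := a3h11_binom (l : ℤ) (a + n) (by omega) w i
      obtain ⟨r, hr⟩ := hb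
      have hG : g ^ (l ^ n) = 1 + (l : ℤ) ^ (a + n) * w := by linarith
      have hgj : g ^ j * u = 1 + (l : ℤ) ^ (a + n) * t := by linarith
      have h2 : (l : ℤ) ^ (a + n + 1) ∣ (l : ℤ) ^ (a + n) * (l : ℤ) ^ (a + n) := by
        rw [← pow_add]
        exact pow_dvd_pow _ (by omega)
      obtain ⟨r2, hr2⟩ := h2
      have e1 : g ^ (j + i * l ^ n) * u - 1
          = (g ^ (l ^ n)) ^ i * (g ^ j * u) - 1 := by
        rw [pow_add, ← pow_mul, mul_comm (l ^ n) i]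
        ring
      rw [e1, hG, hgj]
      have e2 : (1 + (l : ℤ) ^ (a + n) * w) ^ i
          = (1 + i * ((l : ℤ) ^ (a + n) * w)) + (l : ℤ) ^ (a + n + 1) * r := by linarith
      rw [e2]
      refine ⟨e + i * w * t * r2 + r * (1 + (l : ℤ) ^ (a + n) * t), ?_⟩
      have e3 : (1 + (i : ℤ) * ((l : ℤ) ^ (a + n) * w) + (l : ℤ) ^ (a + n + 1) * r)
            * (1 + (l : ℤ) ^ (a + n) * t) - 1
          = (l : ℤ) ^ (a + n) * (t + i * w) + i * w * t * ((l : ℤ) ^ (a + n) * (l : ℤ) ^ (a + n))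
            + (l : ℤ) ^ (a + n + 1) * r * (1 + (l : ℤ) ^ (a + n) * t) := by ring
      rw [e3, he, hr2]
      ring

end Fermat.Agent.S41lib
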