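import Mathlib
import Fermat.Agent.S41lib.A3H11Lte
import Fermat.Agent.S41lib.A3H11Index

/-!
# 78/A3-NT: the number theory of Lemma B (helper29)

Pure number theory (Mathlib + helper11's `a3h11_procyclic`, `a3h11_index`): for `c = N * l₁`
and `x ≡ z ≡ 1 mod N` prime to `l₁` there are a prime `d₂ ≡ x mod c`, a natural number
`S ≡ -x z mod c` (a power of an auxiliary prime) and exponents `j k` with
`S ∣ q^(2j) d₂ - 1` and `S ≡ q^(2k) mod d₂`.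
-/

namespace Fermat.Agent.S41lib

/-- Binary CRT keeping track of coprimality of the residue. -/
theorem a3nt_crt (m₁ m₂ r₁ r₂ : ℕ) (hco : m₁.Coprime m₂) (h1 : r₁.Coprime m₁)
    (h2 : r₂.Coprime m₂) :
    ∃ r : ℕ, r.Coprime (m₁ * m₂) ∧ r ≡ r₁ [MOD m₁] ∧ r ≡ r₂ [MOD m₂] := by
  obtain ⟨r, hr1, hr2⟩ := Nat.chineseRemainder hco r₁ r₂
  refine ⟨r, Nat.Coprime.mul_right ?_ ?_, hr1, hr2⟩
  · rw [Nat.Coprime, hr1.gcd_eq]; exact h1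
  · rw [Nat.Coprime, hr2.gcd_eq]; exact h2

/-- The part of `n` prime to `2 q`. -/
theorem a3nt_oddpart (n q : ℕ) (hn : 0 < n) (hq : q.Prime) :
    ∃ P : ℕ, 0 < P ∧ P ∣ n ∧ P.Coprime 2 ∧ P.Coprime q ∧
      ∀ s : ℕ, s.Prime → s ≠ 2 → s ≠ q → s ∣ n → s ∣ P := by
  obtain ⟨e, n', h2, hn'⟩ := Nat.exists_eq_pow_mul_and_not_dvd hn.ne' 2 (by norm_num)
  have hn'0 : n' ≠ 0 := by
    rintro rfl
    exact h2 (dvd_zero _)
  obtain ⟨f, P, hqP, hP⟩ := Nat.exists_eq_pow_mul_and_not_dvd hn'0 q hq.one_lt.ne'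
  have hP0 : P ≠ 0 := by
    rintro rfl
    exact hqP (dvd_zero _)
  have hPn' : P ∣ n' := ⟨q ^ f, by rw [hP]; ring⟩
  refine ⟨P, Nat.pos_of_ne_zero hP0, ?_, ?_, ?_, ?_⟩
  · exact dvd_trans hPn' ⟨2 ^ e, by rw [hn']; ring⟩
  · exact ((Nat.Prime.coprime_iff_not_dvd Nat.prime_two).mpr
      (fun h => h2 (dvd_trans h hPn'))).symm
  · exact ((Nat.Prime.coprime_iff_not_dvd hq).mpr hqP).symm
  · intro s hs hs2 hsq hsn
    rw [hn', hP] at hsn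
    rcases (Nat.Prime.dvd_mul hs).mp hsn with h | h
    · exact absurd ((Nat.prime_dvd_prime_iff_eq hs Nat.prime_two).mp (hs.dvd_of_dvd_pow h)) hs2
    · rcases (Nat.Prime.dvd_mul hs).mp h with h | h
      · exact absurd ((Nat.prime_dvd_prime_iff_eq hs hq).mp (hs.dvd_of_dvd_pow h)) hsq
      · exact h

/-- Natural representative of an integer residue. -/
theorem a3nt_natrep (x : ℤ) (m : ℕ) (hm : 0 < m) : ∃ x' : ℕ, (x' : ℤ) ≡ x [ZMOD (m : ℤ)] := by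
  refine ⟨(x % (m : ℤ)).toNat, ?_⟩
  rw [Int.toNat_of_nonneg (Int.emod_nonneg _ (by exact_mod_cast hm.ne'))]
  exact Int.mod_modEq _ _

theorem a3nt_base (N q : ℕ) (hN : 0 < N) (hq : q.Prime) (hqN : ¬ q ∣ N) :
    ∃ M r : ℕ, 0 < M ∧ r.Coprime M ∧
      (∀ n : ℕ, n.Coprime 2 → n.Coprime q → n.Coprime N → n.Coprime M) ∧
      ∀ d : ℕ, d.Prime → d ≡ r [MOD M] →
        d ≡ 1 [MOD N] ∧ d % 4 = 1 ∧ ¬ IsSquare ((q : ℕ) : ZMod d) ∧ (q ≠ 2 → ¬ q ∣ d - 1) := by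
  by_cases hq2 : q = 2
  · subst hq2
    have hNodd : Nat.Coprime 8 N := by
      have : Nat.Coprime 2 N := (Nat.Prime.coprime_iff_not_dvd Nat.prime_two).mpr hqN
      exact Nat.Coprime.pow_left 3 this
    obtain ⟨r, hr, hr8, hrN⟩ := a3nt_crt 8 N 5 1 hNodd (by norm_num) (Nat.coprime_one_left N)
    refine ⟨8 * N, r, by positivity, hr, ?_, ?_⟩
    · intro n hn2 _ hnN
      exact Nat.Coprime.mul_right (Nat.Coprime.pow_right 3 hn2) hnN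
    · intro d hd hdr
      have h8 : d ≡ 5 [MOD 8] := (hdr.of_mul_right N).trans hr8
      have hN1 : d ≡ 1 [MOD N] := (hdr.of_mul_left 8).trans hrN
      have h8' : d % 8 = 5 := h8
      refine ⟨hN1, by omega, ?_, fun h => absurd rfl h⟩
      have : Fact d.Prime := ⟨hd⟩
      have hd2 : d ≠ 2 := by rintro rfl; omega
      have := ZMod.exists_sq_eq_two_iff hd2
      intro hsq
      have hsq' : IsSquare (2 : ZMod d) := by simpa using hsq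
      rcases this.mp hsq' with h | h <;> omega
  · -- q odd
    have : Fact q.Prime := ⟨hq⟩
    have hchar : ringChar (ZMod q) ≠ 2 := by
      rw [ZMod.ringChar_zmod_n]; exact hq2
    obtain ⟨y, hy⟩ := FiniteField.exists_nonsquare hchar
    have hy0 : y ≠ 0 := by
      rintro rfl
      exact hy ⟨0, by simp⟩
    have hyq : Nat.Coprime y.val q := by
      apply Nat.Coprime.symm
      rw [Nat.Prime.coprime_iff_not_dvd hq]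
      intro h
      apply hy0
      have := (ZMod.natCast_eq_zero_iff y.val q).mpr h
      rwa [ZMod.natCast_zmod_val] at this
    have h4Nq : Nat.Coprime (4 * N) q := by
      apply Nat.Coprime.symm
      apply Nat.Coprime.mul_right
      · have : Nat.Coprime q 2 := (Nat.coprime_primes hq Nat.prime_two).mpr hq2
        exact Nat.Coprime.pow_right 2 this
      · exact (Nat.Prime.coprime_iff_not_dvd hq).mpr hqN
    obtain ⟨r, hr, hr4, hrq⟩ := a3nt_crt (4 * N) q 1 y.val h4Nq (Nat.coprime_one_left _) hyq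
    refine ⟨4 * N * q, r, by have := hq.pos; positivity, hr, ?_, ?_⟩
    · intro n hn2 hnq hnN
      exact Nat.Coprime.mul_right (Nat.Coprime.mul_right (Nat.Coprime.pow_right 2 hn2) hnN) hnq
    · intro d hd hdr
      have h4N : d ≡ 1 [MOD 4 * N] := (hdr.of_mul_right q).trans hr4
      have hdq : d ≡ y.val [MOD q] := (hdr.of_mul_left (4 * N)).trans hrq
      have h4 : d ≡ 1 [MOD 4] := h4N.of_mul_right N
      have hN1 : d ≡ 1 [MOD N] := h4N.of_mul_left 4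
      have h4' : d % 4 = 1 := h4
      have : Fact d.Prime := ⟨hd⟩
      have hdy : ((d : ℕ) : ZMod q) = y := by
        have := (ZMod.natCast_eq_natCast_iff d y.val q).mpr hdq
        rwa [ZMod.natCast_zmod_val] at this
      refine ⟨hN1, h4', ?_, ?_⟩
      · rw [ZMod.exists_sq_eq_prime_iff_of_mod_four_eq_one h4' hq2, hdy]
        exact hy
      · intro _ hqd
        apply hy
        -- d ≡ 1 mod q
        have h1 : ((d : ℕ) : ZMod q) = 1 := by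
          have hd1 : 1 ≤ d := hd.one_lt.le
          have : ((d - 1 : ℕ) : ZMod q) = 0 := (ZMod.natCast_eq_zero_iff _ _).mpr hqd
          rw [Nat.cast_sub hd1] at this
          simpa [sub_eq_zero] using this
        rw [← hdy, h1]
        exact ⟨1, by simp⟩

theorem a3nt_d2 (N q l₁ ℓ a : ℕ) (hN : 0 < N) (hq : q.Prime) (hqN : ¬ q ∣ N)
    (hl : l₁.Prime) (hl2 : l₁ ≠ 2) (hlN : ¬ l₁ ∣ N) (hlq : l₁ ≠ q)
    (hs : ∀ s : ℕ, s.Prime → s ≠ 2 → s ∣ N → ¬ s ∣ l₁ - 1)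
    (hℓ : ℓ.Prime) (hℓ2 : ℓ ≠ 2) (hℓN : ¬ ℓ ∣ N) (hℓq : ℓ ≠ q) (hℓl : l₁ < ℓ)
    (x : ℤ) (hx : x ≡ 1 [ZMOD (N : ℤ)]) (hxl : ¬ (l₁ : ℤ) ∣ x) :
    ∃ d : ℕ, d.Prime ∧ (d : ℤ) ≡ x [ZMOD ((N * l₁ : ℕ) : ℤ)] ∧ ℓ ^ a ∣ d - 1 ∧ d % 4 = 1 ∧
      ¬ IsSquare ((q : ℕ) : ZMod d) ∧ (∀ s : ℕ, s.Prime → s ≠ 2 → s ∣ l₁ - 1 → ¬ s ∣ d - 1) := by
  obtain ⟨M₀, r₀, hM₀, hr₀, hcoM, hbase⟩ := a3nt_base N q hN hq hqN
  obtain ⟨x', hx'⟩ := a3nt_natrep x l₁ hl.pos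
  have hl1 : 0 < l₁ - 1 := by have := hl.two_le; omega
  obtain ⟨P, hP0, hPn, hP2, hPq, hPs⟩ := a3nt_oddpart (l₁ - 1) q hl1 hq
  -- coprimalities
  have hl_2 : l₁.Coprime 2 := (Nat.coprime_primes hl Nat.prime_two).mpr hl2
  have hl_q : l₁.Coprime q := (Nat.coprime_primes hl hq).mpr hlq
  have hl_N : l₁.Coprime N := (Nat.Prime.coprime_iff_not_dvd hl).mpr hlN
  have hℓ_2 : ℓ.Coprime 2 := (Nat.coprime_primes hℓ Nat.prime_two).mpr hℓ2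
  have hℓ_q : ℓ.Coprime q := (Nat.coprime_primes hℓ hq).mpr hℓq
  have hℓ_N : ℓ.Coprime N := (Nat.Prime.coprime_iff_not_dvd hℓ).mpr hℓN
  have hℓ_l : ℓ.Coprime l₁ := (Nat.coprime_primes hℓ hl).mpr (by omega)
  have hPle : P ≤ l₁ - 1 := Nat.le_of_dvd hl1 hPn
  have hP_l : P.Coprime l₁ := by
    apply Nat.Coprime.symm
    rw [Nat.Prime.coprime_iff_not_dvd hl]
    intro h
    have := Nat.le_of_dvd hP0 h
    omega
  have hP_ℓ : P.Coprime ℓ := by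
    apply Nat.Coprime.symm
    rw [Nat.Prime.coprime_iff_not_dvd hℓ]
    intro h
    have := Nat.le_of_dvd hP0 h
    omega
  have hP_N : P.Coprime N := by
    apply Nat.coprime_of_dvd
    intro s hsp hsP hsN
    have hs2 : s ≠ 2 := by
      rintro rfl
      have := Nat.Coprime.eq_one_of_dvd hP2.symm hsP
      omega
    exact hs s hsp hs2 hsN (dvd_trans hsP hPn)
  have hx'l : x'.Coprime l₁ := by
    apply Nat.Coprime.symm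
    rw [Nat.Prime.coprime_iff_not_dvd hl]
    intro h
    apply hxl
    have h1 : (l₁ : ℤ) ∣ (x' : ℤ) := by exact_mod_cast h
    have h2 : (l₁ : ℤ) ∣ x - x' := hx'.dvd
    have := dvd_add h2 h1
    simpa using this
  -- chain of CRT
  obtain ⟨r₁, hr₁, hr₁a, hr₁b⟩ :=
    a3nt_crt M₀ l₁ r₀ x' (hcoM l₁ hl_2 hl_q hl_N).symm hr₀ hx'l
  obtain ⟨r₂, hr₂, hr₂a, hr₂b⟩ := a3nt_crt (M₀ * l₁) (ℓ ^ a) r₁ 1
    (Nat.Coprime.pow_right a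
      (Nat.Coprime.mul_left (hcoM ℓ hℓ_2 hℓ_q hℓ_N).symm hℓ_l.symm)) hr₁ (Nat.coprime_one_left _)
  obtain ⟨r₃, hr₃, hr₃a, hr₃b⟩ := a3nt_crt (M₀ * l₁ * ℓ ^ a) P r₂ 2
    (Nat.Coprime.mul_left (Nat.Coprime.mul_left (hcoM P hP2 hPq hP_N).symm hP_l.symm)
      (Nat.Coprime.pow_left a hP_ℓ.symm)) hr₂ hP2.symm
  have hMpos : M₀ * l₁ * ℓ ^ a * P ≠ 0 := by
    have := hl.pos
    have := hℓ.pos
    positivity
  obtain ⟨d, hdgt, hd, hdr⟩ :=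
    Nat.forall_exists_prime_gt_and_modEq 2 (q := M₀ * l₁ * ℓ ^ a * P) (a := r₃) hMpos hr₃
  have hd₂ : d ≡ r₂ [MOD M₀ * l₁ * ℓ ^ a] := (hdr.of_mul_right P).trans hr₃a
  have hdP : d ≡ 2 [MOD P] := (hdr.of_mul_left _).trans hr₃b
  have hd₁ : d ≡ r₁ [MOD M₀ * l₁] := (hd₂.of_mul_right _).trans hr₂a
  have hdℓ : d ≡ 1 [MOD ℓ ^ a] := (hd₂.of_mul_left _).trans hr₂b
  have hd₀ : d ≡ r₀ [MOD M₀] := (hd₁.of_mul_right _).trans hr₁a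
  have hdl : d ≡ x' [MOD l₁] := (hd₁.of_mul_left _).trans hr₁b
  obtain ⟨hdN, hd4, hdq, hdq1⟩ := hbase d hd hd₀
  refine ⟨d, hd, ?_, ?_, hd4, hdq, ?_⟩
  · have h1 : (d : ℤ) ≡ x [ZMOD (N : ℤ)] := by
      have : (d : ℤ) ≡ ((1 : ℕ) : ℤ) [ZMOD (N : ℤ)] := (Int.natCast_modEq_iff).mpr hdN
      exact (by simpa using this : (d : ℤ) ≡ 1 [ZMOD (N : ℤ)]).trans hx.symm
    have h2 : (d : ℤ) ≡ x [ZMOD (l₁ : ℤ)] := ((Int.natCast_modEq_iff).mpr hdl).trans hx'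
    have hco : (N : ℤ).natAbs.Coprime (l₁ : ℤ).natAbs := by
      simpa using hl_N.symm
    have := (Int.modEq_and_modEq_iff_modEq_mul hco).mp ⟨h1, h2⟩
    push_cast
    exact this
  · exact (Nat.modEq_iff_dvd' hd.one_lt.le).mp hdℓ.symm
  · intro s hsp hs2 hsl hsd
    by_cases hsq : s = q
    · subst hsq; exact hdq1 hs2 hsd
    · have hsP := hPs s hsp hs2 hsq hsl
      have h2 : d ≡ 2 [MOD s] := hdP.of_dvd hsP
      have h1 : d ≡ 1 [MOD s] := ((Nat.modEq_iff_dvd' hd.one_lt.le).mpr hsd).symm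
      have h12 : 1 ≡ 2 [MOD s] := h1.symm.trans h2
      have h3 : s ∣ 2 - 1 := (Nat.modEq_iff_dvd' (by norm_num)).mp h12
      have := Nat.le_of_dvd (by norm_num) h3
      have := hsp.two_le
      omega

/-- the exact power of `ℓ` in `q^(2(ℓ-1)) - 1`. -/
theorem a3nt_val (q ℓ : ℕ) (hq : q.Prime) (hℓ : ℓ.Prime) (hℓq : ℓ ≠ q) :
    ∃ a : ℕ, 0 < a ∧ (ℓ : ℤ) ^ a ∣ (q : ℤ) ^ (2 * (ℓ - 1)) - 1 ∧
      ¬ (ℓ : ℤ) ^ (a + 1) ∣ (q : ℤ) ^ (2 * (ℓ - 1)) - 1 := by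
  have hℓ1 : 1 ≤ ℓ - 1 := by have := hℓ.two_le; omega
  have hq2 := hq.two_le
  have hpow : 2 ≤ q ^ (2 * (ℓ - 1)) := by
    calc 2 ≤ q := hq2
      _ = q ^ 1 := (pow_one q).symm
      _ ≤ q ^ (2 * (ℓ - 1)) := Nat.pow_le_pow_right hq.pos (by omega)
  have hn : q ^ (2 * (ℓ - 1)) - 1 ≠ 0 := by omega
  obtain ⟨a, n', hn', hfac⟩ := Nat.exists_eq_pow_mul_and_not_dvd hn ℓ hℓ.one_lt.ne'
  have hcast : ((q ^ (2 * (ℓ - 1)) - 1 : ℕ) : ℤ) = (q : ℤ) ^ (2 * (ℓ - 1)) - 1 := by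
    rw [Nat.cast_sub (by omega)]
    push_cast
    ring
  have hdvd : ℓ ∣ q ^ (2 * (ℓ - 1)) - 1 := by
    have : Fact ℓ.Prime := ⟨hℓ⟩
    have hq0 : ((q : ℕ) : ZMod ℓ) ≠ 0 := by
      intro h
      rw [ZMod.natCast_eq_zero_iff] at h
      exact hℓq ((Nat.prime_dvd_prime_iff_eq hℓ hq).mp h)
    have h1 : ((q : ℕ) : ZMod ℓ) ^ (ℓ - 1) = 1 := ZMod.pow_card_sub_one_eq_one hq0
    rw [← ZMod.natCast_eq_zero_iff, Nat.cast_sub (by omega)]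
    push_cast
    rw [mul_comm 2, pow_mul, h1]
    simp
  have ha : 0 < a := by
    rcases Nat.eq_zero_or_pos a with h | h
    · subst h
      rw [pow_zero, one_mul] at hfac
      rw [hfac] at hdvd
      exact absurd hdvd hn'
    · exact h
  refine ⟨a, ha, ?_, ?_⟩
  · rw [← hcast, hfac]
    push_cast
    exact dvd_mul_right _ _
  · rw [← hcast]
    intro h
    have h' : ℓ ^ (a + 1) ∣ q ^ (2 * (ℓ - 1)) - 1 := by exact_mod_cast h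
    rw [hfac, pow_succ] at h'
    exact hn' ((Nat.mul_dvd_mul_iff_left (pow_pos hℓ.pos a)).mp h')

theorem a3nt_core (N q l₁ : ℕ) (hN : 0 < N) (hq : q.Prime) (hqN : ¬ q ∣ N)
    (hl : l₁.Prime) (hl2 : l₁ ≠ 2) (hlN : ¬ l₁ ∣ N) (hlq : l₁ ≠ q)
    (hs : ∀ s : ℕ, s.Prime → s ≠ 2 → s ∣ N → ¬ s ∣ l₁ - 1)
    (x z : ℤ) (hx : x ≡ 1 [ZMOD (N : ℤ)]) (hz : z ≡ 1 [ZMOD (N : ℤ)])
    (hxl : ¬ (l₁ : ℤ) ∣ x) (hzl : ¬ (l₁ : ℤ) ∣ z) :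
    ∃ (d₂ S j k : ℕ) (w : ℤ), d₂.Prime ∧ d₂ ≠ q ∧ 0 < S ∧
      (d₂ : ℤ) ≡ x [ZMOD ((N * l₁ : ℕ) : ℤ)] ∧
      (S : ℤ) ≡ -(x * z) [ZMOD ((N * l₁ : ℕ) : ℤ)] ∧
      (S : ℤ) * w = (q : ℤ) ^ (2 * j) * d₂ - 1 ∧
      (S : ℤ) ≡ (q : ℤ) ^ (2 * k) [ZMOD (d₂ : ℤ)] := by
  have hl_N : l₁.Coprime N := (Nat.Prime.coprime_iff_not_dvd hl).mpr hlN
  have hlint : Prime (l₁ : ℤ) := Nat.prime_iff_prime_int.mp hl
  -- Step 1: the prime ℓ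
  have hxzN : x * z ≡ 1 [ZMOD (N : ℤ)] := by simpa using hx.mul hz
  have hcopN : IsCoprime (-(x * z)) (N : ℤ) := by
    obtain ⟨t, ht⟩ := hxzN.dvd
    exact ⟨-1, t, by linarith⟩
  have hcopl : IsCoprime (-(x * z)) (l₁ : ℤ) := by
    rw [isCoprime_comm, hlint.coprime_iff_not_dvd, dvd_neg]
    intro h
    rcases hlint.dvd_or_dvd h with h | h
    · exact hxl h
    · exact hzl h
  have hcop : IsCoprime (-(x * z)) ((N * l₁ : ℕ) : ℤ) := by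
    push_cast
    exact IsCoprime.mul_right hcopN hcopl
  have hNl0 : N * l₁ ≠ 0 := by have := hl.pos; positivity
  obtain ⟨ℓ, hℓgt, hℓ, hℓmod⟩ :=
    Nat.forall_exists_prime_gt_and_zmodEq (N + l₁ + q + 2) hNl0 hcop
  have hℓ2 : ℓ ≠ 2 := by omega
  have hℓq : ℓ ≠ q := by omega
  have hℓl : l₁ < ℓ := by omega
  have hℓN : ¬ ℓ ∣ N := by
    intro h
    have := Nat.le_of_dvd hN h
    omega
  -- Step 2: the exponent a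
  obtain ⟨a, ha, hu1, hu2⟩ := a3nt_val q ℓ hq hℓ hℓq
  -- Step 3: the prime d₂
  obtain ⟨d, hd, hdx, hdℓ, hd4, hdq, hds⟩ :=
    a3nt_d2 N q l₁ ℓ a hN hq hqN hl hl2 hlN hlq hs hℓ hℓ2 hℓN hℓq hℓl x hx hxl
  have hd1 : 1 ≤ d := hd.one_lt.le
  have : Fact d.Prime := ⟨hd⟩
  have : Fact ℓ.Prime := ⟨hℓ⟩
  have : Fact l₁.Prime := ⟨hl⟩
  have hℓd : ℓ ∣ d - 1 := dvd_trans (dvd_pow_self ℓ ha.ne') hdℓ
  have hdneℓ : d ≠ ℓ := by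
    rintro rfl
    have := Nat.le_of_dvd (by have := hd.two_le; omega) hℓd
    have := hd.two_le
    omega
  have hdneq : d ≠ q := by
    rintro rfl
    apply hdq
    rw [ZMod.natCast_self]
    exact ⟨0, by simp⟩
  -- Step 4: ℓ is a square mod d
  have hdℓ1 : ((d : ℕ) : ZMod ℓ) = 1 := by
    have h0 : ((d - 1 : ℕ) : ZMod ℓ) = 0 := (ZMod.natCast_eq_zero_iff _ _).mpr hℓd
    rw [Nat.cast_sub hd1] at h0
    simpa [sub_eq_zero] using h0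
  have hℓsq : IsSquare ((ℓ : ℕ) : ZMod d) := by
    rw [ZMod.exists_sq_eq_prime_iff_of_mod_four_eq_one hd4 hℓ2, hdℓ1]
    exact ⟨1, by simp⟩
  have hℓ0 : ((ℓ : ℕ) : ZMod d) ≠ 0 := by
    intro h
    rw [ZMod.natCast_eq_zero_iff] at h
    exact hdneℓ ((Nat.prime_dvd_prime_iff_eq hd hℓ).mp h)
  -- Step 5: m and k
  have hl1 : 0 < l₁ - 1 := by have := hl.two_le; omega
  obtain ⟨m, k, -, hm, hpow⟩ := a3h11_index d q ℓ (l₁ - 1) hd hdq hℓsq hℓ0 hds hl1 0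
  -- Step 6: j
  have hdℓ' : (ℓ : ℤ) ^ a ∣ (d : ℤ) - 1 := by
    have : ((ℓ ^ a : ℕ) : ℤ) ∣ ((d - 1 : ℕ) : ℤ) := by exact_mod_cast hdℓ
    rw [Nat.cast_sub hd1] at this
    simpa using this
  obtain ⟨j₀, w, hw⟩ := a3h11_procyclic ℓ hℓ hℓ2 ((q : ℤ) ^ (2 * (ℓ - 1))) a ha hu1 hu2
    (d : ℤ) hdℓ' m
  -- Step 7: congruences for S = ℓ ^ m
  have hlodd : Odd l₁ := hl.odd_of_ne_two hl2
  have hl3 : 3 ≤ l₁ := by
    have := hl.two_le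
    rcases hlodd with ⟨b, hb⟩
    omega
  have hm1 : 1 ≤ m := by
    rcases Nat.eq_zero_or_pos m with h | h
    · subst h
      have h01 : (0 : ℕ) % (l₁ - 1) = 1 % (l₁ - 1) := hm
      rw [Nat.zero_mod, Nat.mod_eq_of_lt (by omega)] at h01
      omega
    · exact h
  obtain ⟨b, hb⟩ : l₁ - 1 ∣ m - 1 := (Nat.modEq_iff_dvd' hm1).mp hm.symm
  have hmb : m = 1 + (l₁ - 1) * b := by omega
  have hmodd : Odd m := by
    rcases hlodd with ⟨c, hc⟩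
    refine ⟨c * b, ?_⟩
    rw [hmb, hc]
    have : 2 * c + 1 - 1 = 2 * c := by omega
    rw [this]
    ring
  have hSl : ((ℓ : ℤ) ^ m) ≡ -(x * z) [ZMOD (l₁ : ℤ)] := by
    have hℓl0 : ((ℓ : ℕ) : ZMod l₁) ≠ 0 := by
      intro h
      rw [ZMod.natCast_eq_zero_iff] at h
      have := (Nat.prime_dvd_prime_iff_eq hl hℓ).mp h
      omega
    have h1 : ((ℓ : ℕ) : ZMod l₁) ^ (l₁ - 1) = 1 := ZMod.pow_card_sub_one_eq_one hℓl0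
    have h2 : ((ℓ : ℤ) ^ m) ≡ (ℓ : ℤ) [ZMOD (l₁ : ℤ)] := by
      rw [← ZMod.intCast_eq_intCast_iff]
      push_cast
      rw [hmb, pow_add, pow_one, pow_mul, h1, one_pow, mul_one]
    have h3 : (ℓ : ℤ) ≡ -(x * z) [ZMOD (l₁ : ℤ)] :=
      Int.ModEq.of_dvd (by push_cast; exact dvd_mul_left _ _) hℓmod
    exact h2.trans h3
  have hSN : ((ℓ : ℤ) ^ m) ≡ -(x * z) [ZMOD (N : ℤ)] := by
    have h3 : (ℓ : ℤ) ≡ -(x * z) [ZMOD (N : ℤ)] :=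
      Int.ModEq.of_dvd (by push_cast; exact dvd_mul_right _ _) hℓmod
    have h4 : (ℓ : ℤ) ≡ -1 [ZMOD (N : ℤ)] := h3.trans hxzN.neg
    have h5 : (ℓ : ℤ) ^ m ≡ (-1) ^ m [ZMOD (N : ℤ)] := h4.pow m
    rw [hmodd.neg_one_pow] at h5
    exact h5.trans hxzN.neg.symm
  have hS : ((ℓ : ℤ) ^ m) ≡ -(x * z) [ZMOD ((N * l₁ : ℕ) : ℤ)] := by
    have hco : (N : ℤ).natAbs.Coprime (l₁ : ℤ).natAbs := by
      simpa using hl_N.symm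
    have := (Int.modEq_and_modEq_iff_modEq_mul hco).mp ⟨hSN, hSl⟩
    push_cast
    exact this
  refine ⟨d, ℓ ^ m, (ℓ - 1) * j₀, k, w, hd, hdneq, pow_pos hℓ.pos m, hdx, ?_, ?_, ?_⟩
  · push_cast
    exact hS
  · have hpw : (q : ℤ) ^ (2 * ((ℓ - 1) * j₀)) = ((q : ℤ) ^ (2 * (ℓ - 1))) ^ j₀ := by
      rw [← pow_mul]
      congr 1
      ring
    push_cast
    rw [hpw, hw]
  · rw [← ZMod.intCast_eq_intCast_iff]
    push_cast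
    exact hpow

/-- **A3-NT** (number theory of Lemma B), `S`-form.  Consumer: `v = q^j`, `w = q^k`. -/
theorem a3nt_exists (N q l₁ : ℕ) (hN : 0 < N) (hq : q.Prime) (hqN : ¬ q ∣ N)
    (hl : l₁.Prime) (hl2 : l₁ ≠ 2) (hlN : ¬ l₁ ∣ N) (hlq : l₁ ≠ q)
    (hs : ∀ s : ℕ, s.Prime → s ≠ 2 → s ∣ N → ¬ s ∣ l₁ - 1)
    (x z : ℤ) (hx : x ≡ 1 [ZMOD (N : ℤ)]) (hz : z ≡ 1 [ZMOD (N : ℤ)])
    (hxl : ¬ (l₁ : ℤ) ∣ x) (hzl : ¬ (l₁ : ℤ) ∣ z) :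
    ∃ d₂ S j k : ℕ, d₂.Prime ∧ 0 < S ∧
      (d₂ : ℤ) ≡ x [ZMOD ((N * l₁ : ℕ) : ℤ)] ∧
      (S : ℤ) ≡ -(x * z) [ZMOD ((N * l₁ : ℕ) : ℤ)] ∧
      (S : ℤ) ∣ (q : ℤ) ^ (2 * j) * d₂ - 1 ∧
      (d₂ : ℤ) ∣ (S : ℤ) * (q : ℤ) ^ (2 * k) - 1 ∧ d₂ ≠ q := by
  obtain ⟨d, S, j, k, w, hd, hdq, hS0, hdx, hSx, hSw, hSk⟩ :=
    a3nt_core N q l₁ hN hq hqN hl hl2 hlN hlq hs x z hx hz hxl hzl
  refine ⟨d, S, j, k * (d - 2), hd, hS0, hdx, hSx, ⟨w, hSw.symm⟩, ?_, hdq⟩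
  have : Fact d.Prime := ⟨hd⟩
  have hq0 : ((q : ℕ) : ZMod d) ≠ 0 := by
    intro h
    rw [ZMod.natCast_eq_zero_iff] at h
    exact hdq ((Nat.prime_dvd_prime_iff_eq hd hq).mp h)
  have h1 : ((q : ℕ) : ZMod d) ^ (d - 1) = 1 := ZMod.pow_card_sub_one_eq_one hq0
  have hSk' : ((S : ℕ) : ZMod d) = ((q : ℕ) : ZMod d) ^ (2 * k) := by
    have := (ZMod.intCast_eq_intCast_iff _ _ _).mpr hSk
    push_cast at this
    exact this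
  rw [← ZMod.intCast_zmod_eq_zero_iff_dvd]
  push_cast
  rw [hSk', ← pow_add]
  have hd2 := hd.two_le
  have hexp : 2 * k + 2 * (k * (d - 2)) = (d - 1) * (2 * k) := by
    obtain ⟨e, rfl⟩ : ∃ e, d = e + 2 := ⟨d - 2, by omega⟩
    have h1 : e + 2 - 2 = e := by omega
    have h2 : e + 2 - 1 = e + 1 := by omega
    rw [h1, h2]
    ring
  rw [hexp, pow_mul, h1, one_pow, sub_self]

/-- **A3-NT**, in the form eaten by `a3_lemmaA`: `s * L = q^(2j) d₂ - 1`, `L q^(2k) ≡ 1 mod d₂`,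
`s ≡ x z`, `d₂ ≡ x` modulo `c = N l₁`. -/
theorem a3nt_exists_sL (N q l₁ : ℕ) (hN : 0 < N) (hq : q.Prime) (hqN : ¬ q ∣ N)
    (hl : l₁.Prime) (hl2 : l₁ ≠ 2) (hlN : ¬ l₁ ∣ N) (hlq : l₁ ≠ q)
    (hs : ∀ s : ℕ, s.Prime → s ≠ 2 → s ∣ N → ¬ s ∣ l₁ - 1)
    (x z : ℤ) (hx : x ≡ 1 [ZMOD (N : ℤ)]) (hz : z ≡ 1 [ZMOD (N : ℤ)])
    (hxl : ¬ (l₁ : ℤ) ∣ x) (hzl : ¬ (l₁ : ℤ) ∣ z) :
    ∃ (d₂ : ℕ) (s L : ℤ) (j k : ℕ), d₂.Prime ∧ d₂ ≠ q ∧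
      (d₂ : ℤ) ≡ x [ZMOD ((N * l₁ : ℕ) : ℤ)] ∧
      s ≡ x * z [ZMOD ((N * l₁ : ℕ) : ℤ)] ∧
      s * L = (q : ℤ) ^ (2 * j) * d₂ - 1 ∧
      L * (q : ℤ) ^ (2 * k) ≡ 1 [ZMOD (d₂ : ℤ)] := by
  obtain ⟨d, S, j, k, w, hd, hdq, hS0, hdx, hSx, hSw, hSk⟩ :=
    a3nt_core N q l₁ hN hq hqN hl hl2 hlN hlq hs x z hx hz hxl hzl
  refine ⟨d, -(S : ℤ), -w, j, k, hd, hdq, hdx, ?_, ?_, ?_⟩
  · simpa using hSx.neg
  · rw [neg_mul_neg]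
    exact hSw
  · have h1 : (S : ℤ) * w ≡ -1 [ZMOD (d : ℤ)] := by
      rw [hSw]
      have h0 : (q : ℤ) ^ (2 * j) * d ≡ 0 [ZMOD (d : ℤ)] :=
        Int.modEq_zero_iff_dvd.mpr (dvd_mul_left _ _)
      simpa using h0.sub_right 1
    have h2 : (q : ℤ) ^ (2 * k) * w ≡ (S : ℤ) * w [ZMOD (d : ℤ)] := hSk.symm.mul_right w
    have h3 := (h2.trans h1).neg
    have h4 : -w * (q : ℤ) ^ (2 * k) = -((q : ℤ) ^ (2 * k) * w) := by ring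
    rw [h4]
    simpa using h3

/-- `a3nt_exists_sL` together with the two coprimality facts needed by `a3_lemmaA`. -/
theorem a3nt_exists_full (N q l₁ : ℕ) (hN : 0 < N) (hq : q.Prime) (hqN : ¬ q ∣ N)
    (hl : l₁.Prime) (hl2 : l₁ ≠ 2) (hlN : ¬ l₁ ∣ N) (hlq : l₁ ≠ q)
    (hs : ∀ s : ℕ, s.Prime → s ≠ 2 → s ∣ N → ¬ s ∣ l₁ - 1)
    (x z : ℤ) (hx : x ≡ 1 [ZMOD (N : ℤ)]) (hz : z ≡ 1 [ZMOD (N : ℤ)])
    (hxl : ¬ (l₁ : ℤ) ∣ x) (hzl : ¬ (l₁ : ℤ) ∣ z) :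
    ∃ (d₂ : ℕ) (s L : ℤ) (j k : ℕ), d₂.Prime ∧ d₂ ≠ q ∧
      (d₂ : ℤ) ≡ x [ZMOD ((N * l₁ : ℕ) : ℤ)] ∧
      s ≡ x * z [ZMOD ((N * l₁ : ℕ) : ℤ)] ∧
      s * L = (q : ℤ) ^ (2 * j) * d₂ - 1 ∧
      L * (q : ℤ) ^ (2 * k) ≡ 1 [ZMOD (d₂ : ℤ)] ∧
      IsCoprime (d₂ : ℤ) (((N * l₁ : ℕ) : ℤ)) ∧ IsCoprime (d₂ : ℤ) (q : ℤ) := by
  obtain ⟨d, s, L, j, k, hd, hdq, hdx, hsx, hsL, hLk⟩ :=
    a3nt_exists_sL N q l₁ hN hq hqN hl hl2 hlN hlq hs x z hx hz hxl hzl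
  refine ⟨d, s, L, j, k, hd, hdq, hdx, hsx, hsL, hLk, ?_, ?_⟩
  · have hlint : Prime (l₁ : ℤ) := Nat.prime_iff_prime_int.mp hl
    have hxN : IsCoprime x (N : ℤ) := by
      obtain ⟨t, ht⟩ := hx.dvd
      exact ⟨1, t, by linarith⟩
    have hxl' : IsCoprime x (l₁ : ℤ) := by
      rw [isCoprime_comm, hlint.coprime_iff_not_dvd]
      exact hxl
    have hxc : IsCoprime x (((N * l₁ : ℕ) : ℤ)) := by
      push_cast
      exact IsCoprime.mul_right hxN hxl'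
    obtain ⟨t, ht⟩ := hdx.symm.dvd
    have hdxt : (d : ℤ) = x + ((N * l₁ : ℕ) : ℤ) * t := by linarith
    rw [hdxt]
    exact hxc.add_mul_left_left t
  · exact Nat.isCoprime_iff_coprime.mpr ((Nat.coprime_primes hd hq).mpr hdq)

end Fermat.Agent.S41lib
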