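/-
Item 78 (S41), block A (Ihara's lemma), piece A3-SYM (helper9): the symbol calculus of the crux
in INTEGER form, and LEMMA A of helper10's proof.

`φ : Γ₀(N) → X` is a homomorphism to an abelian group which is parabolic (kills the elements of
trace `±2`) and invariant under conjugation by `diag(q, 1/q)` (`A3HInv`).

* `a3_wd`     : `φ γ` depends only on the bottom row of `γ`;
* `a3_P1`     : `φ γ' = φ γ` if `c' = c`, `d' ≡ d mod c`;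
* `a3_P2`     : `φ γ' = φ γ` if `d' = d`, `c' ≡ c mod N d`;
* `a3_U`      : `φ γ' = φ γ` if `d' = d`, `c' = q^(2j) c`;
* `a3_lemmaA` : multiplicativity `φ γ_s = φ γ₁ + φ γ₂` for the rows `(c, s)`, `(c, d₁)`, `(c, d₂)`,
  `d₁ d₂ ≡ s mod c`, as soon as `s L = q^(2j) d₂ - 1`, `L q^(2k) ≡ 1 mod d₂`.
-/
import Mathlib
import Fermat.Prelude.Def_ModularCurve_PeriodMap
import Fermat.Agent.S41lib.AmalgamDefs
import Fermat.Agent.S41lib.A3Defs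

set_option autoImplicit false

open CongruenceSubgroup ModularCurve.Period
open scoped MatrixGroups

namespace Fermat.Agent.S41lib

/-- an element of `Γ₀(N)` from its four entries -/
def a3Mk (N : ℕ) (a b c d : ℤ) (h : a * d - b * c = 1) (hc : (N : ℤ) ∣ c) : Gamma0 N :=
  ⟨amMk a b c d h, am_mem_Gamma0_iff.2 hc⟩

section mk
variable (N : ℕ) (a b c d : ℤ) (h : a * d - b * c = 1) (hc : (N : ℤ) ∣ c)

@[simp] lemma a3Mk_00 : ((a3Mk N a b c d h hc : Gamma0 N) : SL(2, ℤ)) 0 0 = a := rfl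
@[simp] lemma a3Mk_01 : ((a3Mk N a b c d h hc : Gamma0 N) : SL(2, ℤ)) 0 1 = b := rfl
@[simp] lemma a3Mk_10 : ((a3Mk N a b c d h hc : Gamma0 N) : SL(2, ℤ)) 1 0 = c := rfl
@[simp] lemma a3Mk_11 : ((a3Mk N a b c d h hc : Gamma0 N) : SL(2, ℤ)) 1 1 = d := rfl

end mk

lemma a3_dvd {N : ℕ} (γ : Gamma0 N) : (N : ℤ) ∣ (γ : SL(2, ℤ)) 1 0 :=
  am_mem_Gamma0_iff.1 γ.2

lemma a3_det {N : ℕ} (γ : Gamma0 N) :
    (γ : SL(2, ℤ)) 0 0 * (γ : SL(2, ℤ)) 1 1 - (γ : SL(2, ℤ)) 0 1 * (γ : SL(2, ℤ)) 1 0 = 1 :=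
  am_det_eq _

lemma a3_coprime {N : ℕ} (γ : Gamma0 N) :
    IsCoprime ((γ : SL(2, ℤ)) 1 0) ((γ : SL(2, ℤ)) 1 1) :=
  ⟨-(γ : SL(2, ℤ)) 0 1, (γ : SL(2, ℤ)) 0 0, by linear_combination a3_det γ⟩

/-- a matrix of `Γ₀(N)` with prescribed bottom row -/
lemma a3_exists_row (N : ℕ) (c d : ℤ) (hc : (N : ℤ) ∣ c) (hcd : IsCoprime c d) :
    ∃ γ : Gamma0 N, (γ : SL(2, ℤ)) 1 0 = c ∧ (γ : SL(2, ℤ)) 1 1 = d := by
  obtain ⟨u, v, huv⟩ := hcd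
  exact ⟨a3Mk N v (-u) c d (by linear_combination huv) hc, rfl, rfl⟩

section symbol

variable {N : ℕ} {X : Type*} [AddCommGroup X] (φ : Additive (Gamma0 N) →+ X)

lemma a3_map_mul (γ δ : Gamma0 N) :
    φ (Additive.ofMul (γ * δ)) = φ (Additive.ofMul γ) + φ (Additive.ofMul δ) := by
  rw [ofMul_mul, map_add]

lemma a3_map_inv (γ : Gamma0 N) :
    φ (Additive.ofMul γ⁻¹) = - φ (Additive.ofMul γ) := by
  rw [ofMul_inv, map_neg]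

variable {φ}

/-- `φ` kills the elements with bottom row `(0, 1)` -/
lemma a3_par_upper (hpar : IsParabolicHom (Gamma0 N) φ) (γ : Gamma0 N)
    (h0 : (γ : SL(2, ℤ)) 1 0 = 0) (h1 : (γ : SL(2, ℤ)) 1 1 = 1) :
    φ (Additive.ofMul γ) = 0 := by
  apply hpar
  have hdet := a3_det γ
  rw [h0, h1] at hdet
  have h00 : (γ : SL(2, ℤ)) 0 0 = 1 := by linear_combination hdet
  rw [Matrix.trace_fin_two, h00, h1]
  norm_num

/-- `φ` kills the elements with right column `(0, 1)` -/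
lemma a3_par_lower (hpar : IsParabolicHom (Gamma0 N) φ) (γ : Gamma0 N)
    (h0 : (γ : SL(2, ℤ)) 0 1 = 0) (h1 : (γ : SL(2, ℤ)) 1 1 = 1) :
    φ (Additive.ofMul γ) = 0 := by
  apply hpar
  have hdet := a3_det γ
  rw [h0, h1] at hdet
  have h00 : (γ : SL(2, ℤ)) 0 0 = 1 := by linear_combination hdet
  rw [Matrix.trace_fin_two, h00, h1]
  norm_num

/-- (WD) `φ γ` depends only on the bottom row of `γ` -/
theorem a3_wd (hpar : IsParabolicHom (Gamma0 N) φ) (γ γ' : Gamma0 N)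
    (h0 : (γ' : SL(2, ℤ)) 1 0 = (γ : SL(2, ℤ)) 1 0)
    (h1 : (γ' : SL(2, ℤ)) 1 1 = (γ : SL(2, ℤ)) 1 1) :
    φ (Additive.ofMul γ') = φ (Additive.ofMul γ) := by
  have key : φ (Additive.ofMul (γ' * γ⁻¹)) = 0 := by
    apply a3_par_upper hpar
    · show ((γ' : SL(2, ℤ)) * (γ : SL(2, ℤ))⁻¹) 1 0 = 0
      rw [am_mul_10, am_inv_00, am_inv_10, h0, h1]
      ring
    · show ((γ' : SL(2, ℤ)) * (γ : SL(2, ℤ))⁻¹) 1 1 = 1
      rw [am_mul_11, am_inv_01, am_inv_11, h0, h1]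
      linear_combination a3_det γ
  rw [a3_map_mul, a3_map_inv] at key
  exact sub_eq_zero.1 (by rw [sub_eq_add_neg]; exact key)

/-- (P1) `φ γ' = φ γ` if `c' = c` and `d' ≡ d mod c` -/
theorem a3_P1 (hpar : IsParabolicHom (Gamma0 N) φ) (γ γ' : Gamma0 N)
    (h0 : (γ' : SL(2, ℤ)) 1 0 = (γ : SL(2, ℤ)) 1 0)
    (h1 : (γ' : SL(2, ℤ)) 1 1 ≡ (γ : SL(2, ℤ)) 1 1 [ZMOD (γ : SL(2, ℤ)) 1 0]) :
    φ (Additive.ofMul γ') = φ (Additive.ofMul γ) := by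
  obtain ⟨t, ht⟩ := h1.symm.dvd
  -- `τ = [[1, t],[0, 1]]`
  let τ : Gamma0 N := a3Mk N 1 t 0 1 (by ring) (dvd_zero _)
  have hτ : φ (Additive.ofMul τ) = 0 := a3_par_upper hpar τ rfl rfl
  have h := a3_wd hpar (γ * τ) γ' ?_ ?_
  · rw [h, a3_map_mul, hτ, add_zero]
  · show (γ' : SL(2, ℤ)) 1 0 = ((γ : SL(2, ℤ)) * (τ : SL(2, ℤ))) 1 0
    rw [am_mul_10, h0]
    show _ = (γ : SL(2, ℤ)) 1 0 * 1 + (γ : SL(2, ℤ)) 1 1 * 0
    ring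
  · show (γ' : SL(2, ℤ)) 1 1 = ((γ : SL(2, ℤ)) * (τ : SL(2, ℤ))) 1 1
    rw [am_mul_11]
    show _ = (γ : SL(2, ℤ)) 1 0 * t + (γ : SL(2, ℤ)) 1 1 * 1
    linear_combination ht

/-- (P2) `φ γ' = φ γ` if `d' = d` and `c' ≡ c mod N d` -/
theorem a3_P2 (hpar : IsParabolicHom (Gamma0 N) φ) (γ γ' : Gamma0 N)
    (h1 : (γ' : SL(2, ℤ)) 1 1 = (γ : SL(2, ℤ)) 1 1)
    (h0 : (γ' : SL(2, ℤ)) 1 0 ≡ (γ : SL(2, ℤ)) 1 0 [ZMOD (N : ℤ) * (γ : SL(2, ℤ)) 1 1]) :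
    φ (Additive.ofMul γ') = φ (Additive.ofMul γ) := by
  obtain ⟨t, ht⟩ := h0.symm.dvd
  -- `λ = [[1, 0],[N t, 1]]`
  let l : Gamma0 N := a3Mk N 1 0 ((N : ℤ) * t) 1 (by ring) (dvd_mul_right _ _)
  have hl : φ (Additive.ofMul l) = 0 := a3_par_lower hpar l rfl rfl
  have h := a3_wd hpar (γ * l) γ' ?_ ?_
  · rw [h, a3_map_mul, hl, add_zero]
  · show (γ' : SL(2, ℤ)) 1 0 = ((γ : SL(2, ℤ)) * (l : SL(2, ℤ))) 1 0
    rw [am_mul_10]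
    show _ = (γ : SL(2, ℤ)) 1 0 * 1 + (γ : SL(2, ℤ)) 1 1 * ((N : ℤ) * t)
    linear_combination ht
  · show (γ' : SL(2, ℤ)) 1 1 = ((γ : SL(2, ℤ)) * (l : SL(2, ℤ))) 1 1
    rw [am_mul_11, h1]
    show _ = (γ : SL(2, ℤ)) 1 0 * 0 + (γ : SL(2, ℤ)) 1 1 * 1
    ring

/-- (U), one step: `φ γ' = φ γ` if `d' = d`, `c = q² c'` -/
theorem a3_U_step {q : ℕ} (hpar : IsParabolicHom (Gamma0 N) φ)
    (hH : A3HInv N q φ) (γ γ' : Gamma0 N)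
    (h1 : (γ' : SL(2, ℤ)) 1 1 = (γ : SL(2, ℤ)) 1 1)
    (h0 : (γ : SL(2, ℤ)) 1 0 = (q : ℤ) ^ 2 * (γ' : SL(2, ℤ)) 1 0) :
    φ (Additive.ofMul γ') = φ (Additive.ofMul γ) := by
  -- `γ'' = [[a, q² b],[c', d]]`
  have hdet := a3_det γ
  let γ'' : Gamma0 N := a3Mk N ((γ : SL(2, ℤ)) 0 0) ((q : ℤ) ^ 2 * (γ : SL(2, ℤ)) 0 1)
    ((γ' : SL(2, ℤ)) 1 0) ((γ : SL(2, ℤ)) 1 1) (by rw [h0] at hdet; linear_combination hdet)
    (a3_dvd γ')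
  have e1 : φ (Additive.ofMul γ'') = φ (Additive.ofMul γ) := hH γ γ'' rfl rfl h0 rfl
  have e2 : φ (Additive.ofMul γ') = φ (Additive.ofMul γ'') := a3_wd hpar γ'' γ' rfl h1
  rw [e2, e1]

/-- (U) `φ γ' = φ γ` if `d' = d`, `c = q^(2j) c'` -/
theorem a3_U {q : ℕ} (hpar : IsParabolicHom (Gamma0 N) φ)
    (hH : A3HInv N q φ) (j : ℕ) (γ γ' : Gamma0 N)
    (h1 : (γ' : SL(2, ℤ)) 1 1 = (γ : SL(2, ℤ)) 1 1)
    (h0 : (γ : SL(2, ℤ)) 1 0 = (q : ℤ) ^ (2 * j) * (γ' : SL(2, ℤ)) 1 0) :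
    φ (Additive.ofMul γ') = φ (Additive.ofMul γ) := by
  induction j generalizing γ with
  | zero =>
    exact a3_wd hpar γ γ' (by rw [h0]; simp) h1
  | succ j ih =>
    -- intermediate matrix with bottom row `(q^(2j) c', d)`
    have hcop : IsCoprime ((q : ℤ) ^ (2 * j) * (γ' : SL(2, ℤ)) 1 0) ((γ : SL(2, ℤ)) 1 1) := by
      have h := a3_coprime γ
      rw [h0] at h
      have e : (q : ℤ) ^ (2 * (j + 1)) * (γ' : SL(2, ℤ)) 1 0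
          = (q : ℤ) ^ 2 * ((q : ℤ) ^ (2 * j) * (γ' : SL(2, ℤ)) 1 0) := by ring
      rw [e] at h
      exact h.of_mul_left_right
    obtain ⟨μ, hμ0, hμ1⟩ := a3_exists_row N _ _
      (Dvd.dvd.mul_left (a3_dvd γ') _) hcop
    have e1 : φ (Additive.ofMul γ') = φ (Additive.ofMul μ) :=
      ih μ (by rw [hμ1, h1]) hμ0
    have e2 : φ (Additive.ofMul μ) = φ (Additive.ofMul γ) :=
      a3_U_step hpar hH γ μ hμ1 (by rw [h0, hμ0]; ring)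
    rw [e1, e2]

end symbol

/-- **Lemma A** (helper10), integer form. -/
theorem a3_lemmaA (N q : ℕ) {X : Type*} [AddCommGroup X]
    (φ : Additive (Gamma0 N) →+ X)
    (hpar : IsParabolicHom (Gamma0 N) φ) (hH : A3HInv N q φ)
    (c : ℤ) (d₂ : ℕ) (s L : ℤ) (j k : ℕ) (hd₂ : 1 < d₂)
    (hd₂c : IsCoprime (d₂ : ℤ) c)
    (hsL : s * L = (q : ℤ) ^ (2 * j) * d₂ - 1)
    (hLk : L * (q : ℤ) ^ (2 * k) ≡ 1 [ZMOD (d₂ : ℤ)])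
    (γs γ₁ γ₂ : Gamma0 N)
    (hs0 : (γs : SL(2, ℤ)) 1 0 = c) (hs1 : (γs : SL(2, ℤ)) 1 1 = s)
    (h10 : (γ₁ : SL(2, ℤ)) 1 0 = c) (h11 : (γ₁ : SL(2, ℤ)) 1 1 * d₂ ≡ s [ZMOD c])
    (h20 : (γ₂ : SL(2, ℤ)) 1 0 = c) (h21 : (γ₂ : SL(2, ℤ)) 1 1 = d₂) :
    φ (Additive.ofMul γs) = φ (Additive.ofMul γ₁) + φ (Additive.ofMul γ₂) := by
  have hNc : (N : ℤ) ∣ c := hs0 ▸ a3_dvd γs
  have hcs : IsCoprime c s := by
    have := a3_coprime γs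
    rwa [hs0, hs1] at this
  -- `L ≠ 0`, `L` is prime to `d₂`
  have hd₂pos : (1 : ℤ) < (d₂ : ℤ) := by exact_mod_cast hd₂
  have hL0 : L ≠ 0 := by
    rintro rfl
    rw [mul_zero] at hsL
    have hdvd : (d₂ : ℤ) ∣ 1 := ⟨(q : ℤ) ^ (2 * j), by linear_combination hsL⟩
    have := Int.eq_one_of_dvd_one (by positivity) hdvd
    omega
  have hLd₂ : IsCoprime L (d₂ : ℤ) := by
    refine ⟨-s, (q : ℤ) ^ (2 * j), ?_⟩
    linear_combination -hsL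
  have hd₂cL : IsCoprime (d₂ : ℤ) (c * L) := hd₂c.mul_right hLd₂.symm
  -- `a₂ d₂ - b₂ c L = 1`
  obtain ⟨a₂, u, hau⟩ := hd₂cL
  -- `hau : a₂ * d₂ + u * (c * L) = 1`
  have hdet₂ : a₂ * (d₂ : ℤ) - (-u) * (c * L) = 1 := by linear_combination hau
  -- `L ∣ q^(2j) - a₂`
  have hdiv : L ∣ (q : ℤ) ^ (2 * j) - a₂ := by
    have h : L ∣ ((q : ℤ) ^ (2 * j) - a₂) * (d₂ : ℤ) :=
      ⟨s + u * c, by linear_combination -hsL - hau⟩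
    exact hLd₂.dvd_of_dvd_mul_right h
  obtain ⟨d₁, hd₁⟩ := hdiv
  -- `d₁ d₂ = s + u c`
  have hd₁d₂ : d₁ * (d₂ : ℤ) = s + u * c := by
    have h : L * (d₁ * (d₂ : ℤ)) = L * (s + u * c) := by
      linear_combination (-(d₂ : ℤ)) * hd₁ - hsL - hau
    exact mul_left_cancel₀ hL0 h
  -- `d₁` is prime to `c`
  have hcd₁ : IsCoprime c d₁ := by
    have h : IsCoprime c (d₁ * (d₂ : ℤ)) := by
      rw [hd₁d₂]
      exact (IsCoprime.add_mul_right_right_iff (x := c) (y := s) (z := u)).2 hcs |>.symm.symm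
    exact h.of_mul_right_left
  -- the matrices
  let σ₂ : Gamma0 N := a3Mk N a₂ (-u) (c * L) d₂ hdet₂ (Dvd.dvd.mul_right hNc _)
  obtain ⟨σ₁, hσ₁0, hσ₁1⟩ := a3_exists_row N c d₁ hNc hcd₁
  -- bottom row of `σ₁ σ₂` is `(q^(2j) c, s)`
  have hprod0 : ((σ₁ * σ₂ : Gamma0 N) : SL(2, ℤ)) 1 0 = (q : ℤ) ^ (2 * j) * c := by
    show ((σ₁ : SL(2, ℤ)) * (σ₂ : SL(2, ℤ))) 1 0 = _
    rw [am_mul_10, hσ₁0, hσ₁1]
    show c * a₂ + d₁ * (c * L) = _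
    linear_combination (-c) * hd₁
  have hprod1 : ((σ₁ * σ₂ : Gamma0 N) : SL(2, ℤ)) 1 1 = s := by
    show ((σ₁ : SL(2, ℤ)) * (σ₂ : SL(2, ℤ))) 1 1 = _
    rw [am_mul_11, hσ₁0, hσ₁1]
    show c * (-u) + d₁ * (d₂ : ℤ) = _
    linear_combination hd₁d₂
  -- (U): `φ (σ₁ σ₂) = φ γs`
  have e1 : φ (Additive.ofMul γs) = φ (Additive.ofMul (σ₁ * σ₂)) :=
    a3_U hpar hH j (σ₁ * σ₂) γs (by rw [hs1, hprod1]) (by rw [hprod0, hs0])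
  -- `φ σ₁ = φ γ₁`
  have e2 : φ (Additive.ofMul σ₁) = φ (Additive.ofMul γ₁) := by
    apply a3_P1 hpar γ₁ σ₁ (by rw [hσ₁0, h10])
    rw [hσ₁1, h10]
    -- `d₁ d₂ ≡ s ≡ γ₁₁₁ d₂ mod c`, `d₂` invertible mod `c`
    have h1 : d₁ * (d₂ : ℤ) ≡ (γ₁ : SL(2, ℤ)) 1 1 * d₂ [ZMOD c] := by
      refine Int.ModEq.trans ?_ h11.symm
      rw [hd₁d₂]
      exact (Int.modEq_iff_dvd.2 ⟨-u, by ring⟩)
    obtain ⟨x, y, hxy⟩ := hd₂c
    -- `x d₂ + y c = 1`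
    have h2 := h1.mul_right x
    have e : ∀ t : ℤ, t * (d₂ : ℤ) * x ≡ t [ZMOD c] := by
      intro t
      exact Int.modEq_iff_dvd.2 ⟨t * y, by linear_combination (-t) * hxy⟩
    exact ((e d₁).symm.trans h2).trans (e _)
  -- `φ σ₂ = φ γ₂`
  have e3 : φ (Additive.ofMul σ₂) = φ (Additive.ofMul γ₂) := by
    -- `τ` with bottom row `(q^(2k) c L, d₂)`
    have hqk : IsCoprime ((q : ℤ) ^ (2 * k)) (d₂ : ℤ) := by
      obtain ⟨w, hw⟩ := hLk.dvd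
      exact ⟨L, w, by linear_combination -hw⟩
    have hcop : IsCoprime ((q : ℤ) ^ (2 * k) * (c * L)) (d₂ : ℤ) :=
      IsCoprime.mul_left hqk (hd₂c.symm.mul_left hLd₂)
    obtain ⟨τ, hτ0, hτ1⟩ := a3_exists_row N _ _
      (Dvd.dvd.mul_left (Dvd.dvd.mul_right hNc _) _) hcop
    have f1 : φ (Additive.ofMul σ₂) = φ (Additive.ofMul τ) :=
      a3_U hpar hH k τ σ₂ (by rw [hτ1]; rfl) (by rw [hτ0]; rfl)
    have f2 : φ (Additive.ofMul τ) = φ (Additive.ofMul γ₂) := by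
      apply a3_P2 hpar γ₂ τ (by rw [hτ1, h21])
      rw [hτ0, h20, h21]
      obtain ⟨w, hw⟩ := hLk.symm.dvd
      obtain ⟨n, hn⟩ := hNc
      exact (Int.modEq_iff_dvd.2 ⟨-(n * w), by rw [hn]; linear_combination (-(N : ℤ) * n) * hw⟩)
    rw [f1, f2]
  rw [e1, a3_map_mul, e2, e3]

end Fermat.Agent.S41lib
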