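import Mathlib
import Fermat.Agent.S41lib.A3FinCore
import Fermat.Agent.S41lib.A3FinL1
import Fermat.Agent.S41lib.A3Sym
import Fermat.Agent.S41lib.A3NT

/-!
# Item 78 (S41), block A, piece A3-FIN: the mod-`p` congruence subgroup property (crux A3)

`a3_core`: a parabolic homomorphism `φ : Γ₀(N) → 𝔽_p` (`p` odd) which is invariant under
conjugation by `diag(q, 1/q)` (`A3HInv`, `q ∤ N` prime) vanishes on the elements with
`d ≡ 1 mod N`.

Proof (helper10): wiring of `a3_core_of` (A3FinCore) with Lemma A (`a3_lemmaA`, helper9),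
Lemma B (`a3nt_exists_sL`, helper29 + helper11) and the choice of the auxiliary prime
(`a3f_exists_l1`, helper14).
-/

set_option autoImplicit false

namespace Fermat.Agent.S41lib

open Matrix CongruenceSubgroup ModularCurve.Period
open scoped MatrixGroups

/-- **A3 (crux of Ihara's lemma)**: the mod-`p` congruence subgroup property of `Γ₀(N)[1/q]`,
in integral form. -/
theorem a3_core (N q p : ℕ) [NeZero N] (hq : q.Prime) (hqN : ¬ q ∣ N) (hp : p.Prime)
    (hp2 : p ≠ 2) (_hqp : q ≠ p)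
    (φ : Additive (Gamma0 N) →+ ZMod p) (hpar : IsParabolicHom (Gamma0 N) φ)
    (hH : A3HInv N q φ) :
    ∀ γ : Gamma0 N, (((γ : SL(2, ℤ)) 1 1 : ℤ) : ZMod N) = 1 → φ (Additive.ofMul γ) = 0 := by
  apply a3_core_of N q p hp φ hpar
  · intro c d₂ s L j k hd₂ hd₂c hsL hLk γs γ₁ γ₂ hs0 hs1 h10 h11 h20 h21
    exact a3_lemmaA N q φ hpar hH c d₂ s L j k hd₂ hd₂c hsL hLk γs γ₁ γ₂ hs0 hs1 h10 h11 h20 h21
  · intro l₁ hl hl2 hlN hlq hs x z hx hz hxl hzl
    obtain ⟨d₂, s, L, j, k, hd₂, -, hd₂x, hsxz, hsL, hLk⟩ :=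
      a3nt_exists_sL N q l₁ (NeZero.pos N) hq hqN hl hl2 hlN hlq hs x z hx hz hxl hzl
    exact ⟨d₂, s, L, j, k, hd₂, hd₂x, hsxz, hsL, hLk⟩
  · intro c' d hd hdp hdN hcd
    exact a3f_exists_l1 N q p (NeZero.pos N) hp hp2 c' d hd hdp hdN hcd

end Fermat.Agent.S41lib
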