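/-
Item 78 (S41), block A, piece A5 EIS (helper12): a homomorphism `φ : Γ₀(N) → A` which vanishes on
the elements with `d ≡ 1 mod N` (so `φ = χ ∘ d` for a character `χ` of `(ℤ/N)ˣ`) is Eisenstein:
`T_ℓ φ = (ℓ + 1) φ` for every prime `ℓ ∤ N`.  Consequently block A's `IharaStatement` follows
from the core statement "`res φ₁ + resq φ₂ = 0` ⟹ `φ₁`, `φ₂` vanish on `d ≡ 1 mod N`".
Complete.
-/
import Mathlib
import Fermat.Agent.S41lib.Interface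

set_option autoImplicit false

open CongruenceSubgroup Matrix.SpecialLinearGroup ModularForm ModularCurve.Period
open Fermat.Agent.S22lib Fermat.Agent.GalRep
open P2MW.S_ModularForm_heckeT_slash_eq_self_of_mem_Gamma0.ModularForm.HeckeSlashInvariance
open scoped MatrixGroups

namespace Fermat.Agent.S41lib

noncomputable section

variable {N : ℕ}

/-- the lower right entry modulo `N` -/
def a5D (γ : Gamma0 N) : ZMod N := (((γ : SL(2, ℤ)) 1 1 : ℤ) : ZMod N)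

theorem a5D_mul (γ δ : Gamma0 N) : a5D (γ * δ) = a5D γ * a5D δ := by
  have hγ : (((γ : SL(2, ℤ)) 1 0 : ℤ) : ZMod N) = 0 := Gamma0_mem.mp γ.2
  simp only [a5D, Subgroup.coe_mul, Matrix.SpecialLinearGroup.coe_mul, Matrix.mul_apply,
    Fin.sum_univ_two]
  push_cast
  rw [hγ]
  ring

theorem a5D_one : a5D (1 : Gamma0 N) = 1 := by
  simp [a5D]

theorem a5D_mul_inv (γ : Gamma0 N) : a5D γ * a5D γ⁻¹ = 1 := by
  rw [← a5D_mul, mul_inv_cancel, a5D_one]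

/-- a homomorphism vanishing on `d ≡ 1` only depends on `d mod N` -/
theorem a5_eq_of_D_eq {A : Type*} [AddCommGroup A] (φ : Additive (Gamma0 N) →+ A)
    (hφ : ∀ γ : Gamma0 N, (((γ : SL(2, ℤ)) 1 1 : ℤ) : ZMod N) = 1 → φ (Additive.ofMul γ) = 0)
    (γ γ' : Gamma0 N) (h : a5D γ = a5D γ') :
    φ (Additive.ofMul γ) = φ (Additive.ofMul γ') := by
  have h1 : a5D (γ * γ'⁻¹) = 1 := by rw [a5D_mul, h, a5D_mul_inv]
  have h2 : φ (Additive.ofMul (γ * γ'⁻¹)) = 0 := hφ _ h1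
  have h3 : φ (Additive.ofMul (γ * γ'⁻¹ * γ')) = φ (Additive.ofMul γ') := by
    rw [ofMul_mul, map_add, h2, zero_add]
  rwa [inv_mul_cancel_right] at h3

/-- the lower right entry of the representative `heckeRep ℓ x` -/
def a5Z (ℓ : ℕ) (x : OnePoint (ZMod ℓ)) : ℤ := x.elim 1 (fun _ => (ℓ : ℤ))

theorem a5Z_infty (ℓ : ℕ) : a5Z ℓ (OnePoint.infty) = 1 := rfl

theorem a5Z_coe (ℓ : ℕ) (j : ZMod ℓ) : a5Z ℓ (j : OnePoint (ZMod ℓ)) = ℓ := rfl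

theorem a5_heckeRep_val {ℓ : ℕ} (hℓ : ℓ ≠ 0) (y : OnePoint (ZMod ℓ)) :
    ∃ a b : ℤ, ((heckeRep ℓ y : GL (Fin 2) ℝ) : Matrix (Fin 2) (Fin 2) ℝ)
      = !![(a : ℝ), (b : ℝ); 0, ((a5Z ℓ y : ℤ) : ℝ)] := by
  induction y using OnePoint.rec with
  | infty =>
    refine ⟨ℓ, 0, ?_⟩
    rw [heckeRep_infty, val_heckeDiagMatrix hℓ, a5Z_infty]
    push_cast
    rfl
  | coe j =>
    refine ⟨1, j.val, ?_⟩
    rw [heckeRep_coe, val_heckeMatrix hℓ, a5Z_coe]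
    push_cast
    rfl

/-- the relation `z_x · d(γ) = d(γ'_x) · z_{σ x}` modulo `N` -/
theorem a5_rel {ℓ : ℕ} [Fact ℓ.Prime] (hℓN : ¬ ℓ ∣ N) (γ : Gamma0 N) (x : OnePoint (ZMod ℓ)) :
    ((a5Z ℓ x : ℤ) : ZMod N) * a5D γ
      = a5D (gammaT hℓN γ x) * ((a5Z ℓ (sigmaT γ x) : ℤ) : ZMod N) := by
  have hℓ : ℓ ≠ 0 := (Fact.out : ℓ.Prime).ne_zero
  have hrel := relT hℓN γ x
  obtain ⟨a, b, hx⟩ := a5_heckeRep_val hℓ x
  obtain ⟨a', b', hx'⟩ := a5_heckeRep_val hℓ (sigmaT γ x)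
  have hrel' := congrArg (fun g : GL (Fin 2) ℝ => (g : Matrix (Fin 2) (Fin 2) ℝ) 1 1) hrel
  simp only [Units.val_mul, gamma0Hom_apply, hx, hx', Matrix.mul_apply, Fin.sum_univ_two,
    mapGL_apply, Matrix.of_apply, Matrix.cons_val', Matrix.cons_val_zero,
    Matrix.cons_val_one, Matrix.cons_val_fin_one, Fin.isValue] at hrel'
  have hint : a5Z ℓ x * ((γ : SL(2, ℤ)) 1 1)
      = ((gammaT hℓN γ x : Gamma0 N) : SL(2, ℤ)) 1 0 * b'
        + ((gammaT hℓN γ x : Gamma0 N) : SL(2, ℤ)) 1 1 * a5Z ℓ (sigmaT γ x) := by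
    have : ((a5Z ℓ x * ((γ : SL(2, ℤ)) 1 1) : ℤ) : ℝ)
        = ((((gammaT hℓN γ x : Gamma0 N) : SL(2, ℤ)) 1 0 * b'
          + ((gammaT hℓN γ x : Gamma0 N) : SL(2, ℤ)) 1 1 * a5Z ℓ (sigmaT γ x) : ℤ) : ℝ) := by
      push_cast
      linear_combination hrel'
    exact_mod_cast this
  have hc : ((((gammaT hℓN γ x : Gamma0 N) : SL(2, ℤ)) 1 0 : ℤ) : ZMod N) = 0 :=
    Gamma0_mem.mp (gammaT hℓN γ x).2
  have h2 := congrArg (fun n : ℤ => (n : ZMod N)) hint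
  simp only [Int.cast_mul, Int.cast_add, hc, zero_mul, zero_add] at h2
  exact h2

/-- an element of `Γ₀(N)` with `d = ℓ` -/
theorem a5_exists_delta {ℓ : ℕ} (h : Nat.Coprime ℓ N) :
    ∃ δ : Gamma0 N, a5D δ = ((ℓ : ℤ) : ZMod N) := by
  have hc : IsCoprime (ℓ : ℤ) (N : ℤ) := Nat.isCoprime_iff_coprime.mpr h
  obtain ⟨u, v, huv⟩ := hc
  -- u ℓ + v N = 1 : the matrix [[u, -v], [N, ℓ]]
  have hdet : Matrix.det !![u, -v; (N : ℤ), (ℓ : ℤ)] = 1 := by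
    rw [Matrix.det_fin_two_of]
    linear_combination huv
  set g : SL(2, ℤ) := ⟨!![u, -v; (N : ℤ), (ℓ : ℤ)], hdet⟩ with hg
  have hg10 : g 1 0 = (N : ℤ) := rfl
  have hg11 : g 1 1 = (ℓ : ℤ) := rfl
  have hmem : g ∈ Gamma0 N := by
    rw [Gamma0_mem, hg10]
    simp
  refine ⟨⟨g, hmem⟩, ?_⟩
  show (((g 1 1 : ℤ)) : ZMod N) = _
  rw [hg11]

/-- **A5 (EIS)**: a homomorphism which vanishes on `d ≡ 1 mod N` is Eisenstein at every prime
`ℓ ∤ N`. -/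
theorem a5_eis [NeZero N] (ℓ : Nat.Primes) (hℓN : ¬ (ℓ : ℕ) ∣ N) {A : Type*} [AddCommGroup A]
    (φ : Additive (Gamma0 N) →+ A)
    (hφ : ∀ γ : Gamma0 N, (((γ : SL(2, ℤ)) 1 1 : ℤ) : ZMod N) = 1 → φ (Additive.ofMul γ) = 0) :
    heckeHom N ℓ A φ = (((ℓ : ℕ) : ℤ) + 1) • φ := by
  have : Fact (ℓ : ℕ).Prime := ⟨ℓ.2⟩
  have hcop : Nat.Coprime (ℓ : ℕ) N := (Nat.Prime.coprime_iff_not_dvd ℓ.2).mpr hℓN
  obtain ⟨δ, hδ⟩ := a5_exists_delta hcop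
  rw [heckeHom_of_not_dvd hℓN]
  refine AddMonoidHom.ext fun γ => ?_
  obtain ⟨γ, rfl⟩ := Additive.ofMul.surjective γ
  rw [heckeHomT_apply]
  -- the correcting elements
  set E : OnePoint (ZMod (ℓ : ℕ)) → Gamma0 N := fun x => x.elim 1 (fun _ => δ) with hE
  have hEZ : ∀ x : OnePoint (ZMod (ℓ : ℕ)), a5D (E x) = ((a5Z (ℓ : ℕ) x : ℤ) : ZMod N) := by
    intro x
    induction x using OnePoint.rec with
    | infty =>
      show a5D (1 : Gamma0 N) = _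
      rw [a5D_one, a5Z_infty, Int.cast_one]
    | coe j =>
      show a5D δ = _
      rw [hδ, a5Z_coe]
  have hkey : ∀ x : OnePoint (ZMod (ℓ : ℕ)),
      φ (Additive.ofMul (gammaT hℓN γ x))
        = φ (Additive.ofMul γ) + (φ (Additive.ofMul (E x))
          - φ (Additive.ofMul (E (sigmaT γ x)))) := by
    intro x
    have h1 : a5D (E x * γ) = a5D (gammaT hℓN γ x * E (sigmaT γ x)) := by
      rw [a5D_mul, a5D_mul, hEZ, hEZ]
      exact a5_rel hℓN γ x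
    have h2 := a5_eq_of_D_eq φ hφ _ _ h1
    rw [ofMul_mul, map_add, ofMul_mul, map_add] at h2
    rw [eq_sub_of_add_eq h2.symm]
    abel
  rw [Finset.sum_congr rfl (fun x _ => hkey x), Finset.sum_add_distrib, Finset.sum_sub_distrib,
    Equiv.sum_comp (sigmaT γ) (fun x => φ (Additive.ofMul (E x))), sub_self, add_zero,
    Finset.sum_const, Finset.card_univ]
  have hcard : Fintype.card (OnePoint (ZMod (ℓ : ℕ))) = (ℓ : ℕ) + 1 := by
    rw [show Fintype.card (OnePoint (ZMod (ℓ : ℕ))) = Fintype.card (Option (ZMod (ℓ : ℕ))) from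
      Fintype.card_congr (Equiv.refl _), Fintype.card_option, ZMod.card]
  rw [hcard, AddMonoidHom.smul_apply, ← natCast_zsmul]
  push_cast
  rfl

/-- **block A from its core**: if every pair `(φ₁, φ₂)` of parabolic classes modulo `p` in the
kernel of `res + resq` consists of homomorphisms vanishing on `d ≡ 1 mod N`, then
`IharaStatement` holds (with `D = 1`). -/
theorem ihara_of_core
    (hcore : ∀ (N q p : ℕ) [NeZero N] [NeZero q], q.Prime → ¬ q ∣ N → p.Prime → p ≠ 2 → q ≠ p →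
      ∀ φ₁ φ₂ : Additive (Gamma0 N) →+ ZMod p,
        IsParabolicHom (Gamma0 N) φ₁ → IsParabolicHom (Gamma0 N) φ₂ →
        degRes N q (ZMod p) φ₁ + degResq N q (ZMod p) φ₂ = 0 →
        (∀ γ : Gamma0 N, (((γ : SL(2, ℤ)) 1 1 : ℤ) : ZMod N) = 1 → φ₁ (Additive.ofMul γ) = 0) ∧
        (∀ γ : Gamma0 N, (((γ : SL(2, ℤ)) 1 1 : ℤ) : ZMod N) = 1 → φ₂ (Additive.ofMul γ) = 0)) :
    IharaStatement := by
  intro N q p _ _ hq hqN hp hp2 hqp φ₁ φ₂ h₁ h₂ hker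
  obtain ⟨hv₁, hv₂⟩ := hcore N q p hq hqN hp hp2 hqp φ₁ φ₂ h₁ h₂ hker
  refine ⟨1, one_pos, fun ℓ hℓ _ => ?_⟩
  have hℓN : ¬ (ℓ : ℕ) ∣ N := fun h => hℓ (by
    rw [one_mul]
    exact (h.mul_right q).mul_right p)
  exact ⟨a5_eis ℓ hℓN φ₁ hv₁, a5_eis ℓ hℓN φ₂ hv₂⟩

end

end Fermat.Agent.S41lib
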