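import Mathlib
import Fermat.Prelude.Def_ModularCurve_PeriodMap

/-!
# Item 78 (S41), block B (duality): definitions

Cusps are `OnePoint ℚ`; `SL(2,ℤ)` acts through `mapGL ℚ` and Mathlib's action of `GL (Fin 2) ℚ`.

* `IsBPrim Γ φ Φ`: `Φ : OnePoint ℚ → A` is a primitive of `φ : Γ → A`:
  `Φ (γ • c) = Φ c + φ γ`.
* `bOmega Φ Ψ a b c`: the alternating 2-cocycle `[ab] + [bc] + [ca]`, `[ab] = Φ a Ψ b - Φ b Ψ a`.
* `bSum Γ E = ∑ x : SL(2,ℤ) ⧸ Γ, E (x.out)⁻¹` (sum over right cosets of a left-`Γ`-invariant `E`).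
* `bTri Ω g = Ω (g ∞) (g 0) (g 1)`: value on the Farey triangle `g • (∞, 0, 1)`.
* `bForm3 Γ φ ψ = bSum Γ (bTri (bOmega Φ Ψ))` for chosen primitives; `hlPair N φ ψ = bForm3 / 3`.
-/

set_option autoImplicit false

open CongruenceSubgroup Matrix.SpecialLinearGroup ModularCurve.Period
open scoped MatrixGroups

namespace Fermat.Agent.S41lib

noncomputable section

/-- the action of `SL(2,ℤ)` on cusps -/
def bAct (g : SL(2, ℤ)) (c : OnePoint ℚ) : OnePoint ℚ := (mapGL ℚ g) • c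

theorem bAct_one (c : OnePoint ℚ) : bAct 1 c = c := by
  simp [bAct]

theorem bAct_mul (g h : SL(2, ℤ)) (c : OnePoint ℚ) : bAct (g * h) c = bAct g (bAct h c) := by
  simp [bAct, mul_smul]

/-- `Φ` is a primitive of `φ` on the cusps -/
def IsBPrim (Γ : Subgroup SL(2, ℤ)) {A : Type*} [AddCommGroup A] (φ : Additive Γ →+ A)
    (Φ : OnePoint ℚ → A) : Prop :=
  ∀ (γ : Γ) (c : OnePoint ℚ), Φ (bAct (γ : SL(2, ℤ)) c) = Φ c + φ (Additive.ofMul γ)

/-- the alternating 2-cocycle attached to two functions on the cusps -/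
def bOmega {R : Type*} [CommRing R] (Φ Ψ : OnePoint ℚ → R) (a b c : OnePoint ℚ) : R :=
  (Φ a * Ψ b - Φ b * Ψ a) + (Φ b * Ψ c - Φ c * Ψ b) + (Φ c * Ψ a - Φ a * Ψ c)

/-- the value of a function of three cusps on the Farey triangle `g • (∞, 0, 1)` -/
def bTri {R : Type*} (Ω : OnePoint ℚ → OnePoint ℚ → OnePoint ℚ → R) (g : SL(2, ℤ)) : R :=
  Ω (bAct g OnePoint.infty) (bAct g ((0 : ℚ) : OnePoint ℚ)) (bAct g ((1 : ℚ) : OnePoint ℚ))

/-- the sum over the right cosets `Γ g` of a (left-`Γ`-invariant) function on `SL(2,ℤ)` -/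
def bSum (Γ : Subgroup SL(2, ℤ)) {R : Type*} [AddCommMonoid R] (E : SL(2, ℤ) → R) : R :=
  ∑ᶠ x : SL(2, ℤ) ⧸ Γ, E (x.out)⁻¹

open Classical in
/-- three times the duality pairing: the sum of `bOmega Φ Ψ` over the Farey triangles mod `Γ`
(each triangle counted three times), for chosen primitives; `0` if `φ` or `ψ` has no primitive -/
def bForm3 (Γ : Subgroup SL(2, ℤ)) (φ ψ : Additive Γ →+ ℤ) : ℤ :=
  if h : (∃ Φ, IsBPrim Γ φ Φ) ∧ ∃ Ψ, IsBPrim Γ ψ Ψ then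
    bSum Γ (bTri (bOmega h.1.choose h.2.choose))
  else 0

/-- **the duality pairing** on `Hom(Γ₀(N), ℤ)` (meaningful on parabolic homomorphisms) -/
def hlPair (N : ℕ) (φ ψ : Additive (Gamma0 N) →+ ℤ) : ℤ :=
  bForm3 (Gamma0 N) φ ψ / 3

end

end Fermat.Agent.S41lib
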