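/-
Item 78 (S41, level raising), block B (duality), piece B-CUSP (helper16): the dictionary between
the cusps `OnePoint ℚ` and `SL(2,ℤ)/±⟨T⟩`.  Exact signatures of NOTES/S41_B_signatures.lean.txt.
-/
import Mathlib
import Fermat.Agent.S41lib.BDefs

set_option autoImplicit false

open CongruenceSubgroup Matrix.SpecialLinearGroup ModularCurve.Period ModularGroup
open scoped MatrixGroups

namespace Fermat.Agent.S41lib

noncomputable section

/-- the value at `∞` in terms of the first column -/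
theorem bAct_infty_eq (g : SL(2, ℤ)) :
    bAct g OnePoint.infty
      = if ((g 1 0 : ℤ) : ℚ) = 0 then OnePoint.infty
        else (((g 0 0 : ℤ) : ℚ) / ((g 1 0 : ℤ) : ℚ) : ℚ) := by
  unfold bAct
  rw [OnePoint.smul_infty_eq_ite]
  rfl

/-- the value at a finite point -/
theorem bAct_coe_eq (g : SL(2, ℤ)) (k : ℚ) :
    bAct g (k : OnePoint ℚ)
      = if ((g 1 0 : ℤ) : ℚ) * k + ((g 1 1 : ℤ) : ℚ) = 0 then OnePoint.infty
        else (((((g 0 0 : ℤ) : ℚ) * k + ((g 0 1 : ℤ) : ℚ))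
          / (((g 1 0 : ℤ) : ℚ) * k + ((g 1 1 : ℤ) : ℚ)) : ℚ) : OnePoint ℚ) := by
  unfold bAct
  rw [OnePoint.smul_some_eq_ite]
  rfl

theorem bAct_neg (g : SL(2, ℤ)) (c : OnePoint ℚ) : bAct (-g) c = bAct g c := by
  cases c with
  | infty =>
    rw [bAct_infty_eq, bAct_infty_eq]
    simp only [Matrix.SpecialLinearGroup.coe_neg, Matrix.neg_apply, Int.cast_neg, neg_eq_zero,
      neg_div_neg_eq]
  | coe k =>
    rw [bAct_coe_eq, bAct_coe_eq]
    have h1 : (-(((g 1 0 : ℤ) : ℚ))) * k + -(((g 1 1 : ℤ) : ℚ))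
        = -((((g 1 0 : ℤ) : ℚ)) * k + (((g 1 1 : ℤ) : ℚ))) := by ring
    have h2 : (-(((g 0 0 : ℤ) : ℚ))) * k + -(((g 0 1 : ℤ) : ℚ))
        = -((((g 0 0 : ℤ) : ℚ)) * k + (((g 0 1 : ℤ) : ℚ))) := by ring
    simp only [Matrix.SpecialLinearGroup.coe_neg, Matrix.neg_apply, Int.cast_neg, h1, h2,
      neg_eq_zero, neg_div_neg_eq]

theorem bAct_T_infty : bAct T OnePoint.infty = OnePoint.infty := by
  rw [bAct_infty_eq]
  simp [ModularGroup.T]

theorem bAct_S_infty : bAct S OnePoint.infty = ((0 : ℚ) : OnePoint ℚ) := by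
  rw [bAct_infty_eq]
  simp [ModularGroup.S]

theorem bAct_S_zero : bAct S ((0 : ℚ) : OnePoint ℚ) = OnePoint.infty := by
  rw [bAct_coe_eq]
  simp [ModularGroup.S]

theorem bcusp_coe_U : ((S * T⁻¹ : SL(2, ℤ)) : Matrix (Fin 2) (Fin 2) ℤ) = !![0, -1; 1, -1] := by
  rw [Matrix.SpecialLinearGroup.coe_mul, ModularGroup.coe_T_inv, ModularGroup.coe_S]
  ext i j
  fin_cases i <;> fin_cases j <;> simp [Matrix.mul_apply, Fin.sum_univ_two]

/-- `U = S T⁻¹` rotates the base triangle: `∞ ↦ 0 ↦ 1 ↦ ∞` -/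
theorem bAct_U_infty : bAct (S * T⁻¹) OnePoint.infty = ((0 : ℚ) : OnePoint ℚ) := by
  rw [bAct_infty_eq, bcusp_coe_U]
  simp

theorem bAct_U_zero : bAct (S * T⁻¹) ((0 : ℚ) : OnePoint ℚ) = ((1 : ℚ) : OnePoint ℚ) := by
  rw [bAct_coe_eq, bcusp_coe_U]
  simp

theorem bAct_U_one : bAct (S * T⁻¹) ((1 : ℚ) : OnePoint ℚ) = OnePoint.infty := by
  rw [bAct_coe_eq, bcusp_coe_U]
  simp

theorem bcusp_exists (c : OnePoint ℚ) : ∃ g : SL(2, ℤ), bAct g OnePoint.infty = c :=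
  OnePoint.exists_mem_SL2 ℤ c

/-- an element fixing `∞` is `± T ^ k` -/
theorem bcusp_eq_T_zpow (h : SL(2, ℤ)) (hh : bAct h OnePoint.infty = OnePoint.infty) :
    ∃ k : ℤ, h = T ^ k ∨ h = -(T ^ k) := by
  have hc : h 1 0 = 0 := by
    unfold bAct at hh
    rw [OnePoint.smul_infty_eq_self_iff] at hh
    have h1 : ((h 1 0 : ℤ) : ℚ) = 0 := hh
    exact_mod_cast h1
  have had := h.det_coe
  replace had : h 0 0 * h 1 1 = 1 := by rw [Matrix.det_fin_two, hc] at had; lia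
  rcases Int.eq_one_or_neg_one_of_mul_eq_one' had with (⟨ha, hd⟩ | ⟨ha, hd⟩)
  · refine ⟨h 0 1, Or.inl ?_⟩
    ext i j; fin_cases i <;> fin_cases j <;>
      simp [ha, hc, hd, coe_T_zpow, show (1 : Fin (0 + 2)) = (1 : Fin 2) from rfl]
  · refine ⟨-(h 0 1), Or.inr ?_⟩
    ext i j; fin_cases i <;> fin_cases j <;>
      simp [ha, hc, hd, coe_T_zpow, show (1 : Fin (0 + 2)) = (1 : Fin 2) from rfl]

theorem bAct_T_zpow_infty (k : ℤ) : bAct (T ^ k) OnePoint.infty = OnePoint.infty := by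
  rw [bAct_infty_eq]
  simp [coe_T_zpow]

theorem bcusp_eq_iff (g g' : SL(2, ℤ)) :
    bAct g OnePoint.infty = bAct g' OnePoint.infty ↔
      ∃ k : ℤ, g' = g * T ^ k ∨ g' = -(g * T ^ k) := by
  constructor
  · intro h
    have h1 : bAct (g⁻¹ * g') OnePoint.infty = OnePoint.infty := by
      rw [bAct_mul, ← h, ← bAct_mul, inv_mul_cancel, bAct_one]
    obtain ⟨k, hk | hk⟩ := bcusp_eq_T_zpow _ h1
    · exact ⟨k, Or.inl (by rw [← hk, mul_inv_cancel_left])⟩
    · refine ⟨k, Or.inr ?_⟩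
      rw [← mul_neg, ← hk, mul_inv_cancel_left]
  · rintro ⟨k, rfl | rfl⟩
    · rw [bAct_mul, bAct_T_zpow_infty]
    · rw [bAct_neg, bAct_mul, bAct_T_zpow_infty]

/-- the stabiliser of a cusp consists of elements of trace `±2` -/
theorem bcusp_stab_trace (γ : SL(2, ℤ)) (c : OnePoint ℚ) (h : bAct γ c = c) :
    ((γ : Matrix (Fin 2) (Fin 2) ℤ)).trace ^ 2 = 4 := by
  obtain ⟨g, rfl⟩ := bcusp_exists c
  have h1 : bAct (g⁻¹ * γ * g) OnePoint.infty = OnePoint.infty := by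
    rw [bAct_mul, bAct_mul, h, ← bAct_mul, inv_mul_cancel, bAct_one]
  have htr : ((g⁻¹ * γ * g : SL(2, ℤ)) : Matrix (Fin 2) (Fin 2) ℤ).trace
      = ((γ : Matrix (Fin 2) (Fin 2) ℤ)).trace := by
    rw [Matrix.SpecialLinearGroup.coe_mul, Matrix.trace_mul_comm, ← Matrix.SpecialLinearGroup.coe_mul,
      mul_inv_cancel_left]
  obtain ⟨k, hk | hk⟩ := bcusp_eq_T_zpow _ h1
  · rw [← htr, hk, coe_T_zpow, Matrix.trace_fin_two]
    simp
  · rw [← htr, hk, Matrix.SpecialLinearGroup.coe_neg, coe_T_zpow, Matrix.trace_fin_two]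
    simp

/-- a right-`±⟨T⟩`-invariant function on `SL(2,ℤ)` is a function on the cusps -/
theorem bcusp_descend {A : Type*} (F : SL(2, ℤ) → A) (h1 : ∀ g, F (-g) = F g)
    (h2 : ∀ g, F (g * T) = F g) : ∃ f : OnePoint ℚ → A, ∀ g, f (bAct g OnePoint.infty) = F g := by
  classical
  have h3 : ∀ (k : ℕ) (g : SL(2, ℤ)), F (g * T ^ k) = F g := by
    intro k
    induction k with
    | zero => intro g; rw [pow_zero, mul_one]
    | succ n ih => intro g; rw [pow_succ, ← mul_assoc, h2, ih]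
  have h4 : ∀ (k : ℤ) (g : SL(2, ℤ)), F (g * T ^ k) = F g := by
    intro k g
    rcases Int.eq_nat_or_neg k with ⟨n, rfl | rfl⟩
    · rw [zpow_natCast]; exact h3 n g
    · have := h3 n (g * T ^ (-(n : ℤ)))
      rw [mul_assoc, ← zpow_natCast, ← zpow_add, neg_add_cancel, zpow_zero, mul_one] at this
      exact this.symm
  refine ⟨fun c => F (bcusp_exists c).choose, fun g => ?_⟩
  have h5 := (bcusp_exists (bAct g OnePoint.infty)).choose_spec
  show F (bcusp_exists (bAct g OnePoint.infty)).choose = F g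
  generalize (bcusp_exists (bAct g OnePoint.infty)).choose = g₀ at h5 ⊢
  obtain ⟨k, hk | hk⟩ := (bcusp_eq_iff _ _).1 h5
  · rw [hk, h4]
  · rw [hk, h1, h4]

end

end Fermat.Agent.S41lib
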