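import Mathlib

/-!
# Item 78 (S41, level raising), block DEG, part (D0): abstract two-group Hecke operators

`G` a group, `ι₁ : Γ₁ →* G`, `ι₂ : Γ₂ →* G`.  Coset data `D : DegData ι₁ ι₂ X` is a finite family
`α : X → G` with `α x * ι₂ γ = ι₁ (γ' γ x) * α (σ γ x)`; it defines the operator

  `D.op : Hom(Γ₁, A) → Hom(Γ₂, A)`,   `(D.op φ)(γ) = ∑ x, φ (γ' γ x)`

(for `Γ₁ = Γ₂` this is `hlOp` of `GalRep/HeckeLat.lean`).  Restriction, conjugation, transfer
(corestriction) and the Hecke operators are all of this form.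

* `DegData.comp`, `DegData.op_comp`: composition (`α (x, y) = α₁ x * α₂ y`).
* `DegData.op_eq_nsmul_of_fibers`: THE comparison lemma — the operator depends only on the formal
  sum of the cosets `ι₁(Γ₁) · α x`.
* `DegData.ofHom`: one coset (restriction along / conjugation by).
* `DegData.scale`: multiplication of all `α x` by a central element does not change the operator.
* `DegData.sumData`, `DegData.restrict`: disjoint unions and `σ`-stable subsets.
-/

set_option autoImplicit false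

namespace Fermat.Agent.S41lib

/-- coset data for an operator `Hom(Γ₁, A) → Hom(Γ₂, A)`. -/
structure DegData {G Γ₁ Γ₂ : Type} [Group G] [Group Γ₁] [Group Γ₂] (ι₁ : Γ₁ →* G)
    (ι₂ : Γ₂ →* G) (X : Type) where
  /-- the representatives -/
  α : X → G
  /-- the permutations -/
  σ : Γ₂ → Equiv.Perm X
  /-- the elements `γ'(γ, x)` -/
  γ' : Γ₂ → X → Γ₁
  rel : ∀ (γ : Γ₂) (x : X), α x * ι₂ γ = ι₁ (γ' γ x) * α (σ γ x)
  σ_mul : ∀ (γ δ : Γ₂) (x : X), σ (γ * δ) x = σ δ (σ γ x)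

namespace DegData

variable {G Γ₁ Γ₂ Γ₃ : Type} [Group G] [Group Γ₁] [Group Γ₂] [Group Γ₃] {ι₁ : Γ₁ →* G}
  {ι₂ : Γ₂ →* G} {ι₃ : Γ₃ →* G} {X Y : Type}

theorem γ'_mul (D : DegData ι₁ ι₂ X) (hι : Function.Injective ι₁) (γ δ : Γ₂) (x : X) :
    D.γ' (γ * δ) x = D.γ' γ x * D.γ' δ (D.σ γ x) := by
  apply hι
  have h1 := D.rel (γ * δ) x
  rw [map_mul, ← mul_assoc, D.rel γ x, mul_assoc, D.rel δ, ← mul_assoc, D.σ_mul] at h1
  rw [map_mul]
  exact (mul_right_cancel h1).symm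

theorem σ_one (D : DegData ι₁ ι₂ X) : D.σ 1 = 1 := by
  have h : D.σ 1 * D.σ 1 = D.σ 1 := by
    ext x
    rw [Equiv.Perm.mul_apply, ← D.σ_mul, mul_one]
  exact mul_eq_left.mp h

theorem σ_pow (D : DegData ι₁ ι₂ X) (γ : Γ₂) (m : ℕ) : D.σ (γ ^ m) = D.σ γ ^ m := by
  induction m with
  | zero => rw [pow_zero, pow_zero, D.σ_one]
  | succ k ih =>
    ext x
    rw [pow_succ, D.σ_mul, ih, pow_succ', Equiv.Perm.mul_apply]

theorem γ'_one (D : DegData ι₁ ι₂ X) (hι : Function.Injective ι₁) (x : X) : D.γ' 1 x = 1 := by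
  apply hι
  have h := D.rel 1 x
  rw [map_one, mul_one, D.σ_one, Equiv.Perm.one_apply] at h
  rw [map_one]
  exact (mul_eq_right.mp h.symm)

section Op

variable [Fintype X]

/-- the operator on one homomorphism. -/
noncomputable def opFun (D : DegData ι₁ ι₂ X) (hι : Function.Injective ι₁) {A : Type*}
    [AddCommGroup A] (φ : Additive Γ₁ →+ A) : Additive Γ₂ →+ A :=
  AddMonoidHom.mk' (fun γ => ∑ x, φ (Additive.ofMul (D.γ' (Additive.toMul γ) x))) (by
    intro γ δ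
    show ∑ x, φ (Additive.ofMul (D.γ' (Additive.toMul γ * Additive.toMul δ) x)) = _
    rw [← Equiv.sum_comp (D.σ (Additive.toMul γ))
      (fun x => φ (Additive.ofMul (D.γ' (Additive.toMul δ) x))), ← Finset.sum_add_distrib]
    refine Finset.sum_congr rfl fun x _ => ?_
    rw [D.γ'_mul hι, ofMul_mul, map_add])

/-- **the operator** `Hom(Γ₁, A) → Hom(Γ₂, A)` of coset data. -/
noncomputable def op (D : DegData ι₁ ι₂ X) (hι : Function.Injective ι₁) (A : Type*)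
    [AddCommGroup A] : (Additive Γ₁ →+ A) →+ (Additive Γ₂ →+ A) where
  toFun := D.opFun hι
  map_zero' := by
    refine AddMonoidHom.ext fun γ => ?_
    show ∑ x, (0 : Additive Γ₁ →+ A) (Additive.ofMul (D.γ' (Additive.toMul γ) x)) = 0
    simp
  map_add' φ ψ := by
    refine AddMonoidHom.ext fun γ => ?_
    show ∑ x, (φ + ψ) (Additive.ofMul (D.γ' (Additive.toMul γ) x))
      = ∑ x, φ (Additive.ofMul (D.γ' (Additive.toMul γ) x))
        + ∑ x, ψ (Additive.ofMul (D.γ' (Additive.toMul γ) x))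
    rw [← Finset.sum_add_distrib]
    rfl

theorem op_apply (D : DegData ι₁ ι₂ X) (hι : Function.Injective ι₁) {A : Type*}
    [AddCommGroup A] (φ : Additive Γ₁ →+ A) (γ : Γ₂) :
    D.op hι A φ (Additive.ofMul γ) = ∑ x, φ (Additive.ofMul (D.γ' γ x)) := rfl

/-- composition with an additive map commutes with the operator. -/
theorem op_comp_hom (D : DegData ι₁ ι₂ X) (hι : Function.Injective ι₁) {A B : Type*}
    [AddCommGroup A] [AddCommGroup B] (f : A →+ B) (φ : Additive Γ₁ →+ A) :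
    D.op hι B (f.comp φ) = f.comp (D.op hι A φ) := by
  refine AddMonoidHom.ext fun γ => ?_
  obtain ⟨γ, rfl⟩ := Additive.ofMul.surjective γ
  rw [op_apply, AddMonoidHom.comp_apply, op_apply, map_sum]
  rfl

/-- the operator kills `γ` as soon as `φ` kills all `γ' (γ ^ m) x` with `x` fixed by
`σ (γ ^ m)`. -/
theorem op_apply_eq_zero (D : DegData ι₁ ι₂ X) (hι : Function.Injective ι₁) {A : Type*}
    [AddCommGroup A] [IsAddTorsionFree A] (φ : Additive Γ₁ →+ A) (γ : Γ₂)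
    (hφ : ∀ (m : ℕ) (x : X), D.σ (γ ^ m) x = x → φ (Additive.ofMul (D.γ' (γ ^ m) x)) = 0) :
    D.op hι A φ (Additive.ofMul γ) = 0 := by
  classical
  set m := orderOf (D.σ γ) with hm
  have hmpos : 0 < m := orderOf_pos (D.σ γ)
  have hσm : D.σ (γ ^ m) = 1 := by rw [D.σ_pow, hm, pow_orderOf_eq_one]
  have h1 : D.op hι A φ (Additive.ofMul (γ ^ m)) = 0 := by
    rw [op_apply]
    refine Finset.sum_eq_zero fun x _ => hφ m x ?_
    rw [hσm, Equiv.Perm.one_apply]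
  rw [ofMul_pow, map_nsmul] at h1
  have h2 : m • D.op hι A φ (Additive.ofMul γ) = m • (0 : A) := by rw [h1, smul_zero]
  exact nsmul_right_injective hmpos.ne' h2

end Op

/-! ### one coset: restriction along a homomorphism / conjugation -/

/-- the coset data of one element `ε` with `ε * ι₂ γ = ι₁ (θ γ) * ε`. -/
def ofHom (θ : Γ₂ →* Γ₁) (ε : G) (h : ∀ γ, ε * ι₂ γ = ι₁ (θ γ) * ε) : DegData ι₁ ι₂ Unit where
  α := fun _ => ε
  σ := fun _ => 1
  γ' := fun γ _ => θ γ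
  rel := fun γ _ => h γ
  σ_mul := fun _ _ _ => rfl

theorem ofHom_op (θ : Γ₂ →* Γ₁) (ε : G) (h : ∀ γ, ε * ι₂ γ = ι₁ (θ γ) * ε)
    (hι : Function.Injective ι₁) {A : Type*} [AddCommGroup A] (φ : Additive Γ₁ →+ A) :
    (ofHom θ ε h).op hι A φ = φ.comp (MonoidHom.toAdditive θ) := by
  refine AddMonoidHom.ext fun γ => ?_
  obtain ⟨γ, rfl⟩ := Additive.ofMul.surjective γ
  rw [op_apply]
  simp [ofHom]

/-! ### scaling by a central element -/

/-- multiply all representatives by a central element. -/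
def scale (D : DegData ι₁ ι₂ X) (c : G) (hc : ∀ g : G, c * g = g * c) : DegData ι₁ ι₂ X where
  α := fun x => c * D.α x
  σ := D.σ
  γ' := D.γ'
  rel := fun γ x => by rw [mul_assoc, D.rel, ← mul_assoc, ← mul_assoc, hc]
  σ_mul := D.σ_mul

theorem scale_op [Fintype X] (D : DegData ι₁ ι₂ X) (c : G) (hc : ∀ g : G, c * g = g * c)
    (hι : Function.Injective ι₁) (A : Type*) [AddCommGroup A] :
    (D.scale c hc).op hι A = D.op hι A := rfl

/-! ### composition -/

/-- composition of coset data: `α (x, y) = α₁ x * α₂ y`. -/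
def comp (D₁ : DegData ι₁ ι₂ X) (D₂ : DegData ι₂ ι₃ Y) (hι₂ : Function.Injective ι₂) :
    DegData ι₁ ι₃ (X × Y) where
  α := fun p => D₁.α p.1 * D₂.α p.2
  σ := fun γ =>
    { toFun := fun p => (D₁.σ (D₂.γ' γ p.2) p.1, D₂.σ γ p.2)
      invFun := fun p =>
        ((D₁.σ (D₂.γ' γ ((D₂.σ γ).symm p.2))).symm p.1, (D₂.σ γ).symm p.2)
      left_inv := fun p => by
        simp only [Equiv.symm_apply_apply]
      right_inv := fun p => by
        simp only [Equiv.apply_symm_apply] }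
  γ' := fun γ p => D₁.γ' (D₂.γ' γ p.2) p.1
  rel := fun γ p => by
    show D₁.α p.1 * D₂.α p.2 * ι₃ γ
      = ι₁ (D₁.γ' (D₂.γ' γ p.2) p.1) * (D₁.α (D₁.σ (D₂.γ' γ p.2) p.1) * D₂.α (D₂.σ γ p.2))
    rw [mul_assoc, D₂.rel, ← mul_assoc, D₁.rel, mul_assoc]
  σ_mul := fun γ δ p => by
    show (D₁.σ (D₂.γ' (γ * δ) p.2) p.1, D₂.σ (γ * δ) p.2)
      = (D₁.σ (D₂.γ' δ (D₂.σ γ p.2)) (D₁.σ (D₂.γ' γ p.2) p.1), D₂.σ δ (D₂.σ γ p.2))
    rw [D₂.γ'_mul hι₂, D₁.σ_mul, D₂.σ_mul]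

theorem comp_α (D₁ : DegData ι₁ ι₂ X) (D₂ : DegData ι₂ ι₃ Y) (hι₂ : Function.Injective ι₂)
    (p : X × Y) : (D₁.comp D₂ hι₂).α p = D₁.α p.1 * D₂.α p.2 := rfl

theorem comp_γ' (D₁ : DegData ι₁ ι₂ X) (D₂ : DegData ι₂ ι₃ Y) (hι₂ : Function.Injective ι₂)
    (γ : Γ₃) (p : X × Y) : (D₁.comp D₂ hι₂).γ' γ p = D₁.γ' (D₂.γ' γ p.2) p.1 := rfl

theorem comp_σ (D₁ : DegData ι₁ ι₂ X) (D₂ : DegData ι₂ ι₃ Y) (hι₂ : Function.Injective ι₂)
    (γ : Γ₃) (p : X × Y) :
    (D₁.comp D₂ hι₂).σ γ p = (D₁.σ (D₂.γ' γ p.2) p.1, D₂.σ γ p.2) := rfl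

/-- the operator of the composed coset data is the composition of the operators. -/
theorem op_comp [Fintype X] [Fintype Y] (D₁ : DegData ι₁ ι₂ X) (D₂ : DegData ι₂ ι₃ Y)
    (hι₁ : Function.Injective ι₁) (hι₂ : Function.Injective ι₂) {A : Type*} [AddCommGroup A]
    (φ : Additive Γ₁ →+ A) :
    (D₁.comp D₂ hι₂).op hι₁ A φ = D₂.op hι₂ A (D₁.op hι₁ A φ) := by
  refine AddMonoidHom.ext fun γ => ?_
  obtain ⟨γ, rfl⟩ := Additive.ofMul.surjective γ
  rw [op_apply, op_apply, Fintype.sum_prod_type, Finset.sum_comm]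
  refine Finset.sum_congr rfl fun y _ => ?_
  rw [op_apply]
  rfl

/-! ### the comparison lemma -/

/-- the relations between two systems of coset data with the same cosets. -/
theorem conj_rel (D : DegData ι₁ ι₂ X) (D' : DegData ι₁ ι₂ Y) (hι : Function.Injective ι₁)
    (τ : X → Y) (δ : X → Γ₁) (hδ : ∀ x, D.α x = ι₁ (δ x) * D'.α (τ x))
    (huniq : ∀ (a b : Γ₁) (y z : Y), ι₁ a * D'.α y = ι₁ b * D'.α z → y = z) (γ : Γ₂) (x : X) :
    D'.σ γ (τ x) = τ (D.σ γ x) ∧ δ x * D'.γ' γ (τ x) = D.γ' γ x * δ (D.σ γ x) := by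
  have h1 : ι₁ (δ x * D'.γ' γ (τ x)) * D'.α (D'.σ γ (τ x))
      = ι₁ (D.γ' γ x * δ (D.σ γ x)) * D'.α (τ (D.σ γ x)) := by
    calc ι₁ (δ x * D'.γ' γ (τ x)) * D'.α (D'.σ γ (τ x))
        = ι₁ (δ x) * (ι₁ (D'.γ' γ (τ x)) * D'.α (D'.σ γ (τ x))) := by rw [map_mul, mul_assoc]
      _ = ι₁ (δ x) * (D'.α (τ x) * ι₂ γ) := by rw [D'.rel]
      _ = D.α x * ι₂ γ := by rw [← mul_assoc, ← hδ]
      _ = ι₁ (D.γ' γ x) * D.α (D.σ γ x) := D.rel γ x
      _ = ι₁ (D.γ' γ x) * (ι₁ (δ (D.σ γ x)) * D'.α (τ (D.σ γ x))) := by rw [← hδ]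
      _ = ι₁ (D.γ' γ x * δ (D.σ γ x)) * D'.α (τ (D.σ γ x)) := by rw [map_mul, mul_assoc]
  have h2 : D'.σ γ (τ x) = τ (D.σ γ x) := huniq _ _ _ _ h1
  refine ⟨h2, hι ?_⟩
  rw [h2] at h1
  exact mul_right_cancel h1

/-- **comparison lemma**: if every coset of `D` is a coset of `D'` (`α x ∈ ι₁(Γ₁) · α' (τ x)`),
the cosets of `D'` are pairwise distinct and every coset of `D'` occurs exactly `m` times in `D`,
then `D.op = m • D'.op`. -/
theorem op_eq_nsmul_of_fibers [Fintype X] [Fintype Y] [DecidableEq Y] (D : DegData ι₁ ι₂ X)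
    (D' : DegData ι₁ ι₂ Y) (hι : Function.Injective ι₁)
    (τ : X → Y) (δ : X → Γ₁) (hδ : ∀ x, D.α x = ι₁ (δ x) * D'.α (τ x))
    (huniq : ∀ (a b : Γ₁) (y z : Y), ι₁ a * D'.α y = ι₁ b * D'.α z → y = z)
    (m : ℕ) (hm : ∀ y : Y, (Finset.univ.filter fun x => τ x = y).card = m)
    {A : Type*} [AddCommGroup A] (φ : Additive Γ₁ →+ A) :
    D.op hι A φ = m • D'.op hι A φ := by
  refine AddMonoidHom.ext fun γ => ?_
  obtain ⟨γ, rfl⟩ := Additive.ofMul.surjective γ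
  rw [AddMonoidHom.smul_apply, op_apply, op_apply]
  have key : ∀ x, φ (Additive.ofMul (D.γ' γ x))
      = φ (Additive.ofMul (δ x)) + φ (Additive.ofMul (D'.γ' γ (τ x)))
        - φ (Additive.ofMul (δ (D.σ γ x))) := by
    intro x
    have h := (conj_rel D D' hι τ δ hδ huniq γ x).2
    have h' := congrArg (fun g => φ (Additive.ofMul g)) h
    simp only [ofMul_mul, map_add] at h'
    rw [h']
    abel
  rw [Finset.sum_congr rfl fun x _ => key x, Finset.sum_sub_distrib, Finset.sum_add_distrib,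
    Equiv.sum_comp (D.σ γ) (fun x => φ (Additive.ofMul (δ x))), add_sub_cancel_left]
  rw [← Finset.sum_fiberwise (s := Finset.univ) (g := τ)
    (f := fun x => φ (Additive.ofMul (D'.γ' γ (τ x)))), Finset.smul_sum]
  refine Finset.sum_congr rfl fun y _ => ?_
  rw [Finset.sum_congr rfl (fun x hx => by rw [(Finset.mem_filter.mp hx).2] :
    ∀ x ∈ Finset.univ.filter (fun x => τ x = y),
      φ (Additive.ofMul (D'.γ' γ (τ x))) = φ (Additive.ofMul (D'.γ' γ y))),
    Finset.sum_const, hm]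

/-- **independence of the representatives**. -/
theorem op_eq_of_equiv [Fintype X] [Fintype Y] (D : DegData ι₁ ι₂ X)
    (D' : DegData ι₁ ι₂ Y) (hι : Function.Injective ι₁)
    (τ : X ≃ Y) (δ : X → Γ₁) (hδ : ∀ x, D.α x = ι₁ (δ x) * D'.α (τ x))
    (huniq : ∀ (a b : Γ₁) (y z : Y), ι₁ a * D'.α y = ι₁ b * D'.α z → y = z)
    {A : Type*} [AddCommGroup A] (φ : Additive Γ₁ →+ A) :
    D.op hι A φ = D'.op hι A φ := by
  classical
  rw [op_eq_nsmul_of_fibers D D' hι τ δ hδ huniq 1 (fun y => ?_) φ, one_smul]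
  rw [Finset.card_eq_one]
  refine ⟨τ.symm y, ?_⟩
  ext x
  simp only [Finset.mem_filter, Finset.mem_univ, true_and, Finset.mem_singleton]
  exact ⟨fun h => by rw [← h, Equiv.symm_apply_apply], fun h => by rw [h, Equiv.apply_symm_apply]⟩

/-- injective version of the independence of representatives (the index sets have the same
cardinality). -/
theorem op_eq_of_injective [Fintype X] [Fintype Y] (D : DegData ι₁ ι₂ X)
    (D' : DegData ι₁ ι₂ Y) (hι : Function.Injective ι₁)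
    (τ : X → Y) (hτ : Function.Injective τ) (hcard : Fintype.card Y ≤ Fintype.card X)
    (δ : X → Γ₁) (hδ : ∀ x, D.α x = ι₁ (δ x) * D'.α (τ x))
    (huniq : ∀ (a b : Γ₁) (y z : Y), ι₁ a * D'.α y = ι₁ b * D'.α z → y = z)
    {A : Type*} [AddCommGroup A] (φ : Additive Γ₁ →+ A) :
    D.op hι A φ = D'.op hι A φ := by
  have hbij : Function.Bijective τ :=
    (Fintype.bijective_iff_injective_and_card τ).mpr
      ⟨hτ, le_antisymm (Fintype.card_le_of_injective τ hτ) hcard⟩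
  exact op_eq_of_equiv D D' hι (Equiv.ofBijective τ hbij) δ hδ huniq φ

/-- distinct cosets: the map `τ` of the comparison lemma is injective as soon as the cosets of
`D` are pairwise distinct. -/
theorem injective_of_uniq (D : DegData ι₁ ι₂ X) (D' : DegData ι₁ ι₂ Y)
    (τ : X → Y) (δ : X → Γ₁) (hδ : ∀ x, D.α x = ι₁ (δ x) * D'.α (τ x))
    (huniq : ∀ (a b : Γ₁) (x z : X), ι₁ a * D.α x = ι₁ b * D.α z → x = z) :
    Function.Injective τ := by
  intro x z h
  refine huniq (δ x)⁻¹ (δ z)⁻¹ x z ?_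
  rw [hδ x, hδ z, h, map_inv, map_inv, inv_mul_cancel_left, inv_mul_cancel_left]

/-! ### disjoint unions and restriction to a stable subset -/

/-- the disjoint union of two systems of coset data. -/
def sumData (D₁ : DegData ι₁ ι₂ X) (D₂ : DegData ι₁ ι₂ Y) : DegData ι₁ ι₂ (X ⊕ Y) where
  α := Sum.elim D₁.α D₂.α
  σ := fun γ => Equiv.sumCongr (D₁.σ γ) (D₂.σ γ)
  γ' := fun γ => Sum.elim (D₁.γ' γ) (D₂.γ' γ)
  rel := fun γ p => by
    cases p with
    | inl x => exact D₁.rel γ x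
    | inr y => exact D₂.rel γ y
  σ_mul := fun γ δ p => by
    cases p with
    | inl x => exact congrArg Sum.inl (D₁.σ_mul γ δ x)
    | inr y => exact congrArg Sum.inr (D₂.σ_mul γ δ y)

theorem sumData_op [Fintype X] [Fintype Y] (D₁ : DegData ι₁ ι₂ X) (D₂ : DegData ι₁ ι₂ Y)
    (hι : Function.Injective ι₁) {A : Type*} [AddCommGroup A] (φ : Additive Γ₁ →+ A) :
    (D₁.sumData D₂).op hι A φ = D₁.op hι A φ + D₂.op hι A φ := by
  refine AddMonoidHom.ext fun γ => ?_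
  obtain ⟨γ, rfl⟩ := Additive.ofMul.surjective γ
  rw [AddMonoidHom.add_apply, op_apply, op_apply, op_apply, Fintype.sum_sum_type]
  rfl

end DegData

end Fermat.Agent.S41lib
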