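import Mathlib
import Fermat.Agent.S41lib.DegAbstract

/-!
# Item 78 (S41), block DEG: the transfer (corestriction) as coset data

`S` a group, `ι : S →* G`, `H ≤ K` subgroups of `S` with `H` of finite index in `K`.
`DegData.transfer ι H K : DegData (ι.comp H.subtype) (ι.comp K.subtype) (K ⧸ H.subgroupOf K)` is
the coset data of the transfer `Hom(H, A) → Hom(K, A)`; the restriction is
`DegData.restr ι hHK`.  `transfer ∘ restriction = [K : H]`.
-/

set_option autoImplicit false

namespace Fermat.Agent.S41lib

namespace DegData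

variable {G S : Type} [Group G] [Group S] (ι : S →* G) (H K : Subgroup S)

/-- the index set of the transfer -/
abbrev TransferIdx : Type := ↥K ⧸ H.subgroupOf K

/-- the representatives of `H \ K` -/
noncomputable def transferRep (x : TransferIdx H K) : ↥K := (Quotient.out x)⁻¹

variable {H K}

theorem transferRep_mem (g : ↥K) (x : TransferIdx H K) :
    ((transferRep H K x * g * (transferRep H K (g⁻¹ • x))⁻¹ : ↥K) : S) ∈ H := by
  have h1 : (QuotientGroup.mk (Quotient.out (g⁻¹ • x)) : TransferIdx H K)
      = QuotientGroup.mk (g⁻¹ * Quotient.out x) := by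
    have e1 : (QuotientGroup.mk (Quotient.out (g⁻¹ • x)) : TransferIdx H K) = g⁻¹ • x :=
      Quotient.out_eq _
    have e2 : (QuotientGroup.mk (Quotient.out x) : TransferIdx H K) = x := Quotient.out_eq _
    rw [e1]
    conv_lhs => rw [← e2]
    rfl
  rw [QuotientGroup.eq] at h1
  have h2 := (H.subgroupOf K).inv_mem h1
  rw [mul_inv_rev, inv_inv, mul_inv_rev, inv_inv] at h2
  rw [transferRep, transferRep, inv_inv]
  exact Subgroup.mem_subgroupOf.mp h2

/-- every element of `K` lies in exactly one coset `H · rep x` -/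
theorem exists_transferRep (g : ↥K) :
    ∃ (x : TransferIdx H K) (h : ↥H), (g : S) = (h : S) * (transferRep H K x : S) := by
  refine ⟨QuotientGroup.mk g⁻¹, ⟨(g * (transferRep H K (QuotientGroup.mk g⁻¹))⁻¹ : ↥K), ?_⟩, ?_⟩
  · have h1 : (QuotientGroup.mk (Quotient.out (QuotientGroup.mk g⁻¹ : TransferIdx H K)) :
        TransferIdx H K) = QuotientGroup.mk g⁻¹ := Quotient.out_eq _
    rw [QuotientGroup.eq] at h1
    have h2 := (H.subgroupOf K).inv_mem h1
    rw [mul_inv_rev, inv_inv, inv_inv] at h2
    rw [transferRep, inv_inv]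
    exact Subgroup.mem_subgroupOf.mp h2
  · show (g : S) = ((g * (transferRep H K (QuotientGroup.mk g⁻¹))⁻¹ : ↥K) : S)
      * (transferRep H K (QuotientGroup.mk g⁻¹) : S)
    rw [← Subgroup.coe_mul, inv_mul_cancel_right]

theorem transferRep_eq_of_mem {x y : TransferIdx H K}
    (h : ((transferRep H K x * (transferRep H K y)⁻¹ : ↥K) : S) ∈ H) : x = y := by
  have h1 : transferRep H K x * (transferRep H K y)⁻¹ ∈ H.subgroupOf K :=
    Subgroup.mem_subgroupOf.mpr h
  rw [transferRep, transferRep, inv_inv] at h1
  have h2 : (QuotientGroup.mk (Quotient.out x) : TransferIdx H K)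
      = QuotientGroup.mk (Quotient.out y) := QuotientGroup.eq.mpr h1
  have e1 : (QuotientGroup.mk (Quotient.out x) : TransferIdx H K) = x := Quotient.out_eq _
  have e2 : (QuotientGroup.mk (Quotient.out y) : TransferIdx H K) = y := Quotient.out_eq _
  rw [← e1, ← e2]
  exact h2

variable (H K)

/-- **the transfer** `Hom(H, A) → Hom(K, A)` as coset data. -/
noncomputable def transfer : DegData (ι.comp H.subtype) (ι.comp K.subtype) (TransferIdx H K) where
  α := fun x => ι (transferRep H K x : S)
  σ := fun g => MulAction.toPerm g⁻¹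
  γ' := fun g x => ⟨_, transferRep_mem g x⟩
  rel := fun g x => by
    show ι (transferRep H K x : S) * ι (g : S)
      = ι ((transferRep H K x * g * (transferRep H K (g⁻¹ • x))⁻¹ : ↥K) : S)
        * ι (transferRep H K (g⁻¹ • x) : S)
    rw [← map_mul, ← map_mul, ← Subgroup.coe_mul, ← Subgroup.coe_mul, inv_mul_cancel_right]
  σ_mul := fun g h x => by
    simp only [MulAction.toPerm_apply, mul_inv_rev, mul_smul]

theorem transfer_α (x : TransferIdx H K) :
    (transfer ι H K).α x = ι (transferRep H K x : S) := rfl

theorem transfer_σ (g : ↥K) (x : TransferIdx H K) : (transfer ι H K).σ g x = g⁻¹ • x := rfl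

theorem transfer_γ' (g : ↥K) (x : TransferIdx H K) :
    (((transfer ι H K).γ' g x : ↥H) : S)
      = (transferRep H K x : S) * (g : S) * ((transferRep H K (g⁻¹ • x) : ↥K) : S)⁻¹ := rfl

/-- the cosets `H · rep x` are pairwise distinct. -/
theorem transfer_uniq (hι : Function.Injective ι) (a b : ↥H) (x y : TransferIdx H K)
    (h : (ι.comp H.subtype) a * (transfer ι H K).α x
      = (ι.comp H.subtype) b * (transfer ι H K).α y) : x = y := by
  apply transferRep_eq_of_mem
  have h1 : (a : S) * (transferRep H K x : S) = (b : S) * (transferRep H K y : S) := by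
    apply hι
    rw [map_mul, map_mul]
    exact h
  have h2 : ((transferRep H K x * (transferRep H K y)⁻¹ : ↥K) : S) = (a : S)⁻¹ * (b : S) := by
    rw [Subgroup.coe_mul, Subgroup.coe_inv, eq_inv_mul_iff_mul_eq, ← mul_assoc, h1,
      mul_inv_cancel_right]
  rw [h2]
  exact H.mul_mem (H.inv_mem a.2) b.2

variable {H K}

/-- the restriction `Hom(K, A) → Hom(H, A)` as coset data. -/
def restr (hHK : H ≤ K) : DegData (ι.comp K.subtype) (ι.comp H.subtype) Unit :=
  ofHom (Subgroup.inclusion hHK) 1 (fun γ => by
    rw [one_mul, mul_one]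
    rfl)

theorem restr_op (hHK : H ≤ K) (hι : Function.Injective (ι.comp K.subtype)) {A : Type*}
    [AddCommGroup A] (φ : Additive ↥K →+ A) :
    (restr ι hHK).op hι A φ = φ.comp (MonoidHom.toAdditive (Subgroup.inclusion hHK)) :=
  ofHom_op _ _ _ hι φ

/-- the identity as coset data. -/
def idData : DegData (ι.comp K.subtype) (ι.comp K.subtype) Unit :=
  ofHom (MonoidHom.id ↥K) 1 (fun γ => by rw [one_mul, mul_one]; rfl)

theorem idData_op (hι : Function.Injective (ι.comp K.subtype)) {A : Type*}
    [AddCommGroup A] (φ : Additive ↥K →+ A) :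
    (idData (K := K) ι).op hι A φ = φ := by
  rw [idData, ofHom_op]
  rfl

/-- **transfer ∘ restriction = index**. -/
theorem transfer_restr [Fintype (TransferIdx H K)] (hHK : H ≤ K) (hι : Function.Injective ι)
    {A : Type*} [AddCommGroup A] (φ : Additive ↥K →+ A) :
    (transfer ι H K).op (hι.comp Subtype.val_injective) A
        ((restr ι hHK).op (hι.comp Subtype.val_injective) A φ)
      = Fintype.card (TransferIdx H K) • φ := by
  classical
  rw [← op_comp (restr ι hHK) (transfer ι H K) (hι.comp Subtype.val_injective)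
    (hι.comp Subtype.val_injective) φ]
  rw [op_eq_nsmul_of_fibers ((restr ι hHK).comp (transfer ι H K) (hι.comp Subtype.val_injective))
    (idData (K := K) ι) (hι.comp Subtype.val_injective) (fun _ => ())
    (fun p => transferRep H K p.2) (fun p => ?_) (fun _ _ _ _ _ => rfl)
    (Fintype.card (TransferIdx H K)) (fun y => ?_) φ, idData_op]
  · show (1 : G) * ι (transferRep H K p.2 : S) = ι (transferRep H K p.2 : S) * 1
    rw [one_mul, mul_one]
  · rw [Finset.filter_true_of_mem (fun _ _ => rfl), Finset.card_univ, Fintype.card_prod,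
      Fintype.card_unit, one_mul]

end DegData

end Fermat.Agent.S41lib
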