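import Mathlib
import Fermat.Agent.S41lib.DegTransfer
import Fermat.Agent.GalRep.HeckeLatT
import Fermat.Agent.S20_Comb

/-!
# Item 78 (S41), block DEG, part (D1): the degeneracy maps between `Γ₀(N)` and `Γ₀(Nq)`

`Γ = Γ₀(N)`, `Γ' = Γ₀(N q)`, `A` any abelian group.

* `degRes N q A  : Hom(Γ, A) →+ Hom(Γ', A)`,  `φ ↦ φ|Γ'`;
* `degResq N q A : Hom(Γ, A) →+ Hom(Γ', A)`,  `φ ↦ φ ∘ (γ ↦ diag(q,1) γ diag(q,1)⁻¹)`;
* `degCores N q A : Hom(Γ', A) →+ Hom(Γ, A)`, the transfer.

All three are operators of coset data (`DegData`, `DegAbstract.lean`).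
-/

set_option autoImplicit false

open CongruenceSubgroup Matrix.SpecialLinearGroup ModularForm
open Fermat.Agent.S22lib Fermat.Agent.GalRep
open P2MW.S_ModularForm_heckeT_slash_eq_self_of_mem_Gamma0.ModularForm.HeckeSlashInvariance
open scoped MatrixGroups

namespace Fermat.Agent.S41lib

noncomputable section

variable (N q : ℕ)

theorem deg_le : Gamma0 (N * q) ≤ Gamma0 N := by
  rw [Nat.mul_comm]
  exact Fermat.Agent.S20lib.Gamma0_mul_le q N

theorem deg_dvd (γ : Gamma0 (N * q)) : (q : ℤ) ∣ (γ : SL(2, ℤ)) 1 0 :=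
  (Dvd.intro_left (N : ℤ) (by push_cast; rfl)).trans (gamma0_dvd γ)

theorem deg_dvd' (γ : Gamma0 (N * q)) : (N : ℤ) ∣ (γ : SL(2, ℤ)) 1 0 :=
  (Dvd.intro (q : ℤ) (by push_cast; rfl)).trans (gamma0_dvd γ)

/-- the index set of the transfer from `Γ₀(Nq)` to `Γ₀(N)` -/
abbrev DegIdx : Type := DegData.TransferIdx (Gamma0 (N * q)) (Gamma0 N)

instance degIdx_finite [NeZero N] [NeZero q] : Finite (DegIdx N q) := by
  have : NeZero (N * q) := ⟨Nat.mul_ne_zero (NeZero.ne N) (NeZero.ne q)⟩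
  have : ((Gamma0 (N * q)).subgroupOf (Gamma0 N)).FiniteIndex := inferInstance
  exact Subgroup.finite_quotient_of_finiteIndex

instance degIdx_fintype [NeZero N] [NeZero q] : Fintype (DegIdx N q) := Fintype.ofFinite _

theorem card_degIdx [NeZero N] (hq : q.Prime) (hqN : ¬ q ∣ N) :
    haveI : NeZero q := ⟨hq.ne_zero⟩
    Fintype.card (DegIdx N q) = q + 1 := by
  have : NeZero q := ⟨hq.ne_zero⟩
  rw [← Nat.card_eq_fintype_card]
  have h := Fermat.Agent.S20lib.relIndex_Gamma0_of_not_dvd hq (NeZero.ne N) hqN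
  rw [Nat.mul_comm] at h
  exact h

/-! ### the coset data -/

/-- coset data of the restriction -/
def degResData : DegData (gamma0Hom N) (gamma0Hom (N * q)) Unit :=
  DegData.restr (mapGL ℝ) (deg_le N q)

/-- coset data of the transfer -/
def degCoresData : DegData (gamma0Hom (N * q)) (gamma0Hom N) (DegIdx N q) :=
  DegData.transfer (mapGL ℝ) (Gamma0 (N * q)) (Gamma0 N)

/-- conjugation by `diag(q,1)`: `[[a,b],[c,d]] ↦ [[a, q b],[c/q, d]]` -/
def degConjSL (g : SL(2, ℤ)) (hg : (q : ℤ) ∣ g 1 0) : SL(2, ℤ) :=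
  ⟨!![g 0 0, q * g 0 1; g 1 0 / q, g 1 1], by
    have hdet := g.det_coe
    rw [Matrix.det_fin_two] at hdet
    rw [Matrix.det_fin_two_of]
    have h1 : (q : ℤ) * g 0 1 * (g 1 0 / q) = g 0 1 * g 1 0 := by
      rw [mul_comm (q : ℤ), mul_assoc, Int.mul_ediv_cancel' hg]
    rw [h1]
    exact hdet⟩

theorem degConjSL_00 (g : SL(2, ℤ)) (hg : (q : ℤ) ∣ g 1 0) : degConjSL q g hg 0 0 = g 0 0 := rfl
theorem degConjSL_01 (g : SL(2, ℤ)) (hg : (q : ℤ) ∣ g 1 0) :
    degConjSL q g hg 0 1 = q * g 0 1 := rfl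
theorem degConjSL_10 (g : SL(2, ℤ)) (hg : (q : ℤ) ∣ g 1 0) :
    degConjSL q g hg 1 0 = g 1 0 / q := rfl
theorem degConjSL_11 (g : SL(2, ℤ)) (hg : (q : ℤ) ∣ g 1 0) : degConjSL q g hg 1 1 = g 1 1 := rfl

theorem degConjSL_rel [NeZero q] (g : SL(2, ℤ)) (hg : (q : ℤ) ∣ g 1 0) :
    heckeDiagMatrix q * mapGL ℝ g = mapGL ℝ (degConjSL q g hg) * heckeDiagMatrix q := by
  have hq : q ≠ 0 := NeZero.ne q
  have hc : (((g 1 0 / (q : ℤ) : ℤ)) : ℝ) * (q : ℝ) = ((g 1 0 : ℤ) : ℝ) := by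
    have := Int.ediv_mul_cancel hg
    exact_mod_cast this
  apply Units.ext
  rw [Units.val_mul, Units.val_mul, val_heckeDiagMatrix hq]
  ext i j
  fin_cases i <;> fin_cases j <;>
    simp only [Matrix.mul_apply, Fin.sum_univ_two, mapGL_apply, degConjSL_00, degConjSL_01,
      degConjSL_10, degConjSL_11, Matrix.of_apply, Matrix.cons_val', Matrix.cons_val_zero,
      Matrix.cons_val_one, Matrix.cons_val_fin_one, Fin.zero_eta, Fin.mk_one, Fin.isValue] <;>
    push_cast <;> first | ring1 | linear_combination hc | linear_combination -hc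

variable {N q}

/-- conjugation by `diag(q,1)` as a map `Γ₀(Nq) → Γ₀(N)` -/
def degConjFun [NeZero q] (γ : Gamma0 (N * q)) : Gamma0 N :=
  ⟨degConjSL q (γ : SL(2, ℤ)) (deg_dvd N q γ), by
    rw [Gamma0_mem, ZMod.intCast_zmod_eq_zero_iff_dvd, degConjSL_10]
    obtain ⟨c, hc⟩ := gamma0_dvd γ
    have hq : (q : ℤ) ≠ 0 := by exact_mod_cast NeZero.ne q
    refine ⟨c, ?_⟩
    rw [hc]
    push_cast
    rw [mul_comm (N : ℤ) (q : ℤ), mul_assoc, Int.mul_ediv_cancel_left _ hq]⟩

theorem degConjFun_rel [NeZero q] (γ : Gamma0 (N * q)) :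
    heckeDiagMatrix q * gamma0Hom (N * q) γ = gamma0Hom N (degConjFun γ) * heckeDiagMatrix q :=
  degConjSL_rel q (γ : SL(2, ℤ)) (deg_dvd N q γ)

variable (N q)

/-- conjugation by `diag(q,1)` as a homomorphism `Γ₀(Nq) → Γ₀(N)` -/
def degConj [NeZero q] : Gamma0 (N * q) →* Gamma0 N where
  toFun := degConjFun
  map_one' := by
    apply gamma0Hom_injective N
    have h := degConjFun_rel (1 : Gamma0 (N * q))
    rw [map_one, mul_one] at h
    rw [map_one]
    exact (mul_eq_right.mp h.symm)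
  map_mul' γ δ := by
    apply gamma0Hom_injective N
    have h := degConjFun_rel (γ * δ)
    rw [map_mul, ← mul_assoc, degConjFun_rel γ, mul_assoc, degConjFun_rel δ, ← mul_assoc] at h
    rw [map_mul]
    exact (mul_right_cancel h).symm

theorem degConj_rel [NeZero q] (γ : Gamma0 (N * q)) :
    heckeDiagMatrix q * gamma0Hom (N * q) γ = gamma0Hom N (degConj N q γ) * heckeDiagMatrix q :=
  degConjFun_rel γ

theorem degConj_00 [NeZero q] (γ : Gamma0 (N * q)) :
    ((degConj N q γ : Gamma0 N) : SL(2, ℤ)) 0 0 = (γ : SL(2, ℤ)) 0 0 := rfl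
theorem degConj_01 [NeZero q] (γ : Gamma0 (N * q)) :
    ((degConj N q γ : Gamma0 N) : SL(2, ℤ)) 0 1 = q * (γ : SL(2, ℤ)) 0 1 := rfl
theorem degConj_10 [NeZero q] (γ : Gamma0 (N * q)) :
    ((degConj N q γ : Gamma0 N) : SL(2, ℤ)) 1 0 = (γ : SL(2, ℤ)) 1 0 / q := rfl
theorem degConj_11 [NeZero q] (γ : Gamma0 (N * q)) :
    ((degConj N q γ : Gamma0 N) : SL(2, ℤ)) 1 1 = (γ : SL(2, ℤ)) 1 1 := rfl

/-- coset data of the second degeneracy map -/
def degResqData [NeZero q] : DegData (gamma0Hom N) (gamma0Hom (N * q)) Unit :=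
  DegData.ofHom (degConj N q) (heckeDiagMatrix q) (degConj_rel N q)

/-! ### the maps -/

/-- restriction `Hom(Γ₀(N), A) → Hom(Γ₀(Nq), A)` -/
def degRes (A : Type*) [AddCommGroup A] :
    (Additive (Gamma0 N) →+ A) →+ (Additive (Gamma0 (N * q)) →+ A) :=
  (degResData N q).op (gamma0Hom_injective N) A

/-- the second degeneracy map `φ ↦ φ ∘ conj(diag(q,1))` -/
def degResq [NeZero q] (A : Type*) [AddCommGroup A] :
    (Additive (Gamma0 N) →+ A) →+ (Additive (Gamma0 (N * q)) →+ A) :=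
  (degResqData N q).op (gamma0Hom_injective N) A

/-- the transfer `Hom(Γ₀(Nq), A) → Hom(Γ₀(N), A)` -/
def degCores [NeZero N] [NeZero q] (A : Type*) [AddCommGroup A] :
    (Additive (Gamma0 (N * q)) →+ A) →+ (Additive (Gamma0 N) →+ A) :=
  (degCoresData N q).op (gamma0Hom_injective (N * q)) A

variable {N q}

theorem degRes_apply {A : Type*} [AddCommGroup A] (φ : Additive (Gamma0 N) →+ A)
    (γ : Gamma0 (N * q)) :
    degRes N q A φ (Additive.ofMul γ)
      = φ (Additive.ofMul (Subgroup.inclusion (deg_le N q) γ)) := by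
  show ∑ _x : Unit, φ (Additive.ofMul (Subgroup.inclusion (deg_le N q) γ)) = _
  simp

theorem degResq_apply [NeZero q] {A : Type*} [AddCommGroup A] (φ : Additive (Gamma0 N) →+ A)
    (γ : Gamma0 (N * q)) :
    degResq N q A φ (Additive.ofMul γ) = φ (Additive.ofMul (degConj N q γ)) := by
  show ∑ _x : Unit, φ (Additive.ofMul (degConj N q γ)) = _
  simp

theorem degRes_eq_comp {A : Type*} [AddCommGroup A] (φ : Additive (Gamma0 N) →+ A) :
    degRes N q A φ = φ.comp (MonoidHom.toAdditive (Subgroup.inclusion (deg_le N q))) :=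
  DegData.restr_op (mapGL ℝ) (deg_le N q) (gamma0Hom_injective N) φ

theorem degResq_eq_comp [NeZero q] {A : Type*} [AddCommGroup A]
    (φ : Additive (Gamma0 N) →+ A) :
    degResq N q A φ = φ.comp (MonoidHom.toAdditive (degConj N q)) :=
  DegData.ofHom_op _ _ _ (gamma0Hom_injective N) φ

theorem degCores_apply [NeZero N] [NeZero q] {A : Type*} [AddCommGroup A]
    (ψ : Additive (Gamma0 (N * q)) →+ A) (γ : Gamma0 N) :
    degCores N q A ψ (Additive.ofMul γ)
      = ∑ x, ψ (Additive.ofMul ((degCoresData N q).γ' γ x)) := rfl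

/-- composition with an additive map -/
theorem degRes_comp {A B : Type*} [AddCommGroup A] [AddCommGroup B] (f : A →+ B)
    (φ : Additive (Gamma0 N) →+ A) : degRes N q B (f.comp φ) = f.comp (degRes N q A φ) :=
  DegData.op_comp_hom _ _ f φ

theorem degResq_comp [NeZero q] {A B : Type*} [AddCommGroup A] [AddCommGroup B] (f : A →+ B)
    (φ : Additive (Gamma0 N) →+ A) : degResq N q B (f.comp φ) = f.comp (degResq N q A φ) :=
  DegData.op_comp_hom _ _ f φ

theorem degCores_comp [NeZero N] [NeZero q] {A B : Type*} [AddCommGroup A] [AddCommGroup B]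
    (f : A →+ B) (ψ : Additive (Gamma0 (N * q)) →+ A) :
    degCores N q B (f.comp ψ) = f.comp (degCores N q A ψ) :=
  DegData.op_comp_hom _ _ f ψ

/-- **transfer ∘ restriction = q + 1** -/
theorem degCores_degRes [NeZero N] (hq : q.Prime) (hqN : ¬ q ∣ N) {A : Type*} [AddCommGroup A]
    (φ : Additive (Gamma0 N) →+ A) :
    haveI : NeZero q := ⟨hq.ne_zero⟩
    degCores N q A (degRes N q A φ) = (q + 1) • φ := by
  have : NeZero q := ⟨hq.ne_zero⟩
  have h := DegData.transfer_restr (mapGL ℝ) (deg_le N q)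
    (mapGL_injective (R := ℤ) (S := ℝ)) φ
  rw [card_degIdx N q hq hqN] at h
  exact h

end

end Fermat.Agent.S41lib
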