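import Mathlib
import Fermat.Agent.S41lib.DegMaps

/-!
# Item 78 (S41), block DEG, part (D2): the Gram matrix `α†α`

For `q` prime, `q ∤ N`:

* `degCores_degRes`   : `cores ∘ res  = q + 1`   (in `DegMaps.lean`);
* `degCores_degResq_tr` : `cores ∘ resq = heckeHomTr N q` (the operator of `Γ₀(N) diag(q,1) Γ₀(N)`);
* `heckeHomTr_eq_heckeHom` : `heckeHomTr N q = heckeHom N q` for `q ∤ N`;
* `degCores_degResq`  : `cores ∘ resq = heckeHom N q = T_q`.
-/

set_option autoImplicit false

open CongruenceSubgroup Matrix.SpecialLinearGroup ModularForm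
open Fermat.Agent.S22lib Fermat.Agent.GalRep
open P2MW.S_ModularForm_heckeT_slash_eq_self_of_mem_Gamma0.ModularForm.HeckeSlashInvariance
open scoped MatrixGroups

namespace Fermat.Agent.S41lib

noncomputable section

variable {N q : ℕ}

/-- the representatives of `Γ₀(Nq) \ Γ₀(N)` -/
def degRep (N q : ℕ) (x : DegIdx N q) : Gamma0 N :=
  DegData.transferRep (Gamma0 (N * q)) (Gamma0 N) x

theorem degCoresData_α (x : DegIdx N q) :
    (degCoresData N q).α x = gamma0Hom N (degRep N q x) := rfl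

/-- every element of `Γ₀(N)` is `h · rep x` with `h ∈ Γ₀(Nq)` -/
theorem exists_degRep (g : Gamma0 N) :
    ∃ (x : DegIdx N q) (h : Gamma0 (N * q)),
      g = Subgroup.inclusion (deg_le N q) h * degRep N q x := by
  obtain ⟨x, h, hh⟩ := DegData.exists_transferRep (H := Gamma0 (N * q)) (K := Gamma0 N) g
  exact ⟨x, h, Subtype.ext hh⟩

theorem gamma0Hom_inclusion (h : Gamma0 (N * q)) :
    gamma0Hom N (Subgroup.inclusion (deg_le N q) h) = gamma0Hom (N * q) h := rfl

theorem degRep_eq_of_dvd {x y : DegIdx N q}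
    (h : ((N * q : ℕ) : ℤ) ∣ ((degRep N q x * (degRep N q y)⁻¹ : Gamma0 N) : SL(2, ℤ)) 1 0) :
    x = y := by
  apply DegData.transferRep_eq_of_mem (H := Gamma0 (N * q)) (K := Gamma0 N)
  rw [Gamma0_mem, ZMod.intCast_zmod_eq_zero_iff_dvd]
  exact h

/-- the cosets `Γ₀(N) · diag(q,1) · rep x` are pairwise distinct -/
theorem deg_uniq [NeZero q] (a b : Gamma0 N) (x y : DegIdx N q)
    (h : gamma0Hom N a * (heckeDiagMatrix q * gamma0Hom N (degRep N q x))
      = gamma0Hom N b * (heckeDiagMatrix q * gamma0Hom N (degRep N q y))) : x = y := by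
  have hq : q ≠ 0 := NeZero.ne q
  set u : Gamma0 N := degRep N q x * (degRep N q y)⁻¹ with hu
  set w : Gamma0 N := a⁻¹ * b with hw
  have h1 : heckeDiagMatrix q * gamma0Hom N u = gamma0Hom N w * heckeDiagMatrix q := by
    rw [hu, hw, map_mul, map_mul, map_inv, map_inv]
    have h2 : heckeDiagMatrix q * gamma0Hom N (degRep N q x)
        = (gamma0Hom N a)⁻¹ * (gamma0Hom N b
          * (heckeDiagMatrix q * gamma0Hom N (degRep N q y))) := by
      rw [← h, inv_mul_cancel_left]
    rw [← mul_assoc, h2]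
    group
  have h3 := congrArg (fun M : GL (Fin 2) ℝ => (M : Matrix (Fin 2) (Fin 2) ℝ) 1 0) h1
  simp only [Units.val_mul, val_heckeDiagMatrix hq, gamma0Hom_apply] at h3
  simp only [Matrix.mul_apply, Fin.sum_univ_two, mapGL_apply, Matrix.of_apply, Matrix.cons_val',
    Matrix.cons_val_zero, Matrix.cons_val_one, Matrix.cons_val_fin_one, Fin.isValue,
    zero_mul, one_mul, zero_add, mul_zero, add_zero] at h3
  have h4 : ((u : Gamma0 N) : SL(2, ℤ)) 1 0 = ((w : Gamma0 N) : SL(2, ℤ)) 1 0 * q := by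
    have h3' : (((((u : Gamma0 N) : SL(2, ℤ)) 1 0 : ℤ)) : ℝ)
        = ((((w : Gamma0 N) : SL(2, ℤ)) 1 0 * q : ℤ) : ℝ) := by
      push_cast
      simpa using h3
    exact_mod_cast h3'
  apply degRep_eq_of_dvd
  rw [← hu, h4]
  push_cast
  exact mul_dvd_mul_right (gamma0_dvd w) _

/-- completeness: `diag(q,1) · d ∈ Γ₀(N) · diag(q,1) · rep x` -/
theorem deg_compl [NeZero q] (d : Gamma0 N) :
    ∃ (x : DegIdx N q) (d' : Gamma0 N),
      heckeDiagMatrix q * gamma0Hom N d
        = gamma0Hom N d' * (heckeDiagMatrix q * gamma0Hom N (degRep N q x)) := by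
  obtain ⟨x, h, hh⟩ := exists_degRep (q := q) d
  refine ⟨x, degConj N q h, ?_⟩
  rw [hh, map_mul, gamma0Hom_inclusion, ← mul_assoc, degConj_rel, mul_assoc]

variable (N q)

/-- the coset data of `cores ∘ resq`: `α (_, x) = diag(q,1) · rep x` -/
def degGramData [NeZero q] : DegData (gamma0Hom N) (gamma0Hom N) (Unit × DegIdx N q) :=
  (degResqData N q).comp (degCoresData N q) (gamma0Hom_injective (N * q))

variable {N q}

theorem degGramData_α [NeZero q] (p : Unit × DegIdx N q) :
    (degGramData N q).α p = heckeDiagMatrix q * gamma0Hom N (degRep N q p.2) := rfl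

theorem degGramData_op [NeZero N] [NeZero q] {A : Type*} [AddCommGroup A]
    (φ : Additive (Gamma0 N) →+ A) :
    (degGramData N q).op (gamma0Hom_injective N) A φ = degCores N q A (degResq N q A φ) :=
  DegData.op_comp (degResqData N q) (degCoresData N q) (gamma0Hom_injective N)
    (gamma0Hom_injective (N * q)) φ

theorem degGram_uniq [NeZero q] (a b : Gamma0 N) (y z : Unit × DegIdx N q)
    (h : gamma0Hom N a * (degGramData N q).α y = gamma0Hom N b * (degGramData N q).α z) :
    y = z :=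
  Prod.ext rfl (deg_uniq a b y.2 z.2 h)

/-- the operator of one-group coset data is `hlOp`. -/
theorem degData_op_eq_hlOp {X : Type} [Fintype X] (D : DegData (gamma0Hom N) (gamma0Hom N) X)
    (A : Type*) [AddCommGroup A] :
    D.op (gamma0Hom_injective N) A = hlOp (gamma0Hom_injective N) D.rel D.σ_mul A := rfl

/-- **`cores ∘ resq` is the operator of the double coset `Γ₀(N) diag(q,1) Γ₀(N)`**. -/
theorem degCores_degResq_tr [NeZero N] (q : Nat.Primes) {A : Type*} [AddCommGroup A]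
    (φ : Additive (Gamma0 N) →+ A) :
    haveI : NeZero (q : ℕ) := ⟨q.2.ne_zero⟩
    degCores N q A (degResq N q A φ) = heckeHomTr N q A φ := by
  have : NeZero (q : ℕ) := ⟨q.2.ne_zero⟩
  rw [← degGramData_op, degData_op_eq_hlOp]
  have h := hlOp_eq_heckeHomTr q (degGramData N (q : ℕ)).α (degGramData N (q : ℕ)).σ
    (degGramData N (q : ℕ)).γ' (degGramData N (q : ℕ)).rel (degGramData N (q : ℕ)).σ_mul
    (fun y => ⟨degRep N q y.2, rfl⟩)
    (fun d => by
      obtain ⟨x, d', hd⟩ := deg_compl (q := (q : ℕ)) d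
      exact ⟨((), x), d', hd⟩)
    degGram_uniq A
  rw [h]

/-! ### `T_q` is self-transposed for `q ∤ N` -/

/-- the coset data of `T_q` (`q ∤ N`) -/
def degTData (N : ℕ) {p : ℕ} [Fact p.Prime] (hpN : ¬ p ∣ N) :
    DegData (gamma0Hom N) (gamma0Hom N) (OnePoint (ZMod p)) where
  α := heckeRep p
  σ := sigmaT
  γ' := gammaT hpN
  rel := relT hpN
  σ_mul := sigmaT_mul

/-- the coset data of `U_p` (`p ∣ N`) -/
def degUData (N : ℕ) {p : ℕ} [NeZero p] (hpN : p ∣ N) :
    DegData (gamma0Hom N) (gamma0Hom N) (ZMod p) where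
  α := fun x => heckeMatrix p x.val
  σ := sigmaU hpN
  γ' := gammaU hpN
  rel := relU hpN
  σ_mul := sigmaU_mul hpN

theorem degTData_op (N : ℕ) {p : ℕ} [Fact p.Prime] (hpN : ¬ p ∣ N) (A : Type*)
    [AddCommGroup A] :
    (degTData N hpN).op (gamma0Hom_injective N) A = heckeHomT N hpN A := rfl

theorem degUData_op (N : ℕ) {p : ℕ} [NeZero p] (hpN : p ∣ N) (A : Type*) [AddCommGroup A] :
    (degUData N hpN).op (gamma0Hom_injective N) A = heckeHomU N hpN A := rfl

theorem degTData_uniq (N : ℕ) {p : ℕ} [Fact p.Prime] (hpN : ¬ p ∣ N) (a b : Gamma0 N)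
    (y z : OnePoint (ZMod p))
    (h : gamma0Hom N a * (degTData N hpN).α y = gamma0Hom N b * (degTData N hpN).α z) : y = z :=
  hi_uniq_heckeRep _ y z (hi_move a b h)

theorem degUData_uniq (N : ℕ) {p : ℕ} [NeZero p] (hpN : p ∣ N) (a b : Gamma0 N)
    (y z : ZMod p)
    (h : gamma0Hom N a * (degUData N hpN).α y = gamma0Hom N b * (degUData N hpN).α z) : y = z :=
  hi_uniq_heckeMatrix _ y z (hi_move a b h)

theorem card_onePoint_zmod (p : ℕ) [NeZero p] : Fintype.card (OnePoint (ZMod p)) = p + 1 := by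
  have : Fintype.card (OnePoint (ZMod p)) = Fintype.card (Option (ZMod p)) :=
    Fintype.card_congr (Equiv.refl _)
  rw [this, Fintype.card_option, ZMod.card]

/-- `(1 j; 0 p) = (1 0; 0 p) · (1 j; 0 1)` -/
theorem heckeMatrix_eq_zero_mul (N : ℕ) [NeZero N] {p : ℕ} (hp : p ≠ 0) (j : ℕ) :
    heckeMatrix p j
      = heckeMatrix p 0 * gamma0Hom N (hltMk N 1 j 0 1 (by ring) (dvd_zero _)) := by
  apply Units.ext
  rw [Units.val_mul, gamma0Hom_apply, val_heckeMatrix hp, val_heckeMatrix hp]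
  ext i k
  fin_cases i <;> fin_cases k <;>
    simp only [Matrix.mul_apply, Fin.sum_univ_two, mapGL_apply, hltMk_00, hltMk_01,
      hltMk_10, hltMk_11, Matrix.of_apply, Matrix.cons_val', Matrix.cons_val_zero,
      Matrix.cons_val_one, Matrix.cons_val_fin_one, Fin.zero_eta, Fin.mk_one, Fin.isValue] <;>
    push_cast <;> ring

/-- for `p ∤ N` every representative of `T_p` lies in `Γ₀(N) diag(p,1) Γ₀(N)` -/
theorem heckeRep_mem_double (N : ℕ) [NeZero N] {p : ℕ} [Fact p.Prime] (hpN : ¬ p ∣ N)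
    (y : OnePoint (ZMod p)) :
    ∃ a d : Gamma0 N, heckeRep p y = gamma0Hom N a * heckeDiagMatrix p * gamma0Hom N d := by
  have hp : p.Prime := Fact.out
  have hcop : Nat.Coprime p N := (Nat.Prime.coprime_iff_not_dvd hp).mpr hpN
  induction y using OnePoint.rec with
  | infty => exact ⟨1, 1, by rw [heckeRep_infty, map_one, one_mul, mul_one]⟩
  | coe j =>
    obtain ⟨a, d, had⟩ := hlt_heckeMatrix_zero_mem N hp.ne_zero hcop
    refine ⟨a, d * hltMk N 1 j.val 0 1 (by ring) (dvd_zero _), ?_⟩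
    rw [heckeRep_coe, heckeMatrix_eq_zero_mul N hp.ne_zero, had, map_mul, mul_assoc]

/-- **`T_q` is self-transposed** for `q ∤ N`. -/
theorem heckeHomTr_eq_heckeHom [NeZero N] (q : Nat.Primes) (hqN : ¬ (q : ℕ) ∣ N) (A : Type*)
    [AddCommGroup A] : heckeHomTr N q A = heckeHom N q A := by
  have : NeZero (q : ℕ) := ⟨q.2.ne_zero⟩
  have : Fact (q : ℕ).Prime := ⟨q.2⟩
  refine AddMonoidHom.ext fun φ => ?_
  rw [← degCores_degResq_tr, ← degGramData_op, heckeHom_of_not_dvd hqN, ← degTData_op N hqN A]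
  -- the matching of the cosets
  have hex : ∀ y : OnePoint (ZMod (q : ℕ)), ∃ (p : Unit × DegIdx N (q : ℕ)) (d : Gamma0 N),
      (degTData N hqN).α y = gamma0Hom N d * (degGramData N (q : ℕ)).α p := by
    intro y
    obtain ⟨a, d, had⟩ := heckeRep_mem_double N hqN y
    obtain ⟨x, h, hh⟩ := exists_degRep (q := (q : ℕ)) d
    refine ⟨((), x), a * degConj N q h, ?_⟩
    show heckeRep (q : ℕ) y = _
    rw [had, hh, degGramData_α, map_mul, map_mul, gamma0Hom_inclusion, mul_assoc,
      ← mul_assoc (heckeDiagMatrix (q : ℕ)), degConj_rel]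
    simp only [mul_assoc]
  choose τ δ hδ using hex
  have hτ : Function.Injective τ :=
    DegData.injective_of_uniq (degTData N hqN) (degGramData N (q : ℕ)) τ δ hδ
      (degTData_uniq N hqN)
  have hcard : Fintype.card (Unit × DegIdx N (q : ℕ)) ≤ Fintype.card (OnePoint (ZMod (q : ℕ))) := by
    rw [Fintype.card_prod, Fintype.card_unit, one_mul, card_degIdx N q q.2 hqN,
      card_onePoint_zmod]
  exact (DegData.op_eq_of_injective (degTData N hqN) (degGramData N (q : ℕ))
    (gamma0Hom_injective N) τ hτ hcard δ hδ degGram_uniq φ).symm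

/-- **`cores ∘ resq = T_q`**. -/
theorem degCores_degResq [NeZero N] (q : Nat.Primes) (hqN : ¬ (q : ℕ) ∣ N) {A : Type*}
    [AddCommGroup A] (φ : Additive (Gamma0 N) →+ A) :
    haveI : NeZero (q : ℕ) := ⟨q.2.ne_zero⟩
    degCores N q A (degResq N q A φ) = heckeHom N q A φ := by
  rw [degCores_degResq_tr, heckeHomTr_eq_heckeHom q hqN]

end

end Fermat.Agent.S41lib
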