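import Mathlib
import Fermat.Agent.S41lib.DegGram

/-!
# Item 78 (S41), block DEG, part (D4a): the Atkin–Lehner involution `W_q` on `Hom(Γ₀(Nq), A)`

`q` prime to `N`, `q u + N v = 1`, `ρ₀ = [[1, -v],[N, q u]] ∈ Γ₀(N)`,
`w = ρ₀ · diag(q,1) = [[q, -v],[N q, q u]]`.  `w` normalises `Γ₀(Nq)`:
`degTheta : Γ₀(Nq) →* Γ₀(Nq)`, `γ ↦ w γ w⁻¹`, and `w² = q · γ₀` with `γ₀ ∈ Γ₀(Nq)`.

* `degW N q h A : Hom(Γ₀(Nq), A) →+ Hom(Γ₀(Nq), A)`, `ψ ↦ ψ ∘ degTheta`;
* `degW_degW : W ∘ W = 1`;
* `degW_degRes : W ∘ res = resq`;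
* `degCoresq := cores ∘ W`, with `coresq ∘ resq = q + 1`, `coresq ∘ res = T_q`.
-/

set_option autoImplicit false

open CongruenceSubgroup Matrix.SpecialLinearGroup ModularForm
open Fermat.Agent.S22lib Fermat.Agent.GalRep
open P2MW.S_ModularForm_heckeT_slash_eq_self_of_mem_Gamma0.ModularForm.HeckeSlashInvariance
open scoped MatrixGroups

namespace Fermat.Agent.S41lib

noncomputable section

variable (N q : ℕ)

/-- Bézout coefficient `u` of `q u + N v = 1` -/
def degBu : ℤ := Int.gcdA q N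

/-- Bézout coefficient `v` of `q u + N v = 1` -/
def degBv : ℤ := Int.gcdB q N

variable {N q}

theorem deg_bezout (h : Nat.Coprime q N) : (q : ℤ) * degBu N q + (N : ℤ) * degBv N q = 1 := by
  have h1 := Int.gcd_eq_gcd_ab (q : ℤ) (N : ℤ)
  rw [Int.gcd_natCast_natCast, h.gcd_eq_one] at h1
  rw [degBu, degBv]
  exact_mod_cast h1.symm

variable (N q)

/-- `ρ₀ = [[1, -v],[N, q u]]` -/
def degRho [NeZero N] (h : Nat.Coprime q N) : Gamma0 N :=
  hltMk N 1 (-degBv N q) N (q * degBu N q) (by linear_combination deg_bezout h) dvd_rfl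

/-- `γ ↦ ρ₀ (diag(q,1) γ diag(q,1)⁻¹) ρ₀⁻¹`, as a homomorphism `Γ₀(Nq) → Γ₀(N)` -/
def degThetaN [NeZero N] [NeZero q] (h : Nat.Coprime q N) : Gamma0 (N * q) →* Gamma0 N :=
  (MulAut.conj (degRho N q h)).toMonoidHom.comp (degConj N q)

variable {N q}

theorem degThetaN_apply [NeZero N] [NeZero q] (h : Nat.Coprime q N) (γ : Gamma0 (N * q)) :
    degThetaN N q h γ = degRho N q h * degConj N q γ * (degRho N q h)⁻¹ := rfl

theorem degThetaN_10 [NeZero N] [NeZero q] (h : Nat.Coprime q N) (γ : Gamma0 (N * q)) :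
    ((degThetaN N q h γ : Gamma0 N) : SL(2, ℤ)) 1 0
      = (N : ℤ) * (γ : SL(2, ℤ)) 0 0 * q * degBu N q
        + q * degBu N q ^ 2 * (γ : SL(2, ℤ)) 1 0
        - (N : ℤ) ^ 2 * q * (γ : SL(2, ℤ)) 0 1
        - (N : ℤ) * q * degBu N q * (γ : SL(2, ℤ)) 1 1 := by
  have hc : ((γ : SL(2, ℤ)) 1 0 / (q : ℤ)) * q = (γ : SL(2, ℤ)) 1 0 :=
    Int.ediv_mul_cancel (deg_dvd N q γ)
  rw [degThetaN_apply, Subgroup.coe_mul, Subgroup.coe_mul, Subgroup.coe_inv,
    Matrix.SpecialLinearGroup.coe_mul, Matrix.SpecialLinearGroup.coe_mul,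
    Matrix.SpecialLinearGroup.coe_inv, Matrix.adjugate_fin_two]
  simp only [Matrix.mul_apply, Fin.sum_univ_two, Matrix.of_apply, Matrix.cons_val',
    Matrix.cons_val_zero, Matrix.cons_val_one, Matrix.cons_val_fin_one, Fin.isValue]
  rw [degConj_00, degConj_01, degConj_10, degConj_11]
  simp only [degRho, hltMk_10, hltMk_11]
  linear_combination ((q : ℤ) * degBu N q ^ 2) * hc

theorem degThetaN_mem [NeZero N] [NeZero q] (h : Nat.Coprime q N) (γ : Gamma0 (N * q)) :
    ((degThetaN N q h γ : Gamma0 N) : SL(2, ℤ)) ∈ Gamma0 (N * q) := by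
  rw [Gamma0_mem, ZMod.intCast_zmod_eq_zero_iff_dvd, degThetaN_10]
  obtain ⟨c₁, hc₁⟩ := gamma0_dvd γ
  rw [hc₁]
  push_cast
  exact ⟨(γ : SL(2, ℤ)) 0 0 * degBu N q + degBu N q ^ 2 * q * c₁
    - (N : ℤ) * (γ : SL(2, ℤ)) 0 1 - degBu N q * (γ : SL(2, ℤ)) 1 1, by ring⟩

variable (N q)

/-- **the Atkin–Lehner automorphism** `γ ↦ w γ w⁻¹` of `Γ₀(Nq)` -/
def degTheta [NeZero N] [NeZero q] (h : Nat.Coprime q N) : Gamma0 (N * q) →* Gamma0 (N * q) :=
  MonoidHom.codRestrict ((Gamma0 N).subtype.comp (degThetaN N q h)) (Gamma0 (N * q))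
    (degThetaN_mem h)

/-- the Atkin–Lehner element `w = ρ₀ · diag(q,1)` -/
def degWElt [NeZero N] (h : Nat.Coprime q N) : GL (Fin 2) ℝ :=
  gamma0Hom N (degRho N q h) * heckeDiagMatrix q

variable {N q}

theorem degTheta_coe [NeZero N] [NeZero q] (h : Nat.Coprime q N) (γ : Gamma0 (N * q)) :
    ((degTheta N q h γ : Gamma0 (N * q)) : SL(2, ℤ)) = ((degThetaN N q h γ : Gamma0 N) : SL(2, ℤ)) :=
  rfl

theorem inclusion_degTheta [NeZero N] [NeZero q] (h : Nat.Coprime q N) (γ : Gamma0 (N * q)) :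
    Subgroup.inclusion (deg_le N q) (degTheta N q h γ) = degThetaN N q h γ := rfl

theorem gamma0Hom_degTheta [NeZero N] [NeZero q] (h : Nat.Coprime q N) (γ : Gamma0 (N * q)) :
    gamma0Hom (N * q) (degTheta N q h γ) = gamma0Hom N (degThetaN N q h γ) := rfl

/-- `w γ = θ(γ) w` -/
theorem degWElt_rel [NeZero N] [NeZero q] (h : Nat.Coprime q N) (γ : Gamma0 (N * q)) :
    degWElt N q h * gamma0Hom (N * q) γ
      = gamma0Hom (N * q) (degTheta N q h γ) * degWElt N q h := by
  rw [gamma0Hom_degTheta, degThetaN_apply, degWElt, mul_assoc, degConj_rel, map_mul, map_mul,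
    map_inv]
  group

variable (N q)

/-- the coset data of `W_q` -/
def degWData [NeZero N] [NeZero q] (h : Nat.Coprime q N) :
    DegData (gamma0Hom (N * q)) (gamma0Hom (N * q)) Unit :=
  DegData.ofHom (degTheta N q h) (degWElt N q h) (degWElt_rel h)

/-- **the Atkin–Lehner involution** `W_q` on `Hom(Γ₀(Nq), A)` -/
def degW [NeZero N] [NeZero q] (h : Nat.Coprime q N) (A : Type*) [AddCommGroup A] :
    (Additive (Gamma0 (N * q)) →+ A) →+ (Additive (Gamma0 (N * q)) →+ A) :=
  (degWData N q h).op (gamma0Hom_injective (N * q)) A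

variable {N q}

theorem degW_eq_comp [NeZero N] [NeZero q] (h : Nat.Coprime q N) {A : Type*} [AddCommGroup A]
    (ψ : Additive (Gamma0 (N * q)) →+ A) :
    degW N q h A ψ = ψ.comp (MonoidHom.toAdditive (degTheta N q h)) :=
  DegData.ofHom_op _ _ _ (gamma0Hom_injective (N * q)) ψ

theorem degW_apply [NeZero N] [NeZero q] (h : Nat.Coprime q N) {A : Type*} [AddCommGroup A]
    (ψ : Additive (Gamma0 (N * q)) →+ A) (γ : Gamma0 (N * q)) :
    degW N q h A ψ (Additive.ofMul γ) = ψ (Additive.ofMul (degTheta N q h γ)) := by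
  rw [degW_eq_comp]
  rfl

theorem degW_comp [NeZero N] [NeZero q] (h : Nat.Coprime q N) {A B : Type*} [AddCommGroup A]
    [AddCommGroup B] (f : A →+ B) (ψ : Additive (Gamma0 (N * q)) →+ A) :
    degW N q h B (f.comp ψ) = f.comp (degW N q h A ψ) :=
  DegData.op_comp_hom _ _ f ψ

/-- homomorphisms to an abelian group are invariant under conjugation -/
theorem deg_map_conj_eq {Γ : Type*} [Group Γ] {A : Type*} [AddCommGroup A] (φ : Additive Γ →+ A)
    (ρ γ : Γ) : φ (Additive.ofMul (ρ * γ * ρ⁻¹)) = φ (Additive.ofMul γ) := by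
  rw [ofMul_mul, ofMul_mul, ofMul_inv, map_add, map_add, map_neg]
  abel

/-- **`W ∘ res = resq`** -/
theorem degW_degRes [NeZero N] [NeZero q] (h : Nat.Coprime q N) {A : Type*} [AddCommGroup A]
    (φ : Additive (Gamma0 N) →+ A) :
    degW N q h A (degRes N q A φ) = degResq N q A φ := by
  refine AddMonoidHom.ext fun γ => ?_
  obtain ⟨γ, rfl⟩ := Additive.ofMul.surjective γ
  rw [degW_apply, degRes_apply, degResq_apply, inclusion_degTheta, degThetaN_apply, deg_map_conj_eq]

/-! ### `W² = 1` -/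

variable (N q)

/-- the scalar matrix `q` -/
def degScalar : GL (Fin 2) ℝ := heckeDiagMatrix q * heckeMatrix q 0

/-- `γ₀ = w² / q ∈ Γ₀(Nq)` -/
def degGamma0 (h : Nat.Coprime q N) : Gamma0 (N * q) :=
  hltMk (N * q) (q - degBv N q * N) (-(degBv N q * (1 + degBu N q)))
    ((N * q : ℕ) * (1 + degBu N q)) (q * degBu N q ^ 2 - N * degBv N q)
    (by
      push_cast
      linear_combination ((q : ℤ) * degBu N q + N * degBv N q + 1) * deg_bezout h)
    (dvd_mul_right _ _)

variable {N q}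

theorem degScalar_val [NeZero q] :
    ((degScalar q : GL (Fin 2) ℝ) : Matrix (Fin 2) (Fin 2) ℝ) = !![(q : ℝ), 0; 0, (q : ℝ)] := by
  have hq : q ≠ 0 := NeZero.ne q
  rw [degScalar, Units.val_mul, val_heckeDiagMatrix hq, val_heckeMatrix hq]
  ext i k
  fin_cases i <;> fin_cases k <;>
    simp only [Matrix.mul_apply, Fin.sum_univ_two, Matrix.of_apply, Matrix.cons_val',
      Matrix.cons_val_zero, Matrix.cons_val_one, Matrix.cons_val_fin_one, Fin.zero_eta,
      Fin.mk_one, Fin.isValue] <;>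
    push_cast <;> ring

theorem degScalar_comm [NeZero q] (g : GL (Fin 2) ℝ) : degScalar q * g = g * degScalar q := by
  apply Units.ext
  rw [Units.val_mul, Units.val_mul, degScalar_val]
  ext i k
  fin_cases i <;> fin_cases k <;>
    simp only [Matrix.mul_apply, Fin.sum_univ_two, Matrix.of_apply, Matrix.cons_val',
      Matrix.cons_val_zero, Matrix.cons_val_one, Matrix.cons_val_fin_one, Fin.zero_eta,
      Fin.mk_one, Fin.isValue] <;>
    ring

/-- `w² = q · γ₀` -/
theorem degWElt_sq [NeZero N] [NeZero q] (h : Nat.Coprime q N) :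
    degWElt N q h * degWElt N q h = degScalar q * gamma0Hom (N * q) (degGamma0 N q h) := by
  have hq : q ≠ 0 := NeZero.ne q
  apply Units.ext
  rw [Units.val_mul, Units.val_mul, degScalar_val, degWElt, Units.val_mul, gamma0Hom_apply,
    gamma0Hom_apply, val_heckeDiagMatrix hq]
  ext i k
  fin_cases i <;> fin_cases k <;>
    simp only [Matrix.mul_apply, Fin.sum_univ_two, mapGL_apply, degRho, degGamma0, hltMk_00,
      hltMk_01, hltMk_10, hltMk_11, Matrix.of_apply, Matrix.cons_val', Matrix.cons_val_zero,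
      Matrix.cons_val_one, Matrix.cons_val_fin_one, Fin.zero_eta, Fin.mk_one, Fin.isValue] <;>
    push_cast <;> ring

/-- `θ ∘ θ` is the inner automorphism of `γ₀` -/
theorem degTheta_degTheta [NeZero N] [NeZero q] (h : Nat.Coprime q N) (γ : Gamma0 (N * q)) :
    degTheta N q h (degTheta N q h γ) = degGamma0 N q h * γ * (degGamma0 N q h)⁻¹ := by
  apply gamma0Hom_injective (N * q)
  have h1 : degWElt N q h * degWElt N q h * gamma0Hom (N * q) γ
      = gamma0Hom (N * q) (degTheta N q h (degTheta N q h γ))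
        * (degWElt N q h * degWElt N q h) := by
    rw [mul_assoc, degWElt_rel, ← mul_assoc, degWElt_rel, mul_assoc]
  have h2 : degScalar q * (gamma0Hom (N * q) (degGamma0 N q h) * gamma0Hom (N * q) γ)
      = degScalar q * (gamma0Hom (N * q) (degTheta N q h (degTheta N q h γ))
          * gamma0Hom (N * q) (degGamma0 N q h)) := by
    calc degScalar q * (gamma0Hom (N * q) (degGamma0 N q h) * gamma0Hom (N * q) γ)
        = degWElt N q h * degWElt N q h * gamma0Hom (N * q) γ := by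
          rw [degWElt_sq, mul_assoc]
      _ = gamma0Hom (N * q) (degTheta N q h (degTheta N q h γ))
            * (degWElt N q h * degWElt N q h) := h1
      _ = gamma0Hom (N * q) (degTheta N q h (degTheta N q h γ))
            * (degScalar q * gamma0Hom (N * q) (degGamma0 N q h)) := by rw [degWElt_sq]
      _ = degScalar q * (gamma0Hom (N * q) (degTheta N q h (degTheta N q h γ))
            * gamma0Hom (N * q) (degGamma0 N q h)) := by
          rw [← mul_assoc, ← degScalar_comm, mul_assoc]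
  have h3 := mul_left_cancel h2
  rw [map_mul, map_mul, map_inv, h3, mul_inv_cancel_right]

/-- **`W ∘ W = 1`** -/
theorem degW_degW [NeZero N] [NeZero q] (h : Nat.Coprime q N) {A : Type*} [AddCommGroup A]
    (ψ : Additive (Gamma0 (N * q)) →+ A) : degW N q h A (degW N q h A ψ) = ψ := by
  refine AddMonoidHom.ext fun γ => ?_
  obtain ⟨γ, rfl⟩ := Additive.ofMul.surjective γ
  rw [degW_apply, degW_apply, degTheta_degTheta, deg_map_conj_eq]

theorem degTheta_surjective [NeZero N] [NeZero q] (h : Nat.Coprime q N) :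
    Function.Surjective (degTheta N q h) := by
  intro b
  refine ⟨degTheta N q h ((degGamma0 N q h)⁻¹ * b * degGamma0 N q h), ?_⟩
  rw [degTheta_degTheta]
  group

theorem degTheta_injective [NeZero N] [NeZero q] (h : Nat.Coprime q N) :
    Function.Injective (degTheta N q h) := by
  intro a b hab
  have h1 := congrArg (degTheta N q h) hab
  rw [degTheta_degTheta, degTheta_degTheta] at h1
  exact mul_left_cancel (mul_right_cancel h1)

/-! ### the adjoint of `resq` -/

variable (N q)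

open Classical in
/-- `coresq := cores ∘ W`, the adjoint of `resq = W ∘ res` (`0` if `q`, `N` are not coprime) -/
def degCoresq [NeZero N] [NeZero q] (A : Type*) [AddCommGroup A] :
    (Additive (Gamma0 (N * q)) →+ A) →+ (Additive (Gamma0 N) →+ A) :=
  if h : Nat.Coprime q N then (degCores N q A).comp (degW N q h A) else 0

variable {N q}

theorem degCoresq_apply [NeZero N] [NeZero q] (h : Nat.Coprime q N) {A : Type*}
    [AddCommGroup A] (ψ : Additive (Gamma0 (N * q)) →+ A) :
    degCoresq N q A ψ = degCores N q A (degW N q h A ψ) := by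
  rw [degCoresq, dif_pos h]
  rfl

theorem degCoresq_comp [NeZero N] [NeZero q] (h : Nat.Coprime q N) {A B : Type*}
    [AddCommGroup A] [AddCommGroup B] (f : A →+ B) (ψ : Additive (Gamma0 (N * q)) →+ A) :
    degCoresq N q B (f.comp ψ) = f.comp (degCoresq N q A ψ) := by
  rw [degCoresq_apply h, degW_comp, degCores_comp, degCoresq_apply h]

/-- `coresq ∘ W = cores` -/
theorem degCoresq_degW [NeZero N] [NeZero q] (h : Nat.Coprime q N) {A : Type*}
    [AddCommGroup A] (ψ : Additive (Gamma0 (N * q)) →+ A) :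
    degCoresq N q A (degW N q h A ψ) = degCores N q A ψ := by
  rw [degCoresq_apply h, degW_degW]

/-- `cores ∘ W = coresq` -/
theorem degCores_degW [NeZero N] [NeZero q] (h : Nat.Coprime q N) {A : Type*}
    [AddCommGroup A] (ψ : Additive (Gamma0 (N * q)) →+ A) :
    degCores N q A (degW N q h A ψ) = degCoresq N q A ψ :=
  (degCoresq_apply h ψ).symm

/-- **`coresq ∘ resq = q + 1`** -/
theorem degCoresq_degResq [NeZero N] [NeZero q] (hq : q.Prime) (hqN : ¬ q ∣ N)
    {A : Type*} [AddCommGroup A] (φ : Additive (Gamma0 N) →+ A) :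
    degCoresq N q A (degResq N q A φ) = (q + 1) • φ := by
  have h : Nat.Coprime q N := (Nat.Prime.coprime_iff_not_dvd hq).mpr hqN
  rw [← degW_degRes h, degCoresq_degW h]
  exact degCores_degRes hq hqN φ

/-- **`coresq ∘ res = T_q`** -/
theorem degCoresq_degRes [NeZero N] (q : Nat.Primes) (hqN : ¬ (q : ℕ) ∣ N)
    {A : Type*} [AddCommGroup A] (φ : Additive (Gamma0 N) →+ A) :
    haveI : NeZero (q : ℕ) := ⟨q.2.ne_zero⟩
    degCoresq N q A (degRes N q A φ) = heckeHom N q A φ := by
  have : NeZero (q : ℕ) := ⟨q.2.ne_zero⟩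
  have h : Nat.Coprime q N := (Nat.Prime.coprime_iff_not_dvd q.2).mpr hqN
  rw [degCoresq_apply h, degW_degRes]
  exact degCores_degResq q hqN φ

end

end Fermat.Agent.S41lib
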