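import Mathlib
import Fermat.Agent.S41lib.DegW

/-!
# Item 78 (S41), block DEG, part (U): `U_q + W_q = res ∘ cores ∘ W_q`, `U_q² = 1` on the new part

`q` prime, `q ∤ N`.  The cosets of `U_q` on level `Nq` are `Γ₀(Nq) (1 j; 0 q) = Γ₀(Nq) w ρ_j` with
`ρ_j = [[u, u j + v],[-N, q - N j]] ∈ Γ₀(N)`; together with `Γ₀(Nq) w` these are the `q + 1` cosets
`Γ₀(Nq) w ρ`, `ρ ∈ Γ₀(Nq) \ Γ₀(N)`.  Hence

* `degRes_degCores_degW : res (cores (W ψ)) = U_q ψ + W ψ`;
* on `ker cores ∩ ker coresq` : `U_q ψ = - W ψ`, `U_q (U_q ψ) = ψ`, and the kernel is stable under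
  `U_q` and `W`.
-/

set_option autoImplicit false

open CongruenceSubgroup Matrix.SpecialLinearGroup ModularForm
open Fermat.Agent.S22lib Fermat.Agent.GalRep
open P2MW.S_ModularForm_heckeT_slash_eq_self_of_mem_Gamma0.ModularForm.HeckeSlashInvariance
open scoped MatrixGroups

namespace Fermat.Agent.S41lib

noncomputable section

variable (N q : ℕ)

/-- `ρ_j = [[u, u j + v],[-N, q - N j]] ∈ Γ₀(N)` -/
def degRhoJ [NeZero N] (h : Nat.Coprime q N) (j : ℤ) : Gamma0 N :=
  hltMk N (degBu N q) (degBu N q * j + degBv N q) (-(N : ℤ)) (q - N * j)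
    (by linear_combination deg_bezout h) (dvd_neg.mpr dvd_rfl)

variable {N q}

/-- `(1 j; 0 q) = w · ρ_j` -/
theorem heckeMatrix_eq_degWElt_mul [NeZero N] [NeZero q] (h : Nat.Coprime q N) (j : ℕ) :
    heckeMatrix q j = degWElt N q h * gamma0Hom N (degRhoJ N q h j) := by
  have hq : q ≠ 0 := NeZero.ne q
  have hb : (q : ℝ) * (degBu N q : ℝ) + (N : ℝ) * (degBv N q : ℝ) = 1 := by
    exact_mod_cast deg_bezout h
  apply Units.ext
  rw [degWElt, Units.val_mul, Units.val_mul, val_heckeMatrix hq, val_heckeDiagMatrix hq,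
    gamma0Hom_apply, gamma0Hom_apply]
  ext i k
  fin_cases i <;> fin_cases k <;>
    simp only [Matrix.mul_apply, Fin.sum_univ_two, mapGL_apply, degRho, degRhoJ, hltMk_00,
      hltMk_01, hltMk_10, hltMk_11, Matrix.of_apply, Matrix.cons_val', Matrix.cons_val_zero,
      Matrix.cons_val_one, Matrix.cons_val_fin_one, Fin.zero_eta, Fin.mk_one, Fin.isValue] <;>
    push_cast
  · linear_combination -hb
  · linear_combination (-(j : ℝ)) * hb
  · ring
  · linear_combination (-(q : ℝ)) * hb

variable (N q)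

/-- the elements `g s ∈ Γ₀(N)` with `α s = w · g s` -/
def degNewG [NeZero N] [NeZero q] (h : Nat.Coprime q N) : ZMod q ⊕ Unit → Gamma0 N
  | Sum.inl j => degRhoJ N q h (j.val : ℕ)
  | Sum.inr _ => 1

/-- the coset data of `U_q + W_q` on level `Nq` -/
def degNewData [NeZero N] [NeZero q] (h : Nat.Coprime q N) :
    DegData (gamma0Hom (N * q)) (gamma0Hom (N * q)) (ZMod q ⊕ Unit) :=
  (degUData (N * q) (Dvd.intro_left N rfl)).sumData (degWData N q h)

/-- the coset data of `res ∘ cores ∘ W_q` -/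
def degNewData' [NeZero N] [NeZero q] (h : Nat.Coprime q N) :
    DegData (gamma0Hom (N * q)) (gamma0Hom (N * q)) (Unit × (DegIdx N q × Unit)) :=
  (degWData N q h).comp
    ((degCoresData N q).comp (degResData N q) (gamma0Hom_injective N))
    (gamma0Hom_injective (N * q))

variable {N q}

theorem degNewData_α [NeZero N] [NeZero q] (h : Nat.Coprime q N) (s : ZMod q ⊕ Unit) :
    (degNewData N q h).α s = degWElt N q h * gamma0Hom N (degNewG N q h s) := by
  cases s with
  | inl j => exact heckeMatrix_eq_degWElt_mul h j.val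
  | inr _ =>
    show degWElt N q h = degWElt N q h * gamma0Hom N 1
    rw [map_one, mul_one]

theorem degNewData'_α [NeZero N] [NeZero q] (h : Nat.Coprime q N)
    (p : Unit × (DegIdx N q × Unit)) :
    (degNewData' N q h).α p = degWElt N q h * gamma0Hom N (degRep N q p.2.1) := by
  show degWElt N q h * (gamma0Hom N (degRep N q p.2.1) * 1) = _
  rw [mul_one]

theorem degNewData_op [NeZero N] [NeZero q] (hq : q.Prime) (h : Nat.Coprime q N) {A : Type*}
    [AddCommGroup A] (ψ : Additive (Gamma0 (N * q)) →+ A) :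
    (degNewData N q h).op (gamma0Hom_injective (N * q)) A ψ
      = heckeHom (N * q) ⟨q, hq⟩ A ψ + degW N q h A ψ := by
  rw [degNewData, DegData.sumData_op,
    heckeHom_of_dvd (N := N * q) (ℓ := ⟨q, hq⟩) (Dvd.intro_left N rfl)]
  rfl

theorem degNewData'_op [NeZero N] [NeZero q] (h : Nat.Coprime q N) {A : Type*}
    [AddCommGroup A] (ψ : Additive (Gamma0 (N * q)) →+ A) :
    (degNewData' N q h).op (gamma0Hom_injective (N * q)) A ψ
      = degRes N q A (degCores N q A (degW N q h A ψ)) := by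
  rw [degNewData', DegData.op_comp, DegData.op_comp]
  rfl

/-- the cosets of `U_q + W_q` are pairwise distinct -/
theorem degNewData_uniq [NeZero N] [NeZero q] (hq : q.Prime) (h : Nat.Coprime q N)
    (a b : Gamma0 (N * q)) (s t : ZMod q ⊕ Unit)
    (hab : gamma0Hom (N * q) a * (degNewData N q h).α s
      = gamma0Hom (N * q) b * (degNewData N q h).α t) : s = t := by
  have : Fact q.Prime := ⟨hq⟩
  -- every representative is `mapGL c · heckeRep y`
  let y : ZMod q ⊕ Unit → OnePoint (ZMod q) :=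
    Sum.elim (fun j : ZMod q => ((j : ZMod q) : OnePoint (ZMod q))) (fun _ => OnePoint.infty)
  let c : ZMod q ⊕ Unit → Gamma0 N :=
    Sum.elim (fun _ : ZMod q => (1 : Gamma0 N)) (fun _ => degRho N q h)
  have hα : ∀ s, (degNewData N q h).α s = gamma0Hom N (c s) * heckeRep q (y s) := by
    intro s
    cases s with
    | inl j =>
      show heckeMatrix q j.val = gamma0Hom N 1 * heckeRep q (j : OnePoint (ZMod q))
      rw [map_one, one_mul, heckeRep_coe]
    | inr _ => rfl
  have hy : y s = y t := by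
    rw [hα s, hα t, ← gamma0Hom_inclusion, ← gamma0Hom_inclusion, ← mul_assoc, ← mul_assoc,
      ← map_mul, ← map_mul] at hab
    exact hi_uniq_heckeRep _ _ _ (hi_move _ _ hab)
  cases s with
  | inl j =>
    cases t with
    | inl k =>
      have : (j : OnePoint (ZMod q)) = (k : OnePoint (ZMod q)) := hy
      rw [OnePoint.coe_eq_coe.mp this]
    | inr _ => exact absurd hy (OnePoint.coe_ne_infty j)
  | inr _ =>
    cases t with
    | inl k => exact absurd hy.symm (OnePoint.coe_ne_infty k)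
    | inr _ => rfl

/-- the cosets of `res ∘ cores ∘ W_q` are pairwise distinct -/
theorem degNewData'_uniq [NeZero N] [NeZero q] (h : Nat.Coprime q N)
    (a b : Gamma0 (N * q)) (y z : Unit × (DegIdx N q × Unit))
    (hab : gamma0Hom (N * q) a * (degNewData' N q h).α y
      = gamma0Hom (N * q) b * (degNewData' N q h).α z) : y = z := by
  obtain ⟨a', rfl⟩ := degTheta_surjective h a
  obtain ⟨b', rfl⟩ := degTheta_surjective h b
  rw [degNewData'_α, degNewData'_α, ← mul_assoc, ← mul_assoc, ← degWElt_rel, ← degWElt_rel,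
    mul_assoc, mul_assoc] at hab
  have h1 := mul_left_cancel hab
  have h2 : y.2.1 = z.2.1 :=
    DegData.transfer_uniq (mapGL ℝ) (Gamma0 (N * q)) (Gamma0 N)
      (mapGL_injective (R := ℤ) (S := ℝ)) a' b' y.2.1 z.2.1 h1
  exact Prod.ext rfl (Prod.ext h2 rfl)

/-- **`res ∘ cores ∘ W_q = U_q + W_q`** -/
theorem degRes_degCores_degW [NeZero N] [NeZero q] (hq : q.Prime) (hqN : ¬ q ∣ N)
    (h : Nat.Coprime q N) {A : Type*} [AddCommGroup A] (ψ : Additive (Gamma0 (N * q)) →+ A) :
    degRes N q A (degCores N q A (degW N q h A ψ))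
      = heckeHom (N * q) ⟨q, hq⟩ A ψ + degW N q h A ψ := by
  classical
  rw [← degNewData_op hq h, ← degNewData'_op h]
  -- choose the decompositions `g s = incl (h_s) * rep (x_s)`
  choose x hh hx using fun s : ZMod q ⊕ Unit => exists_degRep (q := q) (degNewG N q h s)
  have hδ : ∀ s, (degNewData N q h).α s
      = gamma0Hom (N * q) (degTheta N q h (hh s)) * (degNewData' N q h).α ((), (x s, ())) := by
    intro s
    rw [degNewData_α, degNewData'_α, hx s, map_mul, gamma0Hom_inclusion, ← mul_assoc,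
      degWElt_rel, mul_assoc]
  have hτ : Function.Injective (fun s : ZMod q ⊕ Unit =>
      (((), (x s, ())) : Unit × (DegIdx N q × Unit))) :=
    DegData.injective_of_uniq (degNewData N q h) (degNewData' N q h) _ _ hδ
      (degNewData_uniq hq h)
  have hcard : Fintype.card (Unit × (DegIdx N q × Unit)) ≤ Fintype.card (ZMod q ⊕ Unit) := by
    have h1 := card_degIdx N q hq hqN
    rw [Fintype.card_prod, Fintype.card_prod, Fintype.card_unit, Fintype.card_sum,
      Fintype.card_unit, ZMod.card, one_mul, mul_one]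
    exact le_of_eq (by convert h1 using 2)
  exact (DegData.op_eq_of_injective (degNewData N q h) (degNewData' N q h)
    (gamma0Hom_injective (N * q)) _ hτ hcard _ hδ (degNewData'_uniq h) ψ).symm

/-! ### the `q`-new part `ker cores ∩ ker coresq` -/

/-- on `ker coresq`: `U_q ψ = - W ψ` -/
theorem heckeHom_eq_neg_degW [NeZero N] [NeZero q] (hq : q.Prime) (hqN : ¬ q ∣ N)
    (h : Nat.Coprime q N) {A : Type*} [AddCommGroup A] (ψ : Additive (Gamma0 (N * q)) →+ A)
    (hψ : degCoresq N q A ψ = 0) :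
    heckeHom (N * q) ⟨q, hq⟩ A ψ = - degW N q h A ψ := by
  have h1 := degRes_degCores_degW hq hqN h ψ
  rw [degCores_degW h, hψ, map_zero] at h1
  exact eq_neg_of_add_eq_zero_left h1.symm

/-- `W` exchanges `ker cores` and `ker coresq` -/
theorem degCores_degW_eq_zero [NeZero N] [NeZero q] (h : Nat.Coprime q N) {A : Type*}
    [AddCommGroup A] (ψ : Additive (Gamma0 (N * q)) →+ A) (hψ : degCoresq N q A ψ = 0) :
    degCores N q A (degW N q h A ψ) = 0 := by
  rw [degCores_degW h, hψ]

theorem degCoresq_degW_eq_zero [NeZero N] [NeZero q] (h : Nat.Coprime q N) {A : Type*}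
    [AddCommGroup A] (ψ : Additive (Gamma0 (N * q)) →+ A) (hψ : degCores N q A ψ = 0) :
    degCoresq N q A (degW N q h A ψ) = 0 := by
  rw [degCoresq_degW h, hψ]

/-- **the `q`-new part is stable under `U_q`** (first component) -/
theorem degCores_heckeHom_self [NeZero N] [NeZero q] (hq : q.Prime) (hqN : ¬ q ∣ N)
    {A : Type*} [AddCommGroup A] (ψ : Additive (Gamma0 (N * q)) →+ A)
    (hψ : degCoresq N q A ψ = 0) :
    degCores N q A (heckeHom (N * q) ⟨q, hq⟩ A ψ) = 0 := by
  have h : Nat.Coprime q N := (Nat.Prime.coprime_iff_not_dvd hq).mpr hqN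
  rw [heckeHom_eq_neg_degW hq hqN h ψ hψ, map_neg, degCores_degW_eq_zero h ψ hψ, neg_zero]

/-- **the `q`-new part is stable under `U_q`** (second component) -/
theorem degCoresq_heckeHom_self [NeZero N] [NeZero q] (hq : q.Prime) (hqN : ¬ q ∣ N)
    {A : Type*} [AddCommGroup A] (ψ : Additive (Gamma0 (N * q)) →+ A)
    (hψ₁ : degCores N q A ψ = 0) (hψ₂ : degCoresq N q A ψ = 0) :
    degCoresq N q A (heckeHom (N * q) ⟨q, hq⟩ A ψ) = 0 := by
  have h : Nat.Coprime q N := (Nat.Prime.coprime_iff_not_dvd hq).mpr hqN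
  rw [heckeHom_eq_neg_degW hq hqN h ψ hψ₂, map_neg, degCoresq_degW_eq_zero h ψ hψ₁, neg_zero]

/-- **`U_q² = 1` on the `q`-new part** -/
theorem heckeHom_self_sq [NeZero N] [NeZero q] (hq : q.Prime) (hqN : ¬ q ∣ N)
    {A : Type*} [AddCommGroup A] (ψ : Additive (Gamma0 (N * q)) →+ A)
    (hψ₁ : degCores N q A ψ = 0) (hψ₂ : degCoresq N q A ψ = 0) :
    heckeHom (N * q) ⟨q, hq⟩ A (heckeHom (N * q) ⟨q, hq⟩ A ψ) = ψ := by
  have h : Nat.Coprime q N := (Nat.Prime.coprime_iff_not_dvd hq).mpr hqN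
  rw [heckeHom_eq_neg_degW hq hqN h ψ hψ₂, map_neg,
    heckeHom_eq_neg_degW hq hqN h _ (degCoresq_degW_eq_zero h ψ hψ₁), degW_degW, neg_neg]

end

end Fermat.Agent.S41lib
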