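import Mathlib
import Fermat.Agent.S41lib.DegNew

/-!
# Item 78 (S41), block DEG, part (P): all operators of coset data preserve parabolic
homomorphisms, for EVERY coefficient group `A` (no torsion-freeness)

* `deg_sum_eq_zero_of_orbits` : a sum over a finite set vanishes if all orbit sums of a
  permutation vanish;
* `DegData.op_apply_eq_zero_gen` : the operator kills `γ` as soon as `φ` kills all
  `γ' (γ ^ m) x` with `x` fixed by `σ (γ ^ m)`;
* `degData_isParabolicHom` : operators of coset data between `Γ₀(M₁)` and `Γ₀(M₂)` preserve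
  `IsParabolicHom`;
* `degRes_isParabolicHom`, `degResq_isParabolicHom`, `degCores_isParabolicHom`,
  `degW_isParabolicHom`, `degCoresq_isParabolicHom`, `heckeHom_isParabolicHom_gen`.
-/

set_option autoImplicit false

open CongruenceSubgroup Matrix.SpecialLinearGroup ModularForm ModularCurve.Period
open Fermat.Agent.S22lib Fermat.Agent.GalRep
open P2MW.S_ModularForm_heckeT_slash_eq_self_of_mem_Gamma0.ModularForm.HeckeSlashInvariance
open scoped MatrixGroups

namespace Fermat.Agent.S41lib

/-- a sum over a finite set vanishes if all orbit sums of a permutation vanish -/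
theorem deg_sum_eq_zero_of_orbits {X : Type*} [Fintype X] {A : Type*} [AddCommGroup A]
    (σ : Equiv.Perm X) (f : X → A)
    (h : ∀ (m : ℕ) (x : X), (σ ^ m) x = x → ∑ i ∈ Finset.range m, f ((σ ^ i) x) = 0) :
    ∑ x, f x = 0 := by
  classical
  have key : ∀ (n : ℕ) (S : Finset X), S.card = n → (∀ x ∈ S, σ x ∈ S) →
      ∑ x ∈ S, f x = 0 := by
    intro n
    induction n using Nat.strong_induction_on with
    | _ n ih =>
      intro S hS hσ
      rcases S.eq_empty_or_nonempty with rfl | ⟨x₀, hx₀⟩
      · simp
      · set m := Function.minimalPeriod σ x₀ with hm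
        have hper : (σ ^ m) x₀ = x₀ := by
          have := Function.isPeriodicPt_minimalPeriod σ x₀
          rw [← Equiv.Perm.iterate_eq_pow]
          exact this
        have hmpos : 0 < m := by
          have h1 : Function.IsPeriodicPt σ (orderOf σ) x₀ := by
            show σ^[orderOf σ] x₀ = x₀
            rw [Equiv.Perm.iterate_eq_pow, pow_orderOf_eq_one, Equiv.Perm.one_apply]
          exact h1.minimalPeriod_pos (orderOf_pos σ)
        set O := (Finset.range m).image (fun i => (σ ^ i) x₀) with hO
        have hpowS : ∀ i : ℕ, (σ ^ i) x₀ ∈ S := by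
          intro i
          induction i with
          | zero => simpa using hx₀
          | succ k ihk =>
            rw [pow_succ', Equiv.Perm.mul_apply]
            exact hσ _ ihk
        have hOS : O ⊆ S := by
          intro y hy
          obtain ⟨i, -, rfl⟩ := Finset.mem_image.mp hy
          exact hpowS i
        have hinj : Set.InjOn (fun i => (σ ^ i) x₀) (Finset.range m : Set ℕ) := by
          intro i hi j hj hij
          have hi' : i ∈ Set.Iio (Function.minimalPeriod σ x₀) := by
            simpa using hi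
          have hj' : j ∈ Set.Iio (Function.minimalPeriod σ x₀) := by
            simpa using hj
          exact Function.iterate_injOn_Iio_minimalPeriod hi' hj' hij
        have hsumO : ∑ x ∈ O, f x = 0 := by
          rw [hO, Finset.sum_image hinj]
          exact h m x₀ hper
        have hx₀O : x₀ ∈ O := by
          refine Finset.mem_image.mpr ⟨0, Finset.mem_range.mpr hmpos, ?_⟩
          simp
        have hinv : ∀ x ∈ S \ O, σ x ∈ S \ O := by
          intro x hx
          obtain ⟨hxS, hxO⟩ := Finset.mem_sdiff.mp hx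
          refine Finset.mem_sdiff.mpr ⟨hσ x hxS, fun hσO => hxO ?_⟩
          obtain ⟨i, hi, hix⟩ := Finset.mem_image.mp hσO
          have hi' : i < m := Finset.mem_range.mp hi
          rcases Nat.eq_zero_or_pos i with rfl | hipos
          · -- `σ x = x₀ = σ^m x₀`
            refine Finset.mem_image.mpr ⟨m - 1, Finset.mem_range.mpr (by omega), ?_⟩
            apply σ.injective
            show σ ((σ ^ (m - 1)) x₀) = σ x
            rw [← Equiv.Perm.mul_apply, ← pow_succ', Nat.sub_add_cancel hmpos, hper, ← hix]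
            simp
          · refine Finset.mem_image.mpr ⟨i - 1, Finset.mem_range.mpr (by omega), ?_⟩
            apply σ.injective
            show σ ((σ ^ (i - 1)) x₀) = σ x
            rw [← Equiv.Perm.mul_apply, ← pow_succ', Nat.sub_add_cancel hipos]
            exact hix
        have hcard : (S \ O).card < n := by
          rw [← hS]
          exact Finset.card_lt_card (Finset.sdiff_ssubset hOS ⟨x₀, hx₀O⟩)
        rw [← Finset.sum_sdiff hOS, hsumO, add_zero]
        exact ih _ hcard (S \ O) rfl hinv
  exact key _ Finset.univ rfl (fun x _ => Finset.mem_univ _)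

namespace DegData

variable {G Γ₁ Γ₂ : Type} [Group G] [Group Γ₁] [Group Γ₂] {ι₁ : Γ₁ →* G}
  {ι₂ : Γ₂ →* G} {X : Type}

/-- the cocycle relation for powers -/
theorem γ'_pow_sum (D : DegData ι₁ ι₂ X) (hι : Function.Injective ι₁) {A : Type*}
    [AddCommGroup A] (φ : Additive Γ₁ →+ A) (γ : Γ₂) (m : ℕ) (x : X) :
    φ (Additive.ofMul (D.γ' (γ ^ m) x))
      = ∑ i ∈ Finset.range m, φ (Additive.ofMul (D.γ' γ ((D.σ γ ^ i) x))) := by
  induction m with
  | zero =>
    rw [pow_zero, D.γ'_one hι, Finset.range_zero, Finset.sum_empty]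
    exact map_zero φ
  | succ k ih =>
    rw [pow_succ, D.γ'_mul hι, ofMul_mul, map_add, ih, Finset.sum_range_succ, D.σ_pow]

/-- the operator kills `γ` as soon as `φ` kills all `γ' (γ ^ m) x` with `x` fixed by
`σ (γ ^ m)` (any coefficient group). -/
theorem op_apply_eq_zero_gen [Fintype X] (D : DegData ι₁ ι₂ X) (hι : Function.Injective ι₁)
    {A : Type*} [AddCommGroup A] (φ : Additive Γ₁ →+ A) (γ : Γ₂)
    (hφ : ∀ (m : ℕ) (x : X), D.σ (γ ^ m) x = x → φ (Additive.ofMul (D.γ' (γ ^ m) x)) = 0) :
    D.op hι A φ (Additive.ofMul γ) = 0 := by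
  rw [op_apply]
  refine deg_sum_eq_zero_of_orbits (D.σ γ) _ fun m x hx => ?_
  rw [← D.γ'_pow_sum hι φ γ m x]
  refine hφ m x ?_
  rw [D.σ_pow]
  exact hx

end DegData

/-- **operators of coset data between `Γ₀(M₁)` and `Γ₀(M₂)` preserve parabolic homomorphisms**
(any coefficient group). -/
theorem degData_isParabolicHom {M₁ M₂ : ℕ} {X : Type} [Fintype X]
    (D : DegData (gamma0Hom M₁) (gamma0Hom M₂) X) {A : Type*} [AddCommGroup A]
    {φ : Additive (Gamma0 M₁) →+ A} (hφ : IsParabolicHom (Gamma0 M₁) φ) :
    IsParabolicHom (Gamma0 M₂) (D.op (gamma0Hom_injective M₁) A φ) := by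
  intro γ hγ
  refine DegData.op_apply_eq_zero_gen D (gamma0Hom_injective M₁) φ γ fun m x hx => hφ _ ?_
  have h := D.rel (γ ^ m) x
  rw [hx, gamma0Hom_apply, gamma0Hom_apply] at h
  rw [hl_trace_eq_of_conj _ _ _ h, Subgroup.coe_pow]
  exact hl_trace_pow_sq _ hγ m

variable {N q : ℕ}

theorem degRes_isParabolicHom {A : Type*} [AddCommGroup A]
    {φ : Additive (Gamma0 N) →+ A} (hφ : IsParabolicHom (Gamma0 N) φ) :
    IsParabolicHom (Gamma0 (N * q)) (degRes N q A φ) :=
  degData_isParabolicHom (degResData N q) hφ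

theorem degResq_isParabolicHom [NeZero q] {A : Type*} [AddCommGroup A]
    {φ : Additive (Gamma0 N) →+ A} (hφ : IsParabolicHom (Gamma0 N) φ) :
    IsParabolicHom (Gamma0 (N * q)) (degResq N q A φ) :=
  degData_isParabolicHom (degResqData N q) hφ

theorem degCores_isParabolicHom [NeZero N] [NeZero q] {A : Type*} [AddCommGroup A]
    {ψ : Additive (Gamma0 (N * q)) →+ A} (hψ : IsParabolicHom (Gamma0 (N * q)) ψ) :
    IsParabolicHom (Gamma0 N) (degCores N q A ψ) :=
  degData_isParabolicHom (degCoresData N q) hψ

theorem degW_isParabolicHom [NeZero N] [NeZero q] (h : Nat.Coprime q N) {A : Type*}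
    [AddCommGroup A] {ψ : Additive (Gamma0 (N * q)) →+ A}
    (hψ : IsParabolicHom (Gamma0 (N * q)) ψ) :
    IsParabolicHom (Gamma0 (N * q)) (degW N q h A ψ) :=
  degData_isParabolicHom (degWData N q h) hψ

theorem degCoresq_isParabolicHom [NeZero N] [NeZero q] {A : Type*} [AddCommGroup A]
    {ψ : Additive (Gamma0 (N * q)) →+ A} (hψ : IsParabolicHom (Gamma0 (N * q)) ψ) :
    IsParabolicHom (Gamma0 N) (degCoresq N q A ψ) := by
  by_cases h : Nat.Coprime q N
  · rw [degCoresq_apply h]
    exact degCores_isParabolicHom (degW_isParabolicHom h hψ)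
  · rw [degCoresq, dif_neg h]
    intro γ _
    rfl

/-- the Hecke operators preserve parabolic homomorphisms, for every coefficient group -/
theorem heckeHom_isParabolicHom_gen (M : ℕ) [NeZero M] (ℓ : Nat.Primes) {A : Type*}
    [AddCommGroup A] {φ : Additive (Gamma0 M) →+ A} (hφ : IsParabolicHom (Gamma0 M) φ) :
    IsParabolicHom (Gamma0 M) (heckeHom M ℓ A φ) := by
  by_cases h : (ℓ : ℕ) ∣ M
  · have : NeZero (ℓ : ℕ) := ⟨ℓ.2.ne_zero⟩
    rw [heckeHom_of_dvd h, ← degUData_op M h A]
    exact degData_isParabolicHom (degUData M h) hφ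
  · have : Fact (ℓ : ℕ).Prime := ⟨ℓ.2⟩
    rw [heckeHom_of_not_dvd h, ← degTData_op M h A]
    exact degData_isParabolicHom (degTData M h) hφ

end Fermat.Agent.S41lib
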