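/-
Item 78 (S41), block B (duality), piece B-PRIM (helper5): primitives on the cusps exist for
parabolic homomorphisms, the pairing `bForm3` does not depend on the primitives, is divisible by
`3`, and `hlPair` is bilinear and antisymmetric on parabolic homomorphisms.
Helper lemmas are prefixed `bprim_`.
-/
import Mathlib
import Fermat.Agent.S41lib.BDefs
import Fermat.Agent.S41lib.BCusp
import Fermat.Agent.S41lib.BSum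
import Fermat.Agent.S41lib.DegPar

set_option autoImplicit false

open CongruenceSubgroup Matrix.SpecialLinearGroup ModularCurve.Period ModularGroup
open scoped MatrixGroups

namespace Fermat.Agent.S41lib

noncomputable section

/-! ### the base triangle -/

theorem bprim_T_eq : (T : SL(2, ℤ)) = (S * T⁻¹)⁻¹ * S := by
  group

theorem bprim_bAct_inv {g : SL(2, ℤ)} {a b : OnePoint ℚ} (h : bAct g a = b) : bAct g⁻¹ b = a := by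
  rw [← h, ← bAct_mul, inv_mul_cancel, bAct_one]

theorem bprim_bAct_T_zero : bAct T ((0 : ℚ) : OnePoint ℚ) = ((1 : ℚ) : OnePoint ℚ) := by
  conv_lhs => rw [bprim_T_eq]
  rw [bAct_mul, bAct_S_zero]
  exact bprim_bAct_inv bAct_U_one

theorem bprim_U_infty (g : SL(2, ℤ)) :
    bAct (g * (S * T⁻¹)) OnePoint.infty = bAct g ((0 : ℚ) : OnePoint ℚ) := by
  rw [bAct_mul g (S * T⁻¹), bAct_U_infty]

theorem bprim_U_zero (g : SL(2, ℤ)) :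
    bAct (g * (S * T⁻¹)) ((0 : ℚ) : OnePoint ℚ) = bAct g ((1 : ℚ) : OnePoint ℚ) := by
  rw [bAct_mul g (S * T⁻¹), bAct_U_zero]

theorem bprim_U_one (g : SL(2, ℤ)) :
    bAct (g * (S * T⁻¹)) ((1 : ℚ) : OnePoint ℚ) = bAct g OnePoint.infty := by
  rw [bAct_mul g (S * T⁻¹), bAct_U_one]

theorem bprim_T_infty (g : SL(2, ℤ)) :
    bAct (g * T) OnePoint.infty = bAct g OnePoint.infty := by
  rw [bAct_mul g T, bAct_T_infty]

theorem bprim_T_zero (g : SL(2, ℤ)) :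
    bAct (g * T) ((0 : ℚ) : OnePoint ℚ) = bAct g ((1 : ℚ) : OnePoint ℚ) := by
  rw [bAct_mul g T, bprim_bAct_T_zero]

/-! ### algebra of `bOmega` -/

section Omega

variable {R : Type*} [CommRing R]

theorem bprim_bOmega_add_const (Φ Ψ : OnePoint ℚ → R) (s t : R) (a b c a' b' c' : OnePoint ℚ)
    (ha : Φ a' = Φ a + s) (hb : Φ b' = Φ b + s) (hc : Φ c' = Φ c + s)
    (ha' : Ψ a' = Ψ a + t) (hb' : Ψ b' = Ψ b + t) (hc' : Ψ c' = Ψ c + t) :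
    bOmega Φ Ψ a' b' c' = bOmega Φ Ψ a b c := by
  unfold bOmega
  rw [ha, hb, hc, ha', hb', hc']
  ring

theorem bprim_bOmega_rot (Φ Ψ : OnePoint ℚ → R) (a b c : OnePoint ℚ) :
    bOmega Φ Ψ b c a = bOmega Φ Ψ a b c := by
  unfold bOmega
  ring

theorem bprim_bOmega_swap (Φ Ψ : OnePoint ℚ → R) (a b c : OnePoint ℚ) :
    bOmega Ψ Φ a b c = - bOmega Φ Ψ a b c := by
  unfold bOmega
  ring

theorem bprim_bOmega_add_left (Φ Φ' Ψ : OnePoint ℚ → R) (a b c : OnePoint ℚ) :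
    bOmega (fun x => Φ x + Φ' x) Ψ a b c = bOmega Φ Ψ a b c + bOmega Φ' Ψ a b c := by
  unfold bOmega
  ring

theorem bprim_bOmega_smul_left (k : R) (Φ Ψ : OnePoint ℚ → R) (a b c : OnePoint ℚ) :
    bOmega (fun x => k * Φ x) Ψ a b c = k * bOmega Φ Ψ a b c := by
  unfold bOmega
  ring

theorem bprim_bOmega_eq_zero (Φ Ψ : OnePoint ℚ → R) (a b c : OnePoint ℚ)
    (h1 : Φ a = Φ b) (h2 : Φ b = Φ c) (h3 : Ψ a = Ψ b) (h4 : Ψ b = Ψ c) :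
    bOmega Φ Ψ a b c = 0 := by
  unfold bOmega
  rw [h1, h2, h3, h4]
  ring

end Omega

/-! ### invariance -/

theorem bTri_bOmega_invariant (Γ : Subgroup SL(2, ℤ)) {R : Type*} [CommRing R]
    {φ ψ : Additive Γ →+ R} {Φ Ψ : OnePoint ℚ → R} (hΦ : IsBPrim Γ φ Φ) (hΨ : IsBPrim Γ ψ Ψ)
    (γ : SL(2, ℤ)) (hγ : γ ∈ Γ) (g : SL(2, ℤ)) :
    bTri (bOmega Φ Ψ) (γ * g) = bTri (bOmega Φ Ψ) g := by
  unfold bTri
  rw [bAct_mul, bAct_mul, bAct_mul]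
  exact bprim_bOmega_add_const Φ Ψ _ _ _ _ _ _ _ _ (hΦ ⟨γ, hγ⟩ _) (hΦ ⟨γ, hγ⟩ _) (hΦ ⟨γ, hγ⟩ _)
    (hΨ ⟨γ, hγ⟩ _) (hΨ ⟨γ, hγ⟩ _) (hΨ ⟨γ, hγ⟩ _)

/-- `bTri Ω (g U) = bTri Ω g` for a cyclically invariant `Ω` -/
theorem bprim_bTri_mul_U {R : Type*} (Ω : OnePoint ℚ → OnePoint ℚ → OnePoint ℚ → R)
    (hrot : ∀ a b c, Ω b c a = Ω a b c) (g : SL(2, ℤ)) :
    bTri Ω (g * (S * T⁻¹)) = bTri Ω g := by
  unfold bTri
  rw [bprim_U_infty, bprim_U_zero, bprim_U_one]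
  exact hrot _ _ _

/-- boundaries pair to zero: `h` is `Γ`-invariant -/
theorem bSum_bOmega_invariant_left (Γ : Subgroup SL(2, ℤ)) [Γ.FiniteIndex] {R : Type*} [CommRing R]
    {ψ : Additive Γ →+ R} {Ψ : OnePoint ℚ → R} (hΨ : IsBPrim Γ ψ Ψ) (h : OnePoint ℚ → R)
    (hh : ∀ γ ∈ Γ, ∀ c, h (bAct γ c) = h c) : bSum Γ (bTri (bOmega h Ψ)) = 0 := by
  -- `v g = h(g∞)(Ψ(g0) - Ψ(g∞))`, `w g = v g - v (g T) = h(g∞)(Ψ(g0) - Ψ(g1))`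
  let v : SL(2, ℤ) → R := fun g =>
    h (bAct g OnePoint.infty) * (Ψ (bAct g ((0 : ℚ) : OnePoint ℚ)) - Ψ (bAct g OnePoint.infty))
  let w : SL(2, ℤ) → R := fun g => v g + - v (g * T)
  have hv : ∀ γ ∈ Γ, ∀ g, v (γ * g) = v g := by
    intro γ hγ g
    show h (bAct (γ * g) _) * (Ψ (bAct (γ * g) _) - Ψ (bAct (γ * g) _)) = _
    rw [bAct_mul, bAct_mul, hh γ hγ, hΨ ⟨γ, hγ⟩, hΨ ⟨γ, hγ⟩]
    show _ = h (bAct g OnePoint.infty) * (Ψ (bAct g ((0 : ℚ) : OnePoint ℚ)) -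
      Ψ (bAct g OnePoint.infty))
    ring
  have hvT : ∀ γ ∈ Γ, ∀ g, v (γ * g * T) = v (g * T) := by
    intro γ hγ g
    rw [mul_assoc]
    exact hv γ hγ (g * T)
  have hw : ∀ γ ∈ Γ, ∀ g, w (γ * g) = w g := by
    intro γ hγ g
    show v (γ * g) + - v (γ * g * T) = v g + - v (g * T)
    rw [hv γ hγ, hvT γ hγ]
  have hwval : ∀ g, w g = h (bAct g OnePoint.infty) *
      (Ψ (bAct g ((0 : ℚ) : OnePoint ℚ)) - Ψ (bAct g ((1 : ℚ) : OnePoint ℚ))) := by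
    intro g
    show h (bAct g OnePoint.infty) * (Ψ (bAct g ((0 : ℚ) : OnePoint ℚ)) -
        Ψ (bAct g OnePoint.infty)) +
      - (h (bAct (g * T) OnePoint.infty) * (Ψ (bAct (g * T) ((0 : ℚ) : OnePoint ℚ)) -
        Ψ (bAct (g * T) OnePoint.infty))) = _
    rw [bprim_T_infty, bprim_T_zero]
    ring
  have hsumw : bSum Γ w = 0 := by
    show bSum Γ (fun g => v g + - v (g * T)) = 0
    rw [bSum_add Γ v (fun g => - v (g * T)), bSum_neg Γ (fun g => v (g * T)),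
      bSum_mul_right Γ v hv T, add_neg_cancel]
  have hdecomp : bTri (bOmega h Ψ) = fun g =>
      w g + (w (g * (S * T⁻¹)) + w (g * (S * T⁻¹) * (S * T⁻¹))) := by
    funext g
    rw [hwval, hwval, hwval]
    unfold bTri bOmega
    simp only [bprim_U_infty, bprim_U_zero, bprim_U_one]
    ring
  have hwU : ∀ γ ∈ Γ, ∀ g, w (γ * g * (S * T⁻¹)) = w (g * (S * T⁻¹)) := by
    intro γ hγ g
    rw [mul_assoc]
    exact hw γ hγ _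
  rw [hdecomp, bSum_add Γ w, bSum_add Γ (fun g => w (g * (S * T⁻¹))),
    bSum_mul_right Γ w hw (S * T⁻¹),
    bSum_mul_right Γ (fun g => w (g * (S * T⁻¹))) hwU (S * T⁻¹),
    bSum_mul_right Γ w hw (S * T⁻¹), hsumw, add_zero, add_zero]

/-! ### independence of the primitives -/

theorem bprim_bSum_congr_left (Γ : Subgroup SL(2, ℤ)) [Γ.FiniteIndex] {R : Type*} [CommRing R]
    {φ ψ : Additive Γ →+ R} {Φ Φ' Ψ : OnePoint ℚ → R} (hΦ : IsBPrim Γ φ Φ) (hΦ' : IsBPrim Γ φ Φ')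
    (hΨ : IsBPrim Γ ψ Ψ) :
    bSum Γ (bTri (bOmega Φ' Ψ)) = bSum Γ (bTri (bOmega Φ Ψ)) := by
  let h : OnePoint ℚ → R := fun c => Φ' c + - Φ c
  have hh : ∀ γ ∈ Γ, ∀ c, h (bAct γ c) = h c := by
    intro γ hγ c
    show Φ' (bAct γ c) + - Φ (bAct γ c) = Φ' c + - Φ c
    rw [hΦ ⟨γ, hγ⟩, hΦ' ⟨γ, hγ⟩]
    ring
  have hdec : bTri (bOmega Φ' Ψ) = fun g => bTri (bOmega Φ Ψ) g + bTri (bOmega h Ψ) g := by
    funext g
    unfold bTri bOmega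
    show _ = _ + ((Φ' _ + - Φ _) * _ - (Φ' _ + - Φ _) * _ + ((Φ' _ + - Φ _) * _ -
      (Φ' _ + - Φ _) * _) + ((Φ' _ + - Φ _) * _ - (Φ' _ + - Φ _) * _))
    ring
  rw [hdec, bSum_add Γ, bSum_bOmega_invariant_left Γ hΨ h hh, add_zero]

theorem bprim_bSum_swap (Γ : Subgroup SL(2, ℤ)) [Γ.FiniteIndex] {R : Type*} [CommRing R]
    (Φ Ψ : OnePoint ℚ → R) :
    bSum Γ (bTri (bOmega Ψ Φ)) = - bSum Γ (bTri (bOmega Φ Ψ)) := by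
  rw [← bSum_neg Γ]
  congr 1
  funext g
  exact bprim_bOmega_swap Φ Ψ _ _ _

theorem bprim_bSum_congr (Γ : Subgroup SL(2, ℤ)) [Γ.FiniteIndex] {R : Type*} [CommRing R]
    {φ ψ : Additive Γ →+ R} {Φ Φ' Ψ Ψ' : OnePoint ℚ → R} (hΦ : IsBPrim Γ φ Φ)
    (hΦ' : IsBPrim Γ φ Φ') (hΨ : IsBPrim Γ ψ Ψ) (hΨ' : IsBPrim Γ ψ Ψ') :
    bSum Γ (bTri (bOmega Φ' Ψ')) = bSum Γ (bTri (bOmega Φ Ψ)) := by
  have h1 := bprim_bSum_congr_left Γ hΦ hΦ' hΨ'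
  have h2 := bprim_bSum_congr_left Γ hΨ hΨ' hΦ
  rw [bprim_bSum_swap Γ Φ Ψ', bprim_bSum_swap Γ Φ Ψ, neg_inj] at h2
  rw [h1, h2]

/-- independence of the primitives -/
theorem bForm3_eq (Γ : Subgroup SL(2, ℤ)) [Γ.FiniteIndex] {φ ψ : Additive Γ →+ ℤ}
    {Φ Ψ : OnePoint ℚ → ℤ} (hΦ : IsBPrim Γ φ Φ) (hΨ : IsBPrim Γ ψ Ψ) :
    bForm3 Γ φ ψ = bSum Γ (bTri (bOmega Φ Ψ)) := by
  classical
  have h : (∃ Φ, IsBPrim Γ φ Φ) ∧ ∃ Ψ, IsBPrim Γ ψ Ψ := ⟨⟨Φ, hΦ⟩, ⟨Ψ, hΨ⟩⟩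
  unfold bForm3
  rw [dif_pos h]
  exact bprim_bSum_congr Γ hΦ h.1.choose_spec hΨ h.2.choose_spec

/-! ### divisibility by three -/

theorem bprim_U_pow_three : ((S * T⁻¹ : SL(2, ℤ))) ^ 3 = 1 := by
  apply Subtype.ext
  rw [pow_succ, pow_succ, pow_one]
  simp only [Matrix.SpecialLinearGroup.coe_mul, ModularGroup.coe_S, ModularGroup.coe_T_inv,
    Matrix.SpecialLinearGroup.coe_one]
  ext i j
  fin_cases i <;> fin_cases j <;> simp [Matrix.mul_apply, Fin.sum_univ_two]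

/-- the Farey triangle `g (∞, 0, 1)` is degenerate for `φ` if `g U g⁻¹ ∈ Γ` -/
theorem bprim_eq_of_conj_mem (Γ : Subgroup SL(2, ℤ)) {φ : Additive Γ →+ ℤ} {Φ : OnePoint ℚ → ℤ}
    (hΦ : IsBPrim Γ φ Φ) (g : SL(2, ℤ)) (hg : g * (S * T⁻¹) * g⁻¹ ∈ Γ) :
    Φ (bAct g OnePoint.infty) = Φ (bAct g ((0 : ℚ) : OnePoint ℚ)) ∧
      Φ (bAct g ((0 : ℚ) : OnePoint ℚ)) = Φ (bAct g ((1 : ℚ) : OnePoint ℚ)) := by
  have hmul : g * (S * T⁻¹) * g⁻¹ * g = g * (S * T⁻¹) := by group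
  have key : ∀ c, Φ (bAct (g * (S * T⁻¹)) c) =
      Φ (bAct g c) + φ (Additive.ofMul ⟨g * (S * T⁻¹) * g⁻¹, hg⟩) := by
    intro c
    have := hΦ ⟨g * (S * T⁻¹) * g⁻¹, hg⟩ (bAct g c)
    rw [← bAct_mul] at this
    simp only [hmul] at this
    exact this
  have h1 := key OnePoint.infty
  have h2 := key ((0 : ℚ) : OnePoint ℚ)
  have h3 := key ((1 : ℚ) : OnePoint ℚ)
  rw [bprim_U_infty] at h1
  rw [bprim_U_zero] at h2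
  rw [bprim_U_one] at h3
  constructor <;> omega

theorem bprim_bTri_eq_zero (Γ : Subgroup SL(2, ℤ)) {φ ψ : Additive Γ →+ ℤ}
    {Φ Ψ : OnePoint ℚ → ℤ} (hΦ : IsBPrim Γ φ Φ) (hΨ : IsBPrim Γ ψ Ψ) (g : SL(2, ℤ))
    (hg : g * (S * T⁻¹) * g⁻¹ ∈ Γ) : bTri (bOmega Φ Ψ) g = 0 := by
  obtain ⟨h1, h2⟩ := bprim_eq_of_conj_mem Γ hΦ g hg
  obtain ⟨h3, h4⟩ := bprim_eq_of_conj_mem Γ hΨ g hg
  exact bprim_bOmega_eq_zero Φ Ψ _ _ _ h1 h2 h3 h4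

theorem bprim_three_dvd (Γ : Subgroup SL(2, ℤ)) [Γ.FiniteIndex] {φ ψ : Additive Γ →+ ℤ}
    {Φ Ψ : OnePoint ℚ → ℤ} (hΦ : IsBPrim Γ φ Φ) (hΨ : IsBPrim Γ ψ Ψ) :
    (3 : ℤ) ∣ bSum Γ (bTri (bOmega Φ Ψ)) := by
  classical
  let _ : Fintype (SL(2, ℤ) ⧸ Γ) := Subgroup.fintypeQuotientOfFiniteIndex
  rw [bSum_eq_sum]
  set s : SL(2, ℤ) → ℤ := bTri (bOmega Φ Ψ) with hs
  have hsΓ : ∀ γ ∈ Γ, ∀ g, s (γ * g) = s g := fun γ hγ g =>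
    bTri_bOmega_invariant Γ hΦ hΨ γ hγ g
  have hsU : ∀ g, s (g * (S * T⁻¹)) = s g := fun g =>
    bprim_bTri_mul_U _ (bprim_bOmega_rot Φ Ψ) g
  have h3dvd : ∀ a : ℤ, ((a : ℤ) : ZMod 3) = 0 → (3 : ℤ) ∣ a := fun a ha =>
    (ZMod.intCast_zmod_eq_zero_iff_dvd a 3).1 ha
  apply h3dvd
  rw [Int.cast_sum]
  let τ : Equiv.Perm (SL(2, ℤ) ⧸ Γ) := MulAction.toPerm ((S * T⁻¹)⁻¹ : SL(2, ℤ))
  have hτ : ∀ x : SL(2, ℤ) ⧸ Γ, τ x = ((S * T⁻¹)⁻¹ : SL(2, ℤ)) • x := fun x => rfl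
  -- `f (τ x) = f x`
  have hfτ : ∀ x : SL(2, ℤ) ⧸ Γ, s ((τ x).out)⁻¹ = s (x.out)⁻¹ := by
    intro x
    have hx : τ x = QuotientGroup.mk ((S * T⁻¹)⁻¹ * x.out) := by
      rw [hτ]
      conv_lhs => rw [← QuotientGroup.out_eq' x]
      rfl
    obtain ⟨h, hh⟩ := QuotientGroup.mk_out_eq_mul Γ ((S * T⁻¹)⁻¹ * x.out)
    rw [hx, hh]
    have : ((S * T⁻¹)⁻¹ * x.out * (h : SL(2, ℤ)))⁻¹ =
        ((h⁻¹ : Γ) : SL(2, ℤ)) * ((x.out)⁻¹ * (S * T⁻¹)) := by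
      rw [Subgroup.coe_inv]
      group
    rw [this, hsΓ _ (h⁻¹).2, hsU]
  have hfτpow : ∀ (i : ℕ) (x : SL(2, ℤ) ⧸ Γ), s (((τ ^ i) x).out)⁻¹ = s (x.out)⁻¹ := by
    intro i
    induction i with
    | zero => intro x; rfl
    | succ i ih =>
      intro x
      rw [pow_succ', Equiv.Perm.mul_apply, hfτ, ih]
  have hU3 : ((S * T⁻¹)⁻¹ * (S * T⁻¹)⁻¹ * (S * T⁻¹)⁻¹ : SL(2, ℤ)) = 1 := by
    rw [← mul_inv_rev, ← mul_inv_rev, ← pow_three, bprim_U_pow_three, inv_one]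
  have hτ3' : ∀ x : SL(2, ℤ) ⧸ Γ, τ (τ (τ x)) = x := by
    intro x
    rw [hτ, hτ, hτ, smul_smul, smul_smul, hU3, one_smul]
  have hτ3 : τ ^ 3 = 1 := by
    ext x
    rw [pow_succ, pow_succ, pow_one, Equiv.Perm.mul_apply, Equiv.Perm.mul_apply]
    exact hτ3' x
  -- fixed points
  have hfix : ∀ x : SL(2, ℤ) ⧸ Γ, τ x = x → s (x.out)⁻¹ = 0 := by
    intro x hx
    apply bprim_bTri_eq_zero Γ hΦ hΨ
    have h1 : (QuotientGroup.mk ((S * T⁻¹)⁻¹ * x.out) : SL(2, ℤ) ⧸ Γ) = QuotientGroup.mk x.out := by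
      have : τ x = QuotientGroup.mk ((S * T⁻¹)⁻¹ * x.out) := by
        rw [hτ]
        conv_lhs => rw [← QuotientGroup.out_eq' x]
        rfl
      rw [← this, hx, QuotientGroup.out_eq']
    rw [QuotientGroup.eq] at h1
    have h2 : ((S * T⁻¹)⁻¹ * x.out)⁻¹ * x.out = (x.out)⁻¹ * (S * T⁻¹) * ((x.out)⁻¹)⁻¹ := by
      group
    rwa [h2] at h1
  apply deg_sum_eq_zero_of_orbits τ
  intro m x hx
  have hconst : ∀ i ∈ Finset.range m, ((s (((τ ^ i) x).out)⁻¹ : ℤ) : ZMod 3) =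
      ((s (x.out)⁻¹ : ℤ) : ZMod 3) := fun i _ => by rw [hfτpow]
  rw [Finset.sum_congr rfl hconst, Finset.sum_const, Finset.card_range]
  by_cases h3 : 3 ∣ m
  · obtain ⟨k, rfl⟩ := h3
    have : (3 : ℕ) • ((s (x.out)⁻¹ : ℤ) : ZMod 3) = 0 := by
      rw [nsmul_eq_mul]
      have : ((3 : ℕ) : ZMod 3) = 0 := by decide
      rw [this, zero_mul]
    rw [mul_nsmul, this, smul_zero]
  · have hfx : τ x = x := by
      have hpow : ∀ k r : ℕ, (τ ^ (3 * k + r)) x = (τ ^ r) x := by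
        intro k r
        rw [pow_add, pow_mul, hτ3, one_pow, one_mul]
      have hm : m = 3 * (m / 3) + 1 ∨ m = 3 * (m / 3) + 2 := by omega
      rcases hm with hm | hm
      · rw [hm, hpow, pow_one] at hx
        exact hx
      · rw [hm, hpow, pow_succ, pow_one, Equiv.Perm.mul_apply] at hx
        have h3' := hτ3' x
        rw [hx] at h3'
        exact h3'
    rw [hfix x hfx, Int.cast_zero, smul_zero]

theorem three_dvd_bForm3 (Γ : Subgroup SL(2, ℤ)) [Γ.FiniteIndex] (φ ψ : Additive Γ →+ ℤ) :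
    (3 : ℤ) ∣ bForm3 Γ φ ψ := by
  classical
  unfold bForm3
  split_ifs with h
  · exact bprim_three_dvd Γ h.1.choose_spec h.2.choose_spec
  · exact dvd_zero 3

/-! ### existence of primitives -/

theorem exists_isBPrim (Γ : Subgroup SL(2, ℤ)) {A : Type*} [AddCommGroup A]
    (φ : Additive Γ →+ A) (hφ : IsParabolicHom Γ φ) : ∃ Φ, IsBPrim Γ φ Φ := by
  classical
  -- the orbit relation of `Γ` on the cusps
  let st : Setoid (OnePoint ℚ) :=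
    { r := fun c c' => ∃ γ : Γ, bAct (γ : SL(2, ℤ)) c = c'
      iseqv :=
        { refl := fun c => ⟨1, by rw [Subgroup.coe_one, bAct_one]⟩
          symm := by
            rintro c c' ⟨γ, hγ⟩
            exact ⟨γ⁻¹, by rw [Subgroup.coe_inv]; exact bprim_bAct_inv hγ⟩
          trans := by
            rintro c c' c'' ⟨γ, hγ⟩ ⟨γ', hγ'⟩
            exact ⟨γ' * γ, by rw [Subgroup.coe_mul, bAct_mul, hγ, hγ']⟩ } }
  let rep : OnePoint ℚ → OnePoint ℚ := fun c => (Quotient.mk st c).out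
  have hrep : ∀ c, ∃ γ : Γ, bAct (γ : SL(2, ℤ)) (rep c) = c := fun c =>
    Quotient.exact (Quotient.out_eq (Quotient.mk st c))
  choose el hel using hrep
  have hrepeq : ∀ (γ : Γ) (c : OnePoint ℚ), rep (bAct (γ : SL(2, ℤ)) c) = rep c := by
    intro γ c
    show (Quotient.mk st (bAct (γ : SL(2, ℤ)) c)).out = (Quotient.mk st c).out
    have : Quotient.mk st (bAct (γ : SL(2, ℤ)) c) = Quotient.mk st c :=
      Quotient.sound (st.symm ⟨γ, rfl⟩)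
    rw [this]
  -- the stabiliser of a cusp is killed by `φ`
  have hstab : ∀ (γ : Γ) (c : OnePoint ℚ), bAct (γ : SL(2, ℤ)) c = c →
      φ (Additive.ofMul γ) = 0 := fun γ c h => hφ γ (bcusp_stab_trace _ c h)
  refine ⟨fun c => φ (Additive.ofMul (el c)), fun γ c => ?_⟩
  show φ (Additive.ofMul (el (bAct (γ : SL(2, ℤ)) c))) =
    φ (Additive.ofMul (el c)) + φ (Additive.ofMul γ)
  have h1 := hel (bAct (γ : SL(2, ℤ)) c)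
  rw [hrepeq] at h1
  have h2 := hel c
  -- `(γ * el c)⁻¹ * el (γ c)` stabilises `rep c`
  have h3 : bAct (((γ * el c)⁻¹ * el (bAct (γ : SL(2, ℤ)) c) : Γ) : SL(2, ℤ)) (rep c) = rep c := by
    rw [Subgroup.coe_mul, bAct_mul, h1, Subgroup.coe_inv]
    apply bprim_bAct_inv
    rw [Subgroup.coe_mul, bAct_mul, h2]
  have h4 := hstab _ _ h3
  have h5 : φ (Additive.ofMul ((γ * el c)⁻¹ * el (bAct (γ : SL(2, ℤ)) c))) =
      - (φ (Additive.ofMul γ) + φ (Additive.ofMul (el c))) +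
        φ (Additive.ofMul (el (bAct (γ : SL(2, ℤ)) c))) := by
    rw [ofMul_mul, map_add, ofMul_inv, map_neg, ofMul_mul, map_add]
  rw [h5] at h4
  have h6 : φ (Additive.ofMul (el (bAct (γ : SL(2, ℤ)) c))) =
      φ (Additive.ofMul γ) + φ (Additive.ofMul (el c)) := by
    rw [neg_add_eq_zero] at h4
    exact h4.symm
  rw [h6, add_comm]

/-! ### bilinearity and antisymmetry -/

theorem bprim_isBPrim_add (Γ : Subgroup SL(2, ℤ)) {φ₁ φ₂ : Additive Γ →+ ℤ}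
    {Φ₁ Φ₂ : OnePoint ℚ → ℤ} (h₁ : IsBPrim Γ φ₁ Φ₁) (h₂ : IsBPrim Γ φ₂ Φ₂) :
    IsBPrim Γ (φ₁ + φ₂) (fun c => Φ₁ c + Φ₂ c) := by
  intro γ c
  show Φ₁ _ + Φ₂ _ = Φ₁ c + Φ₂ c + (φ₁ _ + φ₂ _)
  rw [h₁ γ c, h₂ γ c]
  ring

theorem bprim_isBPrim_smul (Γ : Subgroup SL(2, ℤ)) {φ : Additive Γ →+ ℤ}
    {Φ : OnePoint ℚ → ℤ} (h : IsBPrim Γ φ Φ) (k : ℤ) :
    IsBPrim Γ (k • φ) (fun c => k * Φ c) := by
  intro γ c
  show k * Φ _ = k * Φ c + k • φ _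
  rw [h γ c, smul_eq_mul]
  ring

theorem bForm3_add_left (Γ : Subgroup SL(2, ℤ)) [Γ.FiniteIndex] {φ₁ φ₂ ψ : Additive Γ →+ ℤ}
    (h₁ : IsParabolicHom Γ φ₁) (h₂ : IsParabolicHom Γ φ₂) (hψ : IsParabolicHom Γ ψ) :
    bForm3 Γ (φ₁ + φ₂) ψ = bForm3 Γ φ₁ ψ + bForm3 Γ φ₂ ψ := by
  obtain ⟨Φ₁, hΦ₁⟩ := exists_isBPrim Γ φ₁ h₁
  obtain ⟨Φ₂, hΦ₂⟩ := exists_isBPrim Γ φ₂ h₂
  obtain ⟨Ψ, hΨ⟩ := exists_isBPrim Γ ψ hψ
  rw [bForm3_eq Γ (bprim_isBPrim_add Γ hΦ₁ hΦ₂) hΨ, bForm3_eq Γ hΦ₁ hΨ, bForm3_eq Γ hΦ₂ hΨ,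
    ← bSum_add Γ]
  congr 1
  funext g
  exact bprim_bOmega_add_left Φ₁ Φ₂ Ψ _ _ _

theorem bForm3_smul_left (Γ : Subgroup SL(2, ℤ)) [Γ.FiniteIndex] {φ ψ : Additive Γ →+ ℤ}
    (hφ : IsParabolicHom Γ φ) (hψ : IsParabolicHom Γ ψ) (k : ℤ) :
    bForm3 Γ (k • φ) ψ = k * bForm3 Γ φ ψ := by
  obtain ⟨Φ, hΦ⟩ := exists_isBPrim Γ φ hφ
  obtain ⟨Ψ, hΨ⟩ := exists_isBPrim Γ ψ hψ
  rw [bForm3_eq Γ (bprim_isBPrim_smul Γ hΦ k) hΨ, bForm3_eq Γ hΦ hΨ]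
  have := bSum_map Γ (AddMonoidHom.mulLeft k) (bTri (bOmega Φ Ψ))
  rw [AddMonoidHom.coe_mulLeft] at this
  rw [← this]
  congr 1
  funext g
  exact bprim_bOmega_smul_left k Φ Ψ _ _ _

theorem bForm3_antisymm (Γ : Subgroup SL(2, ℤ)) [Γ.FiniteIndex] {φ ψ : Additive Γ →+ ℤ}
    (hφ : IsParabolicHom Γ φ) (hψ : IsParabolicHom Γ ψ) :
    bForm3 Γ ψ φ = - bForm3 Γ φ ψ := by
  obtain ⟨Φ, hΦ⟩ := exists_isBPrim Γ φ hφ
  obtain ⟨Ψ, hΨ⟩ := exists_isBPrim Γ ψ hψ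
  rw [bForm3_eq Γ hΨ hΦ, bForm3_eq Γ hΦ hΨ]
  exact bprim_bSum_swap Γ Φ Ψ

theorem hlPair_add_left (N : ℕ) [NeZero N] {φ₁ φ₂ ψ : Additive (Gamma0 N) →+ ℤ}
    (h₁ : IsParabolicHom (Gamma0 N) φ₁) (h₂ : IsParabolicHom (Gamma0 N) φ₂)
    (hψ : IsParabolicHom (Gamma0 N) ψ) :
    hlPair N (φ₁ + φ₂) ψ = hlPair N φ₁ ψ + hlPair N φ₂ ψ := by
  unfold hlPair
  rw [bForm3_add_left (Gamma0 N) h₁ h₂ hψ]
  exact Int.add_ediv_of_dvd_left (three_dvd_bForm3 _ _ _)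

theorem hlPair_smul_left (N : ℕ) [NeZero N] {φ ψ : Additive (Gamma0 N) →+ ℤ}
    (hφ : IsParabolicHom (Gamma0 N) φ) (hψ : IsParabolicHom (Gamma0 N) ψ) (c : ℤ) :
    hlPair N (c • φ) ψ = c * hlPair N φ ψ := by
  unfold hlPair
  rw [bForm3_smul_left (Gamma0 N) hφ hψ]
  exact Int.mul_ediv_assoc c (three_dvd_bForm3 _ _ _)

theorem hlPair_antisymm (N : ℕ) [NeZero N] {φ ψ : Additive (Gamma0 N) →+ ℤ}
    (hφ : IsParabolicHom (Gamma0 N) φ) (hψ : IsParabolicHom (Gamma0 N) ψ) :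
    hlPair N ψ φ = - hlPair N φ ψ := by
  unfold hlPair
  rw [bForm3_antisymm (Gamma0 N) hφ hψ]
  exact Int.neg_ediv_of_dvd (three_dvd_bForm3 _ _ _)

end

end Fermat.Agent.S41lib
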