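import Mathlib
import Fermat.Agent.S41lib.BDefs

/-!
# Item 78 (S41), block B, piece B-SUM: sums over right cosets

`bSum Γ E = ∑ᶠ x : SL(2,ℤ) ⧸ Γ, E (x.out)⁻¹` for a left-`Γ`-invariant `E`.
-/

set_option autoImplicit false

open CongruenceSubgroup Matrix.SpecialLinearGroup
open scoped MatrixGroups

namespace Fermat.Agent.S41lib

theorem bSum_eq_sum (Γ : Subgroup SL(2, ℤ)) [Fintype (SL(2, ℤ) ⧸ Γ)] {R : Type*}
    [AddCommMonoid R] (E : SL(2, ℤ) → R) : bSum Γ E = ∑ x : SL(2, ℤ) ⧸ Γ, E (x.out)⁻¹ := by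
  unfold bSum
  exact finsum_eq_sum_of_fintype _

/-- a left-`Γ`-invariant function takes the same value on two inverse representatives of a left
coset -/
theorem bsum_apply_inv_eq (Γ : Subgroup SL(2, ℤ)) {R : Type*} (E : SL(2, ℤ) → R)
    (hE : ∀ γ ∈ Γ, ∀ g, E (γ * g) = E g) {a b : SL(2, ℤ)}
    (h : (QuotientGroup.mk a : SL(2, ℤ) ⧸ Γ) = QuotientGroup.mk b) : E a⁻¹ = E b⁻¹ := by
  have h1 : a⁻¹ * b ∈ Γ := QuotientGroup.eq.mp h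
  have h2 : E a⁻¹ = E ((a⁻¹ * b) * b⁻¹) := by
    rw [mul_assoc, mul_inv_cancel, mul_one]
  rw [h2, hE _ h1]

/-- independence of the representatives -/
theorem bSum_eq_sum_of_reps (Γ : Subgroup SL(2, ℤ)) [Fintype (SL(2, ℤ) ⧸ Γ)] {R : Type*}
    [AddCommMonoid R] (E : SL(2, ℤ) → R) (hE : ∀ γ ∈ Γ, ∀ g, E (γ * g) = E g)
    (r : SL(2, ℤ) ⧸ Γ → SL(2, ℤ)) (hr : ∀ x, (QuotientGroup.mk (r x)⁻¹ : SL(2, ℤ) ⧸ Γ) = x) :
    bSum Γ E = ∑ x : SL(2, ℤ) ⧸ Γ, E (r x) := by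
  rw [bSum_eq_sum]
  refine Finset.sum_congr rfl fun x _ => ?_
  have h1 : (QuotientGroup.mk x.out : SL(2, ℤ) ⧸ Γ) = QuotientGroup.mk (r x)⁻¹ := by
    rw [hr x]
    exact QuotientGroup.out_eq' x
  have := bsum_apply_inv_eq Γ E hE h1
  rw [inv_inv] at this
  exact this

/-- right translation invariance -/
theorem bSum_mul_right (Γ : Subgroup SL(2, ℤ)) [Γ.FiniteIndex] {R : Type*} [AddCommMonoid R]
    (E : SL(2, ℤ) → R) (hE : ∀ γ ∈ Γ, ∀ g, E (γ * g) = E g) (h : SL(2, ℤ)) :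
    bSum Γ (fun g => E (g * h)) = bSum Γ E := by
  classical
  haveI : Fintype (SL(2, ℤ) ⧸ Γ) := Fintype.ofFinite _
  rw [bSum_eq_sum Γ (fun g => E (g * h))]
  -- representatives `r y = ((h • y).out)⁻¹ * h`
  rw [bSum_eq_sum_of_reps Γ E hE (fun y => ((h • y).out)⁻¹ * h) (by
    intro y
    rw [mul_inv_rev, inv_inv]
    have h1 : (QuotientGroup.mk (h⁻¹ * (h • y).out) : SL(2, ℤ) ⧸ Γ)
        = h⁻¹ • (QuotientGroup.mk ((h • y).out) : SL(2, ℤ) ⧸ Γ) := rfl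
    rw [h1, QuotientGroup.out_eq', inv_smul_smul])]
  exact (Equiv.sum_comp (MulAction.toPerm h : Equiv.Perm (SL(2, ℤ) ⧸ Γ))
    (fun x => E ((x.out)⁻¹ * h))).symm

theorem bSum_add (Γ : Subgroup SL(2, ℤ)) [Γ.FiniteIndex] {R : Type*} [AddCommMonoid R]
    (E E' : SL(2, ℤ) → R) : bSum Γ (fun g => E g + E' g) = bSum Γ E + bSum Γ E' := by
  classical
  haveI : Fintype (SL(2, ℤ) ⧸ Γ) := Fintype.ofFinite _
  rw [bSum_eq_sum, bSum_eq_sum, bSum_eq_sum, ← Finset.sum_add_distrib]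

theorem bSum_neg (Γ : Subgroup SL(2, ℤ)) [Γ.FiniteIndex] {R : Type*} [AddCommGroup R]
    (E : SL(2, ℤ) → R) : bSum Γ (fun g => - E g) = - bSum Γ E := by
  classical
  haveI : Fintype (SL(2, ℤ) ⧸ Γ) := Fintype.ofFinite _
  rw [bSum_eq_sum, bSum_eq_sum, ← Finset.sum_neg_distrib]

theorem bSum_map (Γ : Subgroup SL(2, ℤ)) [Γ.FiniteIndex] {R R' : Type*} [AddCommMonoid R]
    [AddCommMonoid R'] (f : R →+ R') (E : SL(2, ℤ) → R) :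
    bSum Γ (fun g => f (E g)) = f (bSum Γ E) := by
  classical
  haveI : Fintype (SL(2, ℤ) ⧸ Γ) := Fintype.ofFinite _
  rw [bSum_eq_sum, bSum_eq_sum, map_sum]

/-- transitivity: `Γ' ≤ Γ`, sum over `Γ'\G` = sum over `Γ\G` of the sum over `Γ'\Γ` -/
theorem bSum_of_le (Γ' Γ : Subgroup SL(2, ℤ)) [Γ'.FiniteIndex] [Γ.FiniteIndex] (hle : Γ' ≤ Γ)
    {R : Type*} [AddCommMonoid R] (E : SL(2, ℤ) → R) (hE : ∀ γ ∈ Γ', ∀ g, E (γ * g) = E g) :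
    bSum Γ' E = bSum Γ (fun g => ∑ᶠ r : ↥Γ ⧸ Γ'.subgroupOf Γ,
      E (((r.out : ↥Γ) : SL(2, ℤ))⁻¹ * g)) := by
  classical
  haveI : Fintype (SL(2, ℤ) ⧸ Γ) := Fintype.ofFinite _
  haveI : Fintype (SL(2, ℤ) ⧸ Γ') := Fintype.ofFinite _
  haveI : (Γ'.subgroupOf Γ).FiniteIndex := inferInstance
  haveI : Fintype (↥Γ ⧸ Γ'.subgroupOf Γ) := Fintype.ofFinite _
  rw [bSum_eq_sum Γ]
  simp only [finsum_eq_sum_of_fintype]
  rw [← Finset.sum_product' (f := fun (x : SL(2, ℤ) ⧸ Γ) (r : ↥Γ ⧸ Γ'.subgroupOf Γ) =>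
    E (((r.out : ↥Γ) : SL(2, ℤ))⁻¹ * (x.out)⁻¹)), Finset.univ_product_univ]
  rw [bSum_eq_sum Γ']
  rw [← Equiv.sum_comp (Subgroup.quotientEquivProdOfLE hle).symm]
  refine Finset.sum_congr rfl fun ⟨x, r⟩ _ => ?_
  -- the coset of `x.out * r.out`
  have h1 : (Subgroup.quotientEquivProdOfLE hle).symm (x, r)
      = (QuotientGroup.mk (x.out * ((r.out : ↥Γ) : SL(2, ℤ))) : SL(2, ℤ) ⧸ Γ') := by
    conv_lhs => rw [← QuotientGroup.out_eq' r]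
    rfl
  have h2 : (QuotientGroup.mk ((Subgroup.quotientEquivProdOfLE hle).symm (x, r)).out :
      SL(2, ℤ) ⧸ Γ') = QuotientGroup.mk (x.out * ((r.out : ↥Γ) : SL(2, ℤ))) := by
    rw [QuotientGroup.out_eq', h1]
  have h3 := bsum_apply_inv_eq Γ' E hE h2
  rw [h3, mul_inv_rev]

end Fermat.Agent.S41lib
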