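import Mathlib
import Fermat.Agent.S41lib.BDefs
import Fermat.Agent.S41lib.BSum
import Fermat.Agent.S41lib.BPrim
import Fermat.Agent.S41lib.DegPar
import Fermat.Agent.AJlib.Count

/-!
# Item 78 (S41), block B, piece B-ADJ: restriction and transfer are adjoint for the pairing

`hlPair (N q) (res φ) ψ = hlPair N φ (cores ψ)`.

A primitive of `res φ` is the primitive `Φ` of `φ`; a primitive of `cores ψ` is
`Ψ' c = ∑ x, Ψ (rep x • c)` (`rep x` the representatives of `Γ₀(Nq) \ Γ₀(N)`).  Then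
`bOmega Φ Ψ (r a) (r b) (r c) = bOmega Φ (Ψ ∘ r) a b c` for `r ∈ Γ₀(N)` and `bSum_of_le` conclude.
-/

set_option autoImplicit false

open CongruenceSubgroup Matrix.SpecialLinearGroup ModularCurve.Period ModularGroup
open Fermat.Agent.GalRep
open scoped MatrixGroups

namespace Fermat.Agent.S41lib

/-- `bOmega Φ Ψ` at a translated triple, for a primitive `Φ` -/
theorem bOmega_bAct_of_isBPrim {Γ : Subgroup SL(2, ℤ)} {R : Type*} [CommRing R]
    {φ : Additive Γ →+ R} {Φ : OnePoint ℚ → R} (hΦ : IsBPrim Γ φ Φ) (Ψ : OnePoint ℚ → R)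
    (r : Γ) (a b c : OnePoint ℚ) :
    bOmega Φ Ψ (bAct (r : SL(2, ℤ)) a) (bAct (r : SL(2, ℤ)) b) (bAct (r : SL(2, ℤ)) c)
      = bOmega Φ (fun x => Ψ (bAct (r : SL(2, ℤ)) x)) a b c := by
  unfold bOmega
  rw [hΦ r a, hΦ r b, hΦ r c]
  ring

/-- `bOmega` is additive in the second function -/
theorem bOmega_sum_right {R : Type*} [CommRing R] {ι : Type*} (s : Finset ι)
    (Φ : OnePoint ℚ → R) (Ψ : ι → OnePoint ℚ → R) (a b c : OnePoint ℚ) :
    bOmega Φ (fun x => ∑ i ∈ s, Ψ i x) a b c = ∑ i ∈ s, bOmega Φ (Ψ i) a b c := by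
  unfold bOmega
  simp only [Finset.mul_sum, Finset.sum_add_distrib, Finset.sum_sub_distrib]

/-- a primitive of `φ` is a primitive of its restriction -/
theorem isBPrim_degRes (N q : ℕ) {A : Type*} [AddCommGroup A]
    {φ : Additive (Gamma0 N) →+ A} {Φ : OnePoint ℚ → A} (hΦ : IsBPrim (Gamma0 N) φ Φ) :
    IsBPrim (Gamma0 (N * q)) (degRes N q A φ) Φ := by
  intro γ c
  rw [degRes_apply]
  exact hΦ (Subgroup.inclusion (deg_le N q) γ) c

/-- the primitive of the transfer -/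
noncomputable def bCoresPrim (N q : ℕ) [NeZero N] [NeZero q] {A : Type*} [AddCommGroup A]
    (Ψ : OnePoint ℚ → A) (c : OnePoint ℚ) : A :=
  ∑ x : DegIdx N q,
    Ψ (bAct ((DegData.transferRep (Gamma0 (N * q)) (Gamma0 N) x : Gamma0 N) : SL(2, ℤ)) c)

theorem isBPrim_degCores (N q : ℕ) [NeZero N] [NeZero q] {A : Type*} [AddCommGroup A]
    {ψ : Additive (Gamma0 (N * q)) →+ A} {Ψ : OnePoint ℚ → A}
    (hΨ : IsBPrim (Gamma0 (N * q)) ψ Ψ) :
    IsBPrim (Gamma0 N) (degCores N q A ψ) (bCoresPrim N q Ψ) := by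
  intro γ c
  rw [degCores_apply]
  unfold bCoresPrim
  have key : ∀ x : DegIdx N q,
      Ψ (bAct ((DegData.transferRep (Gamma0 (N * q)) (Gamma0 N) x : Gamma0 N) : SL(2, ℤ))
          (bAct (γ : SL(2, ℤ)) c))
        = Ψ (bAct ((DegData.transferRep (Gamma0 (N * q)) (Gamma0 N) (γ⁻¹ • x) : Gamma0 N) :
            SL(2, ℤ)) c)
          + ψ (Additive.ofMul ((degCoresData N q).γ' γ x)) := by
    intro x
    rw [← hΨ ((degCoresData N q).γ' γ x), ← bAct_mul, ← bAct_mul]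
    congr 2
    have h := DegData.transfer_γ' (mapGL ℝ) (Gamma0 (N * q)) (Gamma0 N) γ x
    show _ = ((((degCoresData N q).γ' γ x : Gamma0 (N * q))) : SL(2, ℤ)) * _
    rw [show ((((degCoresData N q).γ' γ x : Gamma0 (N * q))) : SL(2, ℤ))
      = (DegData.transferRep (Gamma0 (N * q)) (Gamma0 N) x : SL(2, ℤ)) * (γ : SL(2, ℤ))
        * ((DegData.transferRep (Gamma0 (N * q)) (Gamma0 N) (γ⁻¹ • x) : Gamma0 N) :
            SL(2, ℤ))⁻¹ from h, inv_mul_cancel_right]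
  rw [Finset.sum_congr rfl (fun x _ => key x), Finset.sum_add_distrib]
  congr 1
  exact Equiv.sum_comp (MulAction.toPerm γ⁻¹ : Equiv.Perm (DegIdx N q))
    (fun x => Ψ (bAct ((DegData.transferRep (Gamma0 (N * q)) (Gamma0 N) x : Gamma0 N) :
      SL(2, ℤ)) c))

/-- **B-ADJ**: restriction and transfer are adjoint -/
theorem hlPair_degRes_degCores (N q : ℕ) [NeZero N] [NeZero q]
    {φ : Additive (Gamma0 N) →+ ℤ} {ψ : Additive (Gamma0 (N * q)) →+ ℤ}
    (hφ : IsParabolicHom (Gamma0 N) φ) (hψ : IsParabolicHom (Gamma0 (N * q)) ψ) :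
    hlPair (N * q) (degRes N q ℤ φ) ψ = hlPair N φ (degCores N q ℤ ψ) := by
  haveI : NeZero (N * q) := ⟨Nat.mul_ne_zero (NeZero.ne N) (NeZero.ne q)⟩
  obtain ⟨Φ, hΦ⟩ := exists_isBPrim (Gamma0 N) φ hφ
  obtain ⟨Ψ, hΨ⟩ := exists_isBPrim (Gamma0 (N * q)) ψ hψ
  unfold hlPair
  rw [bForm3_eq (Gamma0 (N * q)) (isBPrim_degRes N q hΦ) hΨ,
    bForm3_eq (Gamma0 N) hΦ (isBPrim_degCores N q hΨ)]
  congr 1
  rw [bSum_of_le (Gamma0 (N * q)) (Gamma0 N) (deg_le N q) _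
    (fun γ hγ g => bTri_bOmega_invariant _ (isBPrim_degRes N q hΦ) hΨ γ hγ g)]
  congr 1
  funext g
  rw [finsum_eq_sum_of_fintype]
  unfold bTri bCoresPrim
  rw [bOmega_sum_right]
  refine Finset.sum_congr rfl fun r _ => ?_
  rw [bAct_mul, bAct_mul, bAct_mul]
  exact bOmega_bAct_of_isBPrim hΦ Ψ (DegData.transferRep (Gamma0 (N * q)) (Gamma0 N) r) _ _ _

end Fermat.Agent.S41lib
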