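import Mathlib

/-!
# Item 78 (S41), block B, piece B-F3: the Farey complex is connected and simply connected

Group form.  `G = SL(2,ℤ)`, `U = S T⁻¹` (`U³ = 1`).  A function `e : G → A` is thought of as a
function on the oriented Farey edges `g∞ → g0`.

* `bfarey_const`: a function on `G` invariant under right multiplication by `S` and `T` is
  constant (connectedness).
* `bfarey_primitive`: if `e (-g) = e g`, `e (g S) = - e g` (alternating) and
  `e g + e (g U) + e (g U²) = 0` (closed on the Farey triangles), then `e g = F (g S) - F g` for a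
  function `F` with `F (-g) = F g`, `F (g T) = F g` (a function on the cusps).

Proof of the second: `F` is defined by the Euclidean algorithm on the second row `(c, d)` of `g`:
`F g = 0` if `c = 0`, else `F g = F (g T^k S) - e (g T^k)` with `k = -⌊d/c⌋`.
-/

set_option autoImplicit false

open Matrix.SpecialLinearGroup ModularGroup
open scoped MatrixGroups

namespace Fermat.Agent.S41lib

/-! ### connectedness -/

theorem bfarey_const {A : Type*} (F : SL(2, ℤ) → A) (hS : ∀ g, F (g * S) = F g)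
    (hT : ∀ g, F (g * T) = F g) (g : SL(2, ℤ)) : F g = F 1 := by
  have key : ∀ h ∈ Subgroup.closure ({S, T} : Set SL(2, ℤ)), ∀ g, F (g * h) = F g := by
    intro h hh
    induction hh using Subgroup.closure_induction with
    | mem x hx =>
      rcases hx with rfl | rfl
      · exact hS
      · exact hT
    | one => intro g; rw [mul_one]
    | mul x y _ _ hx hy => intro g; rw [← mul_assoc, hy, hx]
    | inv x _ hx => intro g; rw [← hx (g * x⁻¹), inv_mul_cancel_right]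
  have h := key g (by rw [SpecialLinearGroup.SL2Z_generators]; trivial) 1
  rwa [one_mul] at h

/-! ### floor division -/

theorem bf_fdiv_spec (c d : ℤ) (hc : c ≠ 0) :
    (0 < c ∧ 0 ≤ d - c * Int.fdiv d c ∧ d - c * Int.fdiv d c < c) ∨
      (c < 0 ∧ c < d - c * Int.fdiv d c ∧ d - c * Int.fdiv d c ≤ 0) := by
  rw [← Int.fmod_def, Int.fmod_eq_emod]
  rcases lt_or_gt_of_ne hc with h | h
  · right
    refine ⟨h, ?_⟩
    have h1 := Int.emod_nonneg d hc
    have h2 := Int.emod_lt_abs d hc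
    rw [abs_of_neg h] at h2
    by_cases hdvd : c ∣ d
    · rw [if_pos (Or.inr hdvd), Int.emod_eq_zero_of_dvd hdvd]
      omega
    · rw [if_neg (by rw [not_or, not_le]; exact ⟨h, hdvd⟩)]
      have h3 : d % c ≠ 0 := fun h0 => hdvd (Int.dvd_of_emod_eq_zero h0)
      omega
  · left
    refine ⟨h, ?_⟩
    rw [if_pos (Or.inl h.le)]
    have h1 := Int.emod_nonneg d hc
    have h2 := Int.emod_lt_of_pos d h
    omega

theorem bf_fdiv_unique (c d q r : ℤ) (h : d = c * q + r)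
    (hr : (0 < c ∧ 0 ≤ r ∧ r < c) ∨ (c < 0 ∧ c < r ∧ r ≤ 0)) : Int.fdiv d c = q := by
  have hc : c ≠ 0 := by rcases hr with h | h <;> omega
  have hs := bf_fdiv_spec c d hc
  set q' := Int.fdiv d c with hq'
  have h1 : c * (q' - q) = r - (d - c * q') := by rw [h]; ring
  have h2 : |r - (d - c * q')| < |c| := by
    rw [abs_lt]
    rcases hr with ⟨h3, h4, h5⟩ | ⟨h3, h4, h5⟩
    · rcases hs with ⟨_, h6, h7⟩ | ⟨h6, _, _⟩
      · rw [abs_of_pos h3]; constructor <;> omega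
      · omega
    · rcases hs with ⟨h6, _, _⟩ | ⟨_, h6, h7⟩
      · omega
      · rw [abs_of_neg h3]; constructor <;> omega
  have h3 : q' - q = 0 := by
    by_contra hne
    have h4 : |c| ≤ |c * (q' - q)| := by
      rw [abs_mul]
      have := Int.one_le_abs hne
      nlinarith [abs_nonneg c]
    rw [h1] at h4
    omega
  omega


/-! ### second rows -/

theorem bf_c_mul_S (g : SL(2, ℤ)) : (g * S) 1 0 = g 1 1 := by
  simp [Matrix.SpecialLinearGroup.coe_mul, coe_S, Matrix.mul_apply, Fin.sum_univ_two]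

theorem bf_d_mul_S (g : SL(2, ℤ)) : (g * S) 1 1 = - g 1 0 := by
  simp [Matrix.SpecialLinearGroup.coe_mul, coe_S, Matrix.mul_apply, Fin.sum_univ_two]

theorem bf_c_mul_T_zpow (g : SL(2, ℤ)) (k : ℤ) : (g * T ^ k) 1 0 = g 1 0 := by
  simp [Matrix.SpecialLinearGroup.coe_mul, coe_T_zpow, Matrix.mul_apply, Fin.sum_univ_two]

theorem bf_d_mul_T_zpow (g : SL(2, ℤ)) (k : ℤ) : (g * T ^ k) 1 1 = g 1 0 * k + g 1 1 := by
  simp [Matrix.SpecialLinearGroup.coe_mul, coe_T_zpow, Matrix.mul_apply, Fin.sum_univ_two]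

theorem bf_c_neg (g : SL(2, ℤ)) : (-g) 1 0 = - g 1 0 := by
  simp

theorem bf_d_neg (g : SL(2, ℤ)) : (-g) 1 1 = - g 1 1 := by
  simp

theorem bf_S_mul_S : S * S = -1 := by
  ext i j
  fin_cases i <;> fin_cases j <;>
    simp [Matrix.SpecialLinearGroup.coe_mul, coe_S, Matrix.mul_apply, Fin.sum_univ_two]

theorem bf_mul_neg_one (g : SL(2, ℤ)) : g * (-1) = -g := by
  ext i j
  simp [Matrix.SpecialLinearGroup.coe_mul]

theorem bf_neg_mul (g h : SL(2, ℤ)) : (-g) * h = -(g * h) := by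
  ext i j
  simp [Matrix.SpecialLinearGroup.coe_mul]

/-- `U³ = 1` for `U = S T⁻¹` -/
theorem bf_U_cube : (S * T⁻¹) * (S * T⁻¹) * (S * T⁻¹) = 1 := by
  have hT : (T⁻¹ : SL(2, ℤ)) = T ^ (-1 : ℤ) := by rw [zpow_neg_one]
  rw [hT]
  ext i j
  fin_cases i <;> fin_cases j <;>
    simp [Matrix.SpecialLinearGroup.coe_mul, coe_S, coe_T_zpow, Matrix.mul_apply,
      Fin.sum_univ_two]

/-- if the lower left entry vanishes, the lower right entry does not -/
theorem bf_d_ne_zero (g : SL(2, ℤ)) (hc : g 1 0 = 0) : g 1 1 ≠ 0 := by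
  intro hd
  have h := g.det_coe
  rw [Matrix.det_fin_two, hc, hd] at h
  simp at h


/-! ### the Euclidean recursion -/

/-- the exponent `k = -⌊d/c⌋` -/
def bfK (g : SL(2, ℤ)) : ℤ := - Int.fdiv (g 1 1) (g 1 0)

/-- the next matrix `g T^k S` of the Euclidean algorithm -/
def bfNext (g : SL(2, ℤ)) : SL(2, ℤ) := g * T ^ bfK g * S

theorem bfNext_c (g : SL(2, ℤ)) : (bfNext g) 1 0 = g 1 1 - g 1 0 * Int.fdiv (g 1 1) (g 1 0) := by
  rw [bfNext, bf_c_mul_S, bf_d_mul_T_zpow, bfK]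
  ring

theorem bfNext_c_lt (g : SL(2, ℤ)) (hc : g 1 0 ≠ 0) :
    ((bfNext g) 1 0).natAbs < (g 1 0).natAbs := by
  rw [bfNext_c]
  rcases bf_fdiv_spec (g 1 0) (g 1 1) hc with h | h <;> omega

/-- `n` steps of the Euclidean algorithm -/
noncomputable def bfAux {A : Type*} [AddCommGroup A] (e : SL(2, ℤ) → A) :
    ℕ → SL(2, ℤ) → A
  | 0, _ => 0
  | n + 1, g => open Classical in
      if g 1 0 = 0 then 0 else bfAux e n (bfNext g) - e (g * T ^ bfK g)

theorem bfAux_stable {A : Type*} [AddCommGroup A] (e : SL(2, ℤ) → A) :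
    ∀ (n m : ℕ) (g : SL(2, ℤ)), (g 1 0).natAbs ≤ n → (g 1 0).natAbs ≤ m →
      bfAux e n g = bfAux e m g := by
  intro n
  induction n with
  | zero =>
    intro m g hn _
    have hc : g 1 0 = 0 := by omega
    cases m with
    | zero => rfl
    | succ m => rw [bfAux, bfAux, if_pos hc]
  | succ n ih =>
    intro m g hn hm
    by_cases hc : g 1 0 = 0
    · cases m with
      | zero => rw [bfAux, bfAux, if_pos hc]
      | succ m => rw [bfAux, bfAux, if_pos hc, if_pos hc]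
    · have hlt := bfNext_c_lt g hc
      cases m with
      | zero => omega
      | succ m =>
        rw [bfAux, bfAux, if_neg hc, if_neg hc, ih m (bfNext g) (by omega) (by omega)]

/-- the primitive -/
noncomputable def bfF {A : Type*} [AddCommGroup A] (e : SL(2, ℤ) → A) (g : SL(2, ℤ)) : A :=
  bfAux e (g 1 0).natAbs g

theorem bfF_zero {A : Type*} [AddCommGroup A] (e : SL(2, ℤ) → A) (g : SL(2, ℤ))
    (hc : g 1 0 = 0) : bfF e g = 0 := by
  rw [bfF, hc]
  rfl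

theorem bfF_rec {A : Type*} [AddCommGroup A] (e : SL(2, ℤ) → A) (g : SL(2, ℤ))
    (hc : g 1 0 ≠ 0) : bfF e g = bfF e (bfNext g) - e (g * T ^ bfK g) := by
  have hlt := bfNext_c_lt g hc
  obtain ⟨n, hn⟩ : ∃ n, (g 1 0).natAbs = n + 1 := ⟨(g 1 0).natAbs - 1, by omega⟩
  rw [bfF, hn, bfAux, if_neg hc, bfF]
  rw [bfAux_stable e n _ (bfNext g) (by omega) le_rfl]


/-! ### invariance of the primitive -/

theorem bfK_mul_T (g : SL(2, ℤ)) (hc : g 1 0 ≠ 0) : bfK (g * T) = bfK g - 1 := by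
  have h1 : (g * T) 1 0 = g 1 0 := by
    have := bf_c_mul_T_zpow g 1
    rwa [zpow_one] at this
  have h2 : (g * T) 1 1 = g 1 0 + g 1 1 := by
    have := bf_d_mul_T_zpow g 1
    rw [zpow_one] at this
    rw [this]; ring
  rw [bfK, bfK, h1, h2]
  have hs := bf_fdiv_spec (g 1 0) (g 1 1) hc
  rw [bf_fdiv_unique (g 1 0) (g 1 0 + g 1 1) (Int.fdiv (g 1 1) (g 1 0) + 1)
    (g 1 1 - g 1 0 * Int.fdiv (g 1 1) (g 1 0)) (by ring) hs]
  ring

theorem bfF_mul_T {A : Type*} [AddCommGroup A] (e : SL(2, ℤ) → A) (g : SL(2, ℤ)) :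
    bfF e (g * T) = bfF e g := by
  have h1 : (g * T) 1 0 = g 1 0 := by
    have := bf_c_mul_T_zpow g 1
    rwa [zpow_one] at this
  by_cases hc : g 1 0 = 0
  · rw [bfF_zero e g hc, bfF_zero e (g * T) (by rw [h1, hc])]
  · have hk : g * T * T ^ bfK (g * T) = g * T ^ bfK g := by
      rw [bfK_mul_T g hc, mul_assoc, ← zpow_one_add]
      congr 2
      ring
    rw [bfF_rec e g hc, bfF_rec e (g * T) (by rw [h1]; exact hc), bfNext, bfNext, hk]

theorem bfF_mul_T_inv {A : Type*} [AddCommGroup A] (e : SL(2, ℤ) → A) (g : SL(2, ℤ)) :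
    bfF e (g * T⁻¹) = bfF e g := by
  rw [← bfF_mul_T e (g * T⁻¹), inv_mul_cancel_right]

theorem bfF_neg {A : Type*} [AddCommGroup A] (e : SL(2, ℤ) → A) (h1 : ∀ g, e (-g) = e g) :
    ∀ (n : ℕ) (g : SL(2, ℤ)), (g 1 0).natAbs ≤ n → bfF e (-g) = bfF e g := by
  intro n
  induction n with
  | zero =>
    intro g hn
    have hc : g 1 0 = 0 := by omega
    rw [bfF_zero e g hc, bfF_zero e (-g) (by rw [bf_c_neg, hc, neg_zero])]
  | succ n ih =>
    intro g hn
    by_cases hc : g 1 0 = 0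
    · rw [bfF_zero e g hc, bfF_zero e (-g) (by rw [bf_c_neg, hc, neg_zero])]
    · have hc' : (-g) 1 0 ≠ 0 := by rw [bf_c_neg]; exact neg_ne_zero.mpr hc
      have hk : bfK (-g) = bfK g := by
        rw [bfK, bfK, bf_c_neg, bf_d_neg, Int.neg_fdiv_neg]
      have hlt := bfNext_c_lt g hc
      rw [bfF_rec e g hc, bfF_rec e (-g) hc', bfNext, bfNext, hk, bf_neg_mul, bf_neg_mul, h1,
        ih (g * T ^ bfK g * S) (by rw [bfNext] at hlt; omega)]

theorem bfF_neg' {A : Type*} [AddCommGroup A] (e : SL(2, ℤ) → A) (h1 : ∀ g, e (-g) = e g)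
    (g : SL(2, ℤ)) : bfF e (-g) = bfF e g :=
  bfF_neg e h1 _ g le_rfl


/-! ### the main induction -/

theorem bf_UUS : (S * T⁻¹) * (S * T⁻¹) * S = T := by
  have hT : (T⁻¹ : SL(2, ℤ)) = T ^ (-1 : ℤ) := by rw [zpow_neg_one]
  rw [hT]
  ext i j
  fin_cases i <;> fin_cases j <;>
    simp [Matrix.SpecialLinearGroup.coe_mul, coe_S, coe_T, coe_T_zpow, Matrix.mul_apply,
      Fin.sum_univ_two]

theorem bf_c_mul_U (g : SL(2, ℤ)) : (g * (S * T⁻¹)) 1 0 = g 1 1 := by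
  have hT : (T⁻¹ : SL(2, ℤ)) = T ^ (-1 : ℤ) := by rw [zpow_neg_one]
  rw [← mul_assoc, hT, bf_c_mul_T_zpow, bf_c_mul_S]

theorem bf_d_mul_U (g : SL(2, ℤ)) : (g * (S * T⁻¹)) 1 1 = - g 1 0 - g 1 1 := by
  have hT : (T⁻¹ : SL(2, ℤ)) = T ^ (-1 : ℤ) := by rw [zpow_neg_one]
  rw [← mul_assoc, hT, bf_d_mul_T_zpow, bf_c_mul_S, bf_d_mul_S]
  ring

section main

variable {A : Type*} [AddCommGroup A] (e : SL(2, ℤ) → A)

/-- the property to be proved for all `g` -/
def bfP (g : SL(2, ℤ)) : Prop := bfF e (g * S) - bfF e g = e g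

variable {e}

theorem bfP_mul_S (h1 : ∀ g, e (-g) = e g) (h2 : ∀ g, e (g * S) = - e g) (g : SL(2, ℤ)) :
    bfP e (g * S) ↔ bfP e g := by
  unfold bfP
  rw [mul_assoc, bf_S_mul_S, bf_mul_neg_one, bfF_neg' e h1, h2]
  constructor
  · intro h
    have : bfF e (g * S) - bfF e g = - (bfF e g - bfF e (g * S)) := by abel
    rw [this, h, neg_neg]
  · intro h
    have : bfF e g - bfF e (g * S) = - (bfF e (g * S) - bfF e g) := by abel
    rw [this, h]

theorem bfK_eq_zero_of_d_eq_zero (g : SL(2, ℤ)) (hd : g 1 1 = 0) : bfK g = 0 := by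
  rw [bfK, hd]
  simp [Int.fdiv]

theorem bfP_can (g : SL(2, ℤ)) (hc : g 1 0 ≠ 0) (hk : bfK g = 0) : bfP e g := by
  unfold bfP
  rw [bfF_rec e g hc, bfNext, hk, zpow_zero, mul_one]
  abel

theorem bfP_zero (h1 : ∀ g, e (-g) = e g) (h2 : ∀ g, e (g * S) = - e g) (g : SL(2, ℤ))
    (hc : g 1 0 = 0) : bfP e g := by
  rw [← bfP_mul_S h1 h2]
  refine bfP_can (g * S) ?_ ?_
  · rw [bf_c_mul_S]
    exact bf_d_ne_zero g hc
  · apply bfK_eq_zero_of_d_eq_zero
    rw [bf_d_mul_S, hc, neg_zero]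

theorem bfP_tri
    (h3 : ∀ g, e g + e (g * (S * T⁻¹)) + e (g * (S * T⁻¹) * (S * T⁻¹)) = 0) (g : SL(2, ℤ))
    (hg : bfP e g) (hgU : bfP e (g * (S * T⁻¹))) : bfP e (g * (S * T⁻¹) * (S * T⁻¹)) := by
  unfold bfP at *
  have e1 : bfF e (g * (S * T⁻¹)) = bfF e (g * S) := by
    rw [← mul_assoc, bfF_mul_T_inv]
  have e2 : bfF e (g * (S * T⁻¹) * (S * T⁻¹)) = bfF e (g * (S * T⁻¹) * S) := by
    rw [← mul_assoc (g * (S * T⁻¹)) S, bfF_mul_T_inv]
  have e3 : bfF e (g * (S * T⁻¹) * (S * T⁻¹) * S) = bfF e g := by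
    rw [mul_assoc g, mul_assoc g, bf_UUS, bfF_mul_T]
  rw [e3, e2]
  rw [e1] at hgU
  have h := h3 g
  have : e (g * (S * T⁻¹) * (S * T⁻¹)) = - e g - e (g * (S * T⁻¹)) := by
    rw [← sub_eq_zero]
    rw [← h]
    abel
  rw [this, ← hg, ← hgU]
  abel


theorem bf_c_mul_T (g : SL(2, ℤ)) : (g * T) 1 0 = g 1 0 := by
  have := bf_c_mul_T_zpow g 1
  rwa [zpow_one] at this

theorem bf_c_mul_T_inv (g : SL(2, ℤ)) : (g * T⁻¹) 1 0 = g 1 0 := by
  have := bf_c_mul_T_zpow g (-1)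
  rwa [zpow_neg_one] at this

theorem bf_d_mul_T_inv (g : SL(2, ℤ)) : (g * T⁻¹) 1 1 = - g 1 0 + g 1 1 := by
  have := bf_d_mul_T_zpow g (-1)
  rw [zpow_neg_one] at this
  rw [this]; ring

/-- the core of the induction: the case `|d| ≤ |c|`, `c ≠ 0` -/
theorem bfP_core (h1 : ∀ g, e (-g) = e g) (h2 : ∀ g, e (g * S) = - e g)
    (h3 : ∀ g, e g + e (g * (S * T⁻¹)) + e (g * (S * T⁻¹) * (S * T⁻¹)) = 0) (n : ℕ)
    (ih : ∀ g : SL(2, ℤ), (g 1 0).natAbs ≤ n → (g 1 1).natAbs ≤ n → bfP e g)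
    (g : SL(2, ℤ)) (hc : g 1 0 ≠ 0) (hcn : (g 1 0).natAbs ≤ n + 1)
    (hdc : (g 1 1).natAbs ≤ (g 1 0).natAbs) : bfP e g := by
  -- three cases
  have hcases : ((0 < g 1 0 ∧ 0 ≤ g 1 1 ∧ g 1 1 < g 1 0) ∨ (g 1 0 < 0 ∧ g 1 0 < g 1 1 ∧ g 1 1 ≤ 0))
      ∨ g 1 1 = g 1 0
      ∨ ((0 < g 1 0 ∧ - g 1 0 ≤ g 1 1 ∧ g 1 1 < 0) ∨ (g 1 0 < 0 ∧ 0 < g 1 1 ∧ g 1 1 ≤ - g 1 0)) := by
    omega
  rcases hcases with hA | hB | hC
  · -- canonical
    refine bfP_can g hc ?_
    rw [bfK, bf_fdiv_unique (g 1 0) (g 1 1) 0 (g 1 1) (by ring) hA, neg_zero]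
  · -- `d = c`: `h = g T⁻¹` is canonical with `d = 0`
    have hh : bfP e (g * T⁻¹) := by
      refine bfP_can _ (by rw [bf_c_mul_T_inv]; exact hc) ?_
      apply bfK_eq_zero_of_d_eq_zero
      rw [bf_d_mul_T_inv, hB]; ring
    have hhU : bfP e (g * T⁻¹ * (S * T⁻¹)) := by
      refine bfP_zero h1 h2 _ ?_
      rw [bf_c_mul_U, bf_d_mul_T_inv, hB]; ring
    have h4 := bfP_tri h3 _ hh hhU
    rw [← bfP_mul_S h1 h2] at h4
    have h5 : g * T⁻¹ * (S * T⁻¹) * (S * T⁻¹) * S = g := by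
      rw [mul_assoc (g * T⁻¹), mul_assoc (g * T⁻¹), bf_UUS, inv_mul_cancel_right]
    rwa [h5] at h4
  · -- opposite signs: `g T` is canonical
    have hgT : bfP e (g * T) := by
      refine bfP_can _ (by rw [bf_c_mul_T]; exact hc) ?_
      rw [bfK_mul_T g hc, bfK,
        bf_fdiv_unique (g 1 0) (g 1 1) (-1) (g 1 1 + g 1 0) (by ring) (by omega)]
      ring
    have hgUU : bfP e (g * (S * T⁻¹) * (S * T⁻¹)) := by
      rw [← bfP_mul_S h1 h2, mul_assoc g, mul_assoc g, bf_UUS]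
      exact hgT
    have hgU : bfP e (g * (S * T⁻¹)) := by
      by_cases h0 : g 1 0 + g 1 1 = 0
      · rw [← bfP_mul_S h1 h2]
        refine bfP_zero h1 h2 _ ?_
        rw [bf_c_mul_S, bf_d_mul_U]
        omega
      · refine ih _ ?_ ?_
        · rw [bf_c_mul_U]; omega
        · rw [bf_d_mul_U]; omega
    have h4 := bfP_tri h3 _ hgU hgUU
    have h5 : g * (S * T⁻¹) * (S * T⁻¹) * (S * T⁻¹) = g := by
      rw [mul_assoc g, mul_assoc g, bf_U_cube, mul_one]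
    rwa [h5] at h4

theorem bfP_all (h1 : ∀ g, e (-g) = e g) (h2 : ∀ g, e (g * S) = - e g)
    (h3 : ∀ g, e g + e (g * (S * T⁻¹)) + e (g * (S * T⁻¹) * (S * T⁻¹)) = 0) :
    ∀ (n : ℕ) (g : SL(2, ℤ)), (g 1 0).natAbs ≤ n → (g 1 1).natAbs ≤ n → bfP e g := by
  intro n
  induction n with
  | zero =>
    intro g hc hd
    exact absurd (by omega : g 1 1 = 0) (bf_d_ne_zero g (by omega))
  | succ n ih =>
    intro g hcn hdn
    by_cases hc : g 1 0 = 0
    · exact bfP_zero h1 h2 g hc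
    · by_cases hdc : (g 1 1).natAbs ≤ (g 1 0).natAbs
      · exact bfP_core h1 h2 h3 n ih g hc hcn hdc
      · rw [← bfP_mul_S h1 h2]
        refine bfP_core h1 h2 h3 n ih (g * S) ?_ ?_ ?_
        · rw [bf_c_mul_S]; omega
        · rw [bf_c_mul_S]; exact hdn
        · rw [bf_c_mul_S, bf_d_mul_S]; omega

end main

/-- **the Farey complex is simply connected** (group form) -/
theorem bfarey_primitive {A : Type*} [AddCommGroup A] (e : SL(2, ℤ) → A)
    (h1 : ∀ g, e (-g) = e g) (h2 : ∀ g, e (g * S) = - e g)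
    (h3 : ∀ g, e g + e (g * (S * T⁻¹)) + e (g * (S * T⁻¹) * (S * T⁻¹)) = 0) :
    ∃ F : SL(2, ℤ) → A, (∀ g, F (-g) = F g) ∧ (∀ g, F (g * T) = F g) ∧
      ∀ g, F (g * S) - F g = e g :=
  ⟨bfF e, bfF_neg' e h1, bfF_mul_T e, fun g =>
    bfP_all h1 h2 h3 (max (g 1 0).natAbs (g 1 1).natAbs) g (le_max_left _ _) (le_max_right _ _)⟩

end Fermat.Agent.S41lib
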