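import Mathlib

/-!
# Item 78 (S41), block B, piece B-STEP1: `bstep1`

`X` a finite set with an involution `σ` and a permutation `τ` of order dividing `3`, such that the
only functions invariant under both are the constants.  Every `τ`-invariant function `t` of sum
`0` is `e + e∘τ + e∘τ²` for an alternating `e` (`e∘σ = -e`).

Proof: duality.  A linear form `⟨·, v⟩` vanishing on the image of `d e = e + e∘τ + e∘τ²`
(`e` alternating) has `τ`-average `w` orthogonal to all alternating functions; with
`e = w - w∘σ` this gives `Σ (w - w∘σ)² = 0`, so `w` is `σ`-invariant, hence constant, and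
`⟨t, v⟩ = ⟨t, w⟩ = 0`.
-/

set_option autoImplicit false

namespace Fermat.Agent.S41lib

open Finset

section

variable {X : Type} [Fintype X] [DecidableEq X]

/-- the map `f ↦ d (f - f∘σ)`, `d e = e + e∘τ + e∘τ²` -/
def bstepD (σ τ : Equiv.Perm X) : (X → ℚ) →ₗ[ℚ] (X → ℚ) where
  toFun f x := (f x - f (σ x)) + (f (τ x) - f (σ (τ x))) + (f (τ (τ x)) - f (σ (τ (τ x))))
  map_add' f g := by
    funext x
    simp only [Pi.add_apply]
    ring
  map_smul' c f := by
    funext x
    simp only [Pi.smul_apply, smul_eq_mul, RingHom.id_apply]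
    ring

theorem bstepD_apply (σ τ : Equiv.Perm X) (f : X → ℚ) (x : X) :
    bstepD σ τ f x =
      (f x - f (σ x)) + (f (τ x) - f (σ (τ x))) + (f (τ (τ x)) - f (σ (τ (τ x)))) := rfl

/-- every linear form on `X → ℚ` is `f ↦ Σ f x * v x` -/
theorem bstep_dual_eq_sum (φ : Module.Dual ℚ (X → ℚ)) (f : X → ℚ) :
    φ f = ∑ x, f x * φ (Pi.single x 1) := by
  conv_lhs => rw [← Finset.univ_sum_single f]
  rw [map_sum]
  refine Finset.sum_congr rfl fun x _ => ?_
  have : (Pi.single x (f x) : X → ℚ) = f x • Pi.single x 1 := by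
    rw [← Pi.single_smul, smul_eq_mul, mul_one]
  rw [this, map_smul, smul_eq_mul]

theorem bstep_sum_comp (π : Equiv.Perm X) (g : X → ℚ) : ∑ x, g (π x) = ∑ x, g x :=
  Equiv.sum_comp π g

theorem bstep1 (σ τ : Equiv.Perm X)
    (hσ : ∀ x, σ (σ x) = x) (hτ : ∀ x, τ (τ (τ x)) = x)
    (htrans : ∀ v : X → ℚ, (∀ x, v (σ x) = v x) → (∀ x, v (τ x) = v x) → ∀ x y, v x = v y)
    (t : X → ℚ) (ht : ∀ x, t (τ x) = t x) (hsum : ∑ x, t x = 0) :
    ∃ e : X → ℚ, (∀ x, e (σ x) = - e x) ∧ ∀ x, e x + e (τ x) + e (τ (τ x)) = t x := by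
  classical
  have key : t ∈ LinearMap.range (bstepD σ τ) := by
    by_contra hnot
    obtain ⟨φ, hφt, hφ⟩ := Submodule.exists_dual_map_eq_bot_of_notMem hnot inferInstance
    apply hφt
    -- `φ` vanishes on the range
    have hφD : ∀ f, φ (bstepD σ τ f) = 0 := by
      intro f
      have : φ (bstepD σ τ f) ∈ (LinearMap.range (bstepD σ τ)).map φ :=
        Submodule.mem_map_of_mem (LinearMap.mem_range_self _ f)
      rw [hφ] at this
      exact (Submodule.mem_bot ℚ).mp this
    set v : X → ℚ := fun x => φ (Pi.single x 1) with hv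
    -- the `τ`-average (times 3)
    set w : X → ℚ := fun x => v x + v (τ x) + v (τ (τ x)) with hw
    have hwτ : ∀ x, w (τ x) = w x := by
      intro x
      simp only [hw, hτ]
      ring
    -- `⟨f - f∘σ, w⟩ = 0` for every `f`
    have horth : ∀ f : X → ℚ, ∑ x, (f x - f (σ x)) * w x = 0 := by
      intro f
      have h1 := hφD f
      rw [bstep_dual_eq_sum φ] at h1
      rw [← h1]
      simp only [bstepD_apply, hw, mul_add, add_mul, Finset.sum_add_distrib]
      -- shift the sums by `τ`
      have e1 : ∑ x, (f x - f (σ x)) * v (τ x)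
          = ∑ x, (f (τ (τ x)) - f (σ (τ (τ x)))) * v x := by
        rw [← bstep_sum_comp (τ * τ) (fun x => (f x - f (σ x)) * v (τ x))]
        refine Finset.sum_congr rfl fun x _ => ?_
        simp only [Equiv.Perm.coe_mul, Function.comp_apply, hτ]
      have e2 : ∑ x, (f x - f (σ x)) * v (τ (τ x))
          = ∑ x, (f (τ x) - f (σ (τ x))) * v x := by
        rw [← bstep_sum_comp τ (fun x => (f x - f (σ x)) * v (τ (τ x)))]
        refine Finset.sum_congr rfl fun x _ => ?_
        simp only [hτ]
      rw [e1, e2]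
      simp only [hv]
      ring
    -- `w` is `σ`-invariant
    have hwσ : ∀ x, w (σ x) = w x := by
      have h1 := horth w
      have h2 : ∑ x, (w x - w (σ x)) * w (σ x) = - ∑ x, (w x - w (σ x)) * w x := by
        rw [← bstep_sum_comp σ (fun x => (w x - w (σ x)) * w x), ← Finset.sum_neg_distrib]
        refine Finset.sum_congr rfl fun x _ => ?_
        simp only [hσ]
        ring
      have h3 : ∑ x, (w x - w (σ x)) ^ 2 = 0 := by
        have : ∀ x, (w x - w (σ x)) ^ 2 = (w x - w (σ x)) * w x - (w x - w (σ x)) * w (σ x) := by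
          intro x; ring
        simp only [this, Finset.sum_sub_distrib]
        rw [h2, h1]
        ring
      intro x
      have h4 := (Finset.sum_eq_zero_iff_of_nonneg (fun x _ => sq_nonneg (w x - w (σ x)))).mp h3 x
        (Finset.mem_univ x)
      have h5 : w x - w (σ x) = 0 := by
        exact pow_eq_zero_iff (two_ne_zero) |>.mp h4
      linarith
    -- so `w` is constant
    have hconst := htrans w hwσ hwτ
    -- `⟨t, v⟩ = ⟨t, w⟩ / 3 = 0`
    rw [bstep_dual_eq_sum φ t]
    have h6 : ∑ x, t x * w x = 3 * ∑ x, t x * v x := by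
      simp only [hw, mul_add, Finset.sum_add_distrib]
      have e1 : ∑ x, t x * v (τ x) = ∑ x, t x * v x := by
        rw [← bstep_sum_comp τ (fun x => t x * v x)]
        refine Finset.sum_congr rfl fun x _ => ?_
        simp only [ht]
      have e2 : ∑ x, t x * v (τ (τ x)) = ∑ x, t x * v x := by
        rw [← bstep_sum_comp (τ * τ) (fun x => t x * v x)]
        refine Finset.sum_congr rfl fun x _ => ?_
        simp only [Equiv.Perm.coe_mul, Function.comp_apply, ht]
      rw [e1, e2]
      ring
    have h7 : ∑ x, t x * w x = 0 := by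
      rcases isEmpty_or_nonempty X with hX | ⟨⟨x₀⟩⟩
      · simp
      · have : ∀ x, t x * w x = t x * w x₀ := fun x => by rw [hconst x x₀]
        simp only [this]
        rw [← Finset.sum_mul, hsum, zero_mul]
    have h8 : (3 : ℚ) * ∑ x, t x * v x = 0 := by rw [← h6, h7]
    have h9 : ∑ x, t x * v x = 0 := by
      rcases mul_eq_zero.mp h8 with h | h
      · norm_num at h
      · exact h
    exact h9
  obtain ⟨f, hf⟩ := key
  refine ⟨fun x => f x - f (σ x), ?_, ?_⟩
  · intro x
    simp only [hσ]
    ring
  · intro x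
    have := congrFun hf x
    rw [bstepD_apply] at this
    exact this

end

end Fermat.Agent.S41lib
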