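import Mathlib
import Fermat.Agent.S41lib.BDefs
import Fermat.Agent.S41lib.BStep
import Fermat.Agent.S41lib.BFarey
import Fermat.Agent.S41lib.BCusp
import Fermat.Agent.S41lib.BSum

/-!
# Item 78 (S41), block B, piece B-KEY (INJ): `bkey_exact`  (helper11)

A `Γ`-invariant alternating 2-cocycle `Ω` on the cusps whose sum over the Farey triangles mod `Γ`
vanishes is the coboundary of a `Γ`-invariant alternating 1-cochain.
-/

set_option autoImplicit false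

open CongruenceSubgroup Matrix.SpecialLinearGroup ModularCurve.Period ModularGroup
open scoped MatrixGroups

namespace Fermat.Agent.S41lib

/-- `S² = -1` -/
theorem bke_S_mul_S : (S * S : SL(2, ℤ)) = -1 := by
  apply Subtype.ext
  simp only [coe_mul, coe_S, Matrix.SpecialLinearGroup.coe_neg, Matrix.SpecialLinearGroup.coe_one]
  ext i j
  fin_cases i <;> fin_cases j <;> simp [Matrix.mul_apply, Fin.sum_univ_two]

/-- `U³ = 1` for `U = S T⁻¹` -/
theorem bke_U_cube : (S * T⁻¹) * (S * T⁻¹) * (S * T⁻¹) = (1 : SL(2, ℤ)) := by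
  apply Subtype.ext
  simp only [coe_mul, coe_S, coe_T_inv, Matrix.SpecialLinearGroup.coe_one]
  ext i j
  fin_cases i <;> fin_cases j <;> simp [Matrix.mul_apply, Fin.sum_univ_two]

/-- `T = U⁻¹ S` -/
theorem bke_T_eq : (T : SL(2, ℤ)) = (S * T⁻¹)⁻¹ * S := by
  group


section Step1

variable (Γ : Subgroup SL(2, ℤ))

/-- value of a left-invariant function at the chosen representative -/
theorem bke_out_inv {R : Type*} (E : SL(2, ℤ) → R) (hE : ∀ γ ∈ Γ, ∀ g, E (γ * g) = E g)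
    (g : SL(2, ℤ)) : E ((QuotientGroup.mk g : SL(2, ℤ) ⧸ Γ).out)⁻¹ = E g⁻¹ := by
  obtain ⟨h, hh⟩ := QuotientGroup.mk_out_eq_mul Γ g
  rw [hh, mul_inv_rev]
  exact hE _ (Γ.inv_mem h.2) _

theorem bke_neg_smul (hneg : (-1 : SL(2, ℤ)) ∈ Γ) (x : SL(2, ℤ) ⧸ Γ) :
    (-1 : SL(2, ℤ)) • x = x := by
  induction x using QuotientGroup.induction_on with
  | H g =>
    rw [MulAction.Quotient.smul_mk, QuotientGroup.eq]
    have : ((-1 : SL(2, ℤ)) • g)⁻¹ * g = -1 := by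
      rw [smul_eq_mul]
      have h1 : ((-1 : SL(2, ℤ)) * g) = g * (-1) := by
        apply Subtype.ext
        simp
      rw [h1, mul_inv_rev]
      have h2 : ((-1 : SL(2, ℤ)))⁻¹ = -1 := by
        rw [inv_eq_iff_eq_inv, eq_comm, inv_eq_iff_mul_eq_one]
        apply Subtype.ext
        simp
      rw [h2]
      group
    rw [this]
    exact hneg

theorem bke_step1 [Γ.FiniteIndex] (hneg : (-1 : SL(2, ℤ)) ∈ Γ) (t : SL(2, ℤ) → ℚ)
    (htΓ : ∀ γ ∈ Γ, ∀ g, t (γ * g) = t g) (htU : ∀ g, t (g * (S * T⁻¹)) = t g)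
    (hsum : bSum Γ t = 0) :
    ∃ e : SL(2, ℤ) → ℚ, (∀ γ ∈ Γ, ∀ g, e (γ * g) = e g) ∧ (∀ g, e (-g) = e g) ∧
      (∀ g, e (g * S) = - e g) ∧
      ∀ g, e g + e (g * (S * T⁻¹)) + e (g * (S * T⁻¹) * (S * T⁻¹)) = t g := by
  classical
  have : Fintype (SL(2, ℤ) ⧸ Γ) := Subgroup.fintypeQuotientOfFiniteIndex
  let σ : Equiv.Perm (SL(2, ℤ) ⧸ Γ) := MulAction.toPerm (S⁻¹ : SL(2, ℤ))
  let τ : Equiv.Perm (SL(2, ℤ) ⧸ Γ) := MulAction.toPerm ((S * T⁻¹)⁻¹ : SL(2, ℤ))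
  have hσa : ∀ x, σ x = (S⁻¹ : SL(2, ℤ)) • x := fun x => rfl
  have hτa : ∀ x, τ x = ((S * T⁻¹)⁻¹ : SL(2, ℤ)) • x := fun x => rfl
  have hnegi : ((-1 : SL(2, ℤ)))⁻¹ = -1 := by
    rw [inv_eq_iff_eq_inv, eq_comm, inv_eq_iff_mul_eq_one]
    apply Subtype.ext
    simp
  have hσ : ∀ x, σ (σ x) = x := by
    intro x
    rw [hσa, hσa, ← mul_smul, ← mul_inv_rev, bke_S_mul_S, hnegi]
    exact bke_neg_smul Γ hneg x
  have hτ : ∀ x, τ (τ (τ x)) = x := by
    intro x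
    rw [hτa, hτa, hτa, ← mul_smul, ← mul_smul, ← mul_inv_rev, ← mul_inv_rev, ← mul_assoc,
      bke_U_cube, inv_one, one_smul]
  have htrans : ∀ v : SL(2, ℤ) ⧸ Γ → ℚ, (∀ x, v (σ x) = v x) → (∀ x, v (τ x) = v x) →
      ∀ x y, v x = v y := by
    intro v hvσ hvτ
    let H : Subgroup SL(2, ℤ) :=
      { carrier := {g | ∀ x, v (g • x) = v x}
        mul_mem' := fun {a b} ha hb x => by rw [mul_smul, ha, hb]
        one_mem' := fun x => by rw [one_smul]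
        inv_mem' := fun {a} ha x => by
          have := ha (a⁻¹ • x)
          rw [smul_inv_smul] at this
          exact this.symm }
    have hSi : (S⁻¹ : SL(2, ℤ)) ∈ H := fun x => hvσ x
    have hUi : ((S * T⁻¹)⁻¹ : SL(2, ℤ)) ∈ H := fun x => hvτ x
    have hS : (S : SL(2, ℤ)) ∈ H := by simpa using H.inv_mem hSi
    have hT : (T : SL(2, ℤ)) ∈ H := by
      rw [bke_T_eq]
      exact H.mul_mem hUi hS
    have htop : H = ⊤ := by
      rw [eq_top_iff, ← SpecialLinearGroup.SL2Z_generators, Subgroup.closure_le]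
      rintro g (rfl | rfl)
      · exact hS
      · exact hT
    intro x y
    induction x using QuotientGroup.induction_on with
    | H g =>
      induction y using QuotientGroup.induction_on with
      | H h =>
        have hm : (h * g⁻¹) ∈ H := by rw [htop]; trivial
        have := hm (QuotientGroup.mk g)
        rw [MulAction.Quotient.smul_mk, smul_eq_mul, inv_mul_cancel_right] at this
        exact this.symm
  let tb : SL(2, ℤ) ⧸ Γ → ℚ := fun x => t (x.out)⁻¹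
  have htb : ∀ g : SL(2, ℤ), tb (QuotientGroup.mk g) = t g⁻¹ := fun g => bke_out_inv Γ t htΓ g
  have ht : ∀ x, tb (τ x) = tb x := by
    intro x
    induction x using QuotientGroup.induction_on with
    | H g =>
      rw [hτa, MulAction.Quotient.smul_mk, htb, htb, smul_eq_mul, mul_inv_rev, inv_inv, htU]
  have hsum' : ∑ x, tb x = 0 := by
    rw [← hsum, bSum_eq_sum]
  obtain ⟨eb, heσ, heτ⟩ := bstep1 σ τ hσ hτ htrans tb ht hsum'
  refine ⟨fun g => eb (QuotientGroup.mk g⁻¹), ?_, ?_, ?_, ?_⟩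
  · intro γ hγ g
    show eb (QuotientGroup.mk (γ * g)⁻¹) = eb (QuotientGroup.mk g⁻¹)
    rw [mul_inv_rev, QuotientGroup.mk_mul_of_mem _ (Γ.inv_mem hγ)]
  · intro g
    show eb (QuotientGroup.mk (-g)⁻¹) = eb (QuotientGroup.mk g⁻¹)
    have : (-g)⁻¹ = g⁻¹ * (-1) := by
      rw [inv_eq_iff_mul_eq_one]
      apply Subtype.ext
      simp
    rw [this, QuotientGroup.mk_mul_of_mem _ hneg]
  · intro g
    show eb (QuotientGroup.mk (g * S)⁻¹) = - eb (QuotientGroup.mk g⁻¹)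
    rw [← heσ, hσa, MulAction.Quotient.smul_mk, smul_eq_mul, mul_inv_rev]
  · intro g
    show eb (QuotientGroup.mk g⁻¹) + eb (QuotientGroup.mk (g * (S * T⁻¹))⁻¹) +
      eb (QuotientGroup.mk (g * (S * T⁻¹) * (S * T⁻¹))⁻¹) = t g
    have h1 : (QuotientGroup.mk (g * (S * T⁻¹))⁻¹ : SL(2, ℤ) ⧸ Γ) = τ (QuotientGroup.mk g⁻¹) := by
      rw [hτa, MulAction.Quotient.smul_mk, smul_eq_mul, mul_inv_rev]
    have h2 : (QuotientGroup.mk (g * (S * T⁻¹) * (S * T⁻¹))⁻¹ : SL(2, ℤ) ⧸ Γ) =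
        τ (τ (QuotientGroup.mk g⁻¹)) := by
      rw [← h1, hτa, MulAction.Quotient.smul_mk, smul_eq_mul, mul_inv_rev]
    rw [h1, h2, heτ, htb, inv_inv]

end Step1

section Main

variable (Γ : Subgroup SL(2, ℤ))

theorem bke_U_infty (g : SL(2, ℤ)) :
    bAct (g * (S * T⁻¹)) OnePoint.infty = bAct g ((0 : ℚ) : OnePoint ℚ) := by
  rw [bAct_mul g (S * T⁻¹), bAct_U_infty]

theorem bke_U_zero (g : SL(2, ℤ)) :
    bAct (g * (S * T⁻¹)) ((0 : ℚ) : OnePoint ℚ) = bAct g ((1 : ℚ) : OnePoint ℚ) := by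
  rw [bAct_mul g (S * T⁻¹), bAct_U_zero]

theorem bke_U_one (g : SL(2, ℤ)) :
    bAct (g * (S * T⁻¹)) ((1 : ℚ) : OnePoint ℚ) = bAct g OnePoint.infty := by
  rw [bAct_mul g (S * T⁻¹), bAct_U_one]

theorem bke_S_infty (g : SL(2, ℤ)) :
    bAct (g * S) OnePoint.infty = bAct g ((0 : ℚ) : OnePoint ℚ) := by
  rw [bAct_mul g S, bAct_S_infty]

theorem bke_S_zero (g : SL(2, ℤ)) :
    bAct (g * S) ((0 : ℚ) : OnePoint ℚ) = bAct g OnePoint.infty := by
  rw [bAct_mul g S, bAct_S_zero]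

theorem bke_T_infty (g : SL(2, ℤ)) : bAct (g * T) OnePoint.infty = bAct g OnePoint.infty := by
  rw [bAct_mul g T, bAct_T_infty]

/-- the Farey triangle function of an invariant `Ω` is left-invariant -/
theorem bke_bTri_invariant {R : Type*} (Ω : OnePoint ℚ → OnePoint ℚ → OnePoint ℚ → R)
    (hinv : ∀ γ ∈ Γ, ∀ a b c, Ω (bAct γ a) (bAct γ b) (bAct γ c) = Ω a b c)
    (γ : SL(2, ℤ)) (hγ : γ ∈ Γ) (g : SL(2, ℤ)) : bTri Ω (γ * g) = bTri Ω g := by
  unfold bTri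
  rw [bAct_mul, bAct_mul, bAct_mul, hinv γ hγ]

/-- the Farey triangle function of an alternating `Ω` is right-`U`-invariant -/
theorem bke_bTri_mul_U {R : Type*} [AddGroup R] (Ω : OnePoint ℚ → OnePoint ℚ → OnePoint ℚ → R)
    (h12 : ∀ a b c, Ω b a c = - Ω a b c) (h23 : ∀ a b c, Ω a c b = - Ω a b c)
    (g : SL(2, ℤ)) : bTri Ω (g * (S * T⁻¹)) = bTri Ω g := by
  unfold bTri
  rw [bke_U_infty, bke_U_zero, bke_U_one, h23, h12, neg_neg]

/-- `bkey_exact` when `-1 ∈ Γ` -/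
theorem bkey_exact_of_neg [Γ.FiniteIndex] (hneg : (-1 : SL(2, ℤ)) ∈ Γ)
    (Ω : OnePoint ℚ → OnePoint ℚ → OnePoint ℚ → ℚ)
    (h12 : ∀ a b c, Ω b a c = - Ω a b c) (h23 : ∀ a b c, Ω a c b = - Ω a b c)
    (hcoc : ∀ a b c d, Ω b c d - Ω a c d + Ω a b d - Ω a b c = 0)
    (hinv : ∀ γ ∈ Γ, ∀ a b c, Ω (bAct γ a) (bAct γ b) (bAct γ c) = Ω a b c)
    (hsum : bSum Γ (bTri Ω) = 0) :
    ∃ ω : OnePoint ℚ → OnePoint ℚ → ℚ, (∀ a b, ω b a = - ω a b) ∧
      (∀ γ ∈ Γ, ∀ a b, ω (bAct γ a) (bAct γ b) = ω a b) ∧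
      ∀ a b c, Ω a b c = ω a b + ω b c + ω c a := by
  obtain ⟨e₁, he₁Γ, he₁n, he₁S, he₁U⟩ := bke_step1 Γ hneg (bTri Ω)
    (bke_bTri_invariant Γ Ω hinv) (bke_bTri_mul_U Ω h12 h23) hsum
  -- the first primitive
  set ω₀ : OnePoint ℚ → OnePoint ℚ → ℚ := fun a b => Ω OnePoint.infty a b with hω₀
  have hω₀alt : ∀ a b, ω₀ b a = - ω₀ a b := fun a b => h23 _ _ _
  have hδω₀ : ∀ a b c, Ω a b c = ω₀ a b + ω₀ b c + ω₀ c a := by
    intro a b c
    have := hcoc OnePoint.infty a b c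
    rw [hω₀alt a c]
    simp only [hω₀]
    linarith
  -- the correction on Farey edges
  set e' : SL(2, ℤ) → ℚ := fun g =>
    e₁ g - ω₀ (bAct g OnePoint.infty) (bAct g ((0 : ℚ) : OnePoint ℚ)) with he'
  have he'n : ∀ g, e' (-g) = e' g := by
    intro g
    simp only [he', he₁n, bAct_neg]
  have he'S : ∀ g, e' (g * S) = - e' g := by
    intro g
    simp only [he', he₁S, bke_S_infty, bke_S_zero]
    rw [hω₀alt]
    ring
  have he'U : ∀ g, e' g + e' (g * (S * T⁻¹)) + e' (g * (S * T⁻¹) * (S * T⁻¹)) = 0 := by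
    intro g
    have h1 := he₁U g
    have h2 := hδω₀ (bAct g OnePoint.infty) (bAct g ((0 : ℚ) : OnePoint ℚ))
      (bAct g ((1 : ℚ) : OnePoint ℚ))
    simp only [he', bke_U_infty, bke_U_zero, bke_U_one]
    have h3 : bTri Ω g = Ω (bAct g OnePoint.infty) (bAct g ((0 : ℚ) : OnePoint ℚ))
      (bAct g ((1 : ℚ) : OnePoint ℚ)) := rfl
    linarith
  obtain ⟨F, hFn, hFT, hFS⟩ := bfarey_primitive e' he'n he'S he'U
  obtain ⟨f, hf⟩ := bcusp_descend F hFn hFT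
  -- the primitive
  set ω : OnePoint ℚ → OnePoint ℚ → ℚ := fun a b => ω₀ a b + f b - f a with hω
  have hωalt : ∀ a b, ω b a = - ω a b := by
    intro a b
    simp only [hω]
    rw [hω₀alt a b]
    ring
  have hδω : ∀ a b c, Ω a b c = ω a b + ω b c + ω c a := by
    intro a b c
    simp only [hω]
    rw [hδω₀ a b c]
    ring
  have hedge : ∀ g, ω (bAct g OnePoint.infty) (bAct g ((0 : ℚ) : OnePoint ℚ)) = e₁ g := by
    intro g
    have h1 : f (bAct g ((0 : ℚ) : OnePoint ℚ)) = F (g * S) := by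
      rw [← hf (g * S), bke_S_infty]
    have h2 := hFS g
    simp only [hω, h1, hf g]
    simp only [he'] at h2
    linarith
  refine ⟨ω, hωalt, ?_, hδω⟩
  intro γ hγ
  set η : OnePoint ℚ → OnePoint ℚ → ℚ := fun a b => ω (bAct γ a) (bAct γ b) - ω a b with hη
  have hηalt : ∀ a b, η b a = - η a b := by
    intro a b
    simp only [hη]
    rw [hωalt (bAct γ a) (bAct γ b), hωalt a b]
    ring
  have hηcl : ∀ a b c, η a b + η b c + η c a = 0 := by
    intro a b c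
    have h1 := hδω (bAct γ a) (bAct γ b) (bAct γ c)
    have h2 := hδω a b c
    have h3 := hinv γ hγ a b c
    simp only [hη]
    linarith
  have hηedge : ∀ g, η (bAct g OnePoint.infty) (bAct g ((0 : ℚ) : OnePoint ℚ)) = 0 := by
    intro g
    simp only [hη]
    rw [← bAct_mul, ← bAct_mul, hedge, hedge, he₁Γ γ hγ, sub_self]
  have hηk : ∀ a b, η a b = η OnePoint.infty b - η OnePoint.infty a := by
    intro a b
    have h1 := hηcl OnePoint.infty a b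
    have h2 := hηalt OnePoint.infty b
    linarith
  have hK : ∀ g, η OnePoint.infty (bAct g OnePoint.infty) = η OnePoint.infty (bAct 1 OnePoint.infty) := by
    apply bfarey_const (fun g => η OnePoint.infty (bAct g OnePoint.infty))
    · intro g
      show η OnePoint.infty (bAct (g * S) OnePoint.infty) = η OnePoint.infty (bAct g OnePoint.infty)
      have h1 := hηedge g
      rw [hηk] at h1
      rw [bke_S_infty]
      linarith
    · intro g
      show η OnePoint.infty (bAct (g * T) OnePoint.infty) = η OnePoint.infty (bAct g OnePoint.infty)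
      rw [bke_T_infty]
  intro a b
  obtain ⟨ga, rfl⟩ := bcusp_exists a
  obtain ⟨gb, rfl⟩ := bcusp_exists b
  have h1 := hηk (bAct ga OnePoint.infty) (bAct gb OnePoint.infty)
  rw [hK ga, hK gb, sub_self] at h1
  have h2 : η (bAct ga OnePoint.infty) (bAct gb OnePoint.infty) =
      ω (bAct γ (bAct ga OnePoint.infty)) (bAct γ (bAct gb OnePoint.infty)) -
        ω (bAct ga OnePoint.infty) (bAct gb OnePoint.infty) := rfl
  linarith

end Main

section General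

/-- the subgroup `Γ ∪ -Γ` -/
def bkePm (Γ : Subgroup SL(2, ℤ)) : Subgroup SL(2, ℤ) where
  carrier := {g | g ∈ Γ ∨ -g ∈ Γ}
  mul_mem' := by
    rintro a b (ha | ha) (hb | hb)
    · exact Or.inl (Γ.mul_mem ha hb)
    · refine Or.inr ?_
      have := Γ.mul_mem ha hb
      rwa [mul_neg] at this
    · refine Or.inr ?_
      have := Γ.mul_mem ha hb
      rwa [neg_mul] at this
    · refine Or.inl ?_
      have := Γ.mul_mem ha hb
      rwa [neg_mul_neg] at this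
  one_mem' := Or.inl Γ.one_mem
  inv_mem' := by
    rintro a (ha | ha)
    · exact Or.inl (Γ.inv_mem ha)
    · refine Or.inr ?_
      have := Γ.inv_mem ha
      have h2 : (-a)⁻¹ = -a⁻¹ := by
        rw [inv_eq_iff_mul_eq_one, neg_mul_neg, mul_inv_cancel]
      rwa [h2] at this

theorem bke_le_bkPm (Γ : Subgroup SL(2, ℤ)) : Γ ≤ bkePm Γ := fun _ h => Or.inl h

theorem bke_neg_one_mem_bkPm (Γ : Subgroup SL(2, ℤ)) : (-1 : SL(2, ℤ)) ∈ bkePm Γ :=
  Or.inr (by rw [neg_neg]; exact Γ.one_mem)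

theorem bke_invariant_bkPm (Γ : Subgroup SL(2, ℤ)) {R : Type*}
    (Ω : OnePoint ℚ → OnePoint ℚ → OnePoint ℚ → R)
    (hinv : ∀ γ ∈ Γ, ∀ a b c, Ω (bAct γ a) (bAct γ b) (bAct γ c) = Ω a b c) :
    ∀ γ ∈ bkePm Γ, ∀ a b c, Ω (bAct γ a) (bAct γ b) (bAct γ c) = Ω a b c := by
  rintro γ (hγ | hγ) a b c
  · exact hinv γ hγ a b c
  · have := hinv _ hγ a b c
    rwa [bAct_neg, bAct_neg, bAct_neg] at this

/-- the sum over `Γ\G` of a `Γ ∪ -Γ`-invariant function is a multiple of the sum over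
`(Γ ∪ -Γ)\G` -/
theorem bke_bSum_bkPm (Γ : Subgroup SL(2, ℤ)) [Γ.FiniteIndex] [(bkePm Γ).FiniteIndex]
    (E : SL(2, ℤ) → ℚ) (hE : ∀ γ ∈ bkePm Γ, ∀ g, E (γ * g) = E g) (h0 : bSum Γ E = 0) :
    bSum (bkePm Γ) E = 0 := by
  classical
  have h1 := bSum_of_le Γ (bkePm Γ) (bke_le_bkPm Γ) E (fun γ hγ g => hE γ (bke_le_bkPm Γ hγ) g)
  have h2 : (fun g => ∑ᶠ r : ↥(bkePm Γ) ⧸ Γ.subgroupOf (bkePm Γ),
      E (((r.out : ↥(bkePm Γ)) : SL(2, ℤ))⁻¹ * g)) =
      fun g => (Nat.card (↥(bkePm Γ) ⧸ Γ.subgroupOf (bkePm Γ)) : ℚ) * E g := by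
    funext g
    have : Fintype (↥(bkePm Γ) ⧸ Γ.subgroupOf (bkePm Γ)) :=
      Subgroup.fintypeQuotientOfFiniteIndex
    rw [finsum_eq_sum_of_fintype]
    have h3 : ∀ r : ↥(bkePm Γ) ⧸ Γ.subgroupOf (bkePm Γ),
        E (((r.out : ↥(bkePm Γ)) : SL(2, ℤ))⁻¹ * g) = E g :=
      fun r => hE _ ((bkePm Γ).inv_mem (r.out).2) g
    simp only [h3]
    rw [Finset.sum_const, Finset.card_univ, nsmul_eq_mul, Nat.card_eq_fintype_card]
  rw [h2] at h1
  have : Fintype (SL(2, ℤ) ⧸ bkePm Γ) := Subgroup.fintypeQuotientOfFiniteIndex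
  rw [bSum_eq_sum (bkePm Γ), ← Finset.mul_sum, ← bSum_eq_sum (bkePm Γ), h0] at h1
  have hne : (Nat.card (↥(bkePm Γ) ⧸ Γ.subgroupOf (bkePm Γ)) : ℚ) ≠ 0 := by
    have : Finite (↥(bkePm Γ) ⧸ Γ.subgroupOf (bkePm Γ)) :=
      Subgroup.finite_quotient_of_finiteIndex
    exact_mod_cast (Nat.card_pos (α := ↥(bkePm Γ) ⧸ Γ.subgroupOf (bkePm Γ))).ne'
  rcases mul_eq_zero.1 h1.symm with h | h
  · exact absurd h hne
  · exact h

end General

/-- **INJ**: a `Γ`-invariant alternating 2-cocycle on the cusps with zero sum over the Farey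
triangles mod `Γ` is the coboundary of a `Γ`-invariant alternating 1-cochain. -/
theorem bkey_exact (Γ : Subgroup SL(2, ℤ)) [Γ.FiniteIndex]
    (Ω : OnePoint ℚ → OnePoint ℚ → OnePoint ℚ → ℚ)
    (h12 : ∀ a b c, Ω b a c = - Ω a b c) (h23 : ∀ a b c, Ω a c b = - Ω a b c)
    (hcoc : ∀ a b c d, Ω b c d - Ω a c d + Ω a b d - Ω a b c = 0)
    (hinv : ∀ γ ∈ Γ, ∀ a b c, Ω (bAct γ a) (bAct γ b) (bAct γ c) = Ω a b c)
    (hsum : bSum Γ (bTri Ω) = 0) :
    ∃ ω : OnePoint ℚ → OnePoint ℚ → ℚ, (∀ a b, ω b a = - ω a b) ∧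
      (∀ γ ∈ Γ, ∀ a b, ω (bAct γ a) (bAct γ b) = ω a b) ∧
      ∀ a b c, Ω a b c = ω a b + ω b c + ω c a := by
  have hfi : (bkePm Γ).FiniteIndex := Subgroup.finiteIndex_of_le (bke_le_bkPm Γ)
  have hinv' := bke_invariant_bkPm Γ Ω hinv
  have hsum' : bSum (bkePm Γ) (bTri Ω) = 0 :=
    bke_bSum_bkPm Γ (bTri Ω) (bke_bTri_invariant (bkePm Γ) Ω hinv') hsum
  obtain ⟨ω, h1, h2, h3⟩ :=
    bkey_exact_of_neg (bkePm Γ) (bke_neg_one_mem_bkPm Γ) Ω h12 h23 hcoc hinv' hsum'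
  exact ⟨ω, h1, fun γ hγ => h2 γ (bke_le_bkPm Γ hγ), h3⟩

end Fermat.Agent.S41lib
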