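/-
Item 78 (S41, level raising), block B (duality), piece B-ORIENT (helper3):
the orientation cocycle on `P¹(ℚ)`.
`bOrient a b c = sign (D a b * D b c * D c a)`, `D a b = det (vec a, vec b)`, `vec ∞ = (1,0)`,
`vec x = (x,1)`.  It is alternating, invariant under `GL₂⁺(ℚ)` and a 2-cocycle.
Exact signatures of NOTES/S41_B_signatures.lean.txt.
-/
import Mathlib

set_option autoImplicit false

open scoped MatrixGroups

namespace Fermat.Agent.S41lib

section Sign

/-- the sign of a rational number, as an integer -/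
def bSgn (x : ℚ) : ℤ := (SignType.sign x : ℤ)

lemma bSgn_zero : bSgn 0 = 0 := by simp [bSgn]

lemma bSgn_of_pos {x : ℚ} (h : 0 < x) : bSgn x = 1 := by simp [bSgn, sign_pos h]

lemma bSgn_of_neg {x : ℚ} (h : x < 0) : bSgn x = -1 := by simp [bSgn, sign_neg h]

lemma bSgn_mul (x y : ℚ) : bSgn (x * y) = bSgn x * bSgn y := by
  simp [bSgn, sign_mul]

lemma bSgn_neg (x : ℚ) : bSgn (-x) = - bSgn x := by
  simp [bSgn, Left.sign_neg]

lemma bSgn_mul_self {x : ℚ} (h : x ≠ 0) : bSgn x * bSgn x = 1 := by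
  rcases lt_or_gt_of_ne h with h | h
  · rw [bSgn_of_neg h]; norm_num
  · rw [bSgn_of_pos h]; norm_num

/-- the sign form of a three-term relation -/
lemma bSgn_three_term {P Q R : ℚ} (hP : P ≠ 0) (hQ : Q ≠ 0) (hR : R ≠ 0) (h : P - Q + R = 0) :
    bSgn P - bSgn Q + bSgn R - bSgn P * bSgn Q * bSgn R = 0 := by
  rcases lt_or_gt_of_ne hP with hP | hP <;> rcases lt_or_gt_of_ne hQ with hQ | hQ <;>
    rcases lt_or_gt_of_ne hR with hR | hR
  · rw [bSgn_of_neg hP, bSgn_of_neg hQ, bSgn_of_neg hR]; norm_num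
  · rw [bSgn_of_neg hP, bSgn_of_neg hQ, bSgn_of_pos hR]; norm_num
  · exfalso; linarith
  · rw [bSgn_of_neg hP, bSgn_of_pos hQ, bSgn_of_pos hR]; norm_num
  · rw [bSgn_of_pos hP, bSgn_of_neg hQ, bSgn_of_neg hR]; norm_num
  · exfalso; linarith
  · rw [bSgn_of_pos hP, bSgn_of_pos hQ, bSgn_of_neg hR]; norm_num
  · rw [bSgn_of_pos hP, bSgn_of_pos hQ, bSgn_of_pos hR]; norm_num

end Sign

section Vec

/-- the standard vector of a point of `P¹(ℚ)` -/
def bVec (a : OnePoint ℚ) : ℚ × ℚ := a.elim (1, 0) (fun x => (x, 1))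

@[simp] lemma bVec_infty : bVec OnePoint.infty = (1, 0) := rfl

@[simp] lemma bVec_coe (x : ℚ) : bVec (x : OnePoint ℚ) = (x, 1) := rfl

/-- the determinant of the standard vectors of two points -/
def bDet (a b : OnePoint ℚ) : ℚ := (bVec a).1 * (bVec b).2 - (bVec a).2 * (bVec b).1

lemma bDet_swap (a b : OnePoint ℚ) : bDet b a = - bDet a b := by
  simp only [bDet]; ring

lemma bDet_self (a : OnePoint ℚ) : bDet a a = 0 := by
  simp only [bDet]; ring

lemma bDet_eq_zero_iff (a b : OnePoint ℚ) : bDet a b = 0 ↔ a = b := by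
  cases a with
  | infty =>
    cases b with
    | infty => simp [bDet]
    | coe y => simp [bDet]
  | coe x =>
    cases b with
    | infty => simp [bDet]
    | coe y =>
      simp only [bDet, bVec_coe, mul_one, one_mul, sub_eq_zero]
      exact OnePoint.coe_eq_coe.symm

/-- the Plücker relation -/
lemma bDet_plucker (a b c d : OnePoint ℚ) :
    bDet a b * bDet c d - bDet a c * bDet b d + bDet a d * bDet b c = 0 := by
  simp only [bDet]; ring

/-- the action of `GL₂(ℚ)` on the standard vectors, up to a nonzero scalar -/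
lemma bVec_smul (g : GL (Fin 2) ℚ) (a : OnePoint ℚ) :
    ∃ t : ℚ, t ≠ 0 ∧ g 0 0 * (bVec a).1 + g 0 1 * (bVec a).2 = t * (bVec (g • a)).1 ∧
      g 1 0 * (bVec a).1 + g 1 1 * (bVec a).2 = t * (bVec (g • a)).2 := by
  have hdet : g 0 0 * g 1 1 - g 0 1 * g 1 0 ≠ 0 := by
    have h := g.det_ne_zero
    rwa [Matrix.det_fin_two] at h
  cases a with
  | infty =>
    rw [OnePoint.smul_infty_eq_ite]
    by_cases h : g 1 0 = 0
    · rw [if_pos h]
      refine ⟨g 0 0, ?_, ?_, ?_⟩
      · intro h0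
        apply hdet
        rw [h0, h]; ring
      · simp
      · simp [h]
    · rw [if_neg h]
      refine ⟨g 1 0, h, ?_, ?_⟩
      · simp only [bVec_infty, bVec_coe, mul_one, mul_zero, add_zero]
        rw [mul_comm, div_mul_cancel₀ _ h]
      · simp
  | coe x =>
    rw [OnePoint.smul_some_eq_ite]
    by_cases h : g 1 0 * x + g 1 1 = 0
    · rw [if_pos h]
      refine ⟨g 0 0 * x + g 0 1, ?_, ?_, ?_⟩
      · intro h0
        apply hdet
        have h1 : g 1 1 = - (g 1 0 * x) := by linarith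
        have h2 : g 0 1 = - (g 0 0 * x) := by linarith
        rw [h1, h2]; ring
      · simp
      · simp [h]
    · rw [if_neg h]
      refine ⟨g 1 0 * x + g 1 1, h, ?_, ?_⟩
      · simp only [bVec_coe, mul_one]
        rw [mul_comm (g 1 0 * x + g 1 1), div_mul_cancel₀ _ h]
      · simp

/-- the determinant of two translated points -/
lemma bDet_smul (g : GL (Fin 2) ℚ) (a b : OnePoint ℚ) :
    ∃ s t : ℚ, s ≠ 0 ∧ t ≠ 0 ∧
      s * t * bDet (g • a) (g • b) = (g : Matrix (Fin 2) (Fin 2) ℚ).det * bDet a b := by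
  obtain ⟨s, hs, hs1, hs2⟩ := bVec_smul g a
  obtain ⟨t, ht, ht1, ht2⟩ := bVec_smul g b
  refine ⟨s, t, hs, ht, ?_⟩
  rw [Matrix.det_fin_two]
  simp only [bDet]
  have e1 : s * t * ((bVec (g • a)).1 * (bVec (g • b)).2 - (bVec (g • a)).2 * (bVec (g • b)).1)
      = (s * (bVec (g • a)).1) * (t * (bVec (g • b)).2)
        - (s * (bVec (g • a)).2) * (t * (bVec (g • b)).1) := by ring
  rw [e1, ← hs1, ← hs2, ← ht1, ← ht2]
  ring

end Vec

/-- **the orientation cocycle** on `P¹(ℚ)`: `+1` on positively oriented triples (such as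
`(∞, 0, 1)`), `-1` on negatively oriented ones, `0` if two of the points coincide -/
def bOrient (a b c : OnePoint ℚ) : ℤ := bSgn (bDet a b * bDet b c * bDet c a)

theorem bOrient_base :
    bOrient OnePoint.infty ((0 : ℚ) : OnePoint ℚ) ((1 : ℚ) : OnePoint ℚ) = 1 := by
  have h : bDet OnePoint.infty ((0 : ℚ) : OnePoint ℚ) * bDet ((0 : ℚ) : OnePoint ℚ)
      ((1 : ℚ) : OnePoint ℚ) * bDet ((1 : ℚ) : OnePoint ℚ) OnePoint.infty = 1 := by
    simp [bDet]
  rw [bOrient, h]
  exact bSgn_of_pos one_pos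

theorem bOrient_swap12 (a b c : OnePoint ℚ) : bOrient b a c = - bOrient a b c := by
  rw [bOrient, bOrient, ← bSgn_neg]
  congr 1
  rw [bDet_swap a b, bDet_swap c a, bDet_swap b c]
  ring

theorem bOrient_swap23 (a b c : OnePoint ℚ) : bOrient a c b = - bOrient a b c := by
  rw [bOrient, bOrient, ← bSgn_neg]
  congr 1
  rw [bDet_swap a b, bDet_swap c a, bDet_swap b c]
  ring

lemma bOrient_self12 (a c : OnePoint ℚ) : bOrient a a c = 0 := by
  rw [bOrient, bDet_self, zero_mul, zero_mul, bSgn_zero]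

lemma bOrient_self23 (a b : OnePoint ℚ) : bOrient a b b = 0 := by
  rw [bOrient, bDet_self, mul_zero, zero_mul, bSgn_zero]

lemma bOrient_self13 (a b : OnePoint ℚ) : bOrient a b a = 0 := by
  rw [bOrient, bDet_self, mul_zero, bSgn_zero]

theorem bOrient_smul (g : GL (Fin 2) ℚ) (hg : 0 < (g : Matrix (Fin 2) (Fin 2) ℚ).det)
    (a b c : OnePoint ℚ) : bOrient (g • a) (g • b) (g • c) = bOrient a b c := by
  obtain ⟨s, hs, hs1, hs2⟩ := bVec_smul g a
  obtain ⟨t, ht, ht1, ht2⟩ := bVec_smul g b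
  obtain ⟨u, hu, hu1, hu2⟩ := bVec_smul g c
  set δ : ℚ := (g : Matrix (Fin 2) (Fin 2) ℚ).det with hδ
  have hδ' : δ = g 0 0 * g 1 1 - g 0 1 * g 1 0 := by rw [hδ, Matrix.det_fin_two]
  have key : ∀ (a b : OnePoint ℚ) (s t : ℚ),
      g 0 0 * (bVec a).1 + g 0 1 * (bVec a).2 = s * (bVec (g • a)).1 →
      g 1 0 * (bVec a).1 + g 1 1 * (bVec a).2 = s * (bVec (g • a)).2 →
      g 0 0 * (bVec b).1 + g 0 1 * (bVec b).2 = t * (bVec (g • b)).1 →
      g 1 0 * (bVec b).1 + g 1 1 * (bVec b).2 = t * (bVec (g • b)).2 →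
      s * t * bDet (g • a) (g • b) = δ * bDet a b := by
    intro a b s t hs1 hs2 ht1 ht2
    rw [hδ']
    simp only [bDet]
    have e1 : s * t * ((bVec (g • a)).1 * (bVec (g • b)).2 - (bVec (g • a)).2 * (bVec (g • b)).1)
        = (s * (bVec (g • a)).1) * (t * (bVec (g • b)).2)
          - (s * (bVec (g • a)).2) * (t * (bVec (g • b)).1) := by ring
    rw [e1, ← hs1, ← hs2, ← ht1, ← ht2]
    ring
  have hab := key a b s t hs1 hs2 ht1 ht2
  have hbc := key b c t u ht1 ht2 hu1 hu2
  have hca := key c a u s hu1 hu2 hs1 hs2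
  have hprod : (s * t * u) ^ 2 * (bDet (g • a) (g • b) * bDet (g • b) (g • c) * bDet (g • c) (g • a))
      = δ ^ 3 * (bDet a b * bDet b c * bDet c a) := by
    calc (s * t * u) ^ 2 * (bDet (g • a) (g • b) * bDet (g • b) (g • c) * bDet (g • c) (g • a))
        = (s * t * bDet (g • a) (g • b)) * (t * u * bDet (g • b) (g • c))
          * (u * s * bDet (g • c) (g • a)) := by ring
      _ = δ ^ 3 * (bDet a b * bDet b c * bDet c a) := by rw [hab, hbc, hca]; ring
  have h0 : s * t * u ≠ 0 := mul_ne_zero (mul_ne_zero hs ht) hu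
  have h1 : bSgn ((s * t * u) ^ 2) = 1 := bSgn_of_pos (by positivity)
  have h2 : bSgn (δ ^ 3) = 1 := bSgn_of_pos (pow_pos hg 3)
  have h3 := congrArg bSgn hprod
  rw [bSgn_mul, bSgn_mul (δ ^ 3), h1, h2, one_mul, one_mul] at h3
  exact h3

theorem bOrient_cocycle (a b c d : OnePoint ℚ) :
    bOrient b c d - bOrient a c d + bOrient a b d - bOrient a b c = 0 := by
  by_cases hab : a = b
  · subst hab
    rw [bOrient_self12, bOrient_self12]; ring
  by_cases hac : a = c
  · subst hac
    rw [bOrient_self12, bOrient_self13, bOrient_swap12 a b d]; ring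
  by_cases had : a = d
  · subst had
    rw [bOrient_self13, bOrient_self13, bOrient_swap23 b a c, bOrient_swap12 a b c]; ring
  by_cases hbc : b = c
  · subst hbc
    rw [bOrient_self12, bOrient_self23]; ring
  by_cases hbd : b = d
  · subst hbd
    rw [bOrient_self13, bOrient_self23, bOrient_swap23 a c b]; ring
  by_cases hcd : c = d
  · subst hcd
    rw [bOrient_self23, bOrient_self23]; ring
  -- the generic case
  have nab : bDet a b ≠ 0 := fun h => hab ((bDet_eq_zero_iff a b).mp h)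
  have nac : bDet a c ≠ 0 := fun h => hac ((bDet_eq_zero_iff a c).mp h)
  have nad : bDet a d ≠ 0 := fun h => had ((bDet_eq_zero_iff a d).mp h)
  have nbc : bDet b c ≠ 0 := fun h => hbc ((bDet_eq_zero_iff b c).mp h)
  have nbd : bDet b d ≠ 0 := fun h => hbd ((bDet_eq_zero_iff b d).mp h)
  have ncd : bDet c d ≠ 0 := fun h => hcd ((bDet_eq_zero_iff c d).mp h)
  have h3 := bSgn_three_term (mul_ne_zero nab ncd) (mul_ne_zero nac nbd) (mul_ne_zero nad nbc)
    (bDet_plucker a b c d)
  simp only [bSgn_mul] at h3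
  have qab := bSgn_mul_self nab
  have qac := bSgn_mul_self nac
  have qad := bSgn_mul_self nad
  simp only [bOrient, bDet_swap b d, bDet_swap a d, bDet_swap a c, bSgn_mul, bSgn_neg]
  generalize bSgn (bDet a b) = eab at *
  generalize bSgn (bDet a c) = eac at *
  generalize bSgn (bDet a d) = ead at *
  generalize bSgn (bDet b c) = ebc at *
  generalize bSgn (bDet b d) = ebd at *
  generalize bSgn (bDet c d) = ecd at *
  have hE : (ebc * ecd * -ebd - eac * ecd * -ead + eab * ebd * -ead - eab * ebc * -eac)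
      * (eab * eac * ead) = eab * ecd - eac * ebd + ead * ebc - eab * ecd * (eac * ebd) * (ead * ebc) := by
    linear_combination (eab * ecd) * (ead * ead * qac + qad) - (eac * ebd) * (ead * ead * qab + qad)
      + (ead * ebc) * (eac * eac * qab + qac)
  rw [h3] at hE
  have hu : eab * eac * ead ≠ 0 := by
    intro h0
    have : (eab * eac * ead) * (eab * eac * ead) = 1 := by
      calc (eab * eac * ead) * (eab * eac * ead) = (eab * eab) * (eac * eac) * (ead * ead) := by ring
        _ = 1 := by rw [qab, qac, qad]; norm_num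
    rw [h0, mul_zero] at this
    exact zero_ne_one this
  exact (mul_eq_zero.mp hE).resolve_right hu

end Fermat.Agent.S41lib
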