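import Mathlib
import Fermat.Agent.S41lib.BDefs
import Fermat.Agent.S41lib.BOrient
import Fermat.Agent.S41lib.BCusp
import Fermat.Agent.S41lib.BSum
import Fermat.Agent.S41lib.BKeyExact

/-!
# Item 78 (S41), block B, piece B-KEY (KEY): `bkey_sum_eq`  (helper14)

The sum of a `Γ`-invariant alternating 2-cocycle `Ω` on the cusps over the `w`-translated Farey
triangles mod `Γ` equals its sum over the Farey triangles mod `Γ`, for `w ∈ GL₂⁺(ℚ)` normalising
`Γ`.

Proof: subtract the multiple `c · bOrient` of the orientation cocycle which makes the Farey sum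
zero; by `bkey_exact` the difference is the coboundary of a `Γ`-invariant alternating 1-cochain
`ω`, whose sum over any `Γ`-invariant triangulation vanishes (every edge occurs twice, with
opposite orientations); and `bOrient` is `1` on every Farey triangle and on every `w`-translated
Farey triangle.
-/

set_option autoImplicit false

open CongruenceSubgroup Matrix.SpecialLinearGroup ModularCurve.Period ModularGroup
open scoped MatrixGroups

namespace Fermat.Agent.S41lib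

/-- `bSum` of a constant -/
theorem bks_bSum_const (Γ : Subgroup SL(2, ℤ)) [Γ.FiniteIndex] (c : ℚ) :
    bSum Γ (fun _ => c) = (Nat.card (SL(2, ℤ) ⧸ Γ) : ℚ) * c := by
  classical
  letI : Fintype (SL(2, ℤ) ⧸ Γ) := Fintype.ofFinite _
  rw [bSum_eq_sum, Finset.sum_const, Finset.card_univ, Nat.card_eq_fintype_card, nsmul_eq_mul]

theorem bks_card_ne_zero (Γ : Subgroup SL(2, ℤ)) [Γ.FiniteIndex] :
    (Nat.card (SL(2, ℤ) ⧸ Γ) : ℚ) ≠ 0 := by
  have : Finite (SL(2, ℤ) ⧸ Γ) := Subgroup.finite_quotient_of_finiteIndex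
  exact_mod_cast (Nat.card_pos (α := SL(2, ℤ) ⧸ Γ)).ne'

/-- `bSum` is `ℚ`-homogeneous -/
theorem bks_bSum_mul (Γ : Subgroup SL(2, ℤ)) [Γ.FiniteIndex] (c : ℚ) (E : SL(2, ℤ) → ℚ) :
    bSum Γ (fun g => c * E g) = c * bSum Γ E :=
  bSum_map Γ (AddMonoidHom.mulLeft c) E

theorem bks_bSum_sub (Γ : Subgroup SL(2, ℤ)) [Γ.FiniteIndex] (E E' : SL(2, ℤ) → ℚ) :
    bSum Γ (fun g => E g - E' g) = bSum Γ E - bSum Γ E' := by
  have h1 : (fun g => E g - E' g) = fun g => E g + (fun g => - E' g) g := by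
    funext g
    ring
  rw [h1, bSum_add, bSum_neg]
  ring

/-- the determinant of `mapGL ℚ g` is `1` -/
theorem bks_det_mapGL (g : SL(2, ℤ)) :
    ((mapGL ℚ g : GL (Fin 2) ℚ) : Matrix (Fin 2) (Fin 2) ℚ).det = 1 := by
  have h := Matrix.SpecialLinearGroup.det_coe (Matrix.SpecialLinearGroup.map (Int.castRingHom ℚ) g)
  simpa [mapGL] using h

/-- the orientation cocycle is `1` on every `w`-translated Farey triangle -/
theorem bks_bOrient_tri (w : GL (Fin 2) ℚ) (hw : 0 < (w : Matrix (Fin 2) (Fin 2) ℚ).det)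
    (g : SL(2, ℤ)) :
    bOrient (w • bAct g OnePoint.infty) (w • bAct g ((0 : ℚ) : OnePoint ℚ))
      (w • bAct g ((1 : ℚ) : OnePoint ℚ)) = 1 := by
  have h1 : 0 < ((w * mapGL ℚ g : GL (Fin 2) ℚ) : Matrix (Fin 2) (Fin 2) ℚ).det := by
    rw [Units.val_mul, Matrix.det_mul, bks_det_mapGL, mul_one]
    exact hw
  have h2 := bOrient_smul (w * mapGL ℚ g) h1 OnePoint.infty ((0 : ℚ) : OnePoint ℚ)
    ((1 : ℚ) : OnePoint ℚ)
  rw [bOrient_base] at h2
  simpa [bAct, mul_smul] using h2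

/-- the relation `w γ = θ(γ) w` on cusps -/
theorem bks_smul_bAct (Γ : Subgroup SL(2, ℤ)) (w : GL (Fin 2) ℚ) (θ : Γ →* Γ)
    (hθ : ∀ γ : Γ, w * mapGL ℚ (γ : SL(2, ℤ)) = mapGL ℚ ((θ γ : Γ) : SL(2, ℤ)) * w)
    (γ : Γ) (c : OnePoint ℚ) :
    w • bAct (γ : SL(2, ℤ)) c = bAct ((θ γ : Γ) : SL(2, ℤ)) (w • c) := by
  unfold bAct
  rw [← mul_smul, hθ γ, mul_smul]

/-- the rational version of `bkey_sum_eq` -/
theorem bkey_sum_eq_rat (Γ : Subgroup SL(2, ℤ)) [Γ.FiniteIndex] (w : GL (Fin 2) ℚ)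
    (hw : 0 < (w : Matrix (Fin 2) (Fin 2) ℚ).det) (θ : Γ →* Γ)
    (hθ : ∀ γ : Γ, w * mapGL ℚ (γ : SL(2, ℤ)) = mapGL ℚ ((θ γ : Γ) : SL(2, ℤ)) * w)
    (Ω : OnePoint ℚ → OnePoint ℚ → OnePoint ℚ → ℚ)
    (h12 : ∀ a b c, Ω b a c = - Ω a b c) (h23 : ∀ a b c, Ω a c b = - Ω a b c)
    (hcoc : ∀ a b c d, Ω b c d - Ω a c d + Ω a b d - Ω a b c = 0)
    (hinv : ∀ γ ∈ Γ, ∀ a b c, Ω (bAct γ a) (bAct γ b) (bAct γ c) = Ω a b c) :
    bSum Γ (bTri (fun a b c => Ω (w • a) (w • b) (w • c))) = bSum Γ (bTri Ω) := by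
  set μ : ℚ := (Nat.card (SL(2, ℤ) ⧸ Γ) : ℚ) with hμ
  have hμ0 : μ ≠ 0 := bks_card_ne_zero Γ
  set c : ℚ := bSum Γ (bTri Ω) / μ with hc
  -- the corrected cocycle
  set Ω' : OnePoint ℚ → OnePoint ℚ → OnePoint ℚ → ℚ :=
    fun a b d => Ω a b d - c * (bOrient a b d : ℚ) with hΩ'
  have h12' : ∀ a b d, Ω' b a d = - Ω' a b d := by
    intro a b d
    simp only [hΩ', h12 a b d, bOrient_swap12 a b d]
    push_cast
    ring
  have h23' : ∀ a b d, Ω' a d b = - Ω' a b d := by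
    intro a b d
    simp only [hΩ', h23 a b d, bOrient_swap23 a b d]
    push_cast
    ring
  have hcoc' : ∀ a b d e, Ω' b d e - Ω' a d e + Ω' a b e - Ω' a b d = 0 := by
    intro a b d e
    have h1 := hcoc a b d e
    have h2 : ((bOrient b d e : ℤ) : ℚ) - (bOrient a d e : ℚ) + (bOrient a b e : ℚ)
        - (bOrient a b d : ℚ) = 0 := by
      exact_mod_cast bOrient_cocycle a b d e
    simp only [hΩ']
    linear_combination h1 - c * h2
  have hinv' : ∀ γ ∈ Γ, ∀ a b d, Ω' (bAct γ a) (bAct γ b) (bAct γ d) = Ω' a b d := by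
    intro γ hγ a b d
    have h1 : bOrient (bAct γ a) (bAct γ b) (bAct γ d) = bOrient a b d := by
      unfold bAct
      exact bOrient_smul _ (by rw [bks_det_mapGL]; exact one_pos) a b d
    simp only [hΩ', hinv γ hγ a b d, h1]
  have htri : ∀ g, bTri Ω' g = bTri Ω g - c * 1 := by
    intro g
    have h1 := bks_bOrient_tri 1 (by simp) g
    simp only [one_smul] at h1
    simp only [bTri, hΩ', h1]
    push_cast
    ring
  have hsum' : bSum Γ (bTri Ω') = 0 := by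
    have h1 : bTri Ω' = fun g => bTri Ω g - (fun _ => c * 1) g := funext htri
    rw [h1, bks_bSum_sub, bks_bSum_const, ← hμ, hc]
    field_simp
    ring
  obtain ⟨ω, hω1, hω2, hω3⟩ := bkey_exact Γ Ω' h12' h23' hcoc' hinv' hsum'
  -- the edge function of the translated triangulation
  set E : SL(2, ℤ) → ℚ :=
    fun g => ω (w • bAct g OnePoint.infty) (w • bAct g ((0 : ℚ) : OnePoint ℚ)) with hE
  have hEinv : ∀ γ ∈ Γ, ∀ g, E (γ * g) = E g := by
    intro γ hγ g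
    simp only [hE, bAct_mul]
    rw [bks_smul_bAct Γ w θ hθ ⟨γ, hγ⟩, bks_smul_bAct Γ w θ hθ ⟨γ, hγ⟩]
    exact hω2 _ (θ ⟨γ, hγ⟩).2 _ _
  have hES : ∀ g, E (g * S) = - E g := by
    intro g
    simp only [hE, bAct_mul, bAct_S_infty, bAct_S_zero]
    exact hω1 _ _
  have hEsum : bSum Γ E = 0 := by
    have h1 := bSum_mul_right Γ E hEinv S
    have h2 : (fun g => E (g * S)) = fun g => - E g := funext hES
    rw [h2, bSum_neg] at h1
    linarith
  have hEU : ∀ g, E (g * (S * T⁻¹)) = ω (w • bAct g ((0 : ℚ) : OnePoint ℚ))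
      (w • bAct g ((1 : ℚ) : OnePoint ℚ)) := by
    intro g
    show ω (w • bAct (g * (S * T⁻¹)) OnePoint.infty)
      (w • bAct (g * (S * T⁻¹)) ((0 : ℚ) : OnePoint ℚ)) = _
    rw [bAct_mul g (S * T⁻¹), bAct_mul g (S * T⁻¹), bAct_U_infty, bAct_U_zero]
  have hEUU : ∀ g, E (g * ((S * T⁻¹) * (S * T⁻¹))) = ω (w • bAct g ((1 : ℚ) : OnePoint ℚ))
      (w • bAct g OnePoint.infty) := by
    intro g
    show ω (w • bAct (g * ((S * T⁻¹) * (S * T⁻¹))) OnePoint.infty)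
      (w • bAct (g * ((S * T⁻¹) * (S * T⁻¹))) ((0 : ℚ) : OnePoint ℚ)) = _
    rw [bAct_mul g ((S * T⁻¹) * (S * T⁻¹)), bAct_mul g ((S * T⁻¹) * (S * T⁻¹)),
      bAct_mul (S * T⁻¹) (S * T⁻¹), bAct_mul (S * T⁻¹) (S * T⁻¹), bAct_U_infty, bAct_U_zero,
      bAct_U_one]
  have htri' : ∀ g, bTri (fun a b d => Ω' (w • a) (w • b) (w • d)) g
      = E g + (fun g => E (g * (S * T⁻¹))) g
        + (fun g => E (g * ((S * T⁻¹) * (S * T⁻¹)))) g := by
    intro g
    simp only [hEU, hEUU]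
    simp only [bTri, hω3, hE]
  have hsumw' : bSum Γ (bTri (fun a b d => Ω' (w • a) (w • b) (w • d))) = 0 := by
    have h1 : bTri (fun a b d => Ω' (w • a) (w • b) (w • d))
        = fun g => (fun g => E g + (fun g => E (g * (S * T⁻¹))) g) g
          + (fun g => E (g * ((S * T⁻¹) * (S * T⁻¹)))) g := funext htri'
    rw [h1, bSum_add, bSum_add, bSum_mul_right Γ E hEinv, bSum_mul_right Γ E hEinv, hEsum]
    ring
  -- conclusion
  have htriw : ∀ g, bTri (fun a b d => Ω (w • a) (w • b) (w • d)) g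
      = bTri (fun a b d => Ω' (w • a) (w • b) (w • d)) g + (fun _ => c * 1) g := by
    intro g
    have h1 := bks_bOrient_tri w hw g
    simp only [bTri, hΩ', h1]
    push_cast
    ring
  have h1 : bTri (fun a b d => Ω (w • a) (w • b) (w • d))
      = fun g => bTri (fun a b d => Ω' (w • a) (w • b) (w • d)) g + (fun _ => c * 1) g :=
    funext htriw
  rw [h1, bSum_add, hsumw', bks_bSum_const, ← hμ, hc]
  field_simp
  ring

/-- **KEY**: the sum over the `w`-translated Farey triangles equals the sum over the Farey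
triangles (`w ∈ GL₂⁺(ℚ)` normalising `Γ`) -/
theorem bkey_sum_eq (Γ : Subgroup SL(2, ℤ)) [Γ.FiniteIndex] (w : GL (Fin 2) ℚ)
    (hw : 0 < (w : Matrix (Fin 2) (Fin 2) ℚ).det) (θ : Γ →* Γ)
    (hθ : ∀ γ : Γ, w * mapGL ℚ (γ : SL(2, ℤ)) = mapGL ℚ ((θ γ : Γ) : SL(2, ℤ)) * w)
    (Ω : OnePoint ℚ → OnePoint ℚ → OnePoint ℚ → ℤ)
    (h12 : ∀ a b c, Ω b a c = - Ω a b c) (h23 : ∀ a b c, Ω a c b = - Ω a b c)
    (hcoc : ∀ a b c d, Ω b c d - Ω a c d + Ω a b d - Ω a b c = 0)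
    (hinv : ∀ γ ∈ Γ, ∀ a b c, Ω (bAct γ a) (bAct γ b) (bAct γ c) = Ω a b c) :
    bSum Γ (bTri (fun a b c => Ω (w • a) (w • b) (w • c))) = bSum Γ (bTri Ω) := by
  have key := bkey_sum_eq_rat Γ w hw θ hθ (fun a b c => (Ω a b c : ℚ))
    (fun a b c => by simp only [h12 a b c]; push_cast; ring)
    (fun a b c => by simp only [h23 a b c]; push_cast; ring)
    (fun a b c d => by exact_mod_cast hcoc a b c d)
    (fun γ hγ a b c => by simp only [hinv γ hγ a b c])
  have h1 : bTri (fun a b c => ((Ω (w • a) (w • b) (w • c) : ℤ) : ℚ))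
      = fun g => Int.castAddHom ℚ (bTri (fun a b c => Ω (w • a) (w • b) (w • c)) g) := rfl
  have h2 : bTri (fun a b c => ((Ω a b c : ℤ) : ℚ))
      = fun g => Int.castAddHom ℚ (bTri Ω g) := rfl
  rw [h1, h2, bSum_map, bSum_map] at key
  exact Int.cast_injective key

end Fermat.Agent.S41lib
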