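import Mathlib
import Fermat.Agent.S41lib.BDefs
import Fermat.Agent.S41lib.BPrim
import Fermat.Agent.S41lib.BKeySum
import Fermat.Agent.S41lib.DegW

/-!
# Item 78 (S41), block B, piece B-KEY (W): `hlPair_degW`  (helper14)

The Atkin–Lehner involution `W_q` is an isometry of the duality pairing `hlPair (N * q)`.

`w = ρ₀ · diag(q,1) ∈ GL₂⁺(ℚ)` normalises `Γ₀(Nq)` (`w γ = θ(γ) w`, helper28's `degWElt_rel`,
transported from `GL₂(ℝ)` to `GL₂(ℚ)`); if `Ψ` is a primitive of `ψ` on the cusps then `Ψ ∘ w` is a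
primitive of `W ψ = ψ ∘ θ`; so the pairing of `W ψ₁, W ψ₂` is the sum of `bOmega Ψ₁ Ψ₂` over the
`w`-translated Farey triangles, which equals the sum over the Farey triangles by `bkey_sum_eq`.
-/

set_option autoImplicit false

open CongruenceSubgroup Matrix.SpecialLinearGroup ModularCurve.Period ModularGroup ModularForm
open Fermat.Agent.S22lib Fermat.Agent.GalRep
open scoped MatrixGroups

namespace Fermat.Agent.S41lib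

noncomputable section

/-- `GL₂(ℚ) → GL₂(ℝ)` -/
def bkwIota : GL (Fin 2) ℚ →* GL (Fin 2) ℝ := Matrix.GeneralLinearGroup.map (algebraMap ℚ ℝ)

theorem bkwIota_injective : Function.Injective bkwIota := by
  intro a b hab
  apply Units.ext
  ext i j
  have h1 : (bkwIota a) i j = (bkwIota b) i j := by rw [hab]
  simp only [bkwIota, Matrix.GeneralLinearGroup.map_apply] at h1
  exact (algebraMap ℚ ℝ).injective h1

theorem bkwIota_mapGL (g : SL(2, ℤ)) : bkwIota (mapGL ℚ g) = mapGL ℝ g :=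
  Matrix.SpecialLinearGroup.map_mapGL (R := ℤ) (S := ℚ) (T := ℝ) g

/-- `diag(q,1) ∈ GL₂(ℚ)` -/
def bkwDiag (q : ℕ) [NeZero q] : GL (Fin 2) ℚ :=
  Matrix.GeneralLinearGroup.mkOfDetNeZero !![(q : ℚ), 0; 0, 1]
    (by
      rw [Matrix.det_fin_two_of, mul_one, mul_zero, sub_zero]
      exact_mod_cast NeZero.ne q)

theorem bkwDiag_val (q : ℕ) [NeZero q] :
    ((bkwDiag q : GL (Fin 2) ℚ) : Matrix (Fin 2) (Fin 2) ℚ) = !![(q : ℚ), 0; 0, 1] := rfl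

theorem bkwIota_diag (q : ℕ) [NeZero q] : bkwIota (bkwDiag q) = heckeDiagMatrix q := by
  apply Units.ext
  rw [val_heckeDiagMatrix (NeZero.ne q)]
  ext i j
  have h1 : ((bkwIota (bkwDiag q) : GL (Fin 2) ℝ) : Matrix (Fin 2) (Fin 2) ℝ) i j
      = algebraMap ℚ ℝ ((bkwDiag q : GL (Fin 2) ℚ) i j) :=
    Matrix.GeneralLinearGroup.map_apply _ _ _ _
  rw [h1]
  change algebraMap ℚ ℝ ((!![(q : ℚ), 0; 0, 1] : Matrix (Fin 2) (Fin 2) ℚ) i j) = _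
  fin_cases i <;> fin_cases j <;> simp

/-- the Atkin–Lehner element `w = ρ₀ · diag(q,1)` in `GL₂(ℚ)` -/
def bkwElt (N q : ℕ) [NeZero N] [NeZero q] (h : Nat.Coprime q N) : GL (Fin 2) ℚ :=
  mapGL ℚ ((degRho N q h : Gamma0 N) : SL(2, ℤ)) * bkwDiag q

theorem bkwIota_elt (N q : ℕ) [NeZero N] [NeZero q] (h : Nat.Coprime q N) :
    bkwIota (bkwElt N q h) = degWElt N q h := by
  rw [bkwElt, map_mul, bkwIota_mapGL, bkwIota_diag]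
  rfl

theorem bkwElt_det_pos (N q : ℕ) [NeZero N] [NeZero q] (h : Nat.Coprime q N) :
    0 < ((bkwElt N q h : GL (Fin 2) ℚ) : Matrix (Fin 2) (Fin 2) ℚ).det := by
  rw [bkwElt, Units.val_mul, Matrix.det_mul, bks_det_mapGL, one_mul, bkwDiag_val,
    Matrix.det_fin_two_of, mul_one, mul_zero, sub_zero]
  exact_mod_cast Nat.pos_of_ne_zero (NeZero.ne q)

/-- `w γ = θ(γ) w` in `GL₂(ℚ)` -/
theorem bkwElt_rel (N q : ℕ) [NeZero N] [NeZero q] (h : Nat.Coprime q N) (γ : Gamma0 (N * q)) :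
    bkwElt N q h * mapGL ℚ (γ : SL(2, ℤ))
      = mapGL ℚ ((degTheta N q h γ : Gamma0 (N * q)) : SL(2, ℤ)) * bkwElt N q h := by
  apply bkwIota_injective
  rw [map_mul, map_mul, bkwIota_mapGL, bkwIota_mapGL, bkwIota_elt]
  exact degWElt_rel h γ

/-- `Ψ ∘ w` is a primitive of `W ψ` -/
theorem bkw_isBPrim (N q : ℕ) [NeZero N] [NeZero q] (h : Nat.Coprime q N)
    {ψ : Additive (Gamma0 (N * q)) →+ ℤ} {Ψ : OnePoint ℚ → ℤ}
    (hΨ : IsBPrim (Gamma0 (N * q)) ψ Ψ) :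
    IsBPrim (Gamma0 (N * q)) (degW N q h ℤ ψ) (fun c => Ψ (bkwElt N q h • c)) := by
  intro γ c
  show Ψ (bkwElt N q h • bAct (γ : SL(2, ℤ)) c) = Ψ (bkwElt N q h • c) + _
  rw [bks_smul_bAct (Gamma0 (N * q)) (bkwElt N q h) (degTheta N q h) (bkwElt_rel N q h) γ c,
    hΨ (degTheta N q h γ) (bkwElt N q h • c), degW_apply]

theorem bkw_bOmega_cocycle {R : Type*} [CommRing R] (Φ Ψ : OnePoint ℚ → R)
    (a b c d : OnePoint ℚ) :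
    bOmega Φ Ψ b c d - bOmega Φ Ψ a c d + bOmega Φ Ψ a b d - bOmega Φ Ψ a b c = 0 := by
  unfold bOmega
  ring

theorem bkw_bOmega_swap12 {R : Type*} [CommRing R] (Φ Ψ : OnePoint ℚ → R)
    (a b c : OnePoint ℚ) : bOmega Φ Ψ b a c = - bOmega Φ Ψ a b c := by
  unfold bOmega
  ring

theorem bkw_bOmega_swap23 {R : Type*} [CommRing R] (Φ Ψ : OnePoint ℚ → R)
    (a b c : OnePoint ℚ) : bOmega Φ Ψ a c b = - bOmega Φ Ψ a b c := by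
  unfold bOmega
  ring

theorem bkw_bOmega_invariant (Γ : Subgroup SL(2, ℤ)) {R : Type*} [CommRing R]
    {φ ψ : Additive Γ →+ R} {Φ Ψ : OnePoint ℚ → R} (hΦ : IsBPrim Γ φ Φ) (hΨ : IsBPrim Γ ψ Ψ)
    (γ : SL(2, ℤ)) (hγ : γ ∈ Γ) (a b c : OnePoint ℚ) :
    bOmega Φ Ψ (bAct γ a) (bAct γ b) (bAct γ c) = bOmega Φ Ψ a b c :=
  bprim_bOmega_add_const Φ Ψ (φ (Additive.ofMul ⟨γ, hγ⟩)) (ψ (Additive.ofMul ⟨γ, hγ⟩)) a b c _ _ _
    (hΦ ⟨γ, hγ⟩ a) (hΦ ⟨γ, hγ⟩ b) (hΦ ⟨γ, hγ⟩ c) (hΨ ⟨γ, hγ⟩ a) (hΨ ⟨γ, hγ⟩ b) (hΨ ⟨γ, hγ⟩ c)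

/-- `W_q` is an isometry of `bForm3` -/
theorem bForm3_degW (N q : ℕ) [NeZero N] [NeZero q] (h : Nat.Coprime q N)
    {ψ₁ ψ₂ : Additive (Gamma0 (N * q)) →+ ℤ} (h₁ : IsParabolicHom (Gamma0 (N * q)) ψ₁)
    (h₂ : IsParabolicHom (Gamma0 (N * q)) ψ₂) :
    bForm3 (Gamma0 (N * q)) (degW N q h ℤ ψ₁) (degW N q h ℤ ψ₂)
      = bForm3 (Gamma0 (N * q)) ψ₁ ψ₂ := by
  obtain ⟨Ψ₁, hΨ₁⟩ := exists_isBPrim (Gamma0 (N * q)) ψ₁ h₁
  obtain ⟨Ψ₂, hΨ₂⟩ := exists_isBPrim (Gamma0 (N * q)) ψ₂ h₂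
  rw [bForm3_eq (Gamma0 (N * q)) (bkw_isBPrim N q h hΨ₁) (bkw_isBPrim N q h hΨ₂),
    bForm3_eq (Gamma0 (N * q)) hΨ₁ hΨ₂]
  exact bkey_sum_eq (Gamma0 (N * q)) (bkwElt N q h) (bkwElt_det_pos N q h) (degTheta N q h)
    (bkwElt_rel N q h) (bOmega Ψ₁ Ψ₂) (bkw_bOmega_swap12 Ψ₁ Ψ₂) (bkw_bOmega_swap23 Ψ₁ Ψ₂)
    (bkw_bOmega_cocycle Ψ₁ Ψ₂)
    (fun γ hγ a b c => bkw_bOmega_invariant (Gamma0 (N * q)) hΨ₁ hΨ₂ γ hγ a b c)

/-- **`W_q` is an isometry of the duality pairing** -/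
theorem hlPair_degW (N q : ℕ) [NeZero N] [NeZero q] (h : Nat.Coprime q N)
    {ψ₁ ψ₂ : Additive (Gamma0 (N * q)) →+ ℤ} (h₁ : IsParabolicHom (Gamma0 (N * q)) ψ₁)
    (h₂ : IsParabolicHom (Gamma0 (N * q)) ψ₂) :
    hlPair (N * q) (degW N q h ℤ ψ₁) (degW N q h ℤ ψ₂) = hlPair (N * q) ψ₁ ψ₂ := by
  unfold hlPair
  rw [bForm3_degW N q h h₁ h₂]

end

end Fermat.Agent.S41lib
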