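import Mathlib
import Fermat.Agent.S41lib.BDefs
import Fermat.Agent.S41lib.DegPar

/-!
# Item 78 (S41), block B, piece B-OUT (part 1): formal consequences

From `hlPair_antisymm`, `hlPair_degRes_degCores` (B-ADJ) and `hlPair_degW` (B-KEY), stated here as
`Prop`s (`BAntisymmStatement`, `BAdjStatement`, `BIsomStatement`), and helper28's DEG identities:

* `hlPair_degResq_degCoresq_of`: `resq ⊣ coresq`;
* `hlPair_heckeHom_of`: `T_ℓ` is self-adjoint (`ℓ ∤ N`).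
-/

set_option autoImplicit false

open CongruenceSubgroup Matrix.SpecialLinearGroup ModularCurve.Period ModularGroup
open Fermat.Agent.GalRep
open scoped MatrixGroups

namespace Fermat.Agent.S41lib

/-- the hypotheses (landed separately as `hlPair_antisymm`, `hlPair_degRes_degCores`,
`hlPair_degW`) in `Prop` form -/
def BAntisymmStatement : Prop :=
  ∀ (N : ℕ) [NeZero N] {φ ψ : Additive (Gamma0 N) →+ ℤ}, IsParabolicHom (Gamma0 N) φ →
    IsParabolicHom (Gamma0 N) ψ → hlPair N ψ φ = - hlPair N φ ψ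

def BAdjStatement : Prop :=
  ∀ (N q : ℕ) [NeZero N] [NeZero q] {φ : Additive (Gamma0 N) →+ ℤ}
    {ψ : Additive (Gamma0 (N * q)) →+ ℤ}, IsParabolicHom (Gamma0 N) φ →
    IsParabolicHom (Gamma0 (N * q)) ψ →
    hlPair (N * q) (degRes N q ℤ φ) ψ = hlPair N φ (degCores N q ℤ ψ)

def BIsomStatement : Prop :=
  ∀ (N q : ℕ) [NeZero N] [NeZero q] (h : Nat.Coprime q N)
    {ψ₁ ψ₂ : Additive (Gamma0 (N * q)) →+ ℤ}, IsParabolicHom (Gamma0 (N * q)) ψ₁ →
    IsParabolicHom (Gamma0 (N * q)) ψ₂ →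
    hlPair (N * q) (degW N q h ℤ ψ₁) (degW N q h ℤ ψ₂) = hlPair (N * q) ψ₁ ψ₂

theorem hlPair_degResq_degCoresq_of (hadj : BAdjStatement) (hW : BIsomStatement)
    (N q : ℕ) [NeZero N] [NeZero q] (hq : q.Prime) (hqN : ¬ q ∣ N)
    {φ : Additive (Gamma0 N) →+ ℤ} {ψ : Additive (Gamma0 (N * q)) →+ ℤ}
    (hφ : IsParabolicHom (Gamma0 N) φ) (hψ : IsParabolicHom (Gamma0 (N * q)) ψ) :
    hlPair (N * q) (degResq N q ℤ φ) ψ = hlPair N φ (degCoresq N q ℤ ψ) := by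
  have h : Nat.Coprime q N := (Nat.Prime.coprime_iff_not_dvd hq).mpr hqN
  have h1 : hlPair (N * q) (degResq N q ℤ φ) ψ
      = hlPair (N * q) (degW N q h ℤ (degRes N q ℤ φ)) (degW N q h ℤ (degW N q h ℤ ψ)) := by
    rw [degW_degRes, degW_degW]
  rw [h1, hW N q h (degRes_isParabolicHom hφ) (degW_isParabolicHom h hψ),
    hadj N q hφ (degW_isParabolicHom h hψ), degCoresq_apply h]

theorem hlPair_heckeHom_of (hanti : BAntisymmStatement) (hadj : BAdjStatement)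
    (hW : BIsomStatement) (N : ℕ) [NeZero N] (ℓ : Nat.Primes) (hℓ : ¬ (ℓ : ℕ) ∣ N)
    {φ ψ : Additive (Gamma0 N) →+ ℤ} (hφ : IsParabolicHom (Gamma0 N) φ)
    (hψ : IsParabolicHom (Gamma0 N) ψ) :
    hlPair N (heckeHom N ℓ ℤ φ) ψ = hlPair N φ (heckeHom N ℓ ℤ ψ) := by
  have : NeZero (ℓ : ℕ) := ⟨ℓ.2.ne_zero⟩
  have hφq := degResq_isParabolicHom (q := (ℓ : ℕ)) hφ
  have hψr := degRes_isParabolicHom (q := (ℓ : ℕ)) hψ
  rw [← degCores_degResq ℓ hℓ φ, ← degCoresq_degRes ℓ hℓ ψ,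
    ← hlPair_degResq_degCoresq_of hadj hW N ℓ ℓ.2 hℓ hφ hψr,
    hanti N hψ (degCores_isParabolicHom hφq), ← hadj N ℓ hψ hφq]
  rw [hanti (N * ℓ) hψr hφq]

end Fermat.Agent.S41lib
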