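import Mathlib
import Fermat.Agent.S41lib.BOut
import Fermat.Agent.S41lib.BPrim
import Fermat.Agent.S41lib.BAdj
import Fermat.Agent.S41lib.BKeyW

/-!
# Item 78 (S41), block B, piece B-OUT (part 2): the adjunction statements, unconditionally

* `hlPair_degResq_degCoresq`: `resq ⊣ coresq`;
* `hlPair_heckeHom`: `T_ℓ` is self-adjoint (`ℓ ∤ N`).
-/

set_option autoImplicit false

open CongruenceSubgroup Matrix.SpecialLinearGroup ModularCurve.Period ModularGroup
open Fermat.Agent.GalRep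
open scoped MatrixGroups

namespace Fermat.Agent.S41lib

theorem bAntisymmStatement : BAntisymmStatement :=
  fun N _ _ _ hφ hψ => hlPair_antisymm N hφ hψ

theorem bAdjStatement : BAdjStatement :=
  fun N q _ _ _ _ hφ hψ => hlPair_degRes_degCores N q hφ hψ

theorem bIsomStatement : BIsomStatement :=
  fun N q _ _ h _ _ hψ₁ hψ₂ => hlPair_degW N q h hψ₁ hψ₂

theorem hlPair_degResq_degCoresq (N q : ℕ) [NeZero N] [NeZero q] (hq : q.Prime) (hqN : ¬ q ∣ N)
    {φ : Additive (Gamma0 N) →+ ℤ} {ψ : Additive (Gamma0 (N * q)) →+ ℤ}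
    (hφ : IsParabolicHom (Gamma0 N) φ) (hψ : IsParabolicHom (Gamma0 (N * q)) ψ) :
    hlPair (N * q) (degResq N q ℤ φ) ψ = hlPair N φ (degCoresq N q ℤ ψ) :=
  hlPair_degResq_degCoresq_of bAdjStatement bIsomStatement N q hq hqN hφ hψ

theorem hlPair_heckeHom (N : ℕ) [NeZero N] (ℓ : Nat.Primes) (hℓ : ¬ (ℓ : ℕ) ∣ N)
    {φ ψ : Additive (Gamma0 N) →+ ℤ} (hφ : IsParabolicHom (Gamma0 N) φ)
    (hψ : IsParabolicHom (Gamma0 N) ψ) :
    hlPair N (heckeHom N ℓ ℤ φ) ψ = hlPair N φ (heckeHom N ℓ ℤ ψ) :=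
  hlPair_heckeHom_of bAntisymmStatement bAdjStatement bIsomStatement N ℓ hℓ hφ hψ

end Fermat.Agent.S41lib
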