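import Mathlib

namespace Fermat.Agent.S41lib

/-- double orthogonal, in the separating-functional form: in a finite dimensional space with
a left-separating bilinear form, a vector orthogonal to everything orthogonal to `W` is in `W`. -/
theorem dualabs_mem_of_orth {K V : Type*} [Field K] [AddCommGroup V] [Module K V]
    [FiniteDimensional K V]
    (B : V →ₗ[K] V →ₗ[K] K) (hB : ∀ x, (∀ y, B x y = 0) → x = 0)
    (W : Submodule K V) (v₀ : V)
    (h : ∀ x, (∀ w ∈ W, B x w = 0) → B x v₀ = 0) : v₀ ∈ W := by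
  by_contra hv
  obtain ⟨f, hf0, hfW⟩ := Submodule.exists_dual_map_eq_bot_of_notMem hv inferInstance
  have hinj : Function.Injective B := by
    refine (injective_iff_map_eq_zero B).2 fun x hx => hB x fun y => ?_
    rw [hx]; rfl
  have hsurj : Function.Surjective B :=
    (LinearMap.injective_iff_surjective_of_finrank_eq_finrank
      (Subspace.dual_finrank_eq (K := K) (V := V)).symm).1 hinj
  obtain ⟨x, hx⟩ := hsurj f
  apply hf0
  rw [← hx]
  apply h
  intro w hw
  rw [hx]
  have : f w ∈ W.map f := Submodule.mem_map_of_mem hw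
  rw [hfW] at this
  simpa using this


section lattice

variable {L : Type*} [AddCommGroup L] [Module.Free ℤ L] [Module.Finite ℤ L]

/-- reduction modulo `p` of the coordinates in the chosen basis -/
noncomputable def dualabsRed (p : ℕ) (L : Type*) [AddCommGroup L] [Module.Free ℤ L]
    [Module.Finite ℤ L] : L →ₗ[ℤ] (Module.Free.ChooseBasisIndex ℤ L → ZMod p) :=
  ((Int.castAddHom (ZMod p)).toIntLinearMap.compLeft (Module.Free.ChooseBasisIndex ℤ L)).comp
    (Module.Free.chooseBasis ℤ L).equivFun.toLinearMap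

theorem dualabsRed_apply (p : ℕ) (x : L) (i : Module.Free.ChooseBasisIndex ℤ L) :
    dualabsRed p L x i = (((Module.Free.chooseBasis ℤ L).equivFun x i : ℤ) : ZMod p) := rfl

theorem dualabsRed_surjective (p : ℕ) [NeZero p] : Function.Surjective (dualabsRed p L) := by
  intro v
  refine ⟨(Module.Free.chooseBasis ℤ L).equivFun.symm (fun i => ((v i).cast : ℤ)), ?_⟩
  funext i
  rw [dualabsRed_apply, LinearEquiv.apply_symm_apply, ZMod.intCast_zmod_cast]

theorem dualabsRed_eq_zero (p : ℕ) {x : L} (h : dualabsRed p L x = 0) :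
    ∃ x' : L, x = (p : ℤ) • x' := by
  have h1 : ∀ i, (p : ℤ) ∣ (Module.Free.chooseBasis ℤ L).equivFun x i := by
    intro i
    have := congrFun h i
    rw [dualabsRed_apply, Pi.zero_apply, ZMod.intCast_zmod_eq_zero_iff_dvd] at this
    exact this
  refine ⟨(Module.Free.chooseBasis ℤ L).equivFun.symm
    (fun i => (Module.Free.chooseBasis ℤ L).equivFun x i / p), ?_⟩
  rw [← map_smul]
  apply (Module.Free.chooseBasis ℤ L).equivFun.injective
  rw [LinearEquiv.apply_symm_apply]
  funext i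
  rw [Pi.smul_apply, smul_eq_mul, Int.mul_ediv_cancel' (h1 i)]

theorem dualabsRed_smul (p : ℕ) (x : L) : dualabsRed p L ((p : ℤ) • x) = 0 := by
  rw [map_smul]
  funext i
  rw [Pi.smul_apply, Pi.zero_apply, zsmul_eq_mul]
  simp

/-- the Gram matrix modulo `p` -/
noncomputable def dualabsGram (p : ℕ) (B : L →ₗ[ℤ] L →ₗ[ℤ] ℤ) :
    Matrix (Module.Free.ChooseBasisIndex ℤ L) (Module.Free.ChooseBasisIndex ℤ L) (ZMod p) :=
  Matrix.of fun i j => ((B (Module.Free.chooseBasis ℤ L i) (Module.Free.chooseBasis ℤ L j) : ℤ) :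
    ZMod p)

theorem dualabsGram_red (p : ℕ) (B : L →ₗ[ℤ] L →ₗ[ℤ] ℤ) (x y : L) :
    Matrix.toLinearMap₂' (ZMod p) (dualabsGram p B) (dualabsRed p L x) (dualabsRed p L y) =
      ((B x y : ℤ) : ZMod p) := by
  classical
  rw [Matrix.toLinearMap₂'_apply]
  conv_rhs => rw [← LinearMap.sum_repr_mul_repr_mul (Module.Free.chooseBasis ℤ L)
    (Module.Free.chooseBasis ℤ L) x y]
  rw [Finsupp.sum_fintype _ _ (fun i => by simp)]
  rw [Int.cast_sum]
  refine Finset.sum_congr rfl fun i _ => ?_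
  rw [Finsupp.sum_fintype _ _ (fun j => by simp)]
  rw [Int.cast_sum]
  refine Finset.sum_congr rfl fun j _ => ?_
  simp only [dualabsRed_apply, dualabsGram, Matrix.of_apply, smul_eq_mul, Int.cast_mul,
    Module.Basis.equivFun_apply]

/-- **Duality, lattice form.** -/
theorem dualabs_lattice (p : ℕ) (hp : p.Prime)
    {L' : Type*} [AddCommGroup L']
    (B : L →ₗ[ℤ] L →ₗ[ℤ] ℤ) (B' : L' → L' → ℤ) (α : L → L') (α' : L' →+ L) (r : L → L)
    (hnd : ∀ x : L, (∀ y, (p : ℤ) ∣ B x y) → ∃ x', x = (p : ℤ) • x')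
    (hnd' : ∀ x : L', (∀ u, (p : ℤ) ∣ B' x u) → ∃ y', x = (p : ℤ) • y')
    (hadj : ∀ x u, B' (α x) u = B x (α' u))
    (hsa : ∀ x y, B (r x) y = B x (r y))
    (hH : ∀ x, (∃ y', α x = (p : ℤ) • y') → ∃ x', r x = (p : ℤ) • x') :
    ∀ w : L, ∃ (u : L') (y : L), r w = α' u + (p : ℤ) • y := by
  classical
  have : Fact p.Prime := ⟨hp⟩
  intro w
  set Bb : (Module.Free.ChooseBasisIndex ℤ L → ZMod p) →ₗ[ZMod p]
      (Module.Free.ChooseBasisIndex ℤ L → ZMod p) →ₗ[ZMod p] ZMod p :=
    Matrix.toLinearMap₂' (ZMod p) (dualabsGram p B) with hBb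
  -- left-separating
  have hsep : ∀ v, (∀ v', Bb v v' = 0) → v = 0 := by
    intro v hv
    obtain ⟨x, rfl⟩ := dualabsRed_surjective p (L := L) v
    obtain ⟨x', rfl⟩ := hnd x (fun y => by
      have := hv (dualabsRed p L y)
      rw [hBb, dualabsGram_red] at this
      exact (ZMod.intCast_zmod_eq_zero_iff_dvd _ _).1 this)
    exact dualabsRed_smul p x'
  -- the subspace `W`
  set W : Submodule (ZMod p) (Module.Free.ChooseBasisIndex ℤ L → ZMod p) :=
    Submodule.span (ZMod p) (Set.range fun u => dualabsRed p L (α' u)) with hW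
  have hW1 : ∀ v ∈ W, ∃ u, v = dualabsRed p L (α' u) := by
    intro v hv
    induction hv using Submodule.span_induction with
    | mem v hv =>
      obtain ⟨u, rfl⟩ := hv
      exact ⟨u, rfl⟩
    | zero => exact ⟨0, by simp⟩
    | add v₁ v₂ _ _ h₁ h₂ =>
      obtain ⟨u₁, rfl⟩ := h₁
      obtain ⟨u₂, rfl⟩ := h₂
      exact ⟨u₁ + u₂, by simp⟩
    | smul k v _ h =>
      obtain ⟨u, rfl⟩ := h
      refine ⟨(k.cast : ℤ) • u, ?_⟩
      rw [map_zsmul, map_zsmul, ← Int.cast_smul_eq_zsmul (ZMod p), ZMod.intCast_zmod_cast]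
  have hmem : dualabsRed p L (r w) ∈ W := by
    refine dualabs_mem_of_orth Bb hsep W _ ?_
    intro v hv
    obtain ⟨x, rfl⟩ := dualabsRed_surjective p (L := L) v
    have h1 : ∀ u, (p : ℤ) ∣ B' (α x) u := by
      intro u
      have := hv (dualabsRed p L (α' u)) (Submodule.subset_span ⟨u, rfl⟩)
      rw [hBb, dualabsGram_red, ZMod.intCast_zmod_eq_zero_iff_dvd] at this
      rw [hadj]
      exact this
    obtain ⟨x', hx'⟩ := hH x (hnd' _ h1)
    rw [hBb, dualabsGram_red, ← hsa, hx', map_smul, LinearMap.smul_apply, smul_eq_mul,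
      Int.cast_mul]
    simp
  obtain ⟨u, hu⟩ := hW1 _ hmem
  have h0 : dualabsRed p L (r w - α' u) = 0 := by
    rw [map_sub, hu, sub_self]
  obtain ⟨y, hy⟩ := dualabsRed_eq_zero p h0
  exact ⟨u, y, by rw [← hy]; abel⟩

end lattice

end Fermat.Agent.S41lib
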