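/-
S41 (item 78, level raising): the interface between the blocks (helper25, chief architect).

* `IharaStatement`    — output of block A (Ihara's lemma), consumed by `exists_killer`;
* `DualityStatement`  — output of block B (duality), consumed by `algCore` (hypothesis `hB`).

Definitions only.
-/
import Mathlib
import Fermat.Agent.S41lib.DegW
import Fermat.Agent.GalRep.HeckeLat

set_option autoImplicit false

open CongruenceSubgroup ModularCurve.Period Fermat.Agent.GalRep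
open scoped MatrixGroups

namespace Fermat.Agent.S41lib

/-- **Block A (Ihara's lemma)**, the form block D consumes: a pair of parabolic classes modulo `p`
in the kernel of `α = res + resq` is Eisenstein at all primes `ℓ ≡ 1 mod D` and at all primes
`ℓ ≡ -1 mod p`.  (The strong form `φ₁ = χ ∘ d`, `φ₂ = -χ ∘ d` gives `D = 1`.) -/
def IharaStatement : Prop :=
  ∀ (N q p : ℕ) [NeZero N] [NeZero q], q.Prime → ¬ q ∣ N → p.Prime → p ≠ 2 → q ≠ p →
    ∀ φ₁ φ₂ : Additive (Gamma0 N) →+ ZMod p,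
      IsParabolicHom (Gamma0 N) φ₁ → IsParabolicHom (Gamma0 N) φ₂ →
      degRes N q (ZMod p) φ₁ + degResq N q (ZMod p) φ₂ = 0 →
      ∃ D : ℕ, 0 < D ∧ ∀ ℓ : Nat.Primes, ¬ (ℓ : ℕ) ∣ D * N * q * p →
        ((ℓ : ℕ) ≡ 1 [MOD D] ∨ p ∣ (ℓ : ℕ) + 1) →
          heckeHom N ℓ (ZMod p) φ₁ = (((ℓ : ℕ) : ℤ) + 1) • φ₁ ∧
          heckeHom N ℓ (ZMod p) φ₂ = (((ℓ : ℕ) : ℤ) + 1) • φ₂

/-- **Block B (duality)**, the form block D consumes (lattice form: everything is a divisibility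
statement in `Hom(Γ, ℤ)`): if `r = T_ℓ - c` kills the kernel of `α` modulo `p`, then
`r (L²) ⊆ α† (L') + p L²`. -/
def DualityStatement : Prop :=
  ∀ (N q p : ℕ) [NeZero N] [NeZero q], q.Prime → ¬ q ∣ N → p.Prime → p ≠ 2 → q ≠ p →
    ∀ (ℓ : Nat.Primes) (c : ℤ), ¬ (ℓ : ℕ) ∣ N * q * p →
      (∀ x₁ x₂ : Additive (Gamma0 N) →+ ℤ, IsParabolicHom (Gamma0 N) x₁ →
        IsParabolicHom (Gamma0 N) x₂ →
        (∃ y : Additive (Gamma0 (N * q)) →+ ℤ, degRes N q ℤ x₁ + degResq N q ℤ x₂ = (p : ℤ) • y) →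
        ∃ y₁ y₂ : Additive (Gamma0 N) →+ ℤ,
          heckeHom N ℓ ℤ x₁ - c • x₁ = (p : ℤ) • y₁ ∧ heckeHom N ℓ ℤ x₂ - c • x₂ = (p : ℤ) • y₂) →
      ∀ w₁ w₂ : Additive (Gamma0 N) →+ ℤ, IsParabolicHom (Gamma0 N) w₁ →
        IsParabolicHom (Gamma0 N) w₂ →
        ∃ (u : Additive (Gamma0 (N * q)) →+ ℤ) (y₁ y₂ : Additive (Gamma0 N) →+ ℤ),
          IsParabolicHom (Gamma0 (N * q)) u ∧
          heckeHom N ℓ ℤ w₁ - c • w₁ = degCores N q ℤ u + (p : ℤ) • y₁ ∧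
          heckeHom N ℓ ℤ w₂ - c • w₂ = degCoresq N q ℤ u + (p : ℤ) • y₂

end Fermat.Agent.S41lib
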