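/-
S41 (item 78), block B, FINAL (helper25): the duality statement `DualityStatement`
(`Interface.lean`) from the perfectness of the duality pairing modulo `p` (`hlPair_nondeg`)
and the adjunctions `res ⊣ cores`, `resq ⊣ coresq`, `T_ℓ` self-adjoint
(`hlPair_degRes_degCores`, `hlPair_degResq_degCoresq`, `hlPair_heckeHom`), by the
linear algebra of `DualAbs.lean`.
-/
import Mathlib
import Fermat.Agent.S41lib.DualAbs
import Fermat.Agent.S41lib.Interface
import Fermat.Agent.S41lib.BPerf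
import Fermat.Agent.S41lib.BOutFinal
import Fermat.Agent.S41lib.DegPar
import Fermat.Agent.GalRep.HeckeLatBC

set_option autoImplicit false

open CongruenceSubgroup ModularCurve.Period Fermat.Agent.GalRep
open scoped MatrixGroups

namespace Fermat.Agent.S41lib

/-- restriction to the parabolic lattices of an additive map which preserves parabolicity -/
def dualofLift {M₁ M₂ : ℕ}
    (F : (Additive (Gamma0 M₁) →+ ℤ) →+ (Additive (Gamma0 M₂) →+ ℤ))
    (hF : ∀ φ, IsParabolicHom (Gamma0 M₁) φ → IsParabolicHom (Gamma0 M₂) (F φ)) :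
    HLat M₁ →+ HLat M₂ where
  toFun φ := ⟨F φ.1, hF φ.1 φ.2⟩
  map_zero' := Subtype.ext (map_zero F)
  map_add' x y := Subtype.ext (map_add F x.1 y.1)

theorem dualofLift_coe {M₁ M₂ : ℕ}
    (F : (Additive (Gamma0 M₁) →+ ℤ) →+ (Additive (Gamma0 M₂) →+ ℤ))
    (hF : ∀ φ, IsParabolicHom (Gamma0 M₁) φ → IsParabolicHom (Gamma0 M₂) (F φ)) (φ : HLat M₁) :
    ((dualofLift F hF φ : HLat M₂) : Additive (Gamma0 M₂) →+ ℤ) = F φ.1 := rfl

/-- a homomorphism `y` with `p • y` parabolic is parabolic -/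
theorem dualof_par_of_smul {M : ℕ} {p : ℕ} (hp : p ≠ 0) {y : Additive (Gamma0 M) →+ ℤ}
    (h : IsParabolicHom (Gamma0 M) ((p : ℤ) • y)) : IsParabolicHom (Gamma0 M) y := by
  intro γ hγ
  have h1 := h γ hγ
  have h2 : (p : ℤ) * y (Additive.ofMul γ) = 0 := by simpa using h1
  rcases mul_eq_zero.mp h2 with h3 | h3
  · exact absurd (by exact_mod_cast h3) hp
  · exact h3

theorem dualof_hlPair_add_right (N : ℕ) [NeZero N] {φ ψ₁ ψ₂ : Additive (Gamma0 N) →+ ℤ}
    (hφ : IsParabolicHom (Gamma0 N) φ) (h₁ : IsParabolicHom (Gamma0 N) ψ₁)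
    (h₂ : IsParabolicHom (Gamma0 N) ψ₂) :
    hlPair N φ (ψ₁ + ψ₂) = hlPair N φ ψ₁ + hlPair N φ ψ₂ := by
  have h12 : IsParabolicHom (Gamma0 N) (ψ₁ + ψ₂) :=
    (parabolicHoms ℤ (Gamma0 N) ℤ).add_mem (x := ψ₁) (y := ψ₂) h₁ h₂
  have e := hlPair_antisymm N h12 hφ
  have e1 := hlPair_antisymm N h₁ hφ
  have e2 := hlPair_antisymm N h₂ hφ
  have e3 := hlPair_add_left N h₁ h₂ hφ
  omega

theorem dualof_hlPair_smul_right (N : ℕ) [NeZero N] {φ ψ : Additive (Gamma0 N) →+ ℤ}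
    (hφ : IsParabolicHom (Gamma0 N) φ) (hψ : IsParabolicHom (Gamma0 N) ψ) (c : ℤ) :
    hlPair N φ (c • ψ) = c * hlPair N φ ψ := by
  have hc : IsParabolicHom (Gamma0 N) (c • ψ) :=
    (parabolicHoms ℤ (Gamma0 N) ℤ).smul_mem c (x := ψ) hψ
  have e := hlPair_antisymm N hc hφ
  have e1 := hlPair_antisymm N hψ hφ
  have e3 := hlPair_smul_left N hψ hφ c
  rw [e, e3, e1]
  ring

/-- the duality pairing as a bilinear form on the lattice -/
noncomputable def dualofPair (N : ℕ) [NeZero N] : HLat N →ₗ[ℤ] HLat N →ₗ[ℤ] ℤ :=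
  LinearMap.mk₂ ℤ (fun x y => hlPair N x.1 y.1)
    (fun x₁ x₂ y => hlPair_add_left N x₁.2 x₂.2 y.2)
    (fun c x y => hlPair_smul_left N x.2 y.2 c)
    (fun x y₁ y₂ => dualof_hlPair_add_right N x.2 y₁.2 y₂.2)
    (fun c x y => dualof_hlPair_smul_right N x.2 y.2 c)

theorem dualofPair_apply (N : ℕ) [NeZero N] (x y : HLat N) :
    dualofPair N x y = hlPair N x.1 y.1 := rfl

/-- the pairing on `HLat N × HLat N` -/
noncomputable def dualofPair2 (N : ℕ) [NeZero N] :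
    (HLat N × HLat N) →ₗ[ℤ] (HLat N × HLat N) →ₗ[ℤ] ℤ :=
  (dualofPair N).compl₁₂ (LinearMap.fst ℤ (HLat N) (HLat N)) (LinearMap.fst ℤ (HLat N) (HLat N))
    + (dualofPair N).compl₁₂ (LinearMap.snd ℤ (HLat N) (HLat N))
        (LinearMap.snd ℤ (HLat N) (HLat N))

theorem dualofPair2_apply (N : ℕ) [NeZero N] (x y : HLat N × HLat N) :
    dualofPair2 N x y = hlPair N x.1.1 y.1.1 + hlPair N x.2.1 y.2.1 := rfl

/-- **Block B, final form**: the duality statement. -/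
theorem duality_statement : DualityStatement := by
  intro N q p _ _ hq hqN hp hp2 _ ℓ c hℓ hH w₁ w₂ hw₁ hw₂
  have : NeZero (N * q) := ⟨Nat.mul_ne_zero (NeZero.ne N) (NeZero.ne q)⟩
  have hℓN : ¬ (ℓ : ℕ) ∣ N := fun h => hℓ (Dvd.dvd.mul_right (Dvd.dvd.mul_right h q) p)
  have hp0 : p ≠ 0 := hp.ne_zero
  -- the maps
  set resL : HLat N →+ HLat (N * q) :=
    dualofLift (degRes N q ℤ) (fun _ h => degRes_isParabolicHom h) with hresL
  set resqL : HLat N →+ HLat (N * q) :=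
    dualofLift (degResq N q ℤ) (fun _ h => degResq_isParabolicHom h) with hresqL
  set coresL : HLat (N * q) →+ HLat N :=
    dualofLift (degCores N q ℤ) (fun _ h => degCores_isParabolicHom h) with hcoresL
  set coresqL : HLat (N * q) →+ HLat N :=
    dualofLift (degCoresq N q ℤ) (fun _ h => degCoresq_isParabolicHom h) with hcoresqL
  set r : HLat N × HLat N → HLat N × HLat N :=
    fun x => (heckeLat N ℓ x.1 - c • x.1, heckeLat N ℓ x.2 - c • x.2) with hr
  have key := dualabs_lattice p hp (L := HLat N × HLat N) (L' := HLat (N * q))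
    (dualofPair2 N) (fun u v => hlPair (N * q) u.1 v.1)
    (fun x => resL x.1 + resqL x.2) (coresL.prod coresqL) r ?_ ?_ ?_ ?_ ?_
    (⟨w₁, hw₁⟩, ⟨w₂, hw₂⟩)
  · obtain ⟨u, y, h⟩ := key
    refine ⟨u.1, y.1.1, y.2.1, u.2, ?_, ?_⟩
    · have := congrArg (fun z : HLat N × HLat N => (z.1 : Additive (Gamma0 N) →+ ℤ)) h
      exact this
    · have := congrArg (fun z : HLat N × HLat N => (z.2 : Additive (Gamma0 N) →+ ℤ)) h
      exact this
  · -- nondegeneracy on `L`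
    intro x hx
    obtain ⟨φ₁, h₁⟩ := hlPair_nondeg N p hp hp2 x.1.2 (fun ψ hψ => by
      have := hx (⟨ψ, hψ⟩, 0)
      rw [dualofPair2_apply] at this
      have h0 : hlPair N x.2.1 ((0 : HLat N) : Additive (Gamma0 N) →+ ℤ) = 0 := by
        have := (dualofPair N x.2).map_zero
        rwa [dualofPair_apply] at this
      rw [h0, add_zero] at this
      exact this)
    obtain ⟨φ₂, h₂⟩ := hlPair_nondeg N p hp hp2 x.2.2 (fun ψ hψ => by
      have := hx (0, ⟨ψ, hψ⟩)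
      rw [dualofPair2_apply] at this
      have h0 : hlPair N x.1.1 ((0 : HLat N) : Additive (Gamma0 N) →+ ℤ) = 0 := by
        have := (dualofPair N x.1).map_zero
        rwa [dualofPair_apply] at this
      rw [h0, zero_add] at this
      exact this)
    have hφ₁ : IsParabolicHom (Gamma0 N) φ₁ := dualof_par_of_smul hp0 (h₁ ▸ x.1.2)
    have hφ₂ : IsParabolicHom (Gamma0 N) φ₂ := dualof_par_of_smul hp0 (h₂ ▸ x.2.2)
    refine ⟨(⟨φ₁, hφ₁⟩, ⟨φ₂, hφ₂⟩), ?_⟩
    exact Prod.ext (Subtype.ext h₁) (Subtype.ext h₂)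
  · -- nondegeneracy on `L'`
    intro x hx
    obtain ⟨φ, h⟩ := hlPair_nondeg (N * q) p hp hp2 x.2 (fun ψ hψ => hx ⟨ψ, hψ⟩)
    have hφ : IsParabolicHom (Gamma0 (N * q)) φ := dualof_par_of_smul hp0 (h ▸ x.2)
    exact ⟨⟨φ, hφ⟩, Subtype.ext h⟩
  · -- adjunction
    intro x u
    show hlPair (N * q) (degRes N q ℤ x.1.1 + degResq N q ℤ x.2.1) u.1 =
      hlPair N x.1.1 (degCores N q ℤ u.1) + hlPair N x.2.1 (degCoresq N q ℤ u.1)
    rw [hlPair_add_left (N * q) (degRes_isParabolicHom x.1.2) (degResq_isParabolicHom x.2.2) u.2,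
      hlPair_degRes_degCores N q x.1.2 u.2, hlPair_degResq_degCoresq N q hq hqN x.2.2 u.2]
  · -- self-adjointness
    intro x y
    have hT : ∀ a b : HLat N, dualofPair N (heckeLat N ℓ a) b = dualofPair N a (heckeLat N ℓ b) :=
      fun a b => hlPair_heckeHom N ℓ hℓN a.2 b.2
    have hE : ∀ a b : HLat N, dualofPair N (heckeLat N ℓ a - c • a) b
        = dualofPair N a (heckeLat N ℓ b - c • b) := by
      intro a b
      rw [map_sub, LinearMap.sub_apply, map_sub, hT, map_smul, LinearMap.smul_apply, map_smul]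
    show dualofPair N (heckeLat N ℓ x.1 - c • x.1) y.1
        + dualofPair N (heckeLat N ℓ x.2 - c • x.2) y.2
      = dualofPair N x.1 (heckeLat N ℓ y.1 - c • y.1)
        + dualofPair N x.2 (heckeLat N ℓ y.2 - c • y.2)
    rw [hE, hE]
  · -- the hypothesis
    intro x hx
    obtain ⟨y', hy'⟩ := hx
    obtain ⟨y₁, y₂, h₁, h₂⟩ := hH x.1.1 x.2.1 x.1.2 x.2.2
      ⟨y'.1, congrArg (fun z : HLat (N * q) => (z : Additive (Gamma0 (N * q)) →+ ℤ)) hy'⟩
    have hy₁ : IsParabolicHom (Gamma0 N) y₁ :=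
      dualof_par_of_smul hp0 (h₁ ▸ (heckeLat N ℓ x.1 - c • x.1).2)
    have hy₂ : IsParabolicHom (Gamma0 N) y₂ :=
      dualof_par_of_smul hp0 (h₂ ▸ (heckeLat N ℓ x.2 - c • x.2).2)
    exact ⟨(⟨y₁, hy₁⟩, ⟨y₂, hy₂⟩), Prod.ext (Subtype.ext h₁) (Subtype.ext h₂)⟩

end Fermat.Agent.S41lib
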