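/-
Item 78 (S41), block DEG, piece DEG-COMPL (helper12, for helper28): completeness of the cosets of
`T_p` (`p ∤ M`) and `U_p` (`p ∣ M`): every integral matrix of determinant `p` with lower left entry
divisible by `M` is `γ · α` with `γ ∈ Γ₀(M)` and `α` one of the standard representatives
(Hermite normal form).  Exact signatures of helper28's note.  No sorry.
-/
import Mathlib
import Fermat.Agent.S41lib.DegGram

set_option autoImplicit false

namespace Fermat.Agent.S41lib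

open CongruenceSubgroup Matrix.SpecialLinearGroup ModularForm Fermat.Agent.S22lib Fermat.Agent.GalRep
open P2MW.S_ModularForm_heckeT_slash_eq_self_of_mem_Gamma0.ModularForm.HeckeSlashInvariance
open scoped MatrixGroups

/-- the common core: the coset of `[[1, j], [0, p]]` -/
theorem degCompl_core (M : ℕ) {p : ℕ} (hp : p ≠ 0) (X : GL (Fin 2) ℝ) (a b c d : ℤ)
    (hX : (X : Matrix (Fin 2) (Fin 2) ℝ) = !![(a : ℝ), (b : ℝ); (c : ℝ), (d : ℝ)])
    (hdet : a * d - b * c = p) (hc : (M : ℤ) ∣ c) (j : ℕ) (β δ : ℤ)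
    (hβ : b - a * j = p * β) (hδ : d - c * j = p * δ) :
    ∃ γ : Gamma0 M, X = gamma0Hom M γ * heckeMatrix p j := by
  have hp' : (p : ℤ) ≠ 0 := by exact_mod_cast hp
  have hdetγ : a * δ - β * c = 1 := by
    apply mul_left_cancel₀ hp'
    linear_combination hdet + a * (-hδ) + c * hβ
  refine ⟨hltMk M a β c δ hdetγ hc, ?_⟩
  apply Units.ext
  rw [Units.val_mul, gamma0Hom_apply, val_heckeMatrix hp, hX]
  have hβ' : (b : ℝ) - a * j = p * β := by exact_mod_cast hβ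
  have hδ' : (d : ℝ) - c * j = p * δ := by exact_mod_cast hδ
  ext i k
  fin_cases i <;> fin_cases k <;>
    simp only [Matrix.mul_apply, Fin.sum_univ_two, mapGL_apply, hltMk_00, hltMk_01,
      hltMk_10, hltMk_11, Matrix.of_apply, Matrix.cons_val', Matrix.cons_val_zero,
      Matrix.cons_val_one, Matrix.cons_val_fin_one, Fin.zero_eta, Fin.mk_one, Fin.isValue]
  · ring
  · linear_combination hβ'
  · ring
  · linear_combination hδ'

/-- the coset of `diag(p, 1)` -/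
theorem degCompl_diag (M : ℕ) {p : ℕ} (hp : p ≠ 0) (X : GL (Fin 2) ℝ) (a b c d : ℤ)
    (hX : (X : Matrix (Fin 2) (Fin 2) ℝ) = !![(a : ℝ), (b : ℝ); (c : ℝ), (d : ℝ)])
    (hdet : a * d - b * c = p) (α κ : ℤ) (hα : a = p * α) (hκ : c = p * κ)
    (hcκ : (M : ℤ) ∣ κ) :
    ∃ γ : Gamma0 M, X = gamma0Hom M γ * heckeDiagMatrix p := by
  have hp' : (p : ℤ) ≠ 0 := by exact_mod_cast hp
  have hdetγ : α * d - b * κ = 1 := by
    apply mul_left_cancel₀ hp'
    linear_combination hdet - d * hα + b * hκ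
  refine ⟨hltMk M α b κ d hdetγ hcκ, ?_⟩
  apply Units.ext
  rw [Units.val_mul, gamma0Hom_apply, val_heckeDiagMatrix hp, hX]
  have hα' : (a : ℝ) = p * α := by exact_mod_cast hα
  have hκ' : (c : ℝ) = p * κ := by exact_mod_cast hκ
  ext i k
  fin_cases i <;> fin_cases k <;>
    simp only [Matrix.mul_apply, Fin.sum_univ_two, mapGL_apply, hltMk_00, hltMk_01,
      hltMk_10, hltMk_11, Matrix.of_apply, Matrix.cons_val', Matrix.cons_val_zero,
      Matrix.cons_val_one, Matrix.cons_val_fin_one, Fin.zero_eta, Fin.mk_one, Fin.isValue]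
  · linear_combination hα'
  · ring
  · linear_combination hκ'
  · ring

/-- solving `u * j ≡ v mod p` for `p ∤ u` -/
theorem degCompl_solve {p : ℕ} [Fact p.Prime] (u v : ℤ) (hu : ¬ (p : ℤ) ∣ u) :
    ∃ j : ZMod p, (p : ℤ) ∣ v - u * (j.val : ℤ) := by
  have hu' : ((u : ℤ) : ZMod p) ≠ 0 := by
    intro h
    exact hu ((ZMod.intCast_zmod_eq_zero_iff_dvd u p).mp h)
  refine ⟨(v : ZMod p) * ((u : ℤ) : ZMod p)⁻¹, ?_⟩
  rw [← ZMod.intCast_zmod_eq_zero_iff_dvd]
  push_cast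
  rw [ZMod.natCast_zmod_val]
  field_simp
  ring

/-- completeness of the cosets of `U_p`-type: the case `p ∤ a` -/
theorem degCompl_of_not_dvd (M : ℕ) {p : ℕ} [Fact p.Prime]
    (X : GL (Fin 2) ℝ) (a b c d : ℤ)
    (hX : (X : Matrix (Fin 2) (Fin 2) ℝ) = !![(a : ℝ), (b : ℝ); (c : ℝ), (d : ℝ)])
    (hdet : a * d - b * c = p) (hc : (M : ℤ) ∣ c) (ha : ¬ (p : ℤ) ∣ a) :
    ∃ (γ : Gamma0 M) (j : ZMod p), X = gamma0Hom M γ * heckeMatrix p j.val := by
  have hp : p ≠ 0 := (Fact.out : p.Prime).ne_zero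
  have hpp : Prime (p : ℤ) := Nat.prime_iff_prime_int.mp (Fact.out : p.Prime)
  obtain ⟨j, β, hβ⟩ := degCompl_solve (p := p) a b ha
  have hδ : (p : ℤ) ∣ d - c * (j.val : ℤ) := by
    have h1 : (p : ℤ) ∣ a * (d - c * (j.val : ℤ)) := by
      refine ⟨1 + c * β, ?_⟩
      linear_combination hdet + c * hβ
    exact (hpp.dvd_or_dvd h1).resolve_left ha
  obtain ⟨δ, hδ⟩ := hδ
  obtain ⟨γ, hγ⟩ := degCompl_core M hp X a b c d hX hdet hc j.val β δ hβ hδ
  exact ⟨γ, j, hγ⟩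

/-- completeness of the cosets of `T_p` (`p ∤ M`) -/
theorem exists_heckeRep_of_det (M : ℕ) {p : ℕ} [Fact p.Prime] (hpM : ¬ p ∣ M)
    (X : GL (Fin 2) ℝ) (a b c d : ℤ)
    (hX : (X : Matrix (Fin 2) (Fin 2) ℝ) = !![(a : ℝ), (b : ℝ); (c : ℝ), (d : ℝ)])
    (hdet : a * d - b * c = p) (hc : (M : ℤ) ∣ c) :
    ∃ (γ : Gamma0 M) (y : OnePoint (ZMod p)), X = gamma0Hom M γ * heckeRep p y := by
  have hp : p ≠ 0 := (Fact.out : p.Prime).ne_zero
  have hpp : Prime (p : ℤ) := Nat.prime_iff_prime_int.mp (Fact.out : p.Prime)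
  by_cases ha : (p : ℤ) ∣ a
  · by_cases hcp : (p : ℤ) ∣ c
    · -- the coset of `diag(p, 1)`
      obtain ⟨α, hα⟩ := ha
      obtain ⟨κ, hκ⟩ := hcp
      have hcop : IsCoprime (M : ℤ) (p : ℤ) := by
        rw [Int.isCoprime_iff_gcd_eq_one, Int.gcd_natCast_natCast]
        exact (Nat.Coprime.symm ((Nat.Prime.coprime_iff_not_dvd Fact.out).mpr hpM))
      have hMκ : (M : ℤ) ∣ κ := by
        rw [hκ] at hc
        exact hcop.dvd_of_dvd_mul_left hc
      obtain ⟨γ, hγ⟩ := degCompl_diag M hp X a b c d hX hdet α κ hα hκ hMκ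
      exact ⟨γ, OnePoint.infty, hγ⟩
    · -- `p ∣ a`, `p ∤ c`: then `p ∣ b`
      have hb : (p : ℤ) ∣ b := by
        have h1 : (p : ℤ) ∣ b * c := by
          obtain ⟨α, hα⟩ := ha
          refine ⟨α * d - 1, ?_⟩
          linear_combination (-1 : ℤ) * hdet + d * hα
        exact (hpp.dvd_or_dvd h1).resolve_right hcp
      obtain ⟨j, δ, hδ⟩ := degCompl_solve (p := p) c d hcp
      have hβ : (p : ℤ) ∣ b - a * (j.val : ℤ) := dvd_sub hb (Dvd.dvd.mul_right ha _)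
      obtain ⟨β, hβ⟩ := hβ
      obtain ⟨γ, hγ⟩ := degCompl_core M hp X a b c d hX hdet hc j.val β δ hβ hδ
      exact ⟨γ, (j : OnePoint (ZMod p)), hγ⟩
  · obtain ⟨γ, j, hγ⟩ := degCompl_of_not_dvd M X a b c d hX hdet hc ha
    exact ⟨γ, (j : OnePoint (ZMod p)), hγ⟩

/-- completeness of the cosets of `U_p` (`p ∣ M`) -/
theorem exists_heckeMatrix_of_det (M : ℕ) {p : ℕ} [Fact p.Prime] (hpM : p ∣ M)
    (X : GL (Fin 2) ℝ) (a b c d : ℤ)
    (hX : (X : Matrix (Fin 2) (Fin 2) ℝ) = !![(a : ℝ), (b : ℝ); (c : ℝ), (d : ℝ)])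
    (hdet : a * d - b * c = p) (hc : (M : ℤ) ∣ c) (ha : ¬ (p : ℤ) ∣ a) :
    ∃ (γ : Gamma0 M) (j : ZMod p), X = gamma0Hom M γ * heckeMatrix p j.val :=
  have _ := hpM
  degCompl_of_not_dvd M X a b c d hX hdet hc ha

end Fermat.Agent.S41lib
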