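import Mathlib
import Fermat.Agent.S41lib.DegW
import Fermat.Agent.S41lib.DegCompl

/-!
# Item 78 (S41), block DEG, piece (E2): the transfer commutes with the Hecke operators

For a prime `ℓ ∤ q`:  `cores ∘ T_ℓ = T_ℓ ∘ cores`  (`T_ℓ` at level `N q` on the left, at level `N` on
the right; `U_ℓ` if `ℓ ∣ N`).  Both sides are operators of coset data; the cosets are matched with
the comparison lemma `DegData.op_eq_of_injective`.  The only arithmetic input: the representatives
of `T_ℓ`, `U_ℓ` are upper triangular with lower right entry prime to `q`.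
-/

set_option autoImplicit false

open CongruenceSubgroup Matrix.SpecialLinearGroup ModularForm
open Fermat.Agent.S22lib Fermat.Agent.GalRep
open P2MW.S_ModularForm_heckeT_slash_eq_self_of_mem_Gamma0.ModularForm.HeckeSlashInvariance
open scoped MatrixGroups

namespace Fermat.Agent.S41lib

noncomputable section

variable {N q : ℕ}

/-- upper triangular integral matrices with lower right entry prime to `q`. -/
def DegTri (q : ℕ) (X : GL (Fin 2) ℝ) : Prop :=
  ∃ s t u : ℤ, (X : Matrix (Fin 2) (Fin 2) ℝ) = !![(s : ℝ), (t : ℝ); 0, (u : ℝ)] ∧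
    IsCoprime (q : ℤ) u

/-- the key entry computation: `X g = c Y` with `g ∈ Γ₀(N)`, `c ∈ Γ₀(Nq)` forces `g ∈ Γ₀(Nq)`. -/
theorem degTri_key [NeZero N] {X Y : GL (Fin 2) ℝ} (hX : DegTri q X) (hY : DegTri q Y)
    (g : Gamma0 N) (c : Gamma0 (N * q))
    (h : X * gamma0Hom N g = gamma0Hom (N * q) c * Y) :
    ((N * q : ℕ) : ℤ) ∣ ((g : Gamma0 N) : SL(2, ℤ)) 1 0 := by
  obtain ⟨s, t, u, hXm, hu⟩ := hX
  obtain ⟨s', t', u', hYm, -⟩ := hY
  have h3 := congrArg (fun M : GL (Fin 2) ℝ => (M : Matrix (Fin 2) (Fin 2) ℝ) 1 0) h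
  simp only [Units.val_mul, hXm, hYm, gamma0Hom_apply] at h3
  simp only [Matrix.mul_apply, Fin.sum_univ_two, mapGL_apply, Matrix.of_apply, Matrix.cons_val',
    Matrix.cons_val_zero, Matrix.cons_val_one, Matrix.cons_val_fin_one, Fin.isValue,
    zero_mul, zero_add, mul_zero, add_zero] at h3
  have h4 : u * ((g : Gamma0 N) : SL(2, ℤ)) 1 0 = ((c : Gamma0 (N * q)) : SL(2, ℤ)) 1 0 * s' := by
    have h3' : ((u * ((g : Gamma0 N) : SL(2, ℤ)) 1 0 : ℤ) : ℝ)
        = ((((c : Gamma0 (N * q)) : SL(2, ℤ)) 1 0 * s' : ℤ) : ℝ) := by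
      push_cast
      simpa using h3
    exact_mod_cast h3'
  obtain ⟨g', hg'⟩ := gamma0_dvd g
  obtain ⟨c', hc'⟩ := gamma0_dvd c
  have hN : (N : ℤ) ≠ 0 := by exact_mod_cast NeZero.ne N
  have h5 : (q : ℤ) ∣ g' * u := by
    refine ⟨c' * s', ?_⟩
    apply mul_left_cancel₀ hN
    rw [hg', hc'] at h4
    push_cast at h4
    linear_combination h4
  have h6 : (q : ℤ) ∣ g' := hu.dvd_of_dvd_mul_right h5
  rw [hg']
  push_cast
  exact mul_dvd_mul_left _ h6

theorem degTri_heckeMatrix {p : ℕ} [Fact p.Prime] (hpq : ¬ p ∣ q) (j : ℕ) :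
    DegTri q (heckeMatrix p j) := by
  have hp : p.Prime := Fact.out
  refine ⟨1, j, p, ?_, ?_⟩
  · rw [val_heckeMatrix hp.ne_zero]
    push_cast
    rfl
  · rw [isCoprime_comm, Int.isCoprime_iff_gcd_eq_one, Int.gcd_natCast_natCast]
    exact (Nat.Prime.coprime_iff_not_dvd hp).mpr hpq

theorem degTri_heckeRep {p : ℕ} [Fact p.Prime] (hpq : ¬ p ∣ q) (y : OnePoint (ZMod p)) :
    DegTri q (heckeRep p y) := by
  have hp : p.Prime := Fact.out
  induction y using OnePoint.rec with
  | infty =>
    refine ⟨p, 0, 1, ?_, isCoprime_one_right⟩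
    rw [heckeRep_infty, val_heckeDiagMatrix hp.ne_zero]
    push_cast
    rfl
  | coe j =>
    rw [heckeRep_coe]
    exact degTri_heckeMatrix hpq _

/-- **abstract form of (E2)**: the transfer commutes with an operator whose coset representatives
are the same at the levels `N` and `N q`, triangular with lower right entry prime to `q`, and
pairwise inequivalent at level `N`. -/
theorem degCores_comm_of_tri [NeZero N] [NeZero q] {Y : Type} [Fintype Y]
    (DN : DegData (gamma0Hom N) (gamma0Hom N) Y)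
    (DNq : DegData (gamma0Hom (N * q)) (gamma0Hom (N * q)) Y)
    (hα : ∀ y, DNq.α y = DN.α y) (htri : ∀ y, DegTri q (DN.α y))
    (huniq : ∀ (a b : Gamma0 N) (y z : Y),
      gamma0Hom N a * DN.α y = gamma0Hom N b * DN.α z → y = z)
    {A : Type*} [AddCommGroup A] (ψ : Additive (Gamma0 (N * q)) →+ A) :
    degCores N q A (DNq.op (gamma0Hom_injective (N * q)) A ψ)
      = DN.op (gamma0Hom_injective N) A (degCores N q A ψ) := by
  show (degCoresData N q).op (gamma0Hom_injective (N * q)) A
      (DNq.op (gamma0Hom_injective (N * q)) A ψ)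
    = DN.op (gamma0Hom_injective N) A
      ((degCoresData N q).op (gamma0Hom_injective (N * q)) A ψ)
  rw [← DegData.op_comp DNq (degCoresData N q) (gamma0Hom_injective (N * q))
      (gamma0Hom_injective (N * q)) ψ,
    ← DegData.op_comp (degCoresData N q) DN (gamma0Hom_injective (N * q))
      (gamma0Hom_injective N) ψ]
  set D := DNq.comp (degCoresData N q) (gamma0Hom_injective (N * q)) with hD
  set D' := (degCoresData N q).comp DN (gamma0Hom_injective N) with hD'
  have hDα : ∀ p : Y × DegIdx N q, D.α p = DN.α p.1 * gamma0Hom N (degRep N q p.2) := by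
    intro p
    rw [hD, DegData.comp_α, hα, degCoresData_α]
  have hD'α : ∀ p : DegIdx N q × Y, D'.α p = gamma0Hom N (degRep N q p.1) * DN.α p.2 := by
    intro p
    rw [hD', DegData.comp_α, degCoresData_α]
  -- matching of the cosets
  have hex : ∀ p : Y × DegIdx N q, ∃ (p' : DegIdx N q × Y) (d : Gamma0 (N * q)),
      D.α p = gamma0Hom (N * q) d * D'.α p' := by
    rintro ⟨y, x⟩
    obtain ⟨x', h₀, hh⟩ := exists_degRep (q := q) (DN.γ' (degRep N q x) y)
    refine ⟨(x', DN.σ (degRep N q x) y), h₀, ?_⟩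
    rw [hDα, hD'α]
    show DN.α y * gamma0Hom N (degRep N q x) = _
    rw [DN.rel, hh, map_mul, gamma0Hom_inclusion, mul_assoc]
  choose τ δ hδ using hex
  -- the cosets of `D'` are pairwise distinct
  have huniq' : ∀ (a b : Gamma0 (N * q)) (y z : DegIdx N q × Y),
      gamma0Hom (N * q) a * D'.α y = gamma0Hom (N * q) b * D'.α z → y = z := by
    rintro a b ⟨x, y⟩ ⟨z, y'⟩ h
    rw [hD'α, hD'α] at h
    simp only at h
    rw [← gamma0Hom_inclusion a, ← gamma0Hom_inclusion b, ← mul_assoc, ← mul_assoc, ← map_mul,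
      ← map_mul] at h
    have hy : y = y' := huniq _ _ y y' h
    subst hy
    have h2 := gamma0Hom_injective N (mul_right_cancel h)
    have hx : x = z := by
      apply degRep_eq_of_dvd
      have h3 : degRep N q x * (degRep N q z)⁻¹
          = Subgroup.inclusion (deg_le N q) (a⁻¹ * b) := by
        rw [mul_inv_eq_iff_eq_mul, map_mul, map_inv, mul_assoc, ← h2, inv_mul_cancel_left]
      rw [h3]
      exact gamma0_dvd (a⁻¹ * b)
    rw [hx]
  -- the cosets of `D` are pairwise distinct
  have huniqD : ∀ (a b : Gamma0 (N * q)) (y z : Y × DegIdx N q),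
      gamma0Hom (N * q) a * D.α y = gamma0Hom (N * q) b * D.α z → y = z := by
    rintro a b ⟨y, x⟩ ⟨y', z⟩ h
    rw [hDα, hDα] at h
    simp only at h
    have h1 : DN.α y * gamma0Hom N (degRep N q x * (degRep N q z)⁻¹)
        = gamma0Hom (N * q) (a⁻¹ * b) * DN.α y' := by
      have e : DN.α y * gamma0Hom N (degRep N q x)
          = (gamma0Hom (N * q) a)⁻¹
            * (gamma0Hom (N * q) b * (DN.α y' * gamma0Hom N (degRep N q z))) := by
        rw [← h, inv_mul_cancel_left]
      rw [map_mul, map_inv, map_mul, map_inv, ← mul_assoc, e]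
      group
    have h2 := degTri_key (htri y) (htri y') _ _ h1
    have hx : x = z := degRep_eq_of_dvd h2
    subst hx
    rw [mul_inv_cancel, map_one, mul_one] at h1
    have hy : y = y' := by
      refine huniq 1 (Subgroup.inclusion (deg_le N q) (a⁻¹ * b)) y y' ?_
      rw [map_one, one_mul, gamma0Hom_inclusion]
      exact h1
    rw [hy]
  have hτ : Function.Injective τ := DegData.injective_of_uniq D D' τ δ hδ huniqD
  have hcard : Fintype.card (DegIdx N q × Y) ≤ Fintype.card (Y × DegIdx N q) := by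
    rw [Fintype.card_prod, Fintype.card_prod, mul_comm]
  exact DegData.op_eq_of_injective D D' (gamma0Hom_injective (N * q)) τ hτ hcard δ hδ huniq' ψ

/-- **(E2)** the transfer commutes with the Hecke operators at the primes `ℓ ∤ q`. -/
theorem degCores_heckeHom [NeZero N] [NeZero q] (ℓ : Nat.Primes) (hℓq : ¬ (ℓ : ℕ) ∣ q)
    {A : Type*} [AddCommGroup A] (ψ : Additive (Gamma0 (N * q)) →+ A) :
    degCores N q A (heckeHom (N * q) ℓ A ψ) = heckeHom N ℓ A (degCores N q A ψ) := by
  have : Fact (ℓ : ℕ).Prime := ⟨ℓ.2⟩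
  have : NeZero (ℓ : ℕ) := ⟨ℓ.2.ne_zero⟩
  have hiff : (ℓ : ℕ) ∣ N * q ↔ (ℓ : ℕ) ∣ N := by
    constructor
    · intro h
      rcases (Nat.Prime.dvd_mul ℓ.2).mp h with h | h
      · exact h
      · exact absurd h hℓq
    · intro h
      exact Dvd.dvd.mul_right h q
  by_cases h : (ℓ : ℕ) ∣ N
  · have h' : (ℓ : ℕ) ∣ N * q := hiff.mpr h
    rw [heckeHom_of_dvd h, heckeHom_of_dvd h', ← degUData_op N h A, ← degUData_op (N * q) h' A]
    exact degCores_comm_of_tri (degUData N h) (degUData (N * q) h') (fun _ => rfl)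
      (fun y => degTri_heckeMatrix hℓq _) (degUData_uniq N h) ψ
  · have h' : ¬ (ℓ : ℕ) ∣ N * q := fun hh => h (hiff.mp hh)
    rw [heckeHom_of_not_dvd h, heckeHom_of_not_dvd h', ← degTData_op N h A,
      ← degTData_op (N * q) h' A]
    exact degCores_comm_of_tri (degTData N h) (degTData (N * q) h') (fun _ => rfl)
      (fun y => degTri_heckeRep hℓq y) (degTData_uniq N h) ψ

end

end Fermat.Agent.S41lib
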