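import Mathlib
import Fermat.Agent.S41lib.DegW
import Fermat.Agent.S41lib.DegCompl

/-!
# Item 78 (S41), block DEG, piece (E1): restriction commutes with the Hecke operators

For a prime `ℓ ∤ q`:  `res ∘ T_ℓ = T_ℓ ∘ res`  (`T_ℓ` at level `N` on the left, at level `N q` on the
right; `U_ℓ` if `ℓ ∣ N`).  Both sides are operators of coset data with the same representatives
`heckeRep ℓ y` (resp. `heckeMatrix ℓ j`).
-/

set_option autoImplicit false

open CongruenceSubgroup Matrix.SpecialLinearGroup ModularForm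
open Fermat.Agent.S22lib Fermat.Agent.GalRep
open P2MW.S_ModularForm_heckeT_slash_eq_self_of_mem_Gamma0.ModularForm.HeckeSlashInvariance
open scoped MatrixGroups

namespace Fermat.Agent.S41lib

noncomputable section

variable {N q : ℕ}

theorem degResData_α (x : Unit) : (degResData N q).α x = 1 := rfl

/-- `ℓ ∣ N q ↔ ℓ ∣ N` for a prime `ℓ ∤ q`. -/
theorem deg_dvd_mul_iff (ℓ : Nat.Primes) (hℓq : ¬ (ℓ : ℕ) ∣ q) : (ℓ : ℕ) ∣ N * q ↔ (ℓ : ℕ) ∣ N := by
  constructor
  · intro h
    rcases (Nat.Prime.dvd_mul ℓ.2).mp h with h | h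
    · exact h
    · exact absurd h hℓq
  · intro h
    exact Dvd.dvd.mul_right h q

/-- (E1), case `ℓ ∤ N`. -/
theorem degRes_heckeHomT [NeZero N] [NeZero q] {p : ℕ} [Fact p.Prime] (hpN : ¬ p ∣ N)
    (hpNq : ¬ p ∣ N * q) {A : Type*} [AddCommGroup A] (φ : Additive (Gamma0 N) →+ A) :
    degRes N q A (heckeHomT N hpN A φ) = heckeHomT (N * q) hpNq A (degRes N q A φ) := by
  rw [← degTData_op N hpN A, ← degTData_op (N * q) hpNq A]
  show (degResData N q).op (gamma0Hom_injective N) A
      ((degTData N hpN).op (gamma0Hom_injective N) A φ)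
    = (degTData (N * q) hpNq).op (gamma0Hom_injective (N * q)) A
      ((degResData N q).op (gamma0Hom_injective N) A φ)
  rw [← DegData.op_comp (degTData N hpN) (degResData N q) (gamma0Hom_injective N)
      (gamma0Hom_injective N) φ,
    ← DegData.op_comp (degResData N q) (degTData (N * q) hpNq) (gamma0Hom_injective N)
      (gamma0Hom_injective (N * q)) φ]
  refine DegData.op_eq_of_equiv _ _ (gamma0Hom_injective N) (Equiv.prodComm _ _) (fun _ => 1)
    ?_ ?_ φ
  · rintro ⟨y, u⟩
    rw [map_one, one_mul, DegData.comp_α, DegData.comp_α, degResData_α, mul_one]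
    show heckeRep p y = 1 * heckeRep p y
    rw [one_mul]
  · rintro a b ⟨u, y⟩ ⟨u', z⟩ h
    rw [DegData.comp_α, DegData.comp_α, degResData_α, one_mul, one_mul] at h
    have := degTData_uniq N hpN a b y z h
    rw [this]

/-- (E1), case `ℓ ∣ N`. -/
theorem degRes_heckeHomU [NeZero N] [NeZero q] {p : ℕ} [NeZero p] (hpN : p ∣ N)
    (hpNq : p ∣ N * q) {A : Type*} [AddCommGroup A] (φ : Additive (Gamma0 N) →+ A) :
    degRes N q A (heckeHomU N hpN A φ) = heckeHomU (N * q) hpNq A (degRes N q A φ) := by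
  rw [← degUData_op N hpN A, ← degUData_op (N * q) hpNq A]
  show (degResData N q).op (gamma0Hom_injective N) A
      ((degUData N hpN).op (gamma0Hom_injective N) A φ)
    = (degUData (N * q) hpNq).op (gamma0Hom_injective (N * q)) A
      ((degResData N q).op (gamma0Hom_injective N) A φ)
  rw [← DegData.op_comp (degUData N hpN) (degResData N q) (gamma0Hom_injective N)
      (gamma0Hom_injective N) φ,
    ← DegData.op_comp (degResData N q) (degUData (N * q) hpNq) (gamma0Hom_injective N)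
      (gamma0Hom_injective (N * q)) φ]
  refine DegData.op_eq_of_equiv _ _ (gamma0Hom_injective N) (Equiv.prodComm _ _) (fun _ => 1)
    ?_ ?_ φ
  · rintro ⟨y, u⟩
    rw [map_one, one_mul, DegData.comp_α, DegData.comp_α, degResData_α, mul_one]
    show heckeMatrix p y.val = 1 * heckeMatrix p y.val
    rw [one_mul]
  · rintro a b ⟨u, y⟩ ⟨u', z⟩ h
    rw [DegData.comp_α, DegData.comp_α, degResData_α, one_mul, one_mul] at h
    have := degUData_uniq N hpN a b y z h
    rw [this]

/-- **(E1)** restriction commutes with the Hecke operators at the primes `ℓ ∤ q`. -/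
theorem degRes_heckeHom [NeZero N] [NeZero q] (ℓ : Nat.Primes) (hℓq : ¬ (ℓ : ℕ) ∣ q)
    {A : Type*} [AddCommGroup A] (φ : Additive (Gamma0 N) →+ A) :
    degRes N q A (heckeHom N ℓ A φ) = heckeHom (N * q) ℓ A (degRes N q A φ) := by
  by_cases h : (ℓ : ℕ) ∣ N
  · have h' : (ℓ : ℕ) ∣ N * q := (deg_dvd_mul_iff ℓ hℓq).mpr h
    haveI : NeZero (ℓ : ℕ) := ⟨ℓ.2.ne_zero⟩
    rw [heckeHom_of_dvd h, heckeHom_of_dvd h']
    exact degRes_heckeHomU h h' φ
  · have h' : ¬ (ℓ : ℕ) ∣ N * q := fun hh => h ((deg_dvd_mul_iff ℓ hℓq).mp hh)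
    haveI : Fact (ℓ : ℕ).Prime := ⟨ℓ.2⟩
    rw [heckeHom_of_not_dvd h, heckeHom_of_not_dvd h']
    exact degRes_heckeHomT h h' φ

end

end Fermat.Agent.S41lib
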