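/-
Item 78 (S41), block DEG, piece DEG-E3 (helper12, for helper28): the Atkin–Lehner involution
`W_q` commutes with the Hecke operators `T_ℓ` / `U_ℓ` (`ℓ ≠ q`) on `Hom(Γ₀(Nq), A)`.
Exact signature of helper28's note.  No sorry.
-/
import Mathlib
import Fermat.Agent.S41lib.DegW
import Fermat.Agent.S41lib.DegCompl

set_option autoImplicit false
set_option linter.style.haveILetI false

open CongruenceSubgroup Matrix.SpecialLinearGroup ModularForm
open Fermat.Agent.S22lib Fermat.Agent.GalRep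
open P2MW.S_ModularForm_heckeT_slash_eq_self_of_mem_Gamma0.ModularForm.HeckeSlashInvariance
open scoped MatrixGroups

namespace Fermat.Agent.S41lib

noncomputable section

variable {N q : ℕ}

/-- the matrix of the Atkin–Lehner element `w = [[q, -v], [N q, q u]]` -/
theorem degWElt_val [NeZero N] [NeZero q] (h : Nat.Coprime q N) :
    ((degWElt N q h : GL (Fin 2) ℝ) : Matrix (Fin 2) (Fin 2) ℝ)
      = !![(q : ℝ), -(degBv N q : ℝ); (N : ℝ) * q, (q : ℝ) * degBu N q] := by
  have hq : q ≠ 0 := NeZero.ne q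
  rw [degWElt, Units.val_mul, gamma0Hom_apply, val_heckeDiagMatrix hq]
  ext i k
  fin_cases i <;> fin_cases k <;>
    simp only [Matrix.mul_apply, Fin.sum_univ_two, mapGL_apply, degRho, hltMk_00,
      hltMk_01, hltMk_10, hltMk_11, Matrix.of_apply, Matrix.cons_val', Matrix.cons_val_zero,
      Matrix.cons_val_one, Matrix.cons_val_fin_one, Fin.zero_eta, Fin.mk_one, Fin.isValue] <;>
    push_cast <;> ring

/-- **conjugation by `w`** of an integral upper triangular matrix -/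
theorem degW_conj_val [NeZero N] [NeZero q] (h : Nat.Coprime q N) (X : GL (Fin 2) ℝ)
    (a b d : ℤ) (hX : (X : Matrix (Fin 2) (Fin 2) ℝ) = !![(a : ℝ), (b : ℝ); 0, (d : ℝ)]) :
    ((degWElt N q h * X * (degWElt N q h)⁻¹ : GL (Fin 2) ℝ) : Matrix (Fin 2) (Fin 2) ℝ)
      = !![((q * a * degBu N q - N * q * b + N * degBv N q * d : ℤ) : ℝ),
            ((a * degBv N q + q * b - degBv N q * d : ℤ) : ℝ);
          ((N * q * (a * degBu N q - N * b - degBu N q * d) : ℤ) : ℝ),
            ((N * a * degBv N q + N * q * b + q * degBu N q * d : ℤ) : ℝ)] := by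
  have hbz : (q : ℝ) * degBu N q + (N : ℝ) * degBv N q = 1 := by exact_mod_cast deg_bezout h
  set M' : Matrix (Fin 2) (Fin 2) ℝ :=
    !![((q * a * degBu N q - N * q * b + N * degBv N q * d : ℤ) : ℝ),
        ((a * degBv N q + q * b - degBv N q * d : ℤ) : ℝ);
      ((N * q * (a * degBu N q - N * b - degBu N q * d) : ℤ) : ℝ),
        ((N * a * degBv N q + N * q * b + q * degBu N q * d : ℤ) : ℝ)] with hM'
  have h1 : M' * ((degWElt N q h : GL (Fin 2) ℝ) : Matrix (Fin 2) (Fin 2) ℝ)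
      = ((degWElt N q h : GL (Fin 2) ℝ) : Matrix (Fin 2) (Fin 2) ℝ)
        * (X : Matrix (Fin 2) (Fin 2) ℝ) := by
    rw [degWElt_val, hX, hM']
    ext i k
    fin_cases i <;> fin_cases k <;>
      simp only [Matrix.mul_apply, Fin.sum_univ_two, Matrix.of_apply, Matrix.cons_val',
        Matrix.cons_val_zero, Matrix.cons_val_one, Matrix.cons_val_fin_one, Fin.zero_eta,
        Fin.mk_one, Fin.isValue] <;>
      push_cast
    · linear_combination ((q : ℝ) * a) * hbz
    · linear_combination ((q : ℝ) * b - degBv N q * d) * hbz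
    · linear_combination ((N : ℝ) * q * a) * hbz
    · linear_combination ((N : ℝ) * q * b + q * degBu N q * d) * hbz
  have h2 : ((degWElt N q h : GL (Fin 2) ℝ) : Matrix (Fin 2) (Fin 2) ℝ)
      * (((degWElt N q h)⁻¹ : GL (Fin 2) ℝ) : Matrix (Fin 2) (Fin 2) ℝ) = 1 := by
    rw [← Units.val_mul, mul_inv_cancel, Units.val_one]
  rw [Units.val_mul, Units.val_mul, ← h1, Matrix.mul_assoc, h2, Matrix.mul_one]

/-- the determinant of the conjugated matrix -/
theorem degW_conj_det (h : Nat.Coprime q N) (a b d : ℤ) :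
    (q * a * degBu N q - N * q * b + N * degBv N q * d)
        * (N * a * degBv N q + N * q * b + q * degBu N q * d)
      - (a * degBv N q + q * b - degBv N q * d)
        * (N * q * (a * degBu N q - N * b - degBu N q * d)) = a * d := by
  linear_combination (a * d * ((q : ℤ) * degBu N q + (N : ℤ) * degBv N q + 1)) * deg_bezout h

/-- **abstract form**: `W` commutes with the operator of coset data `H` on `Γ₀(Nq)` as soon as
conjugation by `w` permutes the cosets of `H`. -/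
theorem degW_comm_of_conj [NeZero N] [NeZero q] (h : Nat.Coprime q N) {Y : Type} [Fintype Y]
    (H : DegData (gamma0Hom (N * q)) (gamma0Hom (N * q)) Y)
    (huniq : ∀ (a b : Gamma0 (N * q)) (y z : Y),
      gamma0Hom (N * q) a * H.α y = gamma0Hom (N * q) b * H.α z → y = z)
    (hconj : ∀ y : Y, ∃ (γ : Gamma0 (N * q)) (y' : Y),
      degWElt N q h * H.α y = gamma0Hom (N * q) γ * (H.α y' * degWElt N q h))
    {A : Type*} [AddCommGroup A] (ψ : Additive (Gamma0 (N * q)) →+ A) :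
    degW N q h A (H.op (gamma0Hom_injective (N * q)) A ψ)
      = H.op (gamma0Hom_injective (N * q)) A (degW N q h A ψ) := by
  have hinj := gamma0Hom_injective (N * q)
  have hL : degW N q h A (H.op hinj A ψ) = (H.comp (degWData N q h) hinj).op hinj A ψ :=
    (DegData.op_comp H (degWData N q h) hinj hinj ψ).symm
  have hR : H.op hinj A (degW N q h A ψ) = ((degWData N q h).comp H hinj).op hinj A ψ :=
    (DegData.op_comp (degWData N q h) H hinj hinj ψ).symm
  rw [hL, hR]
  symm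
  choose γf yf hf using hconj
  have hδ : ∀ p : Unit × Y, ((degWData N q h).comp H hinj).α p
      = gamma0Hom (N * q) (γf p.2) * (H.comp (degWData N q h) hinj).α ((yf p.2, ()) : Y × Unit) :=
    fun p => hf p.2
  have huniq' : ∀ (a b : Gamma0 (N * q)) (y z : Y × Unit),
      gamma0Hom (N * q) a * (H.comp (degWData N q h) hinj).α y
        = gamma0Hom (N * q) b * (H.comp (degWData N q h) hinj).α z → y = z := by
    intro a b y z hyz
    have h1 : gamma0Hom (N * q) a * H.α y.1 * degWElt N q h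
        = gamma0Hom (N * q) b * H.α z.1 * degWElt N q h := by
      rw [mul_assoc, mul_assoc]
      exact hyz
    exact Prod.ext (huniq a b y.1 z.1 (mul_right_cancel h1)) rfl
  have huniqD : ∀ (a b : Gamma0 (N * q)) (y z : Unit × Y),
      gamma0Hom (N * q) a * ((degWData N q h).comp H hinj).α y
        = gamma0Hom (N * q) b * ((degWData N q h).comp H hinj).α z → y = z := by
    intro a b y z hyz
    obtain ⟨a', rfl⟩ := degTheta_surjective h a
    obtain ⟨b', rfl⟩ := degTheta_surjective h b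
    have h1 : degWElt N q h * (gamma0Hom (N * q) a' * H.α y.2)
        = degWElt N q h * (gamma0Hom (N * q) b' * H.α z.2) := by
      rw [← mul_assoc, ← mul_assoc, degWElt_rel, degWElt_rel, mul_assoc, mul_assoc]
      exact hyz
    exact Prod.ext rfl (huniq a' b' y.2 z.2 (mul_left_cancel h1))
  have hτ : Function.Injective (fun p : Unit × Y => ((yf p.2, ()) : Y × Unit)) :=
    DegData.injective_of_uniq ((degWData N q h).comp H hinj) (H.comp (degWData N q h) hinj)
      _ (fun p => γf p.2) hδ huniqD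
  have hcard : Fintype.card (Y × Unit) ≤ Fintype.card (Unit × Y) := by
    rw [Fintype.card_prod, Fintype.card_prod, mul_comm]
  exact DegData.op_eq_of_injective ((degWData N q h).comp H hinj)
    (H.comp (degWData N q h) hinj) hinj _ hτ hcard (fun p => γf p.2) hδ huniq' ψ

/-- the matrices of the representatives of `T_ℓ` -/
theorem heckeRep_val_exists {ℓ : ℕ} [Fact ℓ.Prime] (y : OnePoint (ZMod ℓ)) :
    ∃ a b d : ℤ, ((heckeRep ℓ y : GL (Fin 2) ℝ) : Matrix (Fin 2) (Fin 2) ℝ)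
      = !![(a : ℝ), (b : ℝ); 0, (d : ℝ)] ∧ a * d = ℓ := by
  have hℓ : ℓ ≠ 0 := (Fact.out : ℓ.Prime).ne_zero
  induction y using OnePoint.rec with
  | infty =>
    refine ⟨ℓ, 0, 1, ?_, by ring⟩
    rw [heckeRep_infty, val_heckeDiagMatrix hℓ]
    push_cast
    rfl
  | coe j =>
    refine ⟨1, j.val, ℓ, ?_, by ring⟩
    rw [heckeRep_coe, val_heckeMatrix hℓ]
    push_cast
    rfl

/-- conjugation by `w` permutes the cosets of `T_ℓ` (`ℓ ∤ N q`) -/
theorem degW_conj_T [NeZero N] [NeZero q] (h : Nat.Coprime q N) {ℓ : ℕ} [Fact ℓ.Prime]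
    (hℓ : ¬ ℓ ∣ N * q) (y : OnePoint (ZMod ℓ)) :
    ∃ (γ : Gamma0 (N * q)) (y' : OnePoint (ZMod ℓ)),
      degWElt N q h * heckeRep ℓ y = gamma0Hom (N * q) γ * (heckeRep ℓ y' * degWElt N q h) := by
  obtain ⟨a, b, d, hX, had⟩ := heckeRep_val_exists y
  have hX' := degW_conj_val h (heckeRep ℓ y) a b d hX
  have hdet := (degW_conj_det h a b d).trans had
  obtain ⟨γ, y', hγ⟩ := exists_heckeRep_of_det (N * q) hℓ _ _ _ _ _ hX' hdet
    (by push_cast; exact dvd_mul_right _ _)
  refine ⟨γ, y', ?_⟩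
  rw [← mul_assoc, ← hγ, inv_mul_cancel_right]

/-- conjugation by `w` permutes the cosets of `U_ℓ` (`ℓ ∣ N q`, `ℓ ∤ q`) -/
theorem degW_conj_U [NeZero N] [NeZero q] (h : Nat.Coprime q N) {ℓ : ℕ} [Fact ℓ.Prime]
    (hℓ : ℓ ∣ N * q) (hℓq : ¬ ℓ ∣ q) (j : ZMod ℓ) :
    ∃ (γ : Gamma0 (N * q)) (j' : ZMod ℓ),
      degWElt N q h * heckeMatrix ℓ j.val
        = gamma0Hom (N * q) γ * (heckeMatrix ℓ j'.val * degWElt N q h) := by
  have hℓ0 : ℓ ≠ 0 := (Fact.out : ℓ.Prime).ne_zero
  have hℓN : ℓ ∣ N := ((Fact.out : ℓ.Prime).dvd_mul.mp hℓ).resolve_right hℓq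
  have hX : ((heckeMatrix ℓ j.val : GL (Fin 2) ℝ) : Matrix (Fin 2) (Fin 2) ℝ)
      = !![((1 : ℤ) : ℝ), ((j.val : ℤ) : ℝ); 0, ((ℓ : ℤ) : ℝ)] := by
    rw [val_heckeMatrix hℓ0]
    push_cast
    rfl
  have hX' := degW_conj_val h (heckeMatrix ℓ j.val) 1 j.val ℓ hX
  have hdet := (degW_conj_det h 1 (j.val : ℤ) (ℓ : ℤ)).trans (one_mul _)
  have ha : ¬ (ℓ : ℤ) ∣ (q * 1 * degBu N q - N * q * (j.val : ℤ) + N * degBv N q * ℓ) := by
    intro hdvd
    obtain ⟨n, hn⟩ := hℓN
    have h1 : (ℓ : ℤ) ∣ 1 := by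
      obtain ⟨c, hc⟩ := hdvd
      refine ⟨c + n * degBv N q + n * q * (j.val : ℤ) - n * degBv N q * ℓ, ?_⟩
      have hN : (N : ℤ) = ℓ * n := by exact_mod_cast hn
      have hbz := deg_bezout h
      linear_combination (-1 : ℤ) * hbz + hc + (degBv N q + q * (j.val : ℤ) - degBv N q * ℓ) * hN
    have h2 : (ℓ : ℤ) = 1 ∨ (ℓ : ℤ) = -1 := Int.isUnit_iff.mp (isUnit_of_dvd_one h1)
    have h3 := (Fact.out : ℓ.Prime).two_le
    omega
  obtain ⟨γ, j', hγ⟩ := exists_heckeMatrix_of_det (N * q) hℓ _ _ _ _ _ hX' hdet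
    (by push_cast; exact dvd_mul_right _ _) ha
  refine ⟨γ, j', ?_⟩
  rw [← mul_assoc, ← hγ, inv_mul_cancel_right]

/-- **(E3)**: the Atkin–Lehner involution `W_q` commutes with the Hecke operators away from
`q`. -/
theorem degW_heckeHom [NeZero N] [NeZero q] (h : Nat.Coprime q N) (ℓ : Nat.Primes)
    (hℓq : ¬ (ℓ : ℕ) ∣ q) {A : Type*} [AddCommGroup A] (ψ : Additive (Gamma0 (N * q)) →+ A) :
    degW N q h A (heckeHom (N * q) ℓ A ψ) = heckeHom (N * q) ℓ A (degW N q h A ψ) := by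
  haveI : Fact (ℓ : ℕ).Prime := ⟨ℓ.2⟩
  haveI : NeZero (ℓ : ℕ) := ⟨ℓ.2.ne_zero⟩
  by_cases hℓ : (ℓ : ℕ) ∣ N * q
  · rw [heckeHom_of_dvd hℓ, ← degUData_op (N * q) hℓ A]
    exact degW_comm_of_conj h (degUData (N * q) hℓ) (degUData_uniq (N * q) hℓ)
      (fun j => degW_conj_U h hℓ hℓq j) ψ
  · rw [heckeHom_of_not_dvd hℓ, ← degTData_op (N * q) hℓ A]
    exact degW_comm_of_conj h (degTData (N * q) hℓ) (degTData_uniq (N * q) hℓ)
      (fun y => degW_conj_T h hℓ y) ψ

end

end Fermat.Agent.S41lib
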