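import Mathlib
import Fermat.Agent.S41lib.DegPar
import Fermat.Agent.S41lib.DegHeckeRes
import Fermat.Agent.S41lib.DegHeckeCores
import Fermat.Agent.S41lib.DegHeckeW

/-!
# Item 78 (S41), block DEG, part (E): summary of the Hecke-equivariance

`res`, `cores`, `W_q` commute with `heckeHom · ℓ` for every prime `ℓ ∤ q` (helper22: `DegHeckeRes`,
`DegHeckeCores`; helper12: `DegHeckeW`).  Here: the corollaries for `resq = W ∘ res` and
`coresq = cores ∘ W`, and the stability of the `q`-new part `ker cores ∩ ker coresq` under ALL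
Hecke operators of level `N q`.
-/

set_option autoImplicit false

open CongruenceSubgroup Matrix.SpecialLinearGroup ModularForm ModularCurve.Period
open Fermat.Agent.S22lib Fermat.Agent.GalRep
open P2MW.S_ModularForm_heckeT_slash_eq_self_of_mem_Gamma0.ModularForm.HeckeSlashInvariance
open scoped MatrixGroups

namespace Fermat.Agent.S41lib

variable {N q : ℕ}

/-- (E) `resq ∘ T_ℓ = T_ℓ ∘ resq` -/
theorem degResq_heckeHom [NeZero N] [NeZero q] (h : Nat.Coprime q N) (ℓ : Nat.Primes)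
    (hℓq : ¬ (ℓ : ℕ) ∣ q) {A : Type*} [AddCommGroup A] (φ : Additive (Gamma0 N) →+ A) :
    degResq N q A (heckeHom N ℓ A φ) = heckeHom (N * q) ℓ A (degResq N q A φ) := by
  rw [← degW_degRes h, ← degW_degRes h, degRes_heckeHom ℓ hℓq, degW_heckeHom h ℓ hℓq]

/-- (E) `coresq ∘ T_ℓ = T_ℓ ∘ coresq` -/
theorem degCoresq_heckeHom [NeZero N] [NeZero q] (ℓ : Nat.Primes)
    (hℓq : ¬ (ℓ : ℕ) ∣ q) {A : Type*} [AddCommGroup A] (ψ : Additive (Gamma0 (N * q)) →+ A) :
    degCoresq N q A (heckeHom (N * q) ℓ A ψ) = heckeHom N ℓ A (degCoresq N q A ψ) := by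
  by_cases h : Nat.Coprime q N
  · rw [degCoresq_apply h, degCoresq_apply h, degW_heckeHom h ℓ hℓq, degCores_heckeHom ℓ hℓq]
  · rw [degCoresq, dif_neg h]
    simp

/-- a prime different from the prime `q` does not divide `q` -/
theorem deg_not_dvd_of_ne (hq : q.Prime) (ℓ : Nat.Primes) (hℓq : (ℓ : ℕ) ≠ q) : ¬ (ℓ : ℕ) ∣ q :=
  fun h => hℓq ((Nat.prime_dvd_prime_iff_eq ℓ.2 hq).mp h)

/-- **the `q`-new part `ker cores ∩ ker coresq` is stable under all Hecke operators of level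
`N q`** (including `U_q` and the `U_ℓ`, `ℓ ∣ N`). -/
theorem degNew_heckeHom [NeZero N] [NeZero q] (hq : q.Prime) (hqN : ¬ q ∣ N) (ℓ : Nat.Primes)
    {A : Type*} [AddCommGroup A] (ψ : Additive (Gamma0 (N * q)) →+ A)
    (hψ₁ : degCores N q A ψ = 0) (hψ₂ : degCoresq N q A ψ = 0) :
    degCores N q A (heckeHom (N * q) ℓ A ψ) = 0
      ∧ degCoresq N q A (heckeHom (N * q) ℓ A ψ) = 0 := by
  by_cases hℓq : (ℓ : ℕ) = q
  · have hℓ : ℓ = ⟨q, hq⟩ := Subtype.ext hℓq
    rw [hℓ]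
    exact ⟨degCores_heckeHom_self hq hqN ψ hψ₂, degCoresq_heckeHom_self hq hqN ψ hψ₁ hψ₂⟩
  · have h' := deg_not_dvd_of_ne hq ℓ hℓq
    rw [degCores_heckeHom ℓ h', degCoresq_heckeHom ℓ h', hψ₁, hψ₂, map_zero]
    exact ⟨rfl, rfl⟩

end Fermat.Agent.S41lib
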