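/-
S41 (item 78, level raising), block D, piece KILLER (helper21).

`exists_killer`: Ihara's lemma (block A output, `hA`) and the non-Eisenstein primes (block C
output, `hC`) give a prime `ℓ₀` such that `T_{ℓ₀} - (ℓ₀ + 1)` kills the kernel of `α mod p` (lattice
form) while `p ∤ a_{ℓ₀}(W) - (ℓ₀ + 1)`: this is the hypothesis `hA` of `algCore`.

Proof: `Hom(Γ₀(N), ZMod p)` is finite (the group is finitely generated), so the moduli `D` given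
by `hA` for all the pairs `(φ₁, φ₂)` have a common multiple `D₀`; apply `hC` to `D₀` and the finite
set `S ∪ {primes dividing D₀ N q p}`; reduce `u₁`, `u₂` modulo `p`.
-/
import Mathlib
import Fermat.Agent.S41lib.DegGram
import Fermat.Agent.GalRep.HeckeLat
import Fermat.Agent.GalRep.HeckeLatBC
import Fermat.Agent.S41lib.AlgCore
import Fermat.Prelude.Def_FLTPrelim_Modularity

set_option autoImplicit false

open CongruenceSubgroup ModularCurve.Period Fermat.Agent.GalRep ModularFormClass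
open WeierstrassCurve
open scoped MatrixGroups

namespace Fermat.Agent.S41lib

section generalities

variable {Γ : Type*} [Group Γ]

/-- `Hom(Γ, A)` is finite for a finitely generated group `Γ` and a finite group `A`. -/
theorem killer_finite_hom [Group.FG Γ] (A : Type*) [AddCommGroup A] [Finite A] :
    Finite (Additive Γ →+ A) := by
  classical
  obtain ⟨S, hS⟩ := Group.fg_def.mp (inferInstance : Group.FG Γ)
  let ev : (Additive Γ →+ A) → ({s // s ∈ S} → A) := fun φ s => φ (Additive.ofMul s.1)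
  have hinj : Function.Injective ev := by
    intro φ φ' h
    exact hlbc_ext_of_generators _ _ (S : Set Γ) hS fun s hs => congrFun h ⟨s, hs⟩
  exact Finite.of_injective ev hinj

/-- a homomorphism to `ℤ` whose reduction modulo `p` vanishes is divisible by `p`. -/
theorem killer_pdiv_of_cast_eq_zero {p : ℕ} (ψ : Additive Γ →+ ℤ)
    (h : (Int.castAddHom (ZMod p)).comp ψ = 0) : PDiv p ψ := by
  have hdvd : ∀ γ, (p : ℤ) ∣ ψ γ := by
    intro γ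
    have h1 : ((ψ γ : ℤ) : ZMod p) = 0 := by
      have := DFunLike.congr_fun h γ
      simpa using this
    exact (ZMod.intCast_zmod_eq_zero_iff_dvd _ _).mp h1
  choose y hy using hdvd
  refine ⟨AddMonoidHom.mk' (fun γ => ψ γ / (p : ℤ)) (fun γ δ => ?_), ?_⟩
  · rw [map_add]
    exact Int.add_ediv_of_dvd_left ⟨y γ, hy γ⟩
  · refine AddMonoidHom.ext fun γ => ?_
    rw [AddMonoidHom.smul_apply, AddMonoidHom.mk'_apply, smul_eq_mul]
    exact (Int.mul_ediv_cancel' ⟨y γ, hy γ⟩).symm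

/-- the reduction modulo `p` of a homomorphism divisible by `p` vanishes. -/
theorem killer_cast_eq_zero_of_pdiv {p : ℕ} (ψ : Additive Γ →+ ℤ) (h : PDiv p ψ) :
    (Int.castAddHom (ZMod p)).comp ψ = 0 := by
  obtain ⟨y, rfl⟩ := h
  refine AddMonoidHom.ext fun γ => ?_
  simp

end generalities

theorem killer_isParabolicHom_cast {N p : ℕ} {u : Additive (Gamma0 N) →+ ℤ}
    (hu : IsParabolicHom (Gamma0 N) u) :
    IsParabolicHom (Gamma0 N) ((Int.castAddHom (ZMod p)).comp u) := by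
  intro γ hγ
  rw [AddMonoidHom.comp_apply, hu γ hγ, map_zero]

theorem exists_killer {N q p : ℕ} [NeZero N] [NeZero q] (hp : p.Prime)
    (W : WeierstrassCurve ℤ)
    (hA : ∀ φ₁ φ₂ : Additive (Gamma0 N) →+ ZMod p,
      IsParabolicHom (Gamma0 N) φ₁ → IsParabolicHom (Gamma0 N) φ₂ →
      degRes N q (ZMod p) φ₁ + degResq N q (ZMod p) φ₂ = 0 →
      ∃ D : ℕ, 0 < D ∧ ∀ ℓ : Nat.Primes, ¬ (ℓ : ℕ) ∣ D * N * q * p →
        ((ℓ : ℕ) ≡ 1 [MOD D] ∨ p ∣ (ℓ : ℕ) + 1) →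
          heckeHom N ℓ (ZMod p) φ₁ = (((ℓ : ℕ) : ℤ) + 1) • φ₁ ∧
          heckeHom N ℓ (ZMod p) φ₂ = (((ℓ : ℕ) : ℤ) + 1) • φ₂)
    (hC : ∀ (D : ℕ), 0 < D → ∀ S : Finset ℕ,
      ∃ ℓ : ℕ, ℓ.Prime ∧ ℓ ∉ S ∧ W.IsGoodPrimeFor ℓ ∧ ℓ ≠ p ∧
        (ℓ ≡ 1 [MOD D * p] ∨ p ∣ ℓ + 1) ∧ ¬ (p : ℤ) ∣ (ℓ : ℤ) + 1 - W.apOfModel ℓ)
    (S : Finset ℕ) :
    ∃ ℓ₀ : Nat.Primes, (ℓ₀ : ℕ) ∉ S ∧ W.IsGoodPrimeFor ℓ₀ ∧ ¬ (ℓ₀ : ℕ) ∣ N * q * p ∧
      ¬ (p : ℤ) ∣ W.apOfModel ℓ₀ - (((ℓ₀ : ℕ) : ℤ) + 1) ∧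
      ∀ u₁ u₂ : Additive (Gamma0 N) →+ ℤ,
        IsParabolicHom (Gamma0 N) u₁ → IsParabolicHom (Gamma0 N) u₂ →
        PDiv p (degRes N q ℤ u₁ + degResq N q ℤ u₂) →
        PDiv p (heckeHom N ℓ₀ ℤ u₁ - (((ℓ₀ : ℕ) : ℤ) + 1) • u₁) ∧
        PDiv p (heckeHom N ℓ₀ ℤ u₂ - (((ℓ₀ : ℕ) : ℤ) + 1) • u₂) := by
  classical
  have : NeZero p := ⟨hp.ne_zero⟩
  have : Finite (Additive (Gamma0 N) →+ ZMod p) := killer_finite_hom (ZMod p)
  let _ : Fintype (Additive (Gamma0 N) →+ ZMod p) := Fintype.ofFinite _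
  -- the modulus attached to a pair
  let Φ := (Additive (Gamma0 N) →+ ZMod p) × (Additive (Gamma0 N) →+ ZMod p)
  let good : Φ → Prop := fun φ =>
    IsParabolicHom (Gamma0 N) φ.1 ∧ IsParabolicHom (Gamma0 N) φ.2 ∧
      degRes N q (ZMod p) φ.1 + degResq N q (ZMod p) φ.2 = 0
  have hex : ∀ φ : Φ, ∃ D : ℕ, 0 < D ∧ (good φ → ∀ ℓ : Nat.Primes, ¬ (ℓ : ℕ) ∣ D * N * q * p →
        ((ℓ : ℕ) ≡ 1 [MOD D] ∨ p ∣ (ℓ : ℕ) + 1) →
          heckeHom N ℓ (ZMod p) φ.1 = (((ℓ : ℕ) : ℤ) + 1) • φ.1 ∧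
          heckeHom N ℓ (ZMod p) φ.2 = (((ℓ : ℕ) : ℤ) + 1) • φ.2) := by
    intro φ
    by_cases hg : good φ
    · obtain ⟨D, hD, h⟩ := hA φ.1 φ.2 hg.1 hg.2.1 hg.2.2
      exact ⟨D, hD, fun _ => h⟩
    · exact ⟨1, one_pos, fun h => absurd h hg⟩
  choose Dφ hDφ hDφ' using hex
  set D₀ : ℕ := ∏ φ : Φ, Dφ φ with hD₀
  have hD₀pos : 0 < D₀ := Finset.prod_pos fun φ _ => hDφ φ
  have hdvd : ∀ φ : Φ, Dφ φ ∣ D₀ := fun φ => Finset.dvd_prod_of_mem _ (Finset.mem_univ φ)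
  have hNpos : 0 < N := Nat.pos_of_ne_zero (NeZero.ne N)
  have hqpos : 0 < q := Nat.pos_of_ne_zero (NeZero.ne q)
  have hbig : D₀ * N * q * p ≠ 0 := by
    have := hp.pos
    positivity
  obtain ⟨ℓ, hℓ, hℓS, hgood, hℓp, hcong, hnon⟩ := hC D₀ hD₀pos (S ∪ (D₀ * N * q * p).primeFactors)
  have hℓS' : ℓ ∉ S := fun h => hℓS (Finset.mem_union_left _ h)
  have hℓbig : ¬ ℓ ∣ D₀ * N * q * p := fun h =>
    hℓS (Finset.mem_union_right _ (Nat.mem_primeFactors.mpr ⟨hℓ, h, hbig⟩))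
  refine ⟨⟨ℓ, hℓ⟩, hℓS', hgood, ?_, ?_, ?_⟩
  · intro h
    apply hℓbig
    have : N * q * p ∣ D₀ * N * q * p := ⟨D₀, by ring⟩
    exact h.trans this
  · intro h
    apply hnon
    have := (dvd_neg (a := (p : ℤ))).mpr h
    rwa [neg_sub] at this
  · intro u₁ u₂ hu₁ hu₂ hdiv
    set φ : Φ := ((Int.castAddHom (ZMod p)).comp u₁, (Int.castAddHom (ZMod p)).comp u₂) with hφ
    have hg : good φ := by
      refine ⟨killer_isParabolicHom_cast hu₁, killer_isParabolicHom_cast hu₂, ?_⟩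
      show degRes N q (ZMod p) ((Int.castAddHom (ZMod p)).comp u₁)
        + degResq N q (ZMod p) ((Int.castAddHom (ZMod p)).comp u₂) = 0
      rw [degRes_comp, degResq_comp]
      have := killer_cast_eq_zero_of_pdiv _ hdiv
      rw [← this]
      refine AddMonoidHom.ext fun γ => ?_
      simp
    have hℓφ : ¬ ((⟨ℓ, hℓ⟩ : Nat.Primes) : ℕ) ∣ Dφ φ * N * q * p := by
      intro h
      apply hℓbig
      have : Dφ φ * N * q * p ∣ D₀ * N * q * p := by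
        obtain ⟨k, hk⟩ := hdvd φ
        exact ⟨k, by rw [hk]; ring⟩
      exact h.trans this
    have hcongφ : (((⟨ℓ, hℓ⟩ : Nat.Primes) : ℕ) ≡ 1 [MOD Dφ φ] ∨
        p ∣ ((⟨ℓ, hℓ⟩ : Nat.Primes) : ℕ) + 1) := by
      rcases hcong with h | h
      · left
        exact h.of_dvd ((hdvd φ).trans (Dvd.intro _ rfl))
      · right
        exact h
    obtain ⟨h1, h2⟩ := hDφ' φ hg ⟨ℓ, hℓ⟩ hℓφ hcongφ
    have h1' : heckeHom N ⟨ℓ, hℓ⟩ (ZMod p) ((Int.castAddHom (ZMod p)).comp u₁)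
        = (((⟨ℓ, hℓ⟩ : Nat.Primes) : ℕ) + 1 : ℤ) • ((Int.castAddHom (ZMod p)).comp u₁) := h1
    have h2' : heckeHom N ⟨ℓ, hℓ⟩ (ZMod p) ((Int.castAddHom (ZMod p)).comp u₂)
        = (((⟨ℓ, hℓ⟩ : Nat.Primes) : ℕ) + 1 : ℤ) • ((Int.castAddHom (ZMod p)).comp u₂) := h2
    have key : ∀ u : Additive (Gamma0 N) →+ ℤ,
        heckeHom N ⟨ℓ, hℓ⟩ (ZMod p) ((Int.castAddHom (ZMod p)).comp u)
          = (((⟨ℓ, hℓ⟩ : Nat.Primes) : ℕ) + 1 : ℤ) • ((Int.castAddHom (ZMod p)).comp u) →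
        PDiv p (heckeHom N ⟨ℓ, hℓ⟩ ℤ u - (((⟨ℓ, hℓ⟩ : Nat.Primes) : ℕ) + 1 : ℤ) • u) := by
      intro u hu
      apply killer_pdiv_of_cast_eq_zero
      have e0 : (Int.castAddHom (ZMod p)).comp (heckeHom N ⟨ℓ, hℓ⟩ ℤ u)
          = (((⟨ℓ, hℓ⟩ : Nat.Primes) : ℕ) + 1 : ℤ) • ((Int.castAddHom (ZMod p)).comp u) :=
        (heckeHom_comp (N := N) ⟨ℓ, hℓ⟩ (Int.castAddHom (ZMod p)) u).symm.trans hu
      refine AddMonoidHom.ext fun γ => ?_
      have e1 := DFunLike.congr_fun e0 γ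
      simp only [AddMonoidHom.comp_apply, AddMonoidHom.smul_apply, AddMonoidHom.sub_apply,
        AddMonoidHom.zero_apply, map_sub, map_zsmul] at e1 ⊢
      rw [e1, sub_self]
    exact ⟨key u₁ h1', key u₂ h2'⟩

end Fermat.Agent.S41lib
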