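/-
Item 78 (S41, level raising), block D, piece FINAL (helper16): S41 from Ihara's lemma
(`IharaStatement`) and duality (`DualityStatement`).  Exact signature of
NOTES/S41_signatures.lean.txt.

Wiring: `ef_exists_lattice_eigen` (EF1) ⇒ `x`; `exists_killer` + `nonEisenstein` ⇒ `ℓ₀`;
`algCore` on `L = HLat N`, `L' = HLat (N * q')` with the degeneracy maps ⇒ `z`;
`ef_exists_eigenform` (EF2) on the `q'`-new part ⇒ the eigenform `g`.
-/
import Mathlib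
import Fermat.Agent.S41lib.EigenFormMain
import Fermat.Agent.S41lib.Killer
import Fermat.Agent.S41lib.NonEis
import Fermat.Agent.S41lib.AlgCore
import Fermat.Agent.S41lib.DegHecke
import Fermat.Agent.S41lib.Interface
import Fermat.Prelude.Def_FreyPackage_LevelRaising

set_option autoImplicit false

open CongruenceSubgroup ModularCurve ModularCurve.Period ModularFormClass
open Fermat.Agent.GalRep
open WeierstrassCurve WeierstrassCurve.Affine WeierstrassCurve.Affine.Point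
open scoped MatrixGroups

namespace Fermat.Agent.S41lib

noncomputable section

/-- restriction to the parabolic lattices of an additive map preserving parabolic classes -/
def finRestrict {M₁ M₂ : ℕ}
    (F : (Additive (Gamma0 M₁) →+ ℤ) →+ (Additive (Gamma0 M₂) →+ ℤ))
    (hF : ∀ φ, IsParabolicHom (Gamma0 M₁) φ → IsParabolicHom (Gamma0 M₂) (F φ)) :
    HLat M₁ →+ HLat M₂ where
  toFun φ := ⟨F φ.1, hF φ.1 φ.2⟩
  map_zero' := Subtype.ext (map_zero F)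
  map_add' φ ψ := Subtype.ext (map_add F φ.1 ψ.1)

theorem finRestrict_coe {M₁ M₂ : ℕ}
    (F : (Additive (Gamma0 M₁) →+ ℤ) →+ (Additive (Gamma0 M₂) →+ ℤ))
    (hF : ∀ φ, IsParabolicHom (Gamma0 M₁) φ → IsParabolicHom (Gamma0 M₂) (F φ)) (φ : HLat M₁) :
    ((finRestrict F hF φ : HLat M₂) : Additive (Gamma0 M₂) →+ ℤ) = F φ.1 := rfl

/-- divisibility by `p` in the parabolic lattice and in `Hom(Γ₀(M), ℤ)` agree -/
theorem fin_pdiv_iff {M : ℕ} {p : ℕ} (hp : p ≠ 0) (x : HLat M) :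
    PDiv p x ↔ PDiv p (x : Additive (Gamma0 M) →+ ℤ) := by
  constructor
  · rintro ⟨y, rfl⟩
    exact ⟨y.1, rfl⟩
  · rintro ⟨y, hy⟩
    have hypar : IsParabolicHom (Gamma0 M) y := by
      refine efm_isParabolicHom_of_smul M hp ?_
      rw [← hy]
      exact x.2
    exact ⟨⟨y, hypar⟩, Subtype.ext hy⟩

theorem fin_eq_zero_of_smul {M : ℕ} {p : ℕ} (hp : p ≠ 0) {y : Additive (Gamma0 M) →+ ℤ}
    (h : (p : ℤ) • y = 0) : y = 0 := by
  refine AddMonoidHom.ext fun γ => ?_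
  have h1 := DFunLike.congr_fun h γ
  have h2 : (p : ℤ) * y γ = 0 := by simpa using h1
  rcases mul_eq_zero.mp h2 with h3 | h3
  · exact absurd (by exact_mod_cast h3) hp
  · exact h3

/-- **S41 from Ihara's lemma and duality.** -/
theorem s41_of_ihara_duality (hIhara : IharaStatement) (hDual : DualityStatement)
    (E : WeierstrassCurve ℚ) [E.IsElliptic] {W : WeierstrassCurve ℤ} (hW : W.IsIntegralModelOf E)
    {p N q' : ℕ} (hp : p.Prime) (hp2 : p ≠ 2) (hN : 0 < N) (hq' : q'.Prime) (hq'N : ¬ q' ∣ N)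
    (hq'p : q' ≠ p)
    (hirr : GaloisRepIsIrreducible (K := AlgebraicClosure ℚ) ℚ E p)
    (f : CuspForm (CongruenceSubgroup.Gamma0 N) 2) (𝔪 : Ideal (integralClosure ℤ ℂ))
    (hf : f.IsNormalizedEigenform) (hmax : 𝔪.IsMaximal) (hpm : (p : integralClosure ℤ ℂ) ∈ 𝔪)
    (hcong : ∀ ℓ : ℕ, ℓ.Prime → W.IsGoodPrimeFor ℓ → ¬ ℓ ∣ N → ℓ ≠ p →
      ∃ a : integralClosure ℤ ℂ, (a : ℂ) = ModularFormClass.qCoeff f ℓ ∧
        a - ((W.apOfModel ℓ : ℤ) : integralClosure ℤ ℂ) ∈ 𝔪)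
    (hLR : ∃ a : integralClosure ℤ ℂ, (a : ℂ) = ModularFormClass.qCoeff f q' ∧
      a ^ 2 - ((q' : integralClosure ℤ ℂ) + 1) ^ 2 ∈ 𝔪) :
    ∃ (g : CuspForm (CongruenceSubgroup.Gamma0 (N * q')) 2) (𝔪' : Ideal (integralClosure ℤ ℂ)),
      g.IsNormalizedEigenform ∧ 𝔪'.IsMaximal ∧ (p : integralClosure ℤ ℂ) ∈ 𝔪' ∧
      (∀ ℓ : ℕ, ℓ.Prime → W.IsGoodPrimeFor ℓ → ¬ ℓ ∣ N * q' → ℓ ≠ p →
        ∃ a : integralClosure ℤ ℂ, (a : ℂ) = ModularFormClass.qCoeff g ℓ ∧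
          a - ((W.apOfModel ℓ : ℤ) : integralClosure ℤ ℂ) ∈ 𝔪') ∧
      g.IsNewAt q' := by
  classical
  have : NeZero N := ⟨hN.ne'⟩
  have : NeZero q' := ⟨hq'.ne_zero⟩
  have : NeZero (N * q') := ⟨Nat.mul_ne_zero hN.ne' hq'.ne_zero⟩
  have hcop : Nat.Coprime q' N := (Nat.Prime.coprime_iff_not_dvd hq').mpr hq'N
  set q : Nat.Primes := ⟨q', hq'⟩ with hq
  -- step 0: the sign `ε`
  obtain ⟨aq, haq, haq2⟩ := hLR
  have hprime : 𝔪.IsPrime := hmax.isPrime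
  obtain ⟨ε, hε, hεq⟩ : ∃ ε : ℤ, ε * ε = 1 ∧
      aq - ((ε * ((q' : ℤ) + 1) : ℤ) : integralClosure ℤ ℂ) ∈ 𝔪 := by
    have h1 : (aq - ((q' : integralClosure ℤ ℂ) + 1)) * (aq + ((q' : integralClosure ℤ ℂ) + 1))
        ∈ 𝔪 := by
      have : (aq - ((q' : integralClosure ℤ ℂ) + 1)) * (aq + ((q' : integralClosure ℤ ℂ) + 1))
          = aq ^ 2 - ((q' : integralClosure ℤ ℂ) + 1) ^ 2 := by ring
      rw [this]
      exact haq2
    rcases hprime.mem_or_mem h1 with h2 | h2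
    · refine ⟨1, by norm_num, ?_⟩
      have : ((1 * ((q' : ℤ) + 1) : ℤ) : integralClosure ℤ ℂ) = (q' : integralClosure ℤ ℂ) + 1 := by
        push_cast
        ring
      rw [this]
      exact h2
    · refine ⟨-1, by norm_num, ?_⟩
      have : aq - (((-1) * ((q' : ℤ) + 1) : ℤ) : integralClosure ℤ ℂ)
          = aq + ((q' : integralClosure ℤ ℂ) + 1) := by
        push_cast
        ring
      rw [this]
      exact h2
  -- the eigenvalues and the index sets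
  let a : Nat.Primes → ℤ := fun ℓ => if ℓ = q then ε * ((q' : ℤ) + 1) else W.apOfModel ℓ
  let I₀ : Set Nat.Primes := {ℓ | W.IsGoodPrimeFor ℓ ∧ ¬ (ℓ : ℕ) ∣ N * q' ∧ (ℓ : ℕ) ≠ p}
  have hI₀q : ∀ ℓ ∈ I₀, ℓ ≠ q := by
    rintro ℓ ⟨-, h2, -⟩ rfl
    exact h2 (Dvd.intro_left N rfl)
  have hI₀q' : ∀ ℓ ∈ I₀, ¬ (ℓ : ℕ) ∣ q' := fun ℓ hℓ h => hℓ.2.1 (h.mul_left N)
  have haI₀ : ∀ ℓ ∈ I₀, a ℓ = W.apOfModel ℓ := fun ℓ hℓ => if_neg (hI₀q ℓ hℓ)
  have haq' : a q = ε * ((q' : ℤ) + 1) := if_pos rfl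
  -- step 1: the class `x`
  obtain ⟨x, hxpar, hxp, hxa⟩ := ef_exists_lattice_eigen N p hp f hf 𝔪 hmax hpm a (I₀ ∪ {q})
    (by
      rintro ℓ (hℓ | hℓ)
      · obtain ⟨c, hc1, hc2⟩ := hcong ℓ ℓ.2 hℓ.1 (fun h => hℓ.2.1 (h.mul_right q')) hℓ.2.2
        exact ⟨c, hc1, by rw [haI₀ ℓ hℓ]; exact hc2⟩
      · rw [Set.mem_singleton_iff] at hℓ
        rw [hℓ, haq']
        exact ⟨aq, haq, hεq⟩)
  -- step 2: the killer prime
  obtain ⟨ℓ₀, -, hℓ₀good, hℓ₀N, hℓ₀p, hkill⟩ := exists_killer (N := N) (q := q') hp W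
    (hIhara N q' p hq' hq'N hp hp2 hq'p) (fun D hD S => nonEisenstein E hW hp hp2 hirr D hD S) ∅
  have hℓ₀I : ℓ₀ ∈ I₀ := by
    refine ⟨hℓ₀good, fun h => hℓ₀N (h.mul_right p), fun h => hℓ₀N ?_⟩
    rw [h]
    exact Dvd.intro_left _ rfl
  -- step 3: the algebraic core
  let α₁ : HLat N →+ HLat (N * q') :=
    finRestrict (degRes N q' ℤ) (fun φ hφ => degRes_isParabolicHom hφ)
  let α₂ : HLat N →+ HLat (N * q') :=
    finRestrict (degResq N q' ℤ) (fun φ hφ => degResq_isParabolicHom hφ)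
  let β₁ : HLat (N * q') →+ HLat N :=
    finRestrict (degCores N q' ℤ) (fun φ hφ => degCores_isParabolicHom hφ)
  let β₂ : HLat (N * q') →+ HLat N :=
    finRestrict (degCoresq N q' ℤ) (fun φ hφ => degCoresq_isParabolicHom hφ)
  let T : I₀ → (HLat N →+ HLat N) := fun i => (heckeLat N i.1).toAddMonoidHom
  let T' : I₀ → (HLat (N * q') →+ HLat (N * q')) := fun i => (heckeLat (N * q') i.1).toAddMonoidHom
  let Tq : HLat N →+ HLat N := (heckeLat N q).toAddMonoidHom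
  let x' : HLat N := ⟨x, hxpar⟩
  obtain ⟨z, hz1, hz2, hzp, hzT⟩ := algCore p hp α₁ α₂ β₁ β₂ Tq (q' : ℤ) ε hε
    (fun y => Subtype.ext (by
      show degCores N q' ℤ (degRes N q' ℤ y.1) = (((q' : ℤ) + 1) • y).1
      rw [degCores_degRes hq' hq'N]
      show (q' + 1) • y.1 = ((q' : ℤ) + 1) • y.1
      rw [← natCast_zsmul]
      push_cast
      rfl))
    (fun y => Subtype.ext (by
      show degCoresq N q' ℤ (degResq N q' ℤ y.1) = (((q' : ℤ) + 1) • y).1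
      rw [degCoresq_degResq hq' hq'N]
      show (q' + 1) • y.1 = ((q' : ℤ) + 1) • y.1
      rw [← natCast_zsmul]
      push_cast
      rfl))
    (fun y => Subtype.ext (degCoresq_degRes q hq'N y.1))
    (fun y => Subtype.ext (degCores_degResq q hq'N y.1))
    T T'
    (fun i y => Subtype.ext (degRes_heckeHom i.1 (hI₀q' i.1 i.2) y.1))
    (fun i y => Subtype.ext (degResq_heckeHom hcop i.1 (hI₀q' i.1 i.2) y.1))
    (fun i y => Subtype.ext (degCores_heckeHom i.1 (hI₀q' i.1 i.2) y.1))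
    (fun i y => Subtype.ext (degCoresq_heckeHom i.1 (hI₀q' i.1 i.2) y.1))
    (fun i => a i.1) x'
    (fun h => hxp ((fin_pdiv_iff hp.ne_zero x').1 h))
    (fun i => (fin_pdiv_iff hp.ne_zero _).2 (hxa i.1 (Or.inl i.2)))
    ((fin_pdiv_iff hp.ne_zero _).2 (by
      have := hxa q (Or.inr rfl)
      rw [haq'] at this
      exact this))
    ⟨ℓ₀, hℓ₀I⟩ (((ℓ₀ : ℕ) : ℤ) + 1)
    (by
      show ¬ (p : ℤ) ∣ a ℓ₀ - (((ℓ₀ : ℕ) : ℤ) + 1)
      rw [haI₀ ℓ₀ hℓ₀I]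
      exact hℓ₀p)
    (fun u₁ u₂ h => by
      have h1 := hkill u₁.1 u₂.1 u₁.2 u₂.2 ((fin_pdiv_iff hp.ne_zero _).1 h)
      exact ⟨(fin_pdiv_iff hp.ne_zero _).2 h1.1, (fin_pdiv_iff hp.ne_zero _).2 h1.2⟩)
    (fun w₁ w₂ => by
      obtain ⟨u, y₁, y₂, hu, h1, h2⟩ := hDual N q' p hq' hq'N hp hp2 hq'p ℓ₀
        (((ℓ₀ : ℕ) : ℤ) + 1) hℓ₀N
        (fun x₁ x₂ hx₁ hx₂ hy => by
          obtain ⟨⟨y₁, hy₁⟩, ⟨y₂, hy₂⟩⟩ := hkill x₁ x₂ hx₁ hx₂ hy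
          exact ⟨y₁, y₂, hy₁, hy₂⟩)
        w₁.1 w₂.1 w₁.2 w₂.2
      have hy₁ : IsParabolicHom (Gamma0 N) y₁ := by
        refine efm_isParabolicHom_of_smul N hp.ne_zero ?_
        have : (p : ℤ) • y₁ = (heckeHom N ℓ₀ ℤ w₁.1 - (((ℓ₀ : ℕ) : ℤ) + 1) • w₁.1)
            - degCores N q' ℤ u := by
          rw [h1]; abel
        rw [this]
        exact (parabolicHoms ℤ (Gamma0 N) ℤ).sub_mem
          ((parabolicHoms ℤ (Gamma0 N) ℤ).sub_mem (heckeHom_isParabolicHom ℓ₀ w₁.2)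
            ((parabolicHoms ℤ (Gamma0 N) ℤ).smul_mem _ w₁.2))
          (degCores_isParabolicHom hu)
      have hy₂ : IsParabolicHom (Gamma0 N) y₂ := by
        refine efm_isParabolicHom_of_smul N hp.ne_zero ?_
        have : (p : ℤ) • y₂ = (heckeHom N ℓ₀ ℤ w₂.1 - (((ℓ₀ : ℕ) : ℤ) + 1) • w₂.1)
            - degCoresq N q' ℤ u := by
          rw [h2]; abel
        rw [this]
        exact (parabolicHoms ℤ (Gamma0 N) ℤ).sub_mem
          ((parabolicHoms ℤ (Gamma0 N) ℤ).sub_mem (heckeHom_isParabolicHom ℓ₀ w₂.2)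
            ((parabolicHoms ℤ (Gamma0 N) ℤ).smul_mem _ w₂.2))
          (degCoresq_isParabolicHom hu)
      exact ⟨⟨u, hu⟩, ⟨y₁, hy₁⟩, ⟨y₂, hy₂⟩, Subtype.ext h1, Subtype.ext h2⟩)
  -- step 4: the eigenform
  let K : AddSubgroup (Additive (Gamma0 (N * q')) →+ ℤ) :=
    { carrier := {ψ | IsParabolicHom (Gamma0 (N * q')) ψ ∧ degCores N q' ℤ ψ = 0 ∧
        degCoresq N q' ℤ ψ = 0}
      zero_mem' := ⟨(parabolicHoms ℤ (Gamma0 (N * q')) ℤ).zero_mem, map_zero _, map_zero _⟩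
      add_mem' := fun {ψ₁ ψ₂} h₁ h₂ =>
        ⟨(parabolicHoms ℤ (Gamma0 (N * q')) ℤ).add_mem h₁.1 h₂.1,
          by rw [map_add, h₁.2.1, h₂.2.1, add_zero], by rw [map_add, h₁.2.2, h₂.2.2, add_zero]⟩
      neg_mem' := fun {ψ} h =>
        ⟨(parabolicHoms ℤ (Gamma0 (N * q')) ℤ).neg_mem h.1,
          by rw [map_neg, h.2.1, _root_.neg_zero], by rw [map_neg, h.2.2, _root_.neg_zero]⟩ }
  have hKmem : ∀ ψ, ψ ∈ K ↔ IsParabolicHom (Gamma0 (N * q')) ψ ∧ degCores N q' ℤ ψ = 0 ∧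
      degCoresq N q' ℤ ψ = 0 := fun _ => Iff.rfl
  obtain ⟨g, 𝔪', hg, hmax', hpm', hgc, hgnew⟩ := ef_exists_eigenform (N * q') p hp q K
    (fun ψ hψ => hψ.1)
    (fun ψ hψ => by
      rw [hKmem] at hψ ⊢
      refine ⟨efm_isParabolicHom_of_smul (N * q') hp.ne_zero hψ.1, ?_, ?_⟩
      · refine fin_eq_zero_of_smul hp.ne_zero ?_
        rw [← map_zsmul]
        exact hψ.2.1
      · refine fin_eq_zero_of_smul hp.ne_zero ?_
        rw [← map_zsmul]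
        exact hψ.2.2)
    (fun ℓ ψ hψ => by
      rw [hKmem] at hψ ⊢
      exact ⟨heckeHom_isParabolicHom ℓ hψ.1, degNew_heckeHom hq' hq'N ℓ ψ hψ.2.1 hψ.2.2⟩)
    (fun ψ hψ => heckeHom_self_sq hq' hq'N ψ hψ.2.1 hψ.2.2)
    z.1 ⟨z.2, congrArg Subtype.val hz1, congrArg Subtype.val hz2⟩
    (fun h => hzp ((fin_pdiv_iff hp.ne_zero z).2 h))
    a I₀ (fun ℓ hℓ => (fin_pdiv_iff hp.ne_zero _).1 (hzT ⟨ℓ, hℓ⟩))
  refine ⟨g, 𝔪', hg, hmax', hpm', ?_, hgnew⟩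
  intro ℓ hℓ hℓgood hℓN hℓp
  obtain ⟨c, hc1, hc2⟩ := hgc ⟨ℓ, hℓ⟩ ⟨hℓgood, hℓN, hℓp⟩
  refine ⟨c, hc1, ?_⟩
  rw [haI₀ ⟨ℓ, hℓ⟩ ⟨hℓgood, hℓN, hℓp⟩] at hc2
  exact hc2

end

end Fermat.Agent.S41lib
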