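/-
Item 78 (S41), block A (Ihara's lemma), helper9.

`A3HInv N q φ`: the homomorphism `φ : Γ₀(N) → X` is invariant under conjugation by
`h = diag(q, 1/q)` wherever both matrices are integral:
`φ [[a, q² b],[c, d]] = φ [[a, b],[q² c, d]]`.

This is the ONLY consequence of the amalgam structure of `Γ₀(N)[1/q]` used by the crux A3.
-/
import Mathlib

set_option autoImplicit false

open CongruenceSubgroup
open scoped MatrixGroups

namespace Fermat.Agent.S41lib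

/-- invariance of `φ` under conjugation by `diag(q, 1/q)` (integral form) -/
def A3HInv (N q : ℕ) {X : Type*} [AddCommGroup X] (φ : Additive (Gamma0 N) →+ X) : Prop :=
  ∀ γ γ' : Gamma0 N,
    (γ' : SL(2, ℤ)) 0 0 = (γ : SL(2, ℤ)) 0 0 →
    (γ' : SL(2, ℤ)) 0 1 = (q : ℤ) ^ 2 * (γ : SL(2, ℤ)) 0 1 →
    (γ : SL(2, ℤ)) 1 0 = (q : ℤ) ^ 2 * (γ' : SL(2, ℤ)) 1 0 →
    (γ' : SL(2, ℤ)) 1 1 = (γ : SL(2, ℤ)) 1 1 →
    φ (Additive.ofMul γ') = φ (Additive.ofMul γ)

end Fermat.Agent.S41lib
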