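/-
Item 78 (S41), block A (Ihara's lemma), piece A2-GLUE (helper9).

A pair `(φ₁, φ₂)` of homomorphisms `Γ₀(N) → X` in the kernel of the level raising map
`degRes + degResq` glues (amalgam `Γ₀(N)[1/q] = Γ₀(N) *_{Γ₀(Nq)} Γ₀(N)`, `amalgam_extend`) to a
homomorphism `Φ` of `Γ₀(N)[1/q]`, which contains `h = diag(q, 1/q)`.  Since the target is abelian,
`Φ` is invariant under conjugation by `h`; hence both `φ₁` and `φ₂` satisfy `A3HInv`.
-/
import Mathlib
import Fermat.Agent.S41lib.Amalgam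
import Fermat.Agent.S41lib.DegMaps
import Fermat.Agent.S41lib.A3Defs

set_option autoImplicit false

open CongruenceSubgroup
open scoped MatrixGroups

namespace Fermat.Agent.S41lib

/-- `h = diag(q, 1/q)` as an element of `SL(2,ℚ)` -/
noncomputable def a2HMat (q : ℕ) [NeZero q] : SL(2, ℚ) :=
  amMk (q : ℚ) 0 0 (1 / (q : ℚ)) (by
    have hq : (q : ℚ) ≠ 0 := Nat.cast_ne_zero.mpr (NeZero.ne q)
    field_simp
    ring)

lemma a2HMat_mem (N q : ℕ) [NeZero q] : a2HMat q ∈ amGammaS N q := by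
  have hq : (q : ℚ) ≠ 0 := Nat.cast_ne_zero.mpr (NeZero.ne q)
  refine ⟨1, !![(q : ℤ) ^ 2, 0; 0, 1], ?_, ?_⟩
  · intro i j
    fin_cases i <;> fin_cases j
    · show (q : ℚ) ^ 1 * (q : ℚ) = (((q : ℤ) ^ 2 : ℤ) : ℚ)
      push_cast
      ring
    · show (q : ℚ) ^ 1 * 0 = ((0 : ℤ) : ℚ)
      simp
    · show (q : ℚ) ^ 1 * 0 = ((0 : ℤ) : ℚ)
      simp
    · show (q : ℚ) ^ 1 * (1 / (q : ℚ)) = ((1 : ℤ) : ℚ)
      field_simp
      simp
  · show (N : ℤ) ∣ 0
    exact dvd_zero _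

/-- `h = diag(q, 1/q)` as an element of `Γ₀(N)[1/q]` -/
noncomputable def a2H (N q : ℕ) [NeZero q] : ↥(amGammaS N q) := ⟨a2HMat q, a2HMat_mem N q⟩

/-- `h · M = M' · h` as soon as `M' = [[a, q² b],[c / q², d]]` for `M = [[a, b],[c, d]]` -/
lemma a2H_mul_eq (N q : ℕ) [NeZero q] (M M' : ↥(amGammaS N q))
    (h00 : (M' : SL(2, ℚ)) 0 0 = (M : SL(2, ℚ)) 0 0)
    (h01 : (M' : SL(2, ℚ)) 0 1 = (q : ℚ) ^ 2 * (M : SL(2, ℚ)) 0 1)
    (h10 : (M : SL(2, ℚ)) 1 0 = (q : ℚ) ^ 2 * (M' : SL(2, ℚ)) 1 0)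
    (h11 : (M' : SL(2, ℚ)) 1 1 = (M : SL(2, ℚ)) 1 1) :
    a2H N q * M = M' * a2H N q := by
  have hq : (q : ℚ) ≠ 0 := Nat.cast_ne_zero.mpr (NeZero.ne q)
  apply Subtype.ext
  show a2HMat q * (M : SL(2, ℚ)) = (M' : SL(2, ℚ)) * a2HMat q
  apply am_ext
  · rw [am_mul_00, am_mul_00]
    show (q : ℚ) * _ + 0 * _ = _ * (q : ℚ) + _ * 0
    rw [h00]; ring
  · rw [am_mul_01, am_mul_01]
    show (q : ℚ) * _ + 0 * _ = _ * 0 + _ * (1 / (q : ℚ))
    rw [h01]; field_simp; ring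
  · rw [am_mul_10, am_mul_10]
    show 0 * _ + (1 / (q : ℚ)) * _ = _ * (q : ℚ) + _ * 0
    rw [h10]; field_simp; ring
  · rw [am_mul_11, am_mul_11]
    show 0 * _ + (1 / (q : ℚ)) * _ = _ * 0 + _ * (1 / (q : ℚ))
    rw [h11]; ring

/-- a homomorphism of `Γ₀(N)[1/q]` to a commutative group is invariant under conjugation
by `h` -/
lemma a2_conj_inv (N q : ℕ) [NeZero q] {Y : Type*} [CommGroup Y]
    (Φ : ↥(amGammaS N q) →* Y) (M M' : ↥(amGammaS N q))
    (h : a2H N q * M = M' * a2H N q) : Φ M' = Φ M := by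
  have e := congrArg Φ h
  rw [map_mul, map_mul, mul_comm (Φ M')] at e
  exact (mul_left_cancel e).symm

lemma a2_amIota_eq_degConj (N q : ℕ) [NeZero q] (γ : ↥(Gamma0 (N * q))) :
    amIota N q γ = degConj N q γ :=
  Subtype.ext (am_ext rfl rfl rfl rfl)

/-- **A2-GLUE**: both components of a pair in the kernel of `degRes + degResq` are invariant
under conjugation by `diag(q, 1/q)`. -/
theorem a2_hinv (N q : ℕ) [NeZero N] [NeZero q] (hq : q.Prime) (hqN : ¬ q ∣ N)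
    {X : Type*} [AddCommGroup X] (φ₁ φ₂ : Additive (Gamma0 N) →+ X)
    (h : degRes N q X φ₁ + degResq N q X φ₂ = 0) : A3HInv N q φ₁ ∧ A3HInv N q φ₂ := by
  have hq0 : (q : ℚ) ≠ 0 := Nat.cast_ne_zero.mpr (NeZero.ne q)
  -- the two multiplicative homomorphisms
  let ψ₁ : ↥(Gamma0 N) →* Multiplicative X := AddMonoidHom.toMultiplicativeRight φ₁
  let ψ₂ : ↥(Gamma0 N) →* Multiplicative X := AddMonoidHom.toMultiplicativeRight (-φ₂)
  have hψ₁ : ∀ γ, ψ₁ γ = Multiplicative.ofAdd (φ₁ (Additive.ofMul γ)) := fun _ => rfl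
  have hψ₂ : ∀ γ, ψ₂ γ = Multiplicative.ofAdd (-(φ₂ (Additive.ofMul γ))) := fun _ => rfl
  have hcompat : ∀ γ : ↥(Gamma0 (N * q)),
      ψ₁ (Subgroup.inclusion (am_Gamma0_le N q) γ) = ψ₂ (amIota N q γ) := by
    intro γ
    rw [hψ₁, hψ₂]
    congr 1
    have e := DFunLike.congr_fun h (Additive.ofMul γ)
    rw [AddMonoidHom.add_apply, degRes_apply, degResq_apply, AddMonoidHom.zero_apply] at e
    rw [a2_amIota_eq_degConj]
    exact eq_neg_of_add_eq_zero_left e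
  obtain ⟨Φ, hΦA, hΦB⟩ := amalgam_extend N q hq hqN ψ₁ ψ₂ hcompat
  constructor
  · intro γ γ' h00 h01 h10 h11
    have key : Φ (amInclA N q γ') = Φ (amInclA N q γ) := by
      apply a2_conj_inv N q Φ
      apply a2H_mul_eq
      · simp only [amInclA_coe, amCast_apply]
        exact_mod_cast h00
      · simp only [amInclA_coe, amCast_apply]
        exact_mod_cast h01
      · simp only [amInclA_coe, amCast_apply]
        exact_mod_cast h10
      · simp only [amInclA_coe, amCast_apply]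
        exact_mod_cast h11
    rw [hΦA, hΦA, hψ₁, hψ₁] at key
    exact Multiplicative.ofAdd.injective key
  · intro γ γ' h00 h01 h10 h11
    have key : Φ (amInclB N q γ') = Φ (amInclB N q γ) := by
      apply a2_conj_inv N q Φ
      apply a2H_mul_eq
      · simp only [amInclB_coe, amConj_00, amCast_apply]
        exact_mod_cast h00
      · simp only [amInclB_coe, amConj_01, amCast_apply]
        have : (((γ' : SL(2, ℤ)) 0 1 : ℤ) : ℚ) = (q : ℚ) ^ 2 * (((γ : SL(2, ℤ)) 0 1 : ℤ) : ℚ) := by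
          exact_mod_cast h01
        rw [this]
        ring
      · simp only [amInclB_coe, amConj_10, amCast_apply]
        have : (((γ : SL(2, ℤ)) 1 0 : ℤ) : ℚ) = (q : ℚ) ^ 2 * (((γ' : SL(2, ℤ)) 1 0 : ℤ) : ℚ) := by
          exact_mod_cast h10
        rw [this]
        ring
      · simp only [amInclB_coe, amConj_11, amCast_apply]
        exact_mod_cast h11
    rw [hΦB, hΦB, hψ₂, hψ₂] at key
    have := Multiplicative.ofAdd.injective key
    exact neg_injective this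

end Fermat.Agent.S41lib
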