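import Mathlib
import Fermat.Agent.S41lib.AmalgamDefs
import Fermat.Prelude.Def_ModularCurve_PeriodMap

/-!
# Item 78 (S41), block A3, helper lemmas: rows of `Γ₀(N)` and parabolic homomorphisms

For a parabolic homomorphism `φ : Γ₀(N) → X` the value `φ γ` depends only on the bottom row
`(c, d)` of `γ`, on `d` only modulo `c` (`a3r_row_eq`), and on `c` only modulo `N d`
(`a3r_col_eq`).  Every coprime row `(c, d)` with `N ∣ c` occurs (`a3r_exists_row`).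
-/

set_option autoImplicit false

open CongruenceSubgroup ModularCurve.Period
open scoped MatrixGroups

namespace Fermat.Agent.S41lib

variable {N : ℕ}

/-- The bottom row of an element of `SL(2,ℤ)` is coprime. -/
lemma a3r_isCoprime_row (γ : SL(2, ℤ)) : IsCoprime (γ 1 0) (γ 1 1) :=
  ⟨-γ 0 1, γ 0 0, by linear_combination am_det_eq γ⟩

/-- Every coprime row `(c, d)` with `N ∣ c` is the bottom row of an element of `Γ₀(N)`. -/
lemma a3r_exists_row (c d : ℤ) (hc : (N : ℤ) ∣ c) (hcd : IsCoprime c d) :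
    ∃ γ : Gamma0 N, (γ : SL(2, ℤ)) 1 0 = c ∧ (γ : SL(2, ℤ)) 1 1 = d := by
  obtain ⟨u, v, huv⟩ := hcd
  exact ⟨⟨amMk v (-u) c d (by linear_combination huv), am_mem_Gamma0_iff.2 hc⟩, rfl, rfl⟩

section hom

variable {X : Type*} [AddCommGroup X] (φ : Additive (Gamma0 N) →+ X)

lemma a3r_map_mul (γ δ : Gamma0 N) :
    φ (Additive.ofMul (γ * δ)) = φ (Additive.ofMul γ) + φ (Additive.ofMul δ) := by
  rw [ofMul_mul, map_add]

variable {φ}

/-- A parabolic homomorphism kills the elements with bottom row `(0, 1)`. -/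
lemma a3r_upper_zero (hpar : IsParabolicHom (Gamma0 N) φ) (γ : Gamma0 N)
    (h0 : (γ : SL(2, ℤ)) 1 0 = 0) (h1 : (γ : SL(2, ℤ)) 1 1 = 1) :
    φ (Additive.ofMul γ) = 0 := by
  apply hpar
  have hdet := am_det_eq (γ : SL(2, ℤ))
  rw [h0, h1] at hdet
  have h00 : (γ : SL(2, ℤ)) 0 0 = 1 := by linear_combination hdet
  rw [Matrix.trace_fin_two]
  have e0 : ((γ : SL(2, ℤ)) : Matrix (Fin 2) (Fin 2) ℤ) 0 0 = 1 := h00
  have e1 : ((γ : SL(2, ℤ)) : Matrix (Fin 2) (Fin 2) ℤ) 1 1 = 1 := h1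
  rw [e0, e1]
  norm_num

/-- A parabolic homomorphism kills the elements with right column `(0, 1)`. -/
lemma a3r_lower_zero (hpar : IsParabolicHom (Gamma0 N) φ) (γ : Gamma0 N)
    (h0 : (γ : SL(2, ℤ)) 0 1 = 0) (h1 : (γ : SL(2, ℤ)) 1 1 = 1) :
    φ (Additive.ofMul γ) = 0 := by
  apply hpar
  have hdet := am_det_eq (γ : SL(2, ℤ))
  rw [h0, h1] at hdet
  have h00 : (γ : SL(2, ℤ)) 0 0 = 1 := by linear_combination hdet
  rw [Matrix.trace_fin_two]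
  have e0 : ((γ : SL(2, ℤ)) : Matrix (Fin 2) (Fin 2) ℤ) 0 0 = 1 := h00
  have e1 : ((γ : SL(2, ℤ)) : Matrix (Fin 2) (Fin 2) ℤ) 1 1 = 1 := h1
  rw [e0, e1]
  norm_num

/-- Two elements with the same bottom row have the same value. -/
lemma a3r_row_eq' (hpar : IsParabolicHom (Gamma0 N) φ) (γ γ' : Gamma0 N)
    (h0 : (γ' : SL(2, ℤ)) 1 0 = (γ : SL(2, ℤ)) 1 0)
    (h1 : (γ' : SL(2, ℤ)) 1 1 = (γ : SL(2, ℤ)) 1 1) :
    φ (Additive.ofMul γ') = φ (Additive.ofMul γ) := by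
  have hu : φ (Additive.ofMul (γ' * γ⁻¹)) = 0 := by
    apply a3r_upper_zero hpar
    · rw [Subgroup.coe_mul, Subgroup.coe_inv, am_mul_10, am_inv_00, am_inv_10, h0, h1]
      ring
    · rw [Subgroup.coe_mul, Subgroup.coe_inv, am_mul_11, am_inv_01, am_inv_11, h0, h1]
      linear_combination am_det_eq (γ : SL(2, ℤ))
  have e : γ' = (γ' * γ⁻¹) * γ := by group
  rw [e, a3r_map_mul, hu, zero_add]

/-- (P1): the value depends on `d` only modulo `c`. -/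
lemma a3r_row_eq (hpar : IsParabolicHom (Gamma0 N) φ) (γ γ' : Gamma0 N)
    (h0 : (γ' : SL(2, ℤ)) 1 0 = (γ : SL(2, ℤ)) 1 0)
    (h1 : (γ' : SL(2, ℤ)) 1 1 ≡ (γ : SL(2, ℤ)) 1 1 [ZMOD (γ : SL(2, ℤ)) 1 0]) :
    φ (Additive.ofMul γ') = φ (Additive.ofMul γ) := by
  obtain ⟨t, ht⟩ := (Int.modEq_iff_dvd.mp h1.symm)
  -- `γ' 1 1 = γ 1 1 + c * t`
  let T : Gamma0 N := ⟨amMk 1 t 0 1 (by ring), am_mem_Gamma0_iff.2 (dvd_zero _)⟩
  have hT : φ (Additive.ofMul T) = 0 := a3r_upper_zero hpar T rfl rfl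
  have h := a3r_row_eq' hpar (γ * T) γ'
    (by rw [Subgroup.coe_mul, am_mul_10, h0]
        show _ = (γ : SL(2, ℤ)) 1 0 * 1 + (γ : SL(2, ℤ)) 1 1 * 0
        ring)
    (by rw [Subgroup.coe_mul, am_mul_11]
        show _ = (γ : SL(2, ℤ)) 1 0 * t + (γ : SL(2, ℤ)) 1 1 * 1
        linear_combination ht)
  rw [h, a3r_map_mul, hT, add_zero]

/-- (P2): the value depends on `c` only modulo `N d`. -/
lemma a3r_col_eq (hpar : IsParabolicHom (Gamma0 N) φ) (γ γ' : Gamma0 N)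
    (h1 : (γ' : SL(2, ℤ)) 1 1 = (γ : SL(2, ℤ)) 1 1)
    (h0 : (γ' : SL(2, ℤ)) 1 0 ≡ (γ : SL(2, ℤ)) 1 0 [ZMOD (N : ℤ) * (γ : SL(2, ℤ)) 1 1]) :
    φ (Additive.ofMul γ') = φ (Additive.ofMul γ) := by
  obtain ⟨t, ht⟩ := (Int.modEq_iff_dvd.mp h0.symm)
  let L : Gamma0 N := ⟨amMk 1 0 ((N : ℤ) * t) 1 (by ring), am_mem_Gamma0_iff.2 (dvd_mul_right _ _)⟩
  have hL : φ (Additive.ofMul L) = 0 := a3r_lower_zero hpar L rfl rfl
  have h := a3r_row_eq' hpar (γ * L) γ'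
    (by rw [Subgroup.coe_mul, am_mul_10]
        show _ = (γ : SL(2, ℤ)) 1 0 * 1 + (γ : SL(2, ℤ)) 1 1 * ((N : ℤ) * t)
        linear_combination ht)
    (by rw [Subgroup.coe_mul, am_mul_11, h1]
        show _ = (γ : SL(2, ℤ)) 1 0 * 0 + (γ : SL(2, ℤ)) 1 1 * 1
        ring)
  rw [h, a3r_map_mul, hL, add_zero]

/-- The value on a row `(c, d)` with `d ≡ 1 mod c` is zero. -/
lemma a3r_row_one (hpar : IsParabolicHom (Gamma0 N) φ) (γ : Gamma0 N)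
    (h1 : (γ : SL(2, ℤ)) 1 1 ≡ 1 [ZMOD (γ : SL(2, ℤ)) 1 0]) :
    φ (Additive.ofMul γ) = 0 := by
  have hc : (N : ℤ) ∣ (γ : SL(2, ℤ)) 1 0 := am_mem_Gamma0_iff.1 γ.2
  let L : Gamma0 N := ⟨amMk 1 0 ((γ : SL(2, ℤ)) 1 0) 1 (by ring), am_mem_Gamma0_iff.2 hc⟩
  have hL : φ (Additive.ofMul L) = 0 := a3r_lower_zero hpar L rfl rfl
  rw [a3r_row_eq hpar L γ rfl h1, hL]

end hom

end Fermat.Agent.S41lib
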