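import Fermat.Agent.S41lib.AmalgamSurj

/-!
# Item 78 (S41), block A1: `Γ₀(N)[1/q] = Γ₀(N) *_{Γ₀(N q)} Γ₀(N)` (Ihara / Serre)

Main results (`q` prime, `q ∤ N`):

* `amEquiv : Γ₀(N) *_{Γ₀(N q)} Γ₀(N) ≃* amGammaS N q`;
* `amalgam_extend`: two homomorphisms `φ₁ φ₂ : Γ₀(N) →* X` with
  `φ₁ γ = φ₂ (amIota N q γ)` for all `γ ∈ Γ₀(N q)` extend (uniquely, `amalgam_hom_ext`) to a
  homomorphism `Φ : amGammaS N q →* X` with `Φ ∘ amInclA = φ₁` and `Φ ∘ amInclB = φ₂`.

Here `amInclA γ = γ` and `amInclB γ = diag(1,q) γ diag(1,q)⁻¹`.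
For additive targets use `X := Multiplicative A`.
-/

namespace Fermat.Agent.S41lib

open Matrix CongruenceSubgroup Monoid
open scoped MatrixGroups

/-- The first copy of `Γ₀(N)` in `Γ₀(N)[1/q]`: `γ ↦ γ`. -/
def amInclA (N q : ℕ) : ↥(Gamma0 N) →* ↥(amGammaS N q) :=
  (amCast.comp (Gamma0 N).subtype).codRestrict (amGammaS N q) (amCast_mem_amGammaS N q)

/-- The second copy of `Γ₀(N)` in `Γ₀(N)[1/q]`: `γ ↦ diag(1,q) γ diag(1,q)⁻¹`. -/
noncomputable def amInclB (N q : ℕ) [NeZero q] : ↥(Gamma0 N) →* ↥(amGammaS N q) :=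
  ((amConj q).comp (amCast.comp (Gamma0 N).subtype)).codRestrict (amGammaS N q)
    (amConj_amCast_mem_amGammaS N q)

@[simp] lemma amInclA_coe (N q : ℕ) (γ : ↥(Gamma0 N)) :
    ((amInclA N q γ : ↥(amGammaS N q)) : SL(2, ℚ)) = amCast (γ : SL(2, ℤ)) := rfl

@[simp] lemma amInclB_coe (N q : ℕ) [NeZero q] (γ : ↥(Gamma0 N)) :
    ((amInclB N q γ : ↥(amGammaS N q)) : SL(2, ℚ)) = amConj q (amCast (γ : SL(2, ℤ))) := rfl

lemma amInclA_injective (N q : ℕ) : Function.Injective (amInclA N q) := by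
  intro a b h
  apply Subtype.ext
  apply amCast_injective
  exact congrArg Subtype.val h

lemma amInclB_injective (N q : ℕ) [NeZero q] : Function.Injective (amInclB N q) := by
  intro a b h
  apply Subtype.ext
  apply amCast_injective
  apply amConj_injective q
  exact congrArg Subtype.val h

/-- On `Γ₀(N q)` the two copies are glued along `amIota`. -/
lemma amInclB_amIota (N q : ℕ) [NeZero q] (γ : ↥(Gamma0 (N * q))) :
    amInclB N q (amIota N q γ) = amInclA N q (Subgroup.inclusion (am_Gamma0_le N q) γ) := by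
  apply Subtype.ext
  exact amConj_amCast_amIota N q γ

/-- The canonical map of the amalgam to `Γ₀(N)[1/q]`. -/
noncomputable def amPsiS (N q : ℕ) [NeZero q] : AmPush N q →* ↥(amGammaS N q) :=
  (amPsi N q).codRestrict (amGammaS N q) (amPsi_mem N q)

lemma amPsiS_bijective (N q : ℕ) [NeZero q] (hq : q.Prime) (hNq : Nat.Coprime N q) :
    Function.Bijective (amPsiS N q) := by
  constructor
  · intro x y h
    exact amPsi_injective N q hq hNq (congrArg Subtype.val h)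
  · rintro ⟨M, hM⟩
    obtain ⟨x, hx⟩ := amGammaS_le_range N q hq hNq hM
    exact ⟨x, Subtype.ext hx⟩

/-- **Ihara–Serre**: `Γ₀(N) *_{Γ₀(N q)} Γ₀(N) ≃* Γ₀(N)[1/q]`. -/
noncomputable def amEquiv (N q : ℕ) [NeZero q] (hq : q.Prime) (hNq : Nat.Coprime N q) :
    AmPush N q ≃* ↥(amGammaS N q) :=
  MulEquiv.ofBijective (amPsiS N q) (amPsiS_bijective N q hq hNq)

lemma amEquiv_of_false (N q : ℕ) [NeZero q] (hq : q.Prime) (hNq : Nat.Coprime N q)
    (γ : ↥(Gamma0 N)) :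
    amEquiv N q hq hNq (Monoid.PushoutI.of (G := fun _ : Bool => ↥(Gamma0 N)) false γ)
      = amInclA N q γ := by
  apply Subtype.ext
  exact amPsi_of N q false γ

lemma amEquiv_of_true (N q : ℕ) [NeZero q] (hq : q.Prime) (hNq : Nat.Coprime N q)
    (γ : ↥(Gamma0 N)) :
    amEquiv N q hq hNq (Monoid.PushoutI.of (G := fun _ : Bool => ↥(Gamma0 N)) true γ)
      = amInclB N q γ := by
  apply Subtype.ext
  exact amPsi_of N q true γ

/-- **Universal property of `Γ₀(N)[1/q]`** (existence). -/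
theorem amalgam_extend (N q : ℕ) [NeZero q] (hq : q.Prime) (hqN : ¬ q ∣ N)
    {X : Type*} [Monoid X] (φ₁ φ₂ : ↥(Gamma0 N) →* X)
    (h : ∀ γ : ↥(Gamma0 (N * q)),
      φ₁ (Subgroup.inclusion (am_Gamma0_le N q) γ) = φ₂ (amIota N q γ)) :
    ∃ Φ : ↥(amGammaS N q) →* X,
      (∀ γ : ↥(Gamma0 N), Φ (amInclA N q γ) = φ₁ γ) ∧
      (∀ γ : ↥(Gamma0 N), Φ (amInclB N q γ) = φ₂ γ) := by
  have hNq : Nat.Coprime N q := ((Nat.Prime.coprime_iff_not_dvd hq).2 hqN).symm
  let f : (i : Bool) → ↥(Gamma0 N) →* X := fun i => match i with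
    | false => φ₁
    | true => φ₂
  have hf : ∀ i, (f i).comp (amPhi N q i) = φ₁.comp (Subgroup.inclusion (am_Gamma0_le N q)) := by
    intro i
    cases i
    · rfl
    · ext1 γ
      exact (h γ).symm
  let L : AmPush N q →* X :=
    Monoid.PushoutI.lift (G := fun _ : Bool => ↥(Gamma0 N)) f _ hf
  refine ⟨L.comp (amEquiv N q hq hNq).symm.toMonoidHom, ?_, ?_⟩
  · intro γ
    rw [← amEquiv_of_false N q hq hNq γ]
    simp only [MonoidHom.coe_comp, MulEquiv.coe_toMonoidHom, Function.comp_apply,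
      MulEquiv.symm_apply_apply]
    exact Monoid.PushoutI.lift_of (G := fun _ : Bool => ↥(Gamma0 N)) f _ hf γ
  · intro γ
    rw [← amEquiv_of_true N q hq hNq γ]
    simp only [MonoidHom.coe_comp, MulEquiv.coe_toMonoidHom, Function.comp_apply,
      MulEquiv.symm_apply_apply]
    exact Monoid.PushoutI.lift_of (G := fun _ : Bool => ↥(Gamma0 N)) f _ hf γ

/-- **Universal property of `Γ₀(N)[1/q]`** (uniqueness): `Γ₀(N)[1/q]` is generated by the two
copies of `Γ₀(N)`. -/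
theorem amalgam_hom_ext (N q : ℕ) [NeZero q] (hq : q.Prime) (hqN : ¬ q ∣ N)
    {X : Type*} [Monoid X] (Φ Ψ : ↥(amGammaS N q) →* X)
    (hA : ∀ γ : ↥(Gamma0 N), Φ (amInclA N q γ) = Ψ (amInclA N q γ))
    (hB : ∀ γ : ↥(Gamma0 N), Φ (amInclB N q γ) = Ψ (amInclB N q γ)) : Φ = Ψ := by
  have hNq : Nat.Coprime N q := ((Nat.Prime.coprime_iff_not_dvd hq).2 hqN).symm
  have key : Φ.comp (amEquiv N q hq hNq).toMonoidHom = Ψ.comp (amEquiv N q hq hNq).toMonoidHom := by
    apply Monoid.PushoutI.hom_ext_nonempty (G := fun _ : Bool => ↥(Gamma0 N))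
    intro i
    ext1 γ
    cases i
    · simp only [MonoidHom.coe_comp, MulEquiv.coe_toMonoidHom, Function.comp_apply]
      rw [amEquiv_of_false]
      exact hA γ
    · simp only [MonoidHom.coe_comp, MulEquiv.coe_toMonoidHom, Function.comp_apply]
      rw [amEquiv_of_true]
      exact hB γ
  ext1 x
  obtain ⟨y, rfl⟩ := (amEquiv N q hq hNq).surjective x
  exact DFunLike.congr_fun key y

/-- `Γ₀(N)[1/q]` is generated by the two copies of `Γ₀(N)`. -/
theorem amGammaS_eq_closure (N q : ℕ) [NeZero q] (hq : q.Prime) (hqN : ¬ q ∣ N) :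
    Subgroup.closure (Set.range (amInclA N q) ∪ Set.range (amInclB N q)) = ⊤ := by
  have hNq : Nat.Coprime N q := ((Nat.Prime.coprime_iff_not_dvd hq).2 hqN).symm
  rw [eq_top_iff]
  intro x hxtop
  clear hxtop
  obtain ⟨y, rfl⟩ := (amEquiv N q hq hNq).surjective x
  induction y using Monoid.PushoutI.induction_on with
  | of i g =>
    cases i
    · rw [amEquiv_of_false]
      exact Subgroup.subset_closure (Or.inl ⟨g, rfl⟩)
    · rw [amEquiv_of_true]
      exact Subgroup.subset_closure (Or.inr ⟨g, rfl⟩)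
  | base h =>
    rw [← Monoid.PushoutI.of_apply_eq_base (G := fun _ : Bool => ↥(Gamma0 N)) (amPhi N q) false h,
      amEquiv_of_false]
    exact Subgroup.subset_closure (Or.inl ⟨_, rfl⟩)
  | mul x y hx hy =>
    rw [map_mul]
    exact Subgroup.mul_mem _ hx hy

/-- Useful elements: the unipotent `[[1, 1/q],[0,1]]` is `amInclB` of `[[1,1],[0,1]]`. -/
lemma amInclB_T_coe (N q : ℕ) [NeZero q] :
    ∃ u : ↥(Gamma0 N), ((u : SL(2, ℤ)) 0 0 = 1 ∧ (u : SL(2, ℤ)) 0 1 = 1 ∧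
      (u : SL(2, ℤ)) 1 0 = 0 ∧ (u : SL(2, ℤ)) 1 1 = 1) ∧
      ((amInclB N q u : ↥(amGammaS N q)) : SL(2, ℚ)) 0 1 = 1 / q := by
  refine ⟨⟨amMk 1 1 0 1 (by ring), ?_⟩, ⟨rfl, rfl, rfl, rfl⟩, ?_⟩
  · rw [am_mem_Gamma0_iff]
    exact dvd_zero _
  · simp [amInclB_coe]

end Fermat.Agent.S41lib
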