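import Fermat.Agent.S41lib.AmalgamDefs

/-!
# Item 78 (S41), block A1: the amalgam — injectivity of `Γ₀(N) *_{Γ₀(Nq)} Γ₀(N) → SL(2,ℚ)`

`AmPush N q` is the abstract pushout (amalgamated product) of the two maps
`Γ₀(N q) → Γ₀(N)` (inclusion and `amIota`), and `amPsi N q : AmPush N q →* SL(2,ℚ)` is the
canonical map (`amCast` on the first factor, `amConj q ∘ amCast` on the second one).
We prove that `amPsi` is injective (for `q` prime, `q ∤ N`) by the normal form theorem in
Mathlib and a "ping-pong" computation modulo `q` (no trees).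
-/

namespace Fermat.Agent.S41lib

open Matrix CongruenceSubgroup Monoid
open scoped MatrixGroups

/-- The diagram `Γ₀(N) ← Γ₀(N q) → Γ₀(N)`: `false ↦` inclusion, `true ↦ amIota`. -/
noncomputable def amPhi (N q : ℕ) [NeZero q] :
    (i : Bool) → ↥(Gamma0 (N * q)) →* ↥(Gamma0 N)
  | false => Subgroup.inclusion (am_Gamma0_le N q)
  | true => amIota N q

/-- The abstract amalgam `Γ₀(N) *_{Γ₀(N q)} Γ₀(N)`. -/
abbrev AmPush (N q : ℕ) [NeZero q] : Type :=
  Monoid.PushoutI (G := fun _ : Bool => ↥(Gamma0 N)) (amPhi N q)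

/-- The two embeddings `Γ₀(N) → SL(2,ℚ)`: `false ↦ amCast`, `true ↦ amConj q ∘ amCast`. -/
noncomputable def amF (N q : ℕ) [NeZero q] : (i : Bool) → ↥(Gamma0 N) →* SL(2, ℚ)
  | false => amCast.comp (Gamma0 N).subtype
  | true => (amConj q).comp (amCast.comp (Gamma0 N).subtype)

lemma amF_comp_amPhi (N q : ℕ) [NeZero q] (i : Bool) :
    (amF N q i).comp (amPhi N q i) = amCast.comp (Gamma0 (N * q)).subtype := by
  cases i
  · rfl
  · ext1 γ
    exact amConj_amCast_amIota N q γ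

/-- The canonical map from the amalgam to `SL(2,ℚ)`. -/
noncomputable def amPsi (N q : ℕ) [NeZero q] : AmPush N q →* SL(2, ℚ) :=
  Monoid.PushoutI.lift (G := fun _ : Bool => ↥(Gamma0 N)) (amF N q)
    (amCast.comp (Gamma0 (N * q)).subtype) (amF_comp_amPhi N q)

lemma amPsi_of (N q : ℕ) [NeZero q] (i : Bool) (g : ↥(Gamma0 N)) :
    amPsi N q (Monoid.PushoutI.of (G := fun _ : Bool => ↥(Gamma0 N)) i g) = amF N q i g :=
  Monoid.PushoutI.lift_of (G := fun _ : Bool => ↥(Gamma0 N)) _ _ _ g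

lemma amPsi_base (N q : ℕ) [NeZero q] (h : ↥(Gamma0 (N * q))) :
    amPsi N q (Monoid.PushoutI.base (G := fun _ : Bool => ↥(Gamma0 N)) (amPhi N q) h)
      = amCast (h : SL(2, ℤ)) :=
  Monoid.PushoutI.lift_base (G := fun _ : Bool => ↥(Gamma0 N)) _ _ _ h

/-- Invariant for words starting with a letter of the first factor (or empty):
`q ^ k • M` is integral with second row `≢ 0 mod q`. -/
def AmPA0 (q : ℕ) (M : SL(2, ℚ)) : Prop :=
  ∃ (k : ℕ) (Z : Matrix (Fin 2) (Fin 2) ℤ), (∀ i j, (q : ℚ) ^ k * M i j = (Z i j : ℚ)) ∧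
    ¬ ((q : ℤ) ∣ Z 1 0 ∧ (q : ℤ) ∣ Z 1 1)

/-- Invariant for nonempty words starting with a letter of the first factor. -/
def AmPA (q : ℕ) (M : SL(2, ℚ)) : Prop :=
  ∃ (k : ℕ) (Z : Matrix (Fin 2) (Fin 2) ℤ), (∀ i j, (q : ℚ) ^ k * M i j = (Z i j : ℚ)) ∧
    ¬ ((q : ℤ) ∣ Z 1 0 ∧ (q : ℤ) ∣ Z 1 1) ∧ (k = 0 → ¬ (q : ℤ) ∣ Z 1 0)

/-- Invariant for nonempty words starting with a letter of the second factor. -/
def AmPB (q : ℕ) (M : SL(2, ℚ)) : Prop :=
  ∃ (k : ℕ) (Z : Matrix (Fin 2) (Fin 2) ℤ), (∀ i j, (q : ℚ) ^ (k + 1) * M i j = (Z i j : ℚ)) ∧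
    (q : ℤ) ∣ Z 1 0 ∧ (q : ℤ) ∣ Z 1 1 ∧ ¬ ((q : ℤ) ∣ Z 0 0 ∧ (q : ℤ) ∣ Z 0 1)

lemma AmPA.toPA0 {q : ℕ} {M : SL(2, ℚ)} (h : AmPA q M) : AmPA0 q M := by
  obtain ⟨k, Z, h1, h2, -⟩ := h
  exact ⟨k, Z, h1, h2⟩

lemma amPA0_one (q : ℕ) (hq : q.Prime) : AmPA0 q 1 := by
  refine ⟨0, 1, ?_, ?_⟩
  · intro i j
    fin_cases i <;> fin_cases j <;> simp
  · rintro ⟨-, h⟩
    have h1 : (q : ℤ) ∣ 1 := by simpa using h
    have := Int.natCast_dvd_natCast.mp (by simpa using h1 : ((q : ℕ) : ℤ) ∣ ((1 : ℕ) : ℤ))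
    exact hq.one_lt.ne' (Nat.dvd_one.mp this)

lemma am_forall_fin2 {P : Fin 2 → Fin 2 → Prop} (h00 : P 0 0) (h01 : P 0 1) (h10 : P 1 0)
    (h11 : P 1 1) : ∀ i j, P i j := by
  intro i j
  fin_cases i <;> fin_cases j <;> assumption

/-- Step (A·1). -/
lemma amPA_cast {q : ℕ} (α : SL(2, ℤ)) (hα : ¬ (q : ℤ) ∣ α 1 0) : AmPA q (amCast α) := by
  refine ⟨0, α.1, ?_, ?_, ?_⟩
  · intro i j; simp
  · rintro ⟨h, -⟩; exact hα h
  · intro _; exact hα

/-- Step (A·B). -/
lemma amPA_cast_mul {q : ℕ} (hq : q.Prime) (α : SL(2, ℤ)) (hα : ¬ (q : ℤ) ∣ α 1 0)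
    {M : SL(2, ℚ)} (hM : AmPB q M) : AmPA q (amCast α * M) := by
  have hp : Prime (q : ℤ) := Nat.prime_iff_prime_int.mp hq
  obtain ⟨k, Z, hZ, h10, h11, hrow1⟩ := hM
  refine ⟨k + 1, !![α 0 0 * Z 0 0 + α 0 1 * Z 1 0, α 0 0 * Z 0 1 + α 0 1 * Z 1 1;
    α 1 0 * Z 0 0 + α 1 1 * Z 1 0, α 1 0 * Z 0 1 + α 1 1 * Z 1 1], ?_, ?_, ?_⟩
  · apply am_forall_fin2
    · simp only [am_mul_00, amCast_apply, of_apply, cons_val', cons_val_zero, cons_val_fin_one]
      push_cast
      rw [← hZ 0 0, ← hZ 1 0]; ring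
    · simp only [am_mul_01, amCast_apply, of_apply, cons_val', cons_val_zero, cons_val_one,
        cons_val_fin_one]
      push_cast
      rw [← hZ 0 1, ← hZ 1 1]; ring
    · simp only [am_mul_10, amCast_apply, of_apply, cons_val', cons_val_zero, cons_val_one,
        cons_val_fin_one]
      push_cast
      rw [← hZ 0 0, ← hZ 1 0]; ring
    · simp only [am_mul_11, amCast_apply, of_apply, cons_val', cons_val_one,
        cons_val_fin_one]
      push_cast
      rw [← hZ 0 1, ← hZ 1 1]; ring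
  · rintro ⟨e1, e2⟩
    simp only [of_apply, cons_val', cons_val_zero, cons_val_one, cons_val_fin_one] at e1 e2
    apply hrow1
    constructor
    · have : (q : ℤ) ∣ α 1 0 * Z 0 0 := by
        have := (Int.dvd_add_left (Dvd.dvd.mul_left h10 (α 1 1))).mp e1
        exact this
      exact (hp.dvd_mul.mp this).resolve_left hα
    · have : (q : ℤ) ∣ α 1 0 * Z 0 1 := by
        have := (Int.dvd_add_left (Dvd.dvd.mul_left h11 (α 1 1))).mp e2
        exact this
      exact (hp.dvd_mul.mp this).resolve_left hα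
  · intro h; omega

/-- Step (B·A0). -/
lemma amPB_conj_mul {q : ℕ} [NeZero q] (hq : q.Prime) (β : SL(2, ℤ)) (hβ : ¬ (q : ℤ) ∣ β 0 1)
    {M : SL(2, ℚ)} (hM : AmPA0 q M) : AmPB q (amConj q (amCast β) * M) := by
  have hp : Prime (q : ℤ) := Nat.prime_iff_prime_int.mp hq
  have hq0 : (q : ℚ) ≠ 0 := Nat.cast_ne_zero.mpr (NeZero.ne q)
  obtain ⟨k, Z, hZ, hrow2⟩ := hM
  refine ⟨k, !![q * β 0 0 * Z 0 0 + β 0 1 * Z 1 0, q * β 0 0 * Z 0 1 + β 0 1 * Z 1 1;
    q * (q * β 1 0 * Z 0 0 + β 1 1 * Z 1 0), q * (q * β 1 0 * Z 0 1 + β 1 1 * Z 1 1)],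
    ?_, ?_, ?_, ?_⟩
  · apply am_forall_fin2
    · simp only [am_mul_00, amConj_00, amConj_01, amCast_apply, of_apply, cons_val',
        cons_val_zero, cons_val_fin_one]
      push_cast
      rw [← hZ 0 0, ← hZ 1 0]; field_simp; ring
    · simp only [am_mul_01, amConj_00, amConj_01, amCast_apply, of_apply, cons_val',
        cons_val_zero, cons_val_one, cons_val_fin_one]
      push_cast
      rw [← hZ 0 1, ← hZ 1 1]; field_simp; ring
    · simp only [am_mul_10, amConj_10, amConj_11, amCast_apply, of_apply, cons_val',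
        cons_val_zero, cons_val_one, cons_val_fin_one]
      push_cast
      rw [← hZ 0 0, ← hZ 1 0]; ring
    · simp only [am_mul_11, amConj_10, amConj_11, amCast_apply, of_apply, cons_val',
        cons_val_one, cons_val_fin_one]
      push_cast
      rw [← hZ 0 1, ← hZ 1 1]; ring
  · simp only [of_apply, cons_val', cons_val_zero, cons_val_one, cons_val_fin_one]
    exact dvd_mul_right _ _
  · simp only [of_apply, cons_val', cons_val_one, cons_val_fin_one]
    exact dvd_mul_right _ _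
  · rintro ⟨e1, e2⟩
    simp only [of_apply, cons_val', cons_val_zero, cons_val_one, cons_val_fin_one] at e1 e2
    apply hrow2
    constructor
    · have : (q : ℤ) ∣ β 0 1 * Z 1 0 := by
        have h' : (q : ℤ) ∣ q * β 0 0 * Z 0 0 := ⟨β 0 0 * Z 0 0, by ring⟩
        exact (Int.dvd_add_right h').mp e1
      exact (hp.dvd_mul.mp this).resolve_left hβ
    · have : (q : ℤ) ∣ β 0 1 * Z 1 1 := by
        have h' : (q : ℤ) ∣ q * β 0 0 * Z 0 1 := ⟨β 0 0 * Z 0 1, by ring⟩
        exact (Int.dvd_add_right h').mp e2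
      exact (hp.dvd_mul.mp this).resolve_left hβ

/-- A matrix satisfying `AmPA` is not the cast of an integral matrix with `q ∣ γ₁₀`. -/
lemma AmPA.ne_cast {q : ℕ} [NeZero q] {M : SL(2, ℚ)} (h : AmPA q M) (γ : SL(2, ℤ))
    (hγ : (q : ℤ) ∣ γ 1 0) : M ≠ amCast γ := by
  rintro rfl
  obtain ⟨k, Z, hZ, hrow, hk⟩ := h
  have e : ∀ i j, (q : ℤ) ^ k * γ i j = Z i j := by
    intro i j
    have := hZ i j
    rw [amCast_apply] at this
    exact_mod_cast this
  rcases Nat.eq_zero_or_pos k with rfl | hkpos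
  · apply hk rfl
    rw [← e 1 0]
    simpa using hγ
  · apply hrow
    have hqk : (q : ℤ) ∣ (q : ℤ) ^ k := dvd_pow_self _ hkpos.ne'
    exact ⟨by rw [← e 1 0]; exact Dvd.dvd.mul_right hqk _,
      by rw [← e 1 1]; exact Dvd.dvd.mul_right hqk _⟩

/-- A matrix satisfying `AmPB` is not integral. -/
lemma AmPB.ne_cast {q : ℕ} {M : SL(2, ℚ)} (h : AmPB q M) (γ : SL(2, ℤ)) : M ≠ amCast γ := by
  rintro rfl
  obtain ⟨k, Z, hZ, -, -, hrow⟩ := h
  have e : ∀ i j, (q : ℤ) ^ (k + 1) * γ i j = Z i j := by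
    intro i j
    have := hZ i j
    rw [amCast_apply] at this
    exact_mod_cast this
  apply hrow
  have hqk : (q : ℤ) ∣ (q : ℤ) ^ (k + 1) := dvd_pow_self _ (Nat.succ_ne_zero k)
  exact ⟨by rw [← e 0 0]; exact Dvd.dvd.mul_right hqk _,
    by rw [← e 0 1]; exact Dvd.dvd.mul_right hqk _⟩

/-- The image in `SL(2,ℚ)` of a list of letters. -/
noncomputable def amListProd (N q : ℕ) [NeZero q] (l : List (Σ _ : Bool, ↥(Gamma0 N))) :
    SL(2, ℚ) :=
  (l.map (fun x => amF N q x.1 x.2)).prod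

lemma amListProd_nil (N q : ℕ) [NeZero q] : amListProd N q [] = 1 := rfl

lemma amListProd_cons (N q : ℕ) [NeZero q] (x : Σ _ : Bool, ↥(Gamma0 N))
    (l : List (Σ _ : Bool, ↥(Gamma0 N))) :
    amListProd N q (x :: l) = amF N q x.1 x.2 * amListProd N q l := by
  simp [amListProd]

/-- The ping-pong invariant for reduced alternating words. -/
lemma am_list_inv (N q : ℕ) [NeZero q] (hq : q.Prime) (hNq : Nat.Coprime N q)
    (l : List (Σ _ : Bool, ↥(Gamma0 N)))
    (hchain : l.IsChain (fun a b => a.1 ≠ b.1))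
    (hred : ∀ x ∈ l, x.2 ∉ (amPhi N q x.1).range) :
    (∀ g t, l = ⟨false, g⟩ :: t → AmPA q (amListProd N q l)) ∧
      (∀ g t, l = ⟨true, g⟩ :: t → AmPB q (amListProd N q l)) := by
  induction l with
  | nil =>
    constructor
    · intro g t h
      cases h
    · intro g t h
      cases h
  | cons x t ih =>
    have hch : t.IsChain (fun a b => a.1 ≠ b.1) := (List.isChain_cons.mp hchain).2
    have hhead := (List.isChain_cons.mp hchain).1
    have ih' := ih hch (fun y hy => hred y (List.mem_cons_of_mem _ hy))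
    have hx := hred x List.mem_cons_self
    constructor
    · intro g t' e
      obtain ⟨rfl, rfl⟩ := List.cons.inj e
      have hg : ¬ (q : ℤ) ∣ (g : SL(2, ℤ)) 1 0 := by
        intro h
        exact hx ((mem_range_inclusion_iff N q hNq g).2 h)
      rw [amListProd_cons]
      show AmPA q (amCast (g : SL(2, ℤ)) * _)
      cases t with
      | nil =>
        rw [amListProd_nil, mul_one]
        exact amPA_cast _ hg
      | cons y t'' =>
        obtain ⟨j, g'⟩ := y
        have hj : j = true := by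
          have := hhead ⟨j, g'⟩ (by simp)
          cases j
          · exact absurd rfl this
          · rfl
        subst hj
        exact amPA_cast_mul hq _ hg (ih'.2 g' t'' rfl)
    · intro g t' e
      obtain ⟨rfl, rfl⟩ := List.cons.inj e
      have hg : ¬ (q : ℤ) ∣ (g : SL(2, ℤ)) 0 1 := by
        intro h
        exact hx ((mem_range_amIota_iff N q g).2 h)
      rw [amListProd_cons]
      show AmPB q (amConj q (amCast (g : SL(2, ℤ))) * _)
      cases t with
      | nil =>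
        rw [amListProd_nil]
        exact amPB_conj_mul hq _ hg (amPA0_one q hq)
      | cons y t'' =>
        obtain ⟨j, g'⟩ := y
        have hj : j = false := by
          have := hhead ⟨j, g'⟩ (by simp)
          cases j
          · rfl
          · exact absurd rfl this
        subst hj
        exact amPB_conj_mul hq _ hg (ih'.1 g' t'' rfl).toPA0

lemma amPhi_injective (N q : ℕ) [NeZero q] (i : Bool) : Function.Injective (amPhi N q i) := by
  cases i
  · exact Subgroup.inclusion_injective (am_Gamma0_le N q)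
  · exact amIota_injective N q

/-- **Injectivity** of the canonical map `Γ₀(N) *_{Γ₀(N q)} Γ₀(N) → SL(2,ℚ)`. -/
theorem amPsi_injective (N q : ℕ) [NeZero q] (hq : q.Prime) (hNq : Nat.Coprime N q) :
    Function.Injective (amPsi N q) := by
  classical
  rw [injective_iff_map_eq_one]
  intro x hx
  obtain ⟨d⟩ := PushoutI.NormalWord.transversal_nonempty (G := fun _ : Bool => ↥(Gamma0 N))
    (amPhi N q) (amPhi_injective N q)
  obtain ⟨w, rfl⟩ : ∃ w : PushoutI.NormalWord d, w.prod = x :=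
    ⟨PushoutI.NormalWord.equiv x, PushoutI.NormalWord.equiv.left_inv x⟩
  have h1 : amPsi N q w.prod = amCast (w.head : SL(2, ℤ)) * amListProd N q w.toList := by
    unfold PushoutI.NormalWord.prod
    rw [map_mul, amPsi_base]
    congr 1
    unfold CoprodI.Word.prod amListProd
    rw [map_list_prod, map_list_prod, List.map_map, List.map_map]
    congr 1
  have hred : ∀ y ∈ w.toList, y.2 ∉ (amPhi N q y.1).range := by
    intro y hy hmem
    have hset := w.normalized y.1 y.2 hy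
    have hne := w.ne_one y hy
    apply hne
    have e1 := (Subgroup.IsComplement.equiv_snd_eq_self_iff_mem (d.compl y.1)
      (one_mem _)).2 hset
    have e2 := (Subgroup.IsComplement.coe_equiv_snd_eq_one_iff_mem (d.compl y.1)
      (d.one_mem _)).2 hmem
    rw [← e1, e2]
  have hinv := am_list_inv N q hq hNq w.toList w.chain_ne hred
  rw [h1] at hx
  have hx' : amListProd N q w.toList = amCast ((w.head⁻¹ : ↥(Gamma0 (N * q))) : SL(2, ℤ)) := by
    rw [Subgroup.coe_inv, map_inv]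
    exact eq_inv_of_mul_eq_one_right hx
  have hdvd : (q : ℤ) ∣ ((w.head⁻¹ : ↥(Gamma0 (N * q))) : SL(2, ℤ)) 1 0 := by
    have := am_mem_Gamma0_iff.1 (w.head⁻¹).2
    exact dvd_trans (by push_cast; exact dvd_mul_left _ _) this
  rcases hl : w.toList with _ | ⟨⟨i, g⟩, t⟩
  · rw [hl, amListProd_nil] at hx'
    have hhead : w.head = 1 := by
      have : amCast ((w.head⁻¹ : ↥(Gamma0 (N * q))) : SL(2, ℤ)) = amCast 1 := by
        rw [← hx', map_one]
      have := amCast_injective this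
      have h2 : (w.head⁻¹ : ↥(Gamma0 (N * q))) = 1 := Subtype.ext this
      exact inv_eq_one.mp h2
    have : w = PushoutI.NormalWord.empty := by
      apply PushoutI.NormalWord.ext
      · rw [hhead]; rfl
      · rw [hl]; rfl
    rw [this, PushoutI.NormalWord.prod_empty]
  · exfalso
    cases i
    · exact (hinv.1 g t hl).ne_cast _ hdvd hx'
    · exact (hinv.2 g t hl).ne_cast _ hx'

end Fermat.Agent.S41lib
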