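import Fermat.Agent.S41lib.AmalgamInj

/-!
# Item 78 (S41), block A1: the amalgam — surjectivity onto `Γ₀(N)[1/q]`

The image of `amPsi N q : Γ₀(N) *_{Γ₀(N q)} Γ₀(N) → SL(2,ℚ)` is exactly `amGammaS N q`
(for `q` prime, `q ∤ N`).  Elementary descent on the exponent `k` of `q` in the denominators.
-/

namespace Fermat.Agent.S41lib

open Matrix CongruenceSubgroup Monoid
open scoped MatrixGroups

/-- Elementary congruence lemma used in both reduction steps. -/
lemma am_exists_t {q : ℤ} (hq : Prime q) {c : ℤ} (hc : IsCoprime c q) {p r s u : ℤ}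
    (hp : ¬ q ∣ p) (hdet : q ∣ p * u - r * s) :
    ∃ t : ℤ, q ∣ c * t * p + s ∧ q ∣ c * t * r + u := by
  have hp' : IsCoprime p q := ((hq.irreducible.coprime_iff_not_dvd).2 hp).symm
  obtain ⟨x, y, hxy⟩ := hc.mul_left hp'
  have h1 : q ∣ c * (-s * x) * p + s := ⟨s * y, by linear_combination (-s) * hxy⟩
  refine ⟨-s * x, h1, ?_⟩
  have h2 : q ∣ p * (c * (-s * x) * r + u) := by
    have e : p * (c * (-s * x) * r + u) = r * (c * (-s * x) * p + s) + (p * u - r * s) := by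
      ring
    rw [e]
    exact dvd_add (Dvd.dvd.mul_left h1 _) hdet
  exact (hq.dvd_mul.mp h2).resolve_left hp

/-- Step 1: kill the second row modulo `q` by an element of `Γ₀(N)`. -/
lemma am_step1 (N q : ℕ) (hq : q.Prime) (hNq : Nat.Coprime N q) (z00 z01 z10 z11 : ℤ)
    (hdet : (q : ℤ) ∣ z00 * z11 - z01 * z10) :
    ∃ a : ↥(Gamma0 N), (q : ℤ) ∣ (a : SL(2, ℤ)) 1 0 * z00 + (a : SL(2, ℤ)) 1 1 * z10 ∧
      (q : ℤ) ∣ (a : SL(2, ℤ)) 1 0 * z01 + (a : SL(2, ℤ)) 1 1 * z11 := by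
  have hp : Prime (q : ℤ) := Nat.prime_iff_prime_int.mp hq
  have hcop : IsCoprime (N : ℤ) (q : ℤ) := Nat.isCoprime_iff_coprime.mpr hNq
  have key : ∀ t : ℤ, ∃ a : ↥(Gamma0 N), (a : SL(2, ℤ)) 1 0 = N * t ∧
      (a : SL(2, ℤ)) 1 1 = 1 := by
    intro t
    refine ⟨⟨amMk 1 0 (N * t) 1 (by ring), ?_⟩, rfl, rfl⟩
    rw [am_mem_Gamma0_iff]
    exact ⟨t, rfl⟩
  by_cases h00 : (q : ℤ) ∣ z00
  · by_cases h01 : (q : ℤ) ∣ z01
    · -- first row ≡ 0
      obtain ⟨x, y, hxy⟩ := hcop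
      refine ⟨⟨amMk y (-x) N q (by linear_combination hxy), ?_⟩, ?_, ?_⟩
      · rw [am_mem_Gamma0_iff]
        exact dvd_refl _
      · show (q : ℤ) ∣ N * z00 + q * z10
        exact dvd_add (Dvd.dvd.mul_left h00 _) (dvd_mul_right _ _)
      · show (q : ℤ) ∣ N * z01 + q * z11
        exact dvd_add (Dvd.dvd.mul_left h01 _) (dvd_mul_right _ _)
    · obtain ⟨t, ht1, ht2⟩ := am_exists_t hp hcop (p := z01) (r := z00) (s := z11) (u := z10)
        h01 (by
          have : z01 * z10 - z00 * z11 = -(z00 * z11 - z01 * z10) := by ring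
          rw [this]
          exact (dvd_neg).mpr hdet)
      obtain ⟨a, ha1, ha2⟩ := key t
      refine ⟨a, ?_, ?_⟩
      · rw [ha1, ha2, one_mul]; exact ht2
      · rw [ha1, ha2, one_mul]; exact ht1
  · obtain ⟨t, ht1, ht2⟩ := am_exists_t hp hcop (p := z00) (r := z01) (s := z10) (u := z11)
      h00 hdet
    obtain ⟨a, ha1, ha2⟩ := key t
    refine ⟨a, ?_, ?_⟩
    · rw [ha1, ha2, one_mul]; exact ht1
    · rw [ha1, ha2, one_mul]; exact ht2

/-- Step 2: kill the first row modulo `q` by an element of `Γ₀(N)`. -/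
lemma am_step2 (N q : ℕ) (hq : q.Prime) (hNq : Nat.Coprime N q) (z00 z01 z10 z11 : ℤ)
    (hdet : (q : ℤ) ∣ z00 * z11 - z01 * z10) :
    ∃ b : ↥(Gamma0 N), (q : ℤ) ∣ (b : SL(2, ℤ)) 0 0 * z00 + (b : SL(2, ℤ)) 0 1 * z10 ∧
      (q : ℤ) ∣ (b : SL(2, ℤ)) 0 0 * z01 + (b : SL(2, ℤ)) 0 1 * z11 := by
  have hp : Prime (q : ℤ) := Nat.prime_iff_prime_int.mp hq
  have hcop : IsCoprime (N : ℤ) (q : ℤ) := Nat.isCoprime_iff_coprime.mpr hNq
  have key : ∀ t : ℤ, ∃ b : ↥(Gamma0 N), (b : SL(2, ℤ)) 0 0 = 1 ∧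
      (b : SL(2, ℤ)) 0 1 = 1 * t := by
    intro t
    refine ⟨⟨amMk 1 (1 * t) 0 1 (by ring), ?_⟩, rfl, rfl⟩
    rw [am_mem_Gamma0_iff]
    exact dvd_zero _
  by_cases h10 : (q : ℤ) ∣ z10
  · by_cases h11 : (q : ℤ) ∣ z11
    · obtain ⟨x, y, hxy⟩ := hcop
      refine ⟨⟨amMk q (-x) N y (by linear_combination hxy), ?_⟩, ?_, ?_⟩
      · rw [am_mem_Gamma0_iff]
        exact dvd_refl _
      · show (q : ℤ) ∣ q * z00 + (-x) * z10
        exact dvd_add (dvd_mul_right _ _) (Dvd.dvd.mul_left h10 _)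
      · show (q : ℤ) ∣ q * z01 + (-x) * z11
        exact dvd_add (dvd_mul_right _ _) (Dvd.dvd.mul_left h11 _)
    · obtain ⟨t, ht1, ht2⟩ := am_exists_t hp (isCoprime_one_left : IsCoprime (1 : ℤ) q)
        (p := z11) (r := z10) (s := z01) (u := z00) h11 (by
          have : z11 * z00 - z10 * z01 = z00 * z11 - z01 * z10 := by ring
          rw [this]
          exact hdet)
      obtain ⟨b, hb1, hb2⟩ := key t
      refine ⟨b, ?_, ?_⟩
      · rw [hb1, hb2, one_mul, add_comm]; exact ht2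
      · rw [hb1, hb2, one_mul, add_comm]; exact ht1
  · obtain ⟨t, ht1, ht2⟩ := am_exists_t hp (isCoprime_one_left : IsCoprime (1 : ℤ) q)
      (p := z10) (r := z11) (s := z00) (u := z01) h10 (by
        have : z10 * z01 - z11 * z00 = -(z00 * z11 - z01 * z10) := by ring
        rw [this]
        exact (dvd_neg).mpr hdet)
    obtain ⟨b, hb1, hb2⟩ := key t
    refine ⟨b, ?_, ?_⟩
    · rw [hb1, hb2, one_mul, add_comm]; exact ht1
    · rw [hb1, hb2, one_mul, add_comm]; exact ht2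

lemma amCast_mem_range_amPsi (N q : ℕ) [NeZero q] (a : ↥(Gamma0 N)) :
    amCast (a : SL(2, ℤ)) ∈ (amPsi N q).range :=
  ⟨Monoid.PushoutI.of (G := fun _ : Bool => ↥(Gamma0 N)) false a, amPsi_of N q false a⟩

lemma amConj_amCast_mem_range_amPsi (N q : ℕ) [NeZero q] (b : ↥(Gamma0 N)) :
    amConj q (amCast (b : SL(2, ℤ))) ∈ (amPsi N q).range :=
  ⟨Monoid.PushoutI.of (G := fun _ : Bool => ↥(Gamma0 N)) true b, amPsi_of N q true b⟩

/-- The descent. -/
lemma am_descent (N q : ℕ) [NeZero q] (hq : q.Prime) (hNq : Nat.Coprime N q) :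
    ∀ (k : ℕ) (M : SL(2, ℚ)) (Z : Matrix (Fin 2) (Fin 2) ℤ),
      (∀ i j, (q : ℚ) ^ k * M i j = (Z i j : ℚ)) → (N : ℤ) ∣ Z 1 0 →
      M ∈ (amPsi N q).range := by
  have hp : Prime (q : ℤ) := Nat.prime_iff_prime_int.mp hq
  have hcop : IsCoprime (N : ℤ) (q : ℤ) := Nat.isCoprime_iff_coprime.mpr hNq
  have hq0 : (q : ℚ) ≠ 0 := Nat.cast_ne_zero.mpr (NeZero.ne q)
  have hqZ : (q : ℤ) ≠ 0 := Nat.cast_ne_zero.mpr (NeZero.ne q)
  intro k
  induction k with
  | zero =>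
    intro M Z hZ hN
    simp only [pow_zero, one_mul] at hZ
    have hdet : Z 0 0 * Z 1 1 - Z 0 1 * Z 1 0 = 1 := by
      have := am_det_eq M
      rw [hZ, hZ, hZ, hZ] at this
      exact_mod_cast this
    have hmem : amMk (Z 0 0) (Z 0 1) (Z 1 0) (Z 1 1) hdet ∈ Gamma0 N := by
      rw [am_mem_Gamma0_iff]; exact hN
    have : M = amCast ((⟨_, hmem⟩ : ↥(Gamma0 N)) : SL(2, ℤ)) := by
      apply am_ext
      · rw [hZ]; simp
      · rw [hZ]; simp
      · rw [hZ]; simp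
      · rw [hZ]; simp
    rw [this]
    exact amCast_mem_range_amPsi N q _
  | succ k ih =>
    intro M Z hZ hN
    -- the determinant of `Z` is `q ^ (2k+2)`
    have hdetZ : Z 0 0 * Z 1 1 - Z 0 1 * Z 1 0 = (q : ℤ) ^ (2 * k + 2) := by
      have h := am_det_eq M
      have : ((Z 0 0 * Z 1 1 - Z 0 1 * Z 1 0 : ℤ) : ℚ) = (((q : ℤ) ^ (2 * k + 2) : ℤ) : ℚ) := by
        push_cast
        rw [← hZ 0 0, ← hZ 1 1, ← hZ 0 1, ← hZ 1 0]
        linear_combination ((q : ℚ) ^ (k + 1)) ^ 2 * h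
      exact_mod_cast this
    have hdvd : (q : ℤ) ∣ Z 0 0 * Z 1 1 - Z 0 1 * Z 1 0 := by
      rw [hdetZ]
      exact dvd_pow_self _ (by omega)
    obtain ⟨a, ha1, ha2⟩ := am_step1 N q hq hNq _ _ _ _ hdvd
    obtain ⟨w10, hw10⟩ := ha1
    obtain ⟨w11, hw11⟩ := ha2
    have haN : (N : ℤ) ∣ (a : SL(2, ℤ)) 1 0 := am_mem_Gamma0_iff.1 a.2
    have hdeta := am_det_eq (a : SL(2, ℤ))
    -- first row of `a * Z`
    obtain ⟨y00, hy00⟩ : ∃ y, y = (a : SL(2, ℤ)) 0 0 * Z 0 0 + (a : SL(2, ℤ)) 0 1 * Z 1 0 :=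
      ⟨_, rfl⟩
    obtain ⟨y01, hy01⟩ : ∃ y, y = (a : SL(2, ℤ)) 0 0 * Z 0 1 + (a : SL(2, ℤ)) 0 1 * Z 1 1 :=
      ⟨_, rfl⟩
    -- det W = q^(2k+1)
    have hdetW : y00 * w11 - y01 * w10 = (q : ℤ) ^ (2 * k + 1) := by
      apply mul_left_cancel₀ hqZ
      have e : (q : ℤ) * (y00 * w11 - y01 * w10) = y00 * (q * w11) - y01 * (q * w10) := by ring
      rw [e, ← hw10, ← hw11, hy00, hy01]
      have : (q : ℤ) * q ^ (2 * k + 1) = q ^ (2 * k + 2) := by ring
      rw [this, ← hdetZ]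
      linear_combination (Z 0 0 * Z 1 1 - Z 0 1 * Z 1 0) * hdeta
    have hdvdW : (q : ℤ) ∣ y00 * w11 - y01 * w10 := by
      rw [hdetW]
      exact dvd_pow_self _ (by omega)
    have hNw10 : (N : ℤ) ∣ w10 := by
      have : (N : ℤ) ∣ q * w10 := by
        rw [← hw10]
        exact dvd_add (Dvd.dvd.mul_right haN _) (Dvd.dvd.mul_left hN _)
      exact hcop.dvd_of_dvd_mul_left this
    obtain ⟨b, hb1, hb2⟩ := am_step2 N q hq hNq _ _ _ _ hdvdW
    obtain ⟨u00, hu00⟩ := hb1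
    obtain ⟨u01, hu01⟩ := hb2
    have hbN : (N : ℤ) ∣ (b : SL(2, ℤ)) 1 0 := am_mem_Gamma0_iff.1 b.2
    -- the new matrix
    have hM' : amConj q (amCast (b : SL(2, ℤ))) * (amCast (a : SL(2, ℤ)) * M) ∈
        (amPsi N q).range := by
      refine ih _ !![u00, u01; (b : SL(2, ℤ)) 1 0 * y00 + (b : SL(2, ℤ)) 1 1 * w10,
        (b : SL(2, ℤ)) 1 0 * y01 + (b : SL(2, ℤ)) 1 1 * w11] ?_ ?_
      · have hw10' : ((a : SL(2, ℤ)) 1 0 : ℚ) * Z 0 0 + (a : SL(2, ℤ)) 1 1 * Z 1 0 = q * w10 := by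
          exact_mod_cast hw10
        have hw11' : ((a : SL(2, ℤ)) 1 0 : ℚ) * Z 0 1 + (a : SL(2, ℤ)) 1 1 * Z 1 1 = q * w11 := by
          exact_mod_cast hw11
        have hy00' : (y00 : ℚ) = (a : SL(2, ℤ)) 0 0 * Z 0 0 + (a : SL(2, ℤ)) 0 1 * Z 1 0 := by
          exact_mod_cast hy00
        have hy01' : (y01 : ℚ) = (a : SL(2, ℤ)) 0 0 * Z 0 1 + (a : SL(2, ℤ)) 0 1 * Z 1 1 := by
          exact_mod_cast hy01
        have hu00' : ((b : SL(2, ℤ)) 0 0 : ℚ) * y00 + (b : SL(2, ℤ)) 0 1 * w10 = q * u00 := by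
          exact_mod_cast hu00
        have hu01' : ((b : SL(2, ℤ)) 0 0 : ℚ) * y01 + (b : SL(2, ℤ)) 0 1 * w11 = q * u01 := by
          exact_mod_cast hu01
        have e00 := hZ 0 0
        have e01 := hZ 0 1
        have e10 := hZ 1 0
        have e11 := hZ 1 1
        rw [pow_succ] at e00 e01 e10 e11
        apply am_forall_fin2
        · simp only [am_mul_00, am_mul_10, amConj_00, amConj_01, amCast_apply, of_apply,
            cons_val', cons_val_zero, cons_val_fin_one]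
          apply mul_left_cancel₀ hq0
          rw [← hu00', hy00', ← e00, ← e10]
          have : (w10 : ℚ) = (((a : SL(2, ℤ)) 1 0 : ℚ) * Z 0 0 + (a : SL(2, ℤ)) 1 1 * Z 1 0) / q := by
            rw [hw10']; field_simp
          rw [this, ← e00, ← e10]
          field_simp
        · simp only [am_mul_01, am_mul_11, amConj_00, amConj_01, amCast_apply, of_apply,
            cons_val', cons_val_zero, cons_val_one, cons_val_fin_one]
          apply mul_left_cancel₀ hq0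
          rw [← hu01', hy01', ← e01, ← e11]
          have : (w11 : ℚ) = (((a : SL(2, ℤ)) 1 0 : ℚ) * Z 0 1 + (a : SL(2, ℤ)) 1 1 * Z 1 1) / q := by
            rw [hw11']; field_simp
          rw [this, ← e01, ← e11]
          field_simp
        · simp only [am_mul_00, am_mul_10, amConj_10, amConj_11, amCast_apply, of_apply,
            cons_val', cons_val_zero, cons_val_one, cons_val_fin_one]
          push_cast
          rw [hy00', ← e00, ← e10]
          have : (w10 : ℚ) = (((a : SL(2, ℤ)) 1 0 : ℚ) * Z 0 0 + (a : SL(2, ℤ)) 1 1 * Z 1 0) / q := by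
            rw [hw10']; field_simp
          rw [this, ← e00, ← e10]
          field_simp
        · simp only [am_mul_01, am_mul_11, amConj_10, amConj_11, amCast_apply, of_apply,
            cons_val', cons_val_one, cons_val_fin_one]
          push_cast
          rw [hy01', ← e01, ← e11]
          have : (w11 : ℚ) = (((a : SL(2, ℤ)) 1 0 : ℚ) * Z 0 1 + (a : SL(2, ℤ)) 1 1 * Z 1 1) / q := by
            rw [hw11']; field_simp
          rw [this, ← e01, ← e11]
          field_simp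
      · simp only [of_apply, cons_val', cons_val_zero, cons_val_one, cons_val_fin_one]
        exact dvd_add (Dvd.dvd.mul_right hbN _) (Dvd.dvd.mul_left hNw10 _)
    have h1 := (Subgroup.mul_mem_cancel_left _ (amConj_amCast_mem_range_amPsi N q b)).mp hM'
    exact (Subgroup.mul_mem_cancel_left _ (amCast_mem_range_amPsi N q a)).mp h1

/-- **Surjectivity**: `Γ₀(N)[1/q]` is generated by the two copies of `Γ₀(N)`. -/
theorem amGammaS_le_range (N q : ℕ) [NeZero q] (hq : q.Prime) (hNq : Nat.Coprime N q) :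
    amGammaS N q ≤ (amPsi N q).range := by
  rintro M ⟨k, Z, hZ, hN⟩
  exact am_descent N q hq hNq k M Z hZ hN

lemma amPsi_mem (N q : ℕ) [NeZero q] (x : AmPush N q) : amPsi N q x ∈ amGammaS N q := by
  induction x using Monoid.PushoutI.induction_on with
  | of i g =>
    rw [amPsi_of]
    cases i
    · exact amCast_mem_amGammaS N q g
    · exact amConj_amCast_mem_amGammaS N q g
  | base h =>
    rw [amPsi_base]
    exact amCast_mem_amGammaS N q ⟨h.1, am_Gamma0_le N q h.2⟩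
  | mul x y hx hy =>
    rw [map_mul]
    exact Subgroup.mul_mem _ hx hy

theorem amPsi_range (N q : ℕ) [NeZero q] (hq : q.Prime) (hNq : Nat.Coprime N q) :
    (amPsi N q).range = amGammaS N q := by
  apply le_antisymm
  · rintro _ ⟨x, rfl⟩
    exact amPsi_mem N q x
  · exact amGammaS_le_range N q hq hNq

end Fermat.Agent.S41lib
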