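/-
S41 (item 78, level raising), block B (duality), piece B-STAR (helper21).

Finite linear algebra over a field `K` with `2 ≠ 0` (characteristic `3` allowed):
`X` a finite set with an involution `σ` and a permutation `τ` of order dividing `3`,
`R` a set of representatives of the free `τ`-orbits.
`Z⁰ = {m : X → K | m∘σ = -m, m + m∘τ + m∘τ² = 0, m = 0 at the τ-fixed points}`,
`β'(m, n) = ∑_{x ∈ R} (m x * n (τ x) - m (τ x) * n x)`.
`bstar`: if `m ∈ Z⁰` and `β'(m, n) = 0` for all `n ∈ Z⁰` then `m = h∘τ - h` with `h∘σ = h∘τ`.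
-/
import Mathlib

set_option autoImplicit false

namespace Fermat.Agent.S41lib

section

/-- on a free `τ`-orbit exactly one of `x`, `τ x`, `τ² x` is in `R` -/
theorem bstar_tricho {X : Type} (τ : Equiv.Perm X)
    (R : Finset X) (hR : ∀ x, τ x ≠ x → ∃! i : Fin 3, (τ ^ (i : ℕ)) x ∈ R) (x : X)
    (hx : τ x ≠ x) :
    (x ∈ R ∧ τ x ∉ R ∧ τ (τ x) ∉ R) ∨ (x ∉ R ∧ τ x ∈ R ∧ τ (τ x) ∉ R) ∨
      (x ∉ R ∧ τ x ∉ R ∧ τ (τ x) ∈ R) := by
  obtain ⟨i, hi, huniq⟩ := hR x hx
  have h0 : x ∈ R → i = 0 := fun h => (huniq 0 (by simpa using h)).symm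
  have h1 : τ x ∈ R → i = 1 := fun h => (huniq 1 (by simpa using h)).symm
  have h2 : τ (τ x) ∈ R → i = 2 := fun h =>
    (huniq 2 (by
      show (τ ^ 2) x ∈ R
      rw [pow_two, Equiv.Perm.mul_apply]
      exact h)).symm
  have e0 : ((0 : Fin 3) : ℕ) = 0 := rfl
  have e1 : ((1 : Fin 3) : ℕ) = 1 := rfl
  have e2 : ((2 : Fin 3) : ℕ) = 2 := rfl
  fin_cases i
  · left
    refine ⟨?_, fun h => ?_, fun h => ?_⟩
    · simpa using hi
    · exact absurd (h1 h) (by decide)
    · exact absurd (h2 h) (by decide)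
  · right; left
    refine ⟨fun h => ?_, ?_, fun h => ?_⟩
    · exact absurd (h0 h) (by decide)
    · simpa using hi
    · exact absurd (h2 h) (by decide)
  · right; right
    refine ⟨fun h => ?_, fun h => ?_, ?_⟩
    · exact absurd (h0 h) (by decide)
    · exact absurd (h1 h) (by decide)
    · have : (τ ^ 2) x ∈ R := hi
      rwa [pow_two, Equiv.Perm.mul_apply] at this

variable {X : Type} [Fintype X] [DecidableEq X] {K : Type} [Field K]

/-- a sum over `X` of a function vanishing at the `τ`-fixed points, orbit by orbit -/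
theorem bstar_sum_orbit (τ : Equiv.Perm X) (hτ : ∀ x, τ (τ (τ x)) = x)
    (R : Finset X) (hR : ∀ x, τ x ≠ x → ∃! i : Fin 3, (τ ^ (i : ℕ)) x ∈ R)
    (hR' : ∀ x ∈ R, τ x ≠ x) (f : X → K) (hf : ∀ x, τ x = x → f x = 0) :
    ∑ x, f x = ∑ x ∈ R, (f x + f (τ x) + f (τ (τ x))) := by
  have key : ∀ x, f x = (if x ∈ R then f x else 0) + (if τ x ∈ R then f x else 0)
      + (if τ (τ x) ∈ R then f x else 0) := by
    intro x
    by_cases hx : τ x = x
    · have : x ∉ R := fun h => hR' x h hx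
      simp [hx, this, hf x hx]
    · rcases bstar_tricho τ R hR x hx with ⟨a, b, c⟩ | ⟨a, b, c⟩ | ⟨a, b, c⟩ <;> simp [a, b, c]
  have s1 : ∑ x, (if x ∈ R then f x else 0) = ∑ x ∈ R, f x := by
    rw [Finset.sum_ite_mem, Finset.univ_inter]
  have s2 : ∑ x, (if τ x ∈ R then f x else 0) = ∑ x ∈ R, f (τ (τ x)) := by
    rw [← Equiv.sum_comp (τ * τ) (fun x => if τ x ∈ R then f x else 0)]
    simp only [Equiv.Perm.mul_apply, hτ]
    rw [Finset.sum_ite_mem, Finset.univ_inter]
  have s3 : ∑ x, (if τ (τ x) ∈ R then f x else 0) = ∑ x ∈ R, f (τ x) := by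
    rw [← Equiv.sum_comp τ (fun x => if τ (τ x) ∈ R then f x else 0)]
    simp only [hτ]
    rw [Finset.sum_ite_mem, Finset.univ_inter]
  calc ∑ x, f x = ∑ x, ((if x ∈ R then f x else 0) + (if τ x ∈ R then f x else 0)
      + (if τ (τ x) ∈ R then f x else 0)) := Finset.sum_congr rfl (fun x _ => key x)
    _ = (∑ x ∈ R, f x) + (∑ x ∈ R, f (τ (τ x))) + ∑ x ∈ R, f (τ x) := by
        rw [Finset.sum_add_distrib, Finset.sum_add_distrib, s1, s2, s3]
    _ = _ := by
        rw [← Finset.sum_add_distrib, ← Finset.sum_add_distrib]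
        exact Finset.sum_congr rfl (fun x _ => by ring)

omit [Fintype X] in
/-- every closed function vanishing at the `τ`-fixed points is `a∘τ - a∘τ²` -/
theorem bstar_exists_lambda (τ : Equiv.Perm X) (hτ : ∀ x, τ (τ (τ x)) = x)
    (R : Finset X) (hR : ∀ x, τ x ≠ x → ∃! i : Fin 3, (τ ^ (i : ℕ)) x ∈ R)
    (hR' : ∀ x ∈ R, τ x ≠ x)
    (m : X → K) (hmτ : ∀ x, m x + m (τ x) + m (τ (τ x)) = 0) (hm0 : ∀ x, τ x = x → m x = 0) :
    ∃ a : X → K, ∀ x, m x = a (τ x) - a (τ (τ x)) := by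
  refine ⟨fun x => if x ∈ R then 0 else if τ (τ x) ∈ R then m (τ (τ x)) + m x
    else if τ x ∈ R then m (τ (τ x)) else 0, fun x => ?_⟩
  by_cases hx : τ x = x
  · have : x ∉ R := fun h => hR' x h hx
    simp [hx, this, hm0 x hx]
  · rcases bstar_tricho τ R hR x hx with ⟨a, b, c⟩ | ⟨a, b, c⟩ | ⟨a, b, c⟩
    · simp [a, b, c, hτ]
    · have := hmτ x
      simp only [a, b, c, hτ, if_true, if_false]
      linear_combination this
    · simp [a, b, c, hτ]

/-- duality: a function orthogonal to `Z⁰` is the sum of a `σ`-invariant and a `τ`-invariant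
function -/
theorem bstar_decomp (σ τ : Equiv.Perm X) (hσ : ∀ x, σ (σ x) = x)
    (hτ : ∀ x, τ (τ (τ x)) = x) (a : X → K)
    (ha : ∀ n : X → K, (∀ x, n (σ x) = - n x) → (∀ x, n x + n (τ x) + n (τ (τ x)) = 0) →
      (∀ x, τ x = x → n x = 0) → ∑ x, a x * n x = 0) :
    ∃ u v : X → K, (∀ x, u (σ x) = u x) ∧ (∀ x, v (τ x) = v x) ∧ ∀ x, a x = u x + v x := by
  classical
  let ev : X → ((X → K) →ₗ[K] K) := fun x => LinearMap.proj x
  have hev : ∀ x (n : X → K), ev x n = n x := fun x n => rfl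
  let L : (X ⊕ (X ⊕ X)) → ((X → K) →ₗ[K] K) := fun i =>
    match i with
    | Sum.inl x => ev x + ev (σ x)
    | Sum.inr (Sum.inl x) => ev x + ev (τ x) + ev (τ (τ x))
    | Sum.inr (Sum.inr x) => if τ x = x then ev x else 0
  let Kf : (X → K) →ₗ[K] K := ∑ x, a x • ev x
  have hKf : ∀ n : X → K, Kf n = ∑ x, a x * n x := by
    intro n
    simp [Kf, LinearMap.sum_apply, hev]
  have hker : ⨅ i, LinearMap.ker (L i) ≤ LinearMap.ker Kf := by
    intro n hn
    rw [Submodule.mem_iInf] at hn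
    rw [LinearMap.mem_ker, hKf]
    refine ha n (fun x => ?_) (fun x => ?_) (fun x hx => ?_)
    · have := hn (Sum.inl x)
      rw [LinearMap.mem_ker] at this
      have h' : n x + n (σ x) = 0 := this
      linear_combination h'
    · have := hn (Sum.inr (Sum.inl x))
      rw [LinearMap.mem_ker] at this
      exact this
    · have := hn (Sum.inr (Sum.inr x))
      rw [LinearMap.mem_ker] at this
      have h' : (if τ x = x then ev x else (0 : (X → K) →ₗ[K] K)) n = 0 := this
      rw [if_pos hx] at h'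
      exact h'
  obtain ⟨c, hc⟩ := (Submodule.mem_span_range_iff_exists_fun K).1
    (mem_span_of_iInf_ker_le_ker hker)
  -- evaluate at the basis vectors
  have hσ' : ∀ x y, σ x = y ↔ x = σ y := fun x y =>
    ⟨fun h => by rw [← h, hσ], fun h => by rw [h, hσ]⟩
  have hτ1 : ∀ x y, τ x = y ↔ x = τ (τ y) := fun x y =>
    ⟨fun h => by rw [← h, hτ], fun h => by rw [h, hτ]⟩
  have hτ2 : ∀ x y, τ (τ x) = y ↔ x = τ y := fun x y =>
    ⟨fun h => by rw [← h, hτ], fun h => by rw [h, hτ]⟩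
  have hval : ∀ y, a y = (c (Sum.inl y) + c (Sum.inl (σ y)))
      + ((c (Sum.inr (Sum.inl y)) + c (Sum.inr (Sum.inl (τ (τ y))))
          + c (Sum.inr (Sum.inl (τ y))))
        + (if τ y = y then c (Sum.inr (Sum.inr y)) else 0)) := by
    intro y
    have h1 := LinearMap.congr_fun hc (Pi.single y 1)
    rw [hKf, LinearMap.sum_apply, Fintype.sum_sum_type, Fintype.sum_sum_type] at h1
    simp only [LinearMap.smul_apply, smul_eq_mul] at h1
    have e1 : ∑ x, a x * (Pi.single y (1 : K) : X → K) x = a y := by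
      simp [Pi.single_apply]
    have e2 : ∑ x, c (Sum.inl x) * (L (Sum.inl x)) (Pi.single y 1)
        = c (Sum.inl y) + c (Sum.inl (σ y)) := by
      have : ∀ x, c (Sum.inl x) * (L (Sum.inl x)) (Pi.single y 1)
          = (if x = y then c (Sum.inl x) else 0) + (if x = σ y then c (Sum.inl x) else 0) := by
        intro x
        show c (Sum.inl x) * ((ev x + ev (σ x) : (X → K) →ₗ[K] K)
          (Pi.single y 1)) = _
        simp only [LinearMap.add_apply, hev, Pi.single_apply, hσ' x y]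
        split_ifs <;> ring
      simp only [this, Finset.sum_add_distrib, Finset.sum_ite_eq', Finset.mem_univ, if_true]
    have e3 : ∑ x, c (Sum.inr (Sum.inl x)) * (L (Sum.inr (Sum.inl x))) (Pi.single y 1)
        = c (Sum.inr (Sum.inl y)) + c (Sum.inr (Sum.inl (τ (τ y))))
          + c (Sum.inr (Sum.inl (τ y))) := by
      have : ∀ x, c (Sum.inr (Sum.inl x)) * (L (Sum.inr (Sum.inl x))) (Pi.single y 1)
          = (if x = y then c (Sum.inr (Sum.inl x)) else 0)
            + (if x = τ (τ y) then c (Sum.inr (Sum.inl x)) else 0)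
            + (if x = τ y then c (Sum.inr (Sum.inl x)) else 0) := by
        intro x
        show c (Sum.inr (Sum.inl x)) * ((ev x + ev (τ x)
          + ev (τ (τ x)) : (X → K) →ₗ[K] K) (Pi.single y 1)) = _
        simp only [LinearMap.add_apply, hev, Pi.single_apply, hτ1 x y, hτ2 x y]
        split_ifs <;> ring
      simp only [this, Finset.sum_add_distrib, Finset.sum_ite_eq', Finset.mem_univ, if_true]
    have e4 : ∑ x, c (Sum.inr (Sum.inr x)) * (L (Sum.inr (Sum.inr x))) (Pi.single y 1)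
        = if τ y = y then c (Sum.inr (Sum.inr y)) else 0 := by
      have : ∀ x, c (Sum.inr (Sum.inr x)) * (L (Sum.inr (Sum.inr x))) (Pi.single y 1)
          = (if x = y then (if τ y = y then c (Sum.inr (Sum.inr y)) else 0) else 0) := by
        intro x
        show c (Sum.inr (Sum.inr x)) * ((if τ x = x then ev x
          else (0 : (X → K) →ₗ[K] K)) (Pi.single y 1)) = _
        by_cases hxy : x = y
        · subst hxy
          by_cases hx : τ x = x
          · simp [hx, hev]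
          · simp [hx]
        · by_cases hx : τ x = x
          · simp [hx, hxy, hev]
          · simp [hx, hxy]
      simp only [this, Finset.sum_ite_eq', Finset.mem_univ, if_true]
    rw [e1, e2, e3, e4] at h1
    exact h1.symm
  refine ⟨fun y => c (Sum.inl y) + c (Sum.inl (σ y)),
    fun y => (c (Sum.inr (Sum.inl y)) + c (Sum.inr (Sum.inl (τ (τ y))))
          + c (Sum.inr (Sum.inl (τ y))))
        + (if τ y = y then c (Sum.inr (Sum.inr y)) else 0), fun x => ?_, fun x => ?_, hval⟩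
  · show c (Sum.inl (σ x)) + c (Sum.inl (σ (σ x))) = c (Sum.inl x) + c (Sum.inl (σ x))
    rw [hσ, add_comm]
  · show (c (Sum.inr (Sum.inl (τ x))) + c (Sum.inr (Sum.inl (τ (τ (τ x)))))
          + c (Sum.inr (Sum.inl (τ (τ x)))))
        + (if τ (τ x) = τ x then c (Sum.inr (Sum.inr (τ x))) else 0)
      = (c (Sum.inr (Sum.inl x)) + c (Sum.inr (Sum.inl (τ (τ x))))
          + c (Sum.inr (Sum.inl (τ x))))
        + (if τ x = x then c (Sum.inr (Sum.inr x)) else 0)
    rw [hτ]
    by_cases hx : τ x = x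
    · simp [hx]
    · have : τ (τ x) ≠ τ x := fun h => hx (τ.injective h)
      simp only [hx, this, if_false]
      ring

theorem bstar (h2 : (2 : K) ≠ 0)
    (σ τ : Equiv.Perm X) (hσ : ∀ x, σ (σ x) = x) (hτ : ∀ x, τ (τ (τ x)) = x)
    (R : Finset X) (hR : ∀ x, τ x ≠ x → ∃! i : Fin 3, (τ ^ (i : ℕ)) x ∈ R) (hR' : ∀ x ∈ R, τ x ≠ x)
    (m : X → K) (hmσ : ∀ x, m (σ x) = - m x) (hmτ : ∀ x, m x + m (τ x) + m (τ (τ x)) = 0)
    (hm0 : ∀ x, τ x = x → m x = 0)
    (hperp : ∀ n : X → K, (∀ x, n (σ x) = - n x) → (∀ x, n x + n (τ x) + n (τ (τ x)) = 0) →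
      (∀ x, τ x = x → n x = 0) → ∑ x ∈ R, (m x * n (τ x) - m (τ x) * n x) = 0) :
    ∃ h : X → K, (∀ x, h (σ x) = h (τ x)) ∧ ∀ x, m x = h (τ x) - h x := by
  obtain ⟨a, ha⟩ := bstar_exists_lambda τ hτ R hR hR' m hmτ hm0
  have hperp' : ∀ n : X → K, (∀ x, n (σ x) = - n x) → (∀ x, n x + n (τ x) + n (τ (τ x)) = 0) →
      (∀ x, τ x = x → n x = 0) → ∑ x, a x * n x = 0 := by
    intro n hnσ hnτ hn0
    rw [bstar_sum_orbit τ hτ R hR hR' (fun x => a x * n x) (fun x hx => by
      show a x * n x = 0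
      rw [hn0 x hx, mul_zero])]
    refine Eq.trans (Finset.sum_congr rfl fun x _ => ?_) (hperp n hnσ hnτ hn0)
    have e1 := ha x
    have e2 := ha (τ x)
    rw [hτ] at e2
    have e3 := hnτ x
    linear_combination a (τ (τ x)) * e3 - n (τ x) * e1 + n x * e2
  obtain ⟨u, v, hu, hv, huv⟩ := bstar_decomp σ τ hσ hτ a hperp'
  have hmu : ∀ x, m x = u (τ x) - u (τ (τ x)) := by
    intro x
    rw [ha x, huv (τ x), huv (τ (τ x)), hv (τ x), hv x]
    ring
  refine ⟨fun x => (u x - m x) / 2, fun x => ?_, fun x => ?_⟩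
  · show (u (σ x) - m (σ x)) / 2 = (u (τ x) - m (τ x)) / 2
    rw [hu, hmσ]
    have e1 := hmu x
    have e2 := hmu (τ x)
    rw [hτ] at e2
    have e3 := hmτ x
    congr 1
    linear_combination e1 + e2
  · show m x = (u (τ x) - m (τ x)) / 2 - (u x - m x) / 2
    have e1 := hmu x
    have e2 := hmu (τ x)
    rw [hτ] at e2
    field_simp
    linear_combination e1 + e2

end

end Fermat.Agent.S41lib
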