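/-
S41 (item 78), block B (duality), piece B-PERF (helper12), part 1: orbits of a permutation of
order dividing 3 on a finite set: representatives of the free orbits and orbit sums.
-/
import Mathlib
import Fermat.Agent.S41lib.BStar

set_option autoImplicit false

namespace Fermat.Agent.S41lib

section

variable {X : Type} [Fintype X] [DecidableEq X]

omit [DecidableEq X] in
/-- a set of representatives of the free orbits exists -/
theorem bperf_exists_reps (τ : Equiv.Perm X) (hτ : ∀ x, τ (τ (τ x)) = x) :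
    ∃ R : Finset X, (∀ x, τ x ≠ x → ∃! i : Fin 3, (τ ^ (i : ℕ)) x ∈ R) ∧ ∀ x ∈ R, τ x ≠ x := by
  classical
  let ι : X → ℕ := fun x => (Fintype.equivFin X x : ℕ)
  have hι : Function.Injective ι := fun x y h =>
    (Fintype.equivFin X).injective (Fin.ext h)
  let R : Finset X :=
    Finset.univ.filter (fun x => τ x ≠ x ∧ ι x ≤ ι (τ x) ∧ ι x ≤ ι (τ (τ x)))
  have hmem : ∀ x, x ∈ R ↔ (τ x ≠ x ∧ ι x ≤ ι (τ x) ∧ ι x ≤ ι (τ (τ x))) := by
    intro x
    simp [R]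
  refine ⟨R, ?_, fun x hx => ((hmem x).mp hx).1⟩
  intro x hx
  have h1 : τ (τ x) ≠ τ x := fun h => hx (τ.injective h)
  have h2 : τ (τ x) ≠ x := fun h => hx (by
    have := congrArg τ h
    rw [hτ] at this
    exact this.symm)
  have hab : ι x ≠ ι (τ x) := fun h => hx (hι h).symm
  have hbc : ι (τ x) ≠ ι (τ (τ x)) := fun h => h1 (hι h).symm
  have hac : ι x ≠ ι (τ (τ x)) := fun h => h2 (hι h).symm
  have m0 : (τ ^ ((0 : Fin 3) : ℕ)) x ∈ R ↔ (ι x ≤ ι (τ x) ∧ ι x ≤ ι (τ (τ x))) := by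
    show (τ ^ 0) x ∈ R ↔ _
    rw [pow_zero, Equiv.Perm.one_apply, hmem]
    exact ⟨fun h => h.2, fun h => ⟨hx, h⟩⟩
  have m1 : (τ ^ ((1 : Fin 3) : ℕ)) x ∈ R ↔ (ι (τ x) ≤ ι (τ (τ x)) ∧ ι (τ x) ≤ ι x) := by
    show (τ ^ 1) x ∈ R ↔ _
    rw [pow_one, hmem, hτ]
    exact ⟨fun h => h.2, fun h => ⟨h1, h⟩⟩
  have m2 : (τ ^ ((2 : Fin 3) : ℕ)) x ∈ R ↔ (ι (τ (τ x)) ≤ ι x ∧ ι (τ (τ x)) ≤ ι (τ x)) := by
    show (τ ^ 2) x ∈ R ↔ _
    rw [pow_two, Equiv.Perm.mul_apply, hmem, hτ]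
    exact ⟨fun h => h.2, fun h => ⟨fun h' => h2 h'.symm, h⟩⟩
  by_cases c0 : ι x ≤ ι (τ x) ∧ ι x ≤ ι (τ (τ x))
  · refine ⟨0, m0.mpr c0, fun j hj => ?_⟩
    fin_cases j
    · rfl
    · exfalso
      have := m1.mp hj
      omega
    · exfalso
      have := m2.mp hj
      omega
  · by_cases c1 : ι (τ x) ≤ ι (τ (τ x)) ∧ ι (τ x) ≤ ι x
    · refine ⟨1, m1.mpr c1, fun j hj => ?_⟩
      fin_cases j
      · exact absurd (m0.mp hj) c0
      · rfl
      · exfalso
        have := m2.mp hj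
        omega
    · have c2 : ι (τ (τ x)) ≤ ι x ∧ ι (τ (τ x)) ≤ ι (τ x) := by omega
      refine ⟨2, m2.mpr c2, fun j hj => ?_⟩
      fin_cases j
      · exact absurd (m0.mp hj) c0
      · exact absurd (m1.mp hj) c1
      · rfl

/-- a sum over `X` of a function vanishing at the `τ`-fixed points, orbit by orbit
(values in any commutative monoid) -/
theorem bperf_sum_orbit {A : Type*} [AddCommMonoid A] (τ : Equiv.Perm X)
    (hτ : ∀ x, τ (τ (τ x)) = x)
    (R : Finset X) (hR : ∀ x, τ x ≠ x → ∃! i : Fin 3, (τ ^ (i : ℕ)) x ∈ R)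
    (hR' : ∀ x ∈ R, τ x ≠ x) (f : X → A) (hf : ∀ x, τ x = x → f x = 0) :
    ∑ x, f x = ∑ x ∈ R, (f x + f (τ x) + f (τ (τ x))) := by
  have key : ∀ x, f x = (if x ∈ R then f x else 0) + (if τ x ∈ R then f x else 0)
      + (if τ (τ x) ∈ R then f x else 0) := by
    intro x
    by_cases hx : τ x = x
    · have : x ∉ R := fun h => hR' x h hx
      simp [hx, this, hf x hx]
    · rcases bstar_tricho τ R hR x hx with ⟨a, b, c⟩ | ⟨a, b, c⟩ | ⟨a, b, c⟩ <;> simp [a, b, c]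
  have s1 : ∑ x, (if x ∈ R then f x else 0) = ∑ x ∈ R, f x := by
    rw [Finset.sum_ite_mem, Finset.univ_inter]
  have s2 : ∑ x, (if τ x ∈ R then f x else 0) = ∑ x ∈ R, f (τ (τ x)) := by
    rw [← Equiv.sum_comp (τ * τ) (fun x => if τ x ∈ R then f x else 0)]
    simp only [Equiv.Perm.mul_apply, hτ]
    rw [Finset.sum_ite_mem, Finset.univ_inter]
  have s3 : ∑ x, (if τ (τ x) ∈ R then f x else 0) = ∑ x ∈ R, f (τ x) := by
    rw [← Equiv.sum_comp τ (fun x => if τ (τ x) ∈ R then f x else 0)]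
    simp only [hτ]
    rw [Finset.sum_ite_mem, Finset.univ_inter]
  calc ∑ x, f x = ∑ x, ((if x ∈ R then f x else 0) + (if τ x ∈ R then f x else 0)
      + (if τ (τ x) ∈ R then f x else 0)) := Finset.sum_congr rfl (fun x _ => key x)
    _ = (∑ x ∈ R, f x) + (∑ x ∈ R, f (τ (τ x))) + ∑ x ∈ R, f (τ x) := by
        rw [Finset.sum_add_distrib, Finset.sum_add_distrib, s1, s2, s3]
    _ = _ := by
        rw [← Finset.sum_add_distrib, ← Finset.sum_add_distrib]
        exact Finset.sum_congr rfl (fun x _ => by abel)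

/-- the sum over `X` of a `τ`-invariant function vanishing at the `τ`-fixed points is
`3` times the sum over the representatives -/
theorem bperf_sum_invariant {A : Type*} [AddCommMonoid A] (τ : Equiv.Perm X)
    (hτ : ∀ x, τ (τ (τ x)) = x)
    (R : Finset X) (hR : ∀ x, τ x ≠ x → ∃! i : Fin 3, (τ ^ (i : ℕ)) x ∈ R)
    (hR' : ∀ x ∈ R, τ x ≠ x) (f : X → A) (hf : ∀ x, τ x = x → f x = 0)
    (hinv : ∀ x, f (τ x) = f x) :
    ∑ x, f x = 3 • ∑ x ∈ R, f x := by
  rw [bperf_sum_orbit τ hτ R hR hR' f hf, Finset.smul_sum]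
  refine Finset.sum_congr rfl fun x _ => ?_
  rw [hinv (τ x), hinv x, succ_nsmul, succ_nsmul, one_nsmul]

end

end Fermat.Agent.S41lib
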