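/-
S41 (item 78), block B (duality), piece B-PERF (helper12), part 2: the edge function of a
primitive, functions on `X = SL(2,ℤ) ⧸ Γ` (left cosets `gΓ` ↔ right cosets `Γ g⁻¹`), and the
formula `hlPair φ ψ = ∑_{x ∈ R} (m_φ(x) m_ψ(τ x) − m_φ(τ x) m_ψ(x))`.
-/
import Mathlib
import Fermat.Agent.S41lib.BDefs
import Fermat.Agent.S41lib.BKeyExact
import Fermat.Agent.S41lib.BPrim
import Fermat.Agent.S41lib.BPerfOrb

set_option autoImplicit false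

open CongruenceSubgroup Matrix.SpecialLinearGroup ModularCurve.Period ModularGroup
open scoped MatrixGroups

namespace Fermat.Agent.S41lib

noncomputable section

/-! ### the edge function -/

/-- the edge function `g ↦ Φ(g 0) − Φ(g ∞)` of a function on the cusps -/
def bEdge {A : Type*} [AddCommGroup A] (Φ : OnePoint ℚ → A) (g : SL(2, ℤ)) : A :=
  Φ (bAct g ((0 : ℚ) : OnePoint ℚ)) - Φ (bAct g OnePoint.infty)

theorem bEdge_mul_S {A : Type*} [AddCommGroup A] (Φ : OnePoint ℚ → A) (g : SL(2, ℤ)) :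
    bEdge Φ (g * S) = - bEdge Φ g := by
  unfold bEdge
  rw [bke_S_infty, bke_S_zero, neg_sub]

theorem bEdge_mul_U {A : Type*} [AddCommGroup A] (Φ : OnePoint ℚ → A) (g : SL(2, ℤ)) :
    bEdge Φ (g * (S * T⁻¹)) =
      Φ (bAct g ((1 : ℚ) : OnePoint ℚ)) - Φ (bAct g ((0 : ℚ) : OnePoint ℚ)) := by
  unfold bEdge
  rw [bke_U_infty, bke_U_zero]

theorem bEdge_mul_U_U {A : Type*} [AddCommGroup A] (Φ : OnePoint ℚ → A) (g : SL(2, ℤ)) :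
    bEdge Φ (g * (S * T⁻¹) * (S * T⁻¹)) =
      Φ (bAct g OnePoint.infty) - Φ (bAct g ((1 : ℚ) : OnePoint ℚ)) := by
  rw [bEdge_mul_U, bke_U_one, bke_U_zero]

theorem bEdge_closed {A : Type*} [AddCommGroup A] (Φ : OnePoint ℚ → A) (g : SL(2, ℤ)) :
    bEdge Φ g + bEdge Φ (g * (S * T⁻¹)) + bEdge Φ (g * (S * T⁻¹) * (S * T⁻¹)) = 0 := by
  rw [bEdge_mul_U_U, bEdge_mul_U]
  unfold bEdge
  abel

theorem bEdge_neg {A : Type*} [AddCommGroup A] (Φ : OnePoint ℚ → A) (g : SL(2, ℤ)) :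
    bEdge Φ (-g) = bEdge Φ g := by
  unfold bEdge
  rw [bAct_neg, bAct_neg]

theorem bEdge_invariant {Γ : Subgroup SL(2, ℤ)} {A : Type*} [AddCommGroup A]
    {φ : Additive Γ →+ A} {Φ : OnePoint ℚ → A} (hΦ : IsBPrim Γ φ Φ)
    (γ : SL(2, ℤ)) (hγ : γ ∈ Γ) (g : SL(2, ℤ)) : bEdge Φ (γ * g) = bEdge Φ g := by
  unfold bEdge
  rw [bAct_mul, bAct_mul]
  have h1 := hΦ ⟨γ, hγ⟩ (bAct g ((0 : ℚ) : OnePoint ℚ))
  have h2 := hΦ ⟨γ, hγ⟩ (bAct g OnePoint.infty)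
  simp only at h1 h2
  rw [h1, h2]
  abel

theorem bEdge_eq_zero_of_conj_mem {Γ : Subgroup SL(2, ℤ)} {φ : Additive Γ →+ ℤ}
    {Φ : OnePoint ℚ → ℤ} (hΦ : IsBPrim Γ φ Φ) (g : SL(2, ℤ))
    (hg : g * (S * T⁻¹) * g⁻¹ ∈ Γ) : bEdge Φ g = 0 := by
  unfold bEdge
  rw [(bprim_eq_of_conj_mem Γ hΦ g hg).1, sub_self]

theorem bTri_bOmega_edge {R : Type*} [CommRing R] (Φ Ψ : OnePoint ℚ → R) (g : SL(2, ℤ)) :
    bTri (bOmega Φ Ψ) g =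
      bEdge Φ g * bEdge Ψ (g * (S * T⁻¹)) - bEdge Φ (g * (S * T⁻¹)) * bEdge Ψ g := by
  rw [bEdge_mul_U, bEdge_mul_U]
  unfold bTri bOmega bEdge
  ring

/-- reduction of the edge function -/
theorem bEdge_map {A B : Type*} [AddCommGroup A] [AddCommGroup B] (f : A →+ B)
    (Φ : OnePoint ℚ → A) (g : SL(2, ℤ)) : bEdge (fun c => f (Φ c)) g = f (bEdge Φ g) := by
  unfold bEdge
  rw [map_sub]

/-! ### functions on `X = SL(2,ℤ) ⧸ Γ` -/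

section Desc

variable (Γ : Subgroup SL(2, ℤ))

/-- a function on `SL(2,ℤ)` seen on `X` (through the right coset `Γ g⁻¹` of `gΓ`) -/
def bDesc {A : Type*} (E : SL(2, ℤ) → A) (x : SL(2, ℤ) ⧸ Γ) : A := E (x.out)⁻¹

theorem bDesc_mk {A : Type*} (E : SL(2, ℤ) → A) (hE : ∀ γ ∈ Γ, ∀ g, E (γ * g) = E g)
    (g : SL(2, ℤ)) : bDesc Γ E (QuotientGroup.mk g) = E g⁻¹ :=
  bke_out_inv Γ E hE g

/-- `σ`: right multiplication by `S` on the right cosets -/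
def bSigma : Equiv.Perm (SL(2, ℤ) ⧸ Γ) := MulAction.toPerm (S⁻¹ : SL(2, ℤ))

/-- `τ`: right multiplication by `U = S T⁻¹` on the right cosets -/
def bTau : Equiv.Perm (SL(2, ℤ) ⧸ Γ) := MulAction.toPerm ((S * T⁻¹)⁻¹ : SL(2, ℤ))

/-- right multiplication by `T` on the right cosets -/
def bTee : Equiv.Perm (SL(2, ℤ) ⧸ Γ) := MulAction.toPerm (T⁻¹ : SL(2, ℤ))

theorem bSigma_mk (g : SL(2, ℤ)) :
    bSigma Γ (QuotientGroup.mk g) = QuotientGroup.mk (S⁻¹ * g) := rfl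

theorem bTau_mk (g : SL(2, ℤ)) :
    bTau Γ (QuotientGroup.mk g) = QuotientGroup.mk ((S * T⁻¹)⁻¹ * g) := rfl

theorem bTee_mk (g : SL(2, ℤ)) :
    bTee Γ (QuotientGroup.mk g) = QuotientGroup.mk (T⁻¹ * g) := rfl

theorem bSigma_mk_inv (g : SL(2, ℤ)) :
    bSigma Γ (QuotientGroup.mk g⁻¹) = QuotientGroup.mk (g * S)⁻¹ := by
  rw [bSigma_mk, mul_inv_rev g]

theorem bTau_mk_inv (g : SL(2, ℤ)) :
    bTau Γ (QuotientGroup.mk g⁻¹) = QuotientGroup.mk (g * (S * T⁻¹))⁻¹ := by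
  rw [bTau_mk, mul_inv_rev g]

theorem bTee_mk_inv (g : SL(2, ℤ)) :
    bTee Γ (QuotientGroup.mk g⁻¹) = QuotientGroup.mk (g * T)⁻¹ := by
  rw [bTee_mk, mul_inv_rev g]

theorem bperf_neg_one_inv : ((-1 : SL(2, ℤ)))⁻¹ = -1 := by
  rw [inv_eq_iff_eq_inv, eq_comm, inv_eq_iff_mul_eq_one]
  apply Subtype.ext
  simp

theorem bSigma_sq (hneg : (-1 : SL(2, ℤ)) ∈ Γ) (x : SL(2, ℤ) ⧸ Γ) :
    bSigma Γ (bSigma Γ x) = x := by
  show (S⁻¹ : SL(2, ℤ)) • ((S⁻¹ : SL(2, ℤ)) • x) = x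
  rw [← mul_smul, ← mul_inv_rev, bke_S_mul_S, bperf_neg_one_inv]
  exact bke_neg_smul Γ hneg x

theorem bTau_cube (x : SL(2, ℤ) ⧸ Γ) : bTau Γ (bTau Γ (bTau Γ x)) = x := by
  show ((S * T⁻¹)⁻¹ : SL(2, ℤ)) • (((S * T⁻¹)⁻¹ : SL(2, ℤ)) • (((S * T⁻¹)⁻¹ : SL(2, ℤ)) • x)) = x
  rw [← mul_smul, ← mul_smul, ← mul_inv_rev, ← mul_inv_rev, ← mul_assoc,
    bke_U_cube, inv_one, one_smul]

theorem bTau_fixed_iff (g : SL(2, ℤ)) :
    bTau Γ (QuotientGroup.mk g⁻¹) = QuotientGroup.mk g⁻¹ ↔ g * (S * T⁻¹) * g⁻¹ ∈ Γ := by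
  rw [bTau_mk, QuotientGroup.eq]
  have : ((S * T⁻¹)⁻¹ * g⁻¹)⁻¹ * g⁻¹ = g * (S * T⁻¹) * g⁻¹ := by group
  rw [this]

variable {Γ}

theorem bDesc_sigma {A : Type*} (E : SL(2, ℤ) → A) (hE : ∀ γ ∈ Γ, ∀ g, E (γ * g) = E g)
    (x : SL(2, ℤ) ⧸ Γ) : bDesc Γ E (bSigma Γ x) = bDesc Γ (fun g => E (g * S)) x := by
  induction x using QuotientGroup.induction_on with
  | H g =>
    rw [bSigma_mk, bDesc_mk Γ E hE, bDesc_mk Γ (fun g => E (g * S))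
      (fun γ hγ g => by simpa [mul_assoc] using hE γ hγ (g * S)), mul_inv_rev, inv_inv]

theorem bDesc_tau {A : Type*} (E : SL(2, ℤ) → A) (hE : ∀ γ ∈ Γ, ∀ g, E (γ * g) = E g)
    (x : SL(2, ℤ) ⧸ Γ) :
    bDesc Γ E (bTau Γ x) = bDesc Γ (fun g => E (g * (S * T⁻¹))) x := by
  induction x using QuotientGroup.induction_on with
  | H g =>
    rw [bTau_mk, bDesc_mk Γ E hE, bDesc_mk Γ (fun g => E (g * (S * T⁻¹)))
      (fun γ hγ g => by simpa [mul_assoc] using hE γ hγ (g * (S * T⁻¹))), mul_inv_rev, inv_inv]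

theorem bDesc_tee {A : Type*} (E : SL(2, ℤ) → A) (hE : ∀ γ ∈ Γ, ∀ g, E (γ * g) = E g)
    (x : SL(2, ℤ) ⧸ Γ) : bDesc Γ E (bTee Γ x) = bDesc Γ (fun g => E (g * T)) x := by
  induction x using QuotientGroup.induction_on with
  | H g =>
    rw [bTee_mk, bDesc_mk Γ E hE, bDesc_mk Γ (fun g => E (g * T))
      (fun γ hγ g => by simpa [mul_assoc] using hE γ hγ (g * T)), mul_inv_rev, inv_inv]

/-- `x` is `τ`-fixed iff `h U h⁻¹ ∈ Γ` for `h = x.out⁻¹` -/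
theorem bTau_fixed_out (x : SL(2, ℤ) ⧸ Γ) (hx : bTau Γ x = x) :
    (x.out)⁻¹ * (S * T⁻¹) * ((x.out)⁻¹)⁻¹ ∈ Γ := by
  rw [← bTau_fixed_iff, inv_inv, QuotientGroup.out_eq']
  exact hx

end Desc

/-! ### the pairing as a sum over the representatives -/

/-- the local term of the pairing -/
def bBeta {X : Type} {K : Type*} [CommRing K] (τ : Equiv.Perm X) (R : Finset X) (m n : X → K) : K :=
  ∑ x ∈ R, (m x * n (τ x) - m (τ x) * n x)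

theorem hlPair_eq_bBeta (N : ℕ) [NeZero N] {φ ψ : Additive (Gamma0 N) →+ ℤ}
    {Φ Ψ : OnePoint ℚ → ℤ} (hΦ : IsBPrim (Gamma0 N) φ Φ) (hΨ : IsBPrim (Gamma0 N) ψ Ψ)
    [Fintype (SL(2, ℤ) ⧸ Gamma0 N)] [DecidableEq (SL(2, ℤ) ⧸ Gamma0 N)]
    (R : Finset (SL(2, ℤ) ⧸ Gamma0 N))
    (hR : ∀ x, bTau (Gamma0 N) x ≠ x → ∃! i : Fin 3, ((bTau (Gamma0 N)) ^ (i : ℕ)) x ∈ R)
    (hR' : ∀ x ∈ R, bTau (Gamma0 N) x ≠ x) :
    hlPair N φ ψ = bBeta (bTau (Gamma0 N)) R (bDesc (Gamma0 N) (bEdge Φ))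
      (bDesc (Gamma0 N) (bEdge Ψ)) := by
  have hEΦ : ∀ γ ∈ Gamma0 N, ∀ g, bEdge Φ (γ * g) = bEdge Φ g := bEdge_invariant hΦ
  have hEΨ : ∀ γ ∈ Gamma0 N, ∀ g, bEdge Ψ (γ * g) = bEdge Ψ g := bEdge_invariant hΨ
  set τ := bTau (Gamma0 N) with hτdef
  set M := bDesc (Gamma0 N) (bEdge Φ) with hM
  set M' := bDesc (Gamma0 N) (bEdge Ψ) with hM'
  have hMτ : ∀ x, M (τ x) = bEdge Φ ((x.out)⁻¹ * (S * T⁻¹)) := fun x => bDesc_tau _ hEΦ x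
  have hM'τ : ∀ x, M' (τ x) = bEdge Ψ ((x.out)⁻¹ * (S * T⁻¹)) := fun x => bDesc_tau _ hEΨ x
  have hMττ : ∀ x, M (τ (τ x)) = bEdge Φ ((x.out)⁻¹ * (S * T⁻¹) * (S * T⁻¹)) := by
    intro x
    rw [hM, hτdef, bDesc_tau _ hEΦ, bDesc_tau (Γ := Gamma0 N) (fun g => bEdge Φ (g * (S * T⁻¹)))
      (fun γ hγ g => by simpa [mul_assoc] using hEΦ γ hγ (g * (S * T⁻¹))) x]
    rfl
  have hM'ττ : ∀ x, M' (τ (τ x)) = bEdge Ψ ((x.out)⁻¹ * (S * T⁻¹) * (S * T⁻¹)) := by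
    intro x
    rw [hM', hτdef, bDesc_tau _ hEΨ, bDesc_tau (Γ := Gamma0 N) (fun g => bEdge Ψ (g * (S * T⁻¹)))
      (fun γ hγ g => by simpa [mul_assoc] using hEΨ γ hγ (g * (S * T⁻¹))) x]
    rfl
  have hMcl : ∀ x, M x + M (τ x) + M (τ (τ x)) = 0 := by
    intro x
    rw [hMττ, hMτ]
    exact bEdge_closed Φ _
  have hM'cl : ∀ x, M' x + M' (τ x) + M' (τ (τ x)) = 0 := by
    intro x
    rw [hM'ττ, hM'τ]
    exact bEdge_closed Ψ _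
  have hM0 : ∀ x, τ x = x → M x = 0 := fun x hx =>
    bEdge_eq_zero_of_conj_mem hΦ _ (bTau_fixed_out x hx)
  have hsum : bForm3 (Gamma0 N) φ ψ = ∑ x, (M x * M' (τ x) - M (τ x) * M' x) := by
    rw [bForm3_eq (Gamma0 N) hΦ hΨ, bSum_eq_sum]
    refine Finset.sum_congr rfl fun x _ => ?_
    rw [bTri_bOmega_edge, hMτ, hM'τ]
    rfl
  have h3 : ∑ x, (M x * M' (τ x) - M (τ x) * M' x)
      = 3 • ∑ x ∈ R, (M x * M' (τ x) - M (τ x) * M' x) := by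
    refine bperf_sum_invariant τ (bTau_cube (Gamma0 N)) R hR hR' _ ?_ ?_
    · intro x hx
      rw [hx, hM0 x hx]
      ring
    · intro x
      have e1 := hMcl x
      have e2 := hM'cl x
      linear_combination M (τ x) * e2 - M' (τ x) * e1
  unfold hlPair bBeta
  rw [hsum, h3, nsmul_eq_mul]
  exact Int.mul_ediv_cancel_left _ (by norm_num)

end

end Fermat.Agent.S41lib
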