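/-
S41 (item 78), block B (duality), piece B-PERF (helper12), part 3: boundaries pair to zero,
as a sum over the representatives of the free `τ`-orbits (so that `p = 3` is allowed).
-/
import Mathlib
import Fermat.Agent.S41lib.BPerfEdge

set_option autoImplicit false

open CongruenceSubgroup Matrix.SpecialLinearGroup ModularCurve.Period ModularGroup
open scoped MatrixGroups

namespace Fermat.Agent.S41lib

noncomputable section

theorem bperf_mul_U_cube (g : SL(2, ℤ)) : g * (S * T⁻¹) * (S * T⁻¹) * (S * T⁻¹) = g := by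
  rw [mul_assoc, mul_assoc, ← mul_assoc (S * T⁻¹), bke_U_cube, mul_one]

theorem bperf_conj_U_mul (g : SL(2, ℤ)) :
    g * (S * T⁻¹) * (S * T⁻¹) * (g * (S * T⁻¹))⁻¹ = g * (S * T⁻¹) * g⁻¹ := by
  group

/-- the local term of the pairing of `Φ` with a `Γ`-invariant `h` is a cyclic sum -/
theorem bperf_term_eq {K : Type*} [CommRing K] (Φ h : OnePoint ℚ → K) (g : SL(2, ℤ)) :
    bEdge Φ g * bEdge h (g * (S * T⁻¹)) - bEdge Φ (g * (S * T⁻¹)) * bEdge h g =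
      h (bAct g OnePoint.infty) * bEdge Φ (g * (S * T⁻¹)) +
      h (bAct (g * (S * T⁻¹)) OnePoint.infty) * bEdge Φ (g * (S * T⁻¹) * (S * T⁻¹)) +
      h (bAct (g * (S * T⁻¹) * (S * T⁻¹)) OnePoint.infty) *
        bEdge Φ (g * (S * T⁻¹) * (S * T⁻¹) * (S * T⁻¹)) := by
  rw [bperf_mul_U_cube, bEdge_mul_U_U, bEdge_mul_U, bEdge_mul_U, bke_U_infty, bke_U_infty,
    bke_U_zero]
  unfold bEdge
  ring

theorem bperf_w_eq {K : Type*} [CommRing K] (Φ h : OnePoint ℚ → K) (g : SL(2, ℤ)) :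
    h (bAct g OnePoint.infty) * bEdge Φ (g * (S * T⁻¹)) =
      h (bAct (g * T) OnePoint.infty) * bEdge Φ (g * T) - h (bAct g OnePoint.infty) * bEdge Φ g := by
  rw [bEdge_mul_U, bke_T_infty]
  unfold bEdge
  rw [bprim_T_zero, bke_T_infty]
  ring

variable (Γ : Subgroup SL(2, ℤ)) {K : Type*} [CommRing K]

theorem bperf_boundary [Fintype (SL(2, ℤ) ⧸ Γ)] [DecidableEq (SL(2, ℤ) ⧸ Γ)]
    (R : Finset (SL(2, ℤ) ⧸ Γ))
    (hR : ∀ x, bTau Γ x ≠ x → ∃! i : Fin 3, ((bTau Γ) ^ (i : ℕ)) x ∈ R)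
    (hR' : ∀ x ∈ R, bTau Γ x ≠ x)
    (Φ h : OnePoint ℚ → K)
    (hΦ : ∀ γ ∈ Γ, ∀ g, bEdge Φ (γ * g) = bEdge Φ g)
    (hΦ0 : ∀ g, g * (S * T⁻¹) * g⁻¹ ∈ Γ → bEdge Φ g = 0)
    (hh : ∀ γ ∈ Γ, ∀ c, h (bAct γ c) = h c) :
    bBeta (bTau Γ) R (bDesc Γ (bEdge Φ)) (bDesc Γ (bEdge h)) = 0 := by
  have hEh : ∀ γ ∈ Γ, ∀ g, bEdge h (γ * g) = bEdge h g := by
    intro γ hγ g
    unfold bEdge
    rw [bAct_mul, bAct_mul, hh γ hγ, hh γ hγ]
  set w : SL(2, ℤ) → K := fun g => h (bAct g OnePoint.infty) * bEdge Φ (g * (S * T⁻¹)) with hw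
  set v : SL(2, ℤ) → K := fun g => h (bAct g OnePoint.infty) * bEdge Φ g with hv
  have hwΓ : ∀ γ ∈ Γ, ∀ g, w (γ * g) = w g := by
    intro γ hγ g
    simp only [hw]
    rw [bAct_mul, hh γ hγ, mul_assoc, hΦ γ hγ]
  have hvΓ : ∀ γ ∈ Γ, ∀ g, v (γ * g) = v g := by
    intro γ hγ g
    simp only [hv]
    rw [bAct_mul, hh γ hγ, hΦ γ hγ]
  have hwU : ∀ γ ∈ Γ, ∀ g, w (γ * g * (S * T⁻¹)) = w (g * (S * T⁻¹)) := by
    intro γ hγ g
    rw [mul_assoc, hwΓ γ hγ]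
  set τ := bTau Γ with hτdef
  set W := bDesc Γ w with hW
  set V := bDesc Γ v with hV
  have hWτ : ∀ x, W (τ x) = w ((x.out)⁻¹ * (S * T⁻¹)) := fun x => bDesc_tau _ hwΓ x
  have hWττ : ∀ x, W (τ (τ x)) = w ((x.out)⁻¹ * (S * T⁻¹) * (S * T⁻¹)) := by
    intro x
    rw [hW, hτdef, bDesc_tau _ hwΓ, bDesc_tau (Γ := Γ) (fun g => w (g * (S * T⁻¹))) hwU x]
    rfl
  have hterm : ∀ x, bDesc Γ (bEdge Φ) x * bDesc Γ (bEdge h) (τ x)
      - bDesc Γ (bEdge Φ) (τ x) * bDesc Γ (bEdge h) x = W x + W (τ x) + W (τ (τ x)) := by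
    intro x
    rw [hWττ, hWτ, hτdef, bDesc_tau _ hEh, bDesc_tau _ hΦ]
    exact bperf_term_eq Φ h _
  have hW0 : ∀ x, τ x = x → W x = 0 := by
    intro x hx
    have h1 := bTau_fixed_out x hx
    rw [← bperf_conj_U_mul] at h1
    have h2 := hΦ0 _ h1
    show h (bAct (x.out)⁻¹ OnePoint.infty) * bEdge Φ ((x.out)⁻¹ * (S * T⁻¹)) = 0
    rw [h2, mul_zero]
  have hWV : ∀ x, W x = V (bTee Γ x) - V x := by
    intro x
    rw [hV, bDesc_tee _ hvΓ]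
    exact bperf_w_eq Φ h _
  unfold bBeta
  rw [Finset.sum_congr rfl (fun x _ => hterm x),
    ← bperf_sum_orbit τ (bTau_cube Γ) R hR hR' W hW0,
    Finset.sum_congr rfl (fun x _ => hWV x), Finset.sum_sub_distrib,
    Equiv.sum_comp (bTee Γ) V, sub_self]

end

end Fermat.Agent.S41lib
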