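/-
Item 78 (S41), block B, piece B-PERF-ELL (helper5): every element of `SL(2,ℤ)` of trace `±1`
(i.e. of order 3 or 6) is `±` a conjugate of `U^{±1}`, `U = S T⁻¹ = [[0,-1],[1,-1]]`.

Main result (namespace `Fermat.Agent.S41lib`): `bperf_conj_U`.
Proof: descent on `|c|` (reduction theory of binary quadratic forms of discriminant `-3`).
Mathlib only.  No sorry in this file.
-/
import Mathlib

set_option autoImplicit false

open scoped MatrixGroups
open ModularGroup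

namespace Fermat.Agent.S41lib

/-- `γ` is `±` a conjugate of `U^{±1}`, `U = S T⁻¹`. -/
def BPerfConj (γ : SL(2, ℤ)) : Prop :=
  ∃ g : SL(2, ℤ), γ * g = g * (S * T⁻¹) ∨ γ * g = -(g * (S * T⁻¹)) ∨
    γ * g = g * (S * T⁻¹)⁻¹ ∨ γ * g = -(g * (S * T⁻¹)⁻¹)

/-- `BPerfConj` descends along conjugation. -/
lemma bperfConj_of_conj (h γ : SL(2, ℤ)) (H : BPerfConj (h * γ * h⁻¹)) : BPerfConj γ := by
  obtain ⟨g, hg⟩ := H
  refine ⟨h⁻¹ * g, ?_⟩
  have e : γ * (h⁻¹ * g) = h⁻¹ * (h * γ * h⁻¹ * g) := by group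
  rw [e]
  rcases hg with hg | hg | hg | hg
  · left
    rw [hg, mul_assoc]
  · right; left
    rw [hg, mul_neg, mul_assoc]
  · right; right; left
    rw [hg, mul_assoc]
  · right; right; right
    rw [hg, mul_neg, mul_assoc]

/-- `BPerfConj` is insensitive to the sign. -/
lemma bperfConj_of_neg (γ : SL(2, ℤ)) (H : BPerfConj (-γ)) : BPerfConj γ := by
  obtain ⟨g, hg⟩ := H
  refine ⟨g, ?_⟩
  have e : γ * g = -(-γ * g) := by rw [neg_mul, neg_neg]
  rw [e]
  rcases hg with hg | hg | hg | hg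
  · right; left
    rw [hg]
  · left
    rw [hg, neg_neg]
  · right; right; right
    rw [hg]
  · right; right; left
    rw [hg, neg_neg]

/-- entries of `ad - bc = 1` -/
lemma bperf_det_entries (γ : SL(2, ℤ)) : γ 0 0 * γ 1 1 - γ 0 1 * γ 1 0 = 1 := by
  have h := γ.det_coe
  rw [Matrix.det_fin_two] at h
  exact h

/-- entries of the conjugate by `T ^ k` -/
lemma bperf_conj_T_entries (γ : SL(2, ℤ)) (k : ℤ) :
    (T ^ k * γ * (T ^ k)⁻¹) 0 0 = γ 0 0 + k * γ 1 0 ∧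
    (T ^ k * γ * (T ^ k)⁻¹) 1 0 = γ 1 0 ∧
    (T ^ k * γ * (T ^ k)⁻¹) 1 1 = γ 1 1 - k * γ 1 0 := by
  rw [← zpow_neg]
  simp only [Matrix.SpecialLinearGroup.coe_mul, coe_T_zpow, Matrix.mul_apply, Fin.sum_univ_two,
    Matrix.of_apply, Matrix.cons_val', Matrix.cons_val_zero, Matrix.cons_val_one,
    Matrix.cons_val_fin_one]
  refine ⟨by ring, by ring, by ring⟩

/-- entries of the conjugate by `S` -/
lemma bperf_conj_S_entries (γ : SL(2, ℤ)) :
    (S * γ * S⁻¹) 0 0 = γ 1 1 ∧ (S * γ * S⁻¹) 1 0 = - γ 0 1 ∧ (S * γ * S⁻¹) 1 1 = γ 0 0 := by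
  have hS : (S⁻¹ : SL(2, ℤ)) = -S := by
    ext i j
    fin_cases i <;> fin_cases j <;>
      simp [Matrix.SpecialLinearGroup.coe_inv, coe_S, Matrix.adjugate_fin_two]
  rw [hS]
  simp only [Matrix.SpecialLinearGroup.coe_mul, Matrix.SpecialLinearGroup.coe_neg, coe_S,
    Matrix.mul_apply, Fin.sum_univ_two, Matrix.neg_apply,
    Matrix.of_apply, Matrix.cons_val', Matrix.cons_val_zero, Matrix.cons_val_one,
    Matrix.cons_val_fin_one]
  refine ⟨by ring, by ring, by ring⟩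

/-- the matrix of `U = S T⁻¹` -/
lemma bperf_coe_U : ((S * T⁻¹ : SL(2, ℤ)) : Matrix (Fin 2) (Fin 2) ℤ) = !![0, -1; 1, -1] := by
  rw [Matrix.SpecialLinearGroup.coe_mul, coe_S, coe_T_inv]
  norm_num [Matrix.mul_fin_two]

/-- the matrix of `U⁻¹` -/
lemma bperf_coe_U_inv :
    (((S * T⁻¹)⁻¹ : SL(2, ℤ)) : Matrix (Fin 2) (Fin 2) ℤ) = !![-1, 1; -1, 0] := by
  rw [Matrix.SpecialLinearGroup.coe_inv, bperf_coe_U, Matrix.adjugate_fin_two_of]
  norm_num

/-- normalisation of `a` modulo `c` -/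
lemma bperf_exists_shift (a c : ℤ) (hc : c ≠ 0) : ∃ k : ℤ, |2 * (a + k * c) + 1| ≤ |c| := by
  have h2c : 2 * c ≠ 0 := by omega
  have h1 := Int.emod_nonneg (2 * a + 1 + |c|) h2c
  have h2 := Int.emod_lt_abs (2 * a + 1 + |c|) h2c
  have h3 := Int.emod_add_mul_ediv (2 * a + 1 + |c|) (2 * c)
  have h4 : |2 * c| = 2 * |c| := by rw [abs_mul]; norm_num
  refine ⟨-((2 * a + 1 + |c|) / (2 * c)), ?_⟩
  rw [abs_le]
  constructor <;> nlinarith

/-- the descent -/
lemma bperf_descent : ∀ n : ℕ, ∀ γ : SL(2, ℤ), (γ 1 0).natAbs = n → γ 0 0 + γ 1 1 = -1 →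
    BPerfConj γ := by
  intro n
  induction n using Nat.strong_induction_on with
  | _ n ih =>
    intro γ hn htr
    have hdet := bperf_det_entries γ
    have hc0 : γ 1 0 ≠ 0 := by
      intro h0
      rw [h0] at hdet
      have hd0 : γ 1 1 = -1 - γ 0 0 := by linarith
      rw [hd0] at hdet
      nlinarith [sq_nonneg (2 * γ 0 0 + 1)]
    obtain ⟨k, hk⟩ := bperf_exists_shift (γ 0 0) (γ 1 0) hc0
    obtain ⟨e00, e10, e11⟩ := bperf_conj_T_entries γ k
    apply bperfConj_of_conj (T ^ k)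
    obtain ⟨δ, hδ⟩ : ∃ δ : SL(2, ℤ), δ = T ^ k * γ * (T ^ k)⁻¹ := ⟨_, rfl⟩
    rw [← hδ] at e00 e10 e11 ⊢
    have hdetδ := bperf_det_entries δ
    have htrδ : δ 0 0 + δ 1 1 = -1 := by rw [e00, e11]; linarith
    have hkδ : |2 * δ 0 0 + 1| ≤ |δ 1 0| := by rw [e00, e10]; exact hk
    have hnδ : (δ 1 0).natAbs = n := by rw [e10]; exact hn
    have hcδ : δ 1 0 ≠ 0 := by rw [e10]; exact hc0
    clear hk e00 e10 e11 hδ hdet hc0 htr hn
    -- now work with δ
    obtain ⟨a, ha⟩ : ∃ a : ℤ, a = δ 0 0 := ⟨_, rfl⟩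
    obtain ⟨b, hb⟩ : ∃ b : ℤ, b = δ 0 1 := ⟨_, rfl⟩
    obtain ⟨c, hc⟩ : ∃ c : ℤ, c = δ 1 0 := ⟨_, rfl⟩
    obtain ⟨d, hd⟩ : ∃ d : ℤ, d = δ 1 1 := ⟨_, rfl⟩
    rw [← ha, ← hb, ← hc, ← hd] at hdetδ
    rw [← ha, ← hd] at htrδ
    rw [← ha, ← hc] at hkδ
    rw [← hc] at hnδ hcδ
    have hd' : d = -1 - a := by linarith
    have hbc : b * c = -(a ^ 2 + a + 1) := by rw [hd'] at hdetδ; linarith
    have hsq : (2 * a + 1) ^ 2 ≤ c ^ 2 := sq_le_sq.mpr hkδ
    have hmat : (δ : Matrix (Fin 2) (Fin 2) ℤ) = !![a, b; c, d] := by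
      rw [Matrix.eta_fin_two (δ : Matrix (Fin 2) (Fin 2) ℤ), ← ha, ← hb, ← hc, ← hd]
    by_cases hc1 : |c| = 1
    · -- the four base matrices
      rw [hc1] at hkδ
      obtain ⟨hk1, hk2⟩ := abs_le.mp hkδ
      have ha' : a = 0 ∨ a = -1 := by omega
      have hc' : c = 1 ∨ c = -1 := by
        rcases abs_eq (by norm_num : (0 : ℤ) ≤ 1) |>.mp hc1 with h | h
        · exact Or.inl h
        · exact Or.inr h
      rcases ha' with rfl | rfl <;> rcases hc' with rfl | rfl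
      · -- a = 0, c = 1 : U
        have hb' : b = -1 := by linarith
        subst hb' hd'
        refine ⟨1, Or.inl ?_⟩
        rw [mul_one, one_mul]
        apply Subtype.ext
        rw [hmat, bperf_coe_U]
        norm_num
      · -- a = 0, c = -1 : S U⁻¹ S⁻¹
        have hb' : b = 1 := by linarith
        subst hb' hd'
        refine ⟨S, Or.inr (Or.inr (Or.inl ?_))⟩
        apply Subtype.ext
        rw [Matrix.SpecialLinearGroup.coe_mul, Matrix.SpecialLinearGroup.coe_mul, hmat,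
          bperf_coe_U_inv, coe_S]
        norm_num [Matrix.mul_fin_two]
      · -- a = -1, c = 1 : T⁻¹ U T
        have hb' : b = -1 := by linarith
        subst hb' hd'
        refine ⟨T⁻¹, Or.inl ?_⟩
        apply Subtype.ext
        rw [Matrix.SpecialLinearGroup.coe_mul, Matrix.SpecialLinearGroup.coe_mul, hmat,
          bperf_coe_U, coe_T_inv]
        norm_num [Matrix.mul_fin_two]
      · -- a = -1, c = -1 : U⁻¹
        have hb' : b = 1 := by linarith
        subst hb' hd'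
        refine ⟨1, Or.inr (Or.inr (Or.inl ?_))⟩
        rw [mul_one, one_mul]
        apply Subtype.ext
        rw [hmat, bperf_coe_U_inv]
        norm_num
    · -- descent
      have hpos : 0 < a ^ 2 + a + 1 := by nlinarith [sq_nonneg (2 * a + 1)]
      have habs : |b| * |c| = a ^ 2 + a + 1 := by
        rw [← abs_mul, hbc, abs_neg, abs_of_pos hpos]
      have hc2 : 2 ≤ |c| := by
        have : 0 < |c| := abs_pos.mpr hcδ
        omega
      have hlt : |b| < |c| := by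
        by_contra hge
        rw [not_lt] at hge
        have hsq' : (2 * a + 1) ^ 2 ≤ |c| ^ 2 := by rwa [sq_abs]
        nlinarith [abs_nonneg b, abs_nonneg c]
      obtain ⟨s00, s10, s11⟩ := bperf_conj_S_entries δ
      apply bperfConj_of_conj S
      refine ih (-b).natAbs ?_ _ ?_ ?_
      · rw [← hnδ]
        rw [Int.abs_eq_natAbs, Int.abs_eq_natAbs] at hlt
        rw [Int.natAbs_neg]
        exact_mod_cast hlt
      · rw [s10, ← hb]
      · rw [s00, s11, ← ha, ← hd]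
        linarith

/-- **B-PERF-ELL.** Every element of `SL(2,ℤ)` with `|tr| = 1` is `±` a conjugate of `U^{±1}`,
`U = S T⁻¹`. -/
theorem bperf_conj_U (γ : SL(2, ℤ)) (h : |(γ : Matrix (Fin 2) (Fin 2) ℤ).trace| = 1) :
    ∃ g : SL(2, ℤ), γ * g = g * (S * T⁻¹) ∨ γ * g = -(g * (S * T⁻¹)) ∨
      γ * g = g * (S * T⁻¹)⁻¹ ∨ γ * g = -(g * (S * T⁻¹)⁻¹) := by
  rw [Matrix.trace_fin_two] at h
  rcases (abs_eq (by norm_num : (0 : ℤ) ≤ 1)).mp h with h1 | h1
  · apply bperfConj_of_neg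
    apply bperf_descent _ (-γ) rfl
    simp only [Matrix.SpecialLinearGroup.coe_neg, Matrix.neg_apply]
    linarith
  · exact bperf_descent _ γ rfl h1

end Fermat.Agent.S41lib
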