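/-
S41 (item 78), block B (duality), piece B-PERF (helper12), part 4: every closed alternating
`n : X → ZMod p` vanishing at the `τ`-fixed points is, up to the boundary of a `Γ`-invariant
function on the cusps, the reduction of the edge function of a parabolic `ψ : Γ₀(N) → ℤ`.
-/
import Mathlib
import Fermat.Agent.S41lib.BPerfEdge
import Fermat.Agent.S41lib.BPerfEll
import Fermat.Agent.AJlib.Count
import Fermat.Agent.AJlib.AuxElliptic

set_option autoImplicit false

open CongruenceSubgroup Matrix.SpecialLinearGroup ModularCurve.Period ModularGroup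
open Fermat.Agent.AJlib
open scoped MatrixGroups

namespace Fermat.Agent.S41lib

noncomputable section

theorem bperf_neg_one_mem (N : ℕ) : (-1 : SL(2, ℤ)) ∈ Gamma0 N := by
  rw [Gamma0_mem]
  simp

theorem bperf_neg_mem {Γ : Subgroup SL(2, ℤ)} (hneg : (-1 : SL(2, ℤ)) ∈ Γ) {g : SL(2, ℤ)}
    (hg : -g ∈ Γ) : g ∈ Γ := by
  have : g = (-1) * (-g) := by
    apply Subtype.ext
    simp
  rw [this]
  exact Γ.mul_mem hneg hg

/-- an element of trace `0` has square `-1` -/
theorem bperf_sq_of_trace_zero (γ : SL(2, ℤ))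
    (h : (γ : Matrix (Fin 2) (Fin 2) ℤ).trace = 0) : γ * γ = -1 := by
  have hdet := sl2_det_entries γ
  rw [Matrix.trace_fin_two] at h
  apply Subtype.ext
  rw [Matrix.SpecialLinearGroup.coe_mul, Matrix.SpecialLinearGroup.coe_neg,
    Matrix.SpecialLinearGroup.coe_one]
  ext i j
  fin_cases i <;> fin_cases j <;>
    simp only [Matrix.mul_apply, Fin.sum_univ_two, Matrix.neg_apply, Matrix.one_apply_eq,
      Matrix.one_apply_ne, Fin.zero_eta, Fin.mk_one, ne_eq, zero_ne_one, one_ne_zero,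
      not_false_eq_true, neg_zero, Fin.isValue]
  · linear_combination (γ 0 0) * h - hdet
  · linear_combination (γ 0 1) * h
  · linear_combination (γ 1 0) * h
  · linear_combination (γ 1 1) * h - hdet

/-- the potential `F` of a closed alternating `Γ`-invariant edge function `e` and its period
character -/
theorem bperf_exists_char (N : ℕ) [NeZero N] (p : ℕ) [Fact p.Prime] (hp2 : p ≠ 2)
    (n : SL(2, ℤ) ⧸ Gamma0 N → ZMod p)
    (hnσ : ∀ x, n (bSigma (Gamma0 N) x) = - n x)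
    (hnτ : ∀ x, n x + n (bTau (Gamma0 N) x) + n (bTau (Gamma0 N) (bTau (Gamma0 N) x)) = 0)
    (hn0 : ∀ x, bTau (Gamma0 N) x = x → n x = 0) :
    ∃ (F : SL(2, ℤ) → ZMod p) (χ : UnramHom N (Multiplicative (ZMod p))),
      (∀ g, F (-g) = F g) ∧ (∀ g, F (g * T) = F g) ∧
      (∀ g, F (g * S) - F g = n (QuotientGroup.mk g⁻¹)) ∧
      ∀ (γ : Gamma0 N) (g : SL(2, ℤ)),
        F ((γ : SL(2, ℤ)) * g) - F g = Multiplicative.toAdd (χ.1 γ) := by
  classical
  have hneg : (-1 : SL(2, ℤ)) ∈ Gamma0 N := bperf_neg_one_mem N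
  set e : SL(2, ℤ) → ZMod p := fun g => n (QuotientGroup.mk g⁻¹) with he
  have heΓ : ∀ γ ∈ Gamma0 N, ∀ g, e (γ * g) = e g := by
    intro γ hγ g
    show n (QuotientGroup.mk (γ * g)⁻¹) = n (QuotientGroup.mk g⁻¹)
    rw [mul_inv_rev, QuotientGroup.mk_mul_of_mem _ ((Gamma0 N).inv_mem hγ)]
  have he1 : ∀ g, e (-g) = e g := by
    intro g
    show n (QuotientGroup.mk (-g)⁻¹) = n (QuotientGroup.mk g⁻¹)
    have : (-g)⁻¹ = g⁻¹ * (-1) := by
      rw [inv_eq_iff_mul_eq_one]
      apply Subtype.ext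
      simp
    rw [this, QuotientGroup.mk_mul_of_mem _ hneg]
  have he2 : ∀ g, e (g * S) = - e g := by
    intro g
    show n (QuotientGroup.mk (g * S)⁻¹) = - n (QuotientGroup.mk g⁻¹)
    rw [← bSigma_mk_inv, hnσ]
  have he3 : ∀ g, e g + e (g * (S * T⁻¹)) + e (g * (S * T⁻¹) * (S * T⁻¹)) = 0 := by
    intro g
    show n (QuotientGroup.mk g⁻¹) + n (QuotientGroup.mk (g * (S * T⁻¹))⁻¹) +
      n (QuotientGroup.mk (g * (S * T⁻¹) * (S * T⁻¹))⁻¹) = 0
    rw [← bTau_mk_inv (Gamma0 N) (g * (S * T⁻¹)), ← bTau_mk_inv (Gamma0 N) g]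
    exact hnτ _
  have he0 : ∀ g, g * (S * T⁻¹) * g⁻¹ ∈ Gamma0 N → e g = 0 := by
    intro g hg
    exact hn0 _ ((bTau_fixed_iff (Gamma0 N) g).mpr hg)
  obtain ⟨F, hF1, hFT, hFS⟩ := bfarey_primitive e he1 he2 he3
  have hFTi : ∀ g, F (g * T⁻¹) = F g := by
    intro g
    have := hFT (g * T⁻¹)
    rw [inv_mul_cancel_right] at this
    exact this.symm
  have hFTz : ∀ (k : ℤ) (g : SL(2, ℤ)), F (g * T ^ k) = F g := by
    intro k
    induction k using Int.induction_on with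
    | zero => intro g; simp
    | succ i ih =>
      intro g
      rw [zpow_add_one, ← mul_assoc, hFT, ih]
    | pred i ih =>
      intro g
      rw [zpow_sub_one, ← mul_assoc, hFTi, ih]
  have hFU : ∀ g, F (g * (S * T⁻¹)) = F g + e g := by
    intro g
    rw [← mul_assoc, hFTi]
    have := hFS g
    linear_combination this
  have hFfix : ∀ g, g * (S * T⁻¹) * g⁻¹ ∈ Gamma0 N → F (g * (S * T⁻¹)) = F g := by
    intro g hg
    rw [hFU, he0 g hg, add_zero]
  have hD : ∀ γ ∈ Gamma0 N, ∀ g, F (γ * g) - F g = F γ - F 1 := by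
    intro γ hγ g
    have := bfarey_const (fun g => F (γ * g) - F g) ?_ ?_ g
    · simpa using this
    · intro g
      show F (γ * (g * S)) - F (g * S) = F (γ * g) - F g
      have h1 := hFS (γ * g)
      have h2 := hFS g
      have h3 : e (γ * g) = e g := heΓ γ hγ g
      rw [← mul_assoc]
      linear_combination h1 - h2 + h3
    · intro g
      show F (γ * (g * T)) - F (g * T) = F (γ * g) - F g
      rw [← mul_assoc, hFT, hFT]
  let ψb : ↥(Gamma0 N) →* Multiplicative (ZMod p) :=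
    { toFun := fun γ => Multiplicative.ofAdd (F (γ : SL(2, ℤ)) - F 1)
      map_one' := by
        show Multiplicative.ofAdd (F ((1 : Gamma0 N) : SL(2, ℤ)) - F 1) = 1
        rw [Subgroup.coe_one, sub_self]
        rfl
      map_mul' := fun γ δ => by
        show Multiplicative.ofAdd (F ((γ * δ : Gamma0 N) : SL(2, ℤ)) - F 1) =
          Multiplicative.ofAdd (F (γ : SL(2, ℤ)) - F 1) *
            Multiplicative.ofAdd (F (δ : SL(2, ℤ)) - F 1)
        rw [← ofAdd_add, Subgroup.coe_mul]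
        congr 1
        have := hD γ γ.2 δ
        linear_combination this }
  have hψb : ∀ γ : Gamma0 N, Multiplicative.toAdd (ψb γ) = F (γ : SL(2, ℤ)) - F 1 := fun γ => rfl
  have h2ne : (2 : ZMod p) ≠ 0 := by
    intro h
    have h2 : ((2 : ℕ) : ZMod p) = 0 := by exact_mod_cast h
    rw [ZMod.natCast_eq_zero_iff] at h2
    exact hp2 ((Nat.prime_dvd_prime_iff_eq (Fact.out : p.Prime) Nat.prime_two).mp h2)
  have hmem : ψb ∈ UnramHom N (Multiplicative (ZMod p)) := by
    intro γ htr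
    show Multiplicative.ofAdd (F (γ : SL(2, ℤ)) - F 1) = 1
    rw [ofAdd_eq_one]
    have habs : |((γ : SL(2, ℤ)) : Matrix (Fin 2) (Fin 2) ℤ).trace| = 0 ∨
        |((γ : SL(2, ℤ)) : Matrix (Fin 2) (Fin 2) ℤ).trace| = 1 ∨
        |((γ : SL(2, ℤ)) : Matrix (Fin 2) (Fin 2) ℤ).trace| = 2 := by
      have := abs_nonneg ((γ : SL(2, ℤ)) : Matrix (Fin 2) (Fin 2) ℤ).trace
      omega
    rcases habs with h0 | h1 | h2
    · -- order 4
      have hsq := bperf_sq_of_trace_zero (γ : SL(2, ℤ)) (abs_eq_zero.mp h0)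
      have h1 := hD γ γ.2 γ
      rw [hsq] at h1
      have h3 := hF1 1
      have h4 : (2 : ZMod p) * (F (γ : SL(2, ℤ)) - F 1) = 0 := by
        linear_combination -h1 + h3
      rcases mul_eq_zero.mp h4 with h5 | h5
      · exact absurd h5 h2ne
      · exact h5
    · -- order 3 or 6
      obtain ⟨g, hg⟩ := bperf_conj_U (γ : SL(2, ℤ)) h1
      rw [← hD γ γ.2 g, sub_eq_zero]
      have hγinv : ∀ g' : SL(2, ℤ), (γ : SL(2, ℤ)) * g = g' → (γ : SL(2, ℤ)) = g' * g⁻¹ := by
        intro g' h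
        rw [← h, mul_inv_cancel_right]
      rcases hg with hg | hg | hg | hg
      · rw [hg]
        refine hFfix g ?_
        rw [← hγinv _ hg]
        exact γ.2
      · rw [hg, hF1]
        refine hFfix g ?_
        apply bperf_neg_mem hneg
        have : -(g * (S * T⁻¹) * g⁻¹) = -(g * (S * T⁻¹)) * g⁻¹ := by
          apply Subtype.ext
          simp
        rw [this, ← hγinv _ hg]
        exact γ.2
      · rw [hg]
        have hm : g * (S * T⁻¹)⁻¹ * (S * T⁻¹) * (g * (S * T⁻¹)⁻¹)⁻¹ ∈ Gamma0 N := by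
          have : g * (S * T⁻¹)⁻¹ * (S * T⁻¹) * (g * (S * T⁻¹)⁻¹)⁻¹ = (g * (S * T⁻¹)⁻¹ * g⁻¹)⁻¹ := by
            group
          rw [this, ← hγinv _ hg]
          exact (Gamma0 N).inv_mem γ.2
        have := hFfix _ hm
        rw [inv_mul_cancel_right] at this
        exact this.symm
      · rw [hg, hF1]
        have hm : g * (S * T⁻¹)⁻¹ * (S * T⁻¹) * (g * (S * T⁻¹)⁻¹)⁻¹ ∈ Gamma0 N := by
          have : g * (S * T⁻¹)⁻¹ * (S * T⁻¹) * (g * (S * T⁻¹)⁻¹)⁻¹ = (g * (S * T⁻¹)⁻¹ * g⁻¹)⁻¹ := by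
            group
          rw [this]
          apply (Gamma0 N).inv_mem
          apply bperf_neg_mem hneg
          have : -(g * (S * T⁻¹)⁻¹ * g⁻¹) = -(g * (S * T⁻¹)⁻¹) * g⁻¹ := by
            apply Subtype.ext
            simp
          rw [this, ← hγinv _ hg]
          exact γ.2
        have := hFfix _ hm
        rw [inv_mul_cancel_right] at this
        exact this.symm
    · -- parabolic or ±1
      obtain ⟨g, m, hg⟩ := exists_conj_T_zpow_of_abs_trace_eq_two (γ : SL(2, ℤ)) h2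
      rw [← hD γ γ.2 g, sub_eq_zero]
      rcases hg with hg | hg
      · rw [hg, inv_mul_cancel_right, hFTz]
      · have : -(g * T ^ m * g⁻¹) * g = -(g * T ^ m) := by
          apply Subtype.ext
          simp [mul_assoc]
        rw [hg, this, hF1, hFTz]
  refine ⟨F, ⟨ψb, hmem⟩, hF1, hFT, hFS, fun γ g => ?_⟩
  rw [hD γ γ.2 g]
  rfl

/-- **the lift**: every `n ∈ Z⁰` is, up to the boundary of a `Γ`-invariant function on the
cusps, the reduction mod `p` of the edge function of a parabolic `ψ : Γ₀(N) → ℤ` -/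
theorem bperf_lift (N : ℕ) [NeZero N] (p : ℕ) [Fact p.Prime] (hp2 : p ≠ 2)
    (n : SL(2, ℤ) ⧸ Gamma0 N → ZMod p)
    (hnσ : ∀ x, n (bSigma (Gamma0 N) x) = - n x)
    (hnτ : ∀ x, n x + n (bTau (Gamma0 N) x) + n (bTau (Gamma0 N) (bTau (Gamma0 N) x)) = 0)
    (hn0 : ∀ x, bTau (Gamma0 N) x = x → n x = 0) :
    ∃ (ψ : Additive (Gamma0 N) →+ ℤ) (Ψ : OnePoint ℚ → ℤ) (h : OnePoint ℚ → ZMod p),
      IsParabolicHom (Gamma0 N) ψ ∧ IsBPrim (Gamma0 N) ψ Ψ ∧
      (∀ γ ∈ Gamma0 N, ∀ c, h (bAct γ c) = h c) ∧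
      ∀ g, ((bEdge Ψ g : ℤ) : ZMod p) = n (QuotientGroup.mk g⁻¹) + bEdge h g := by
  classical
  obtain ⟨F, χ, hF1, hFT, hFS, hFχ⟩ := bperf_exists_char N p hp2 n hnσ hnτ hn0
  obtain ⟨ψ0, hψ0⟩ := redMod_surjective N p (Fact.out : p.Prime).pos χ
  let ψ : Additive (Gamma0 N) →+ ℤ :=
    { toFun := fun γ => Multiplicative.toAdd (ψ0.1 (Additive.toMul γ))
      map_zero' := by
        show Multiplicative.toAdd (ψ0.1 1) = 0
        rw [map_one]
        rfl
      map_add' := fun a b => by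
        show Multiplicative.toAdd (ψ0.1 (Additive.toMul a * Additive.toMul b)) = _
        rw [map_mul]
        rfl }
  have hψ : ∀ γ : Gamma0 N, ψ (Additive.ofMul γ) = Multiplicative.toAdd (ψ0.1 γ) := fun γ => rfl
  have hψcast : ∀ γ : Gamma0 N, ((ψ (Additive.ofMul γ) : ℤ) : ZMod p)
      = Multiplicative.toAdd (χ.1 γ) := by
    intro γ
    rw [← hψ0]
    rfl
  have hψpar : IsParabolicHom (Gamma0 N) ψ := by
    intro γ hγ
    have htr : |((γ : SL(2, ℤ)) : Matrix (Fin 2) (Fin 2) ℤ).trace| ≤ 2 := by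
      have h4 : ((γ : SL(2, ℤ)) : Matrix (Fin 2) (Fin 2) ℤ).trace ^ 2 = 2 ^ 2 := by
        rw [hγ]
        norm_num
      rcases (sq_eq_sq_iff_abs_eq_abs _ _).mp h4 |>.le with h5
      simpa using h5
    have := ψ0.2 γ htr
    rw [hψ, this]
    rfl
  obtain ⟨Ψ, hΨ⟩ := exists_isBPrim (Gamma0 N) ψ hψpar
  obtain ⟨f, hf⟩ := bcusp_descend F hF1 hFT
  refine ⟨ψ, Ψ, fun c => ((Ψ c : ℤ) : ZMod p) - f c, hψpar, hΨ, ?_, ?_⟩
  · intro γ hγ c
    obtain ⟨g, rfl⟩ := bcusp_exists c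
    have h1 := hΨ ⟨γ, hγ⟩ (bAct g OnePoint.infty)
    simp only at h1
    show ((Ψ (bAct γ (bAct g OnePoint.infty)) : ℤ) : ZMod p) - f (bAct γ (bAct g OnePoint.infty))
      = ((Ψ (bAct g OnePoint.infty) : ℤ) : ZMod p) - f (bAct g OnePoint.infty)
    rw [h1, Int.cast_add, hψcast, ← bAct_mul, hf, hf]
    have := hFχ ⟨γ, hγ⟩ g
    simp only at this
    linear_combination -this
  · intro g
    have h1 : f (bAct g ((0 : ℚ) : OnePoint ℚ)) = F (g * S) := by
      rw [← bke_S_infty, hf]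
    have h2 : f (bAct g OnePoint.infty) = F g := hf g
    have h3 := hFS g
    unfold bEdge
    simp only []
    rw [h1, h2, Int.cast_sub]
    linear_combination h3

end

end Fermat.Agent.S41lib
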