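/-
S41 (item 78), block B (duality), piece B-PERF (helper12): the duality pairing `hlPair N` on
the parabolic homomorphisms `Γ₀(N) → ℤ` is perfect modulo every odd prime `p` (`p = 3` allowed).
-/
import Mathlib
import Fermat.Agent.S41lib.BPerfEdge
import Fermat.Agent.S41lib.BPerfBdry
import Fermat.Agent.S41lib.BPerfLift
import Fermat.Agent.S41lib.BStar

set_option autoImplicit false

open CongruenceSubgroup Matrix.SpecialLinearGroup ModularCurve.Period ModularGroup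
open Fermat.Agent.AJlib
open scoped MatrixGroups

namespace Fermat.Agent.S41lib

noncomputable section

/-- a homomorphism to `ℤ` all of whose values are divisible by `p` is `p` times a
homomorphism -/
theorem bperf_div_hom {G : Type*} [AddGroup G] (φ : G →+ ℤ) (p : ℤ)
    (h : ∀ x, p ∣ φ x) : ∃ φ' : G →+ ℤ, φ = p • φ' := by
  refine ⟨{ toFun := fun x => φ x / p
            map_zero' := by simp
            map_add' := fun a b => by
              show φ (a + b) / p = φ a / p + φ b / p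
              rw [map_add, Int.add_ediv_of_dvd_left (h a)] }, ?_⟩
  ext x
  show φ x = p • (φ x / p)
  rw [smul_eq_mul, Int.mul_ediv_cancel' (h x)]

theorem hlPair_nondeg (N : ℕ) [NeZero N] (p : ℕ) (hp : p.Prime) (hp2 : p ≠ 2)
    {φ : Additive (Gamma0 N) →+ ℤ} (hφ : IsParabolicHom (Gamma0 N) φ)
    (h : ∀ ψ : Additive (Gamma0 N) →+ ℤ, IsParabolicHom (Gamma0 N) ψ → (p : ℤ) ∣ hlPair N φ ψ) :
    ∃ φ' : Additive (Gamma0 N) →+ ℤ, φ = (p : ℤ) • φ' := by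
  classical
  have : Fact p.Prime := ⟨hp⟩
  have hneg : (-1 : SL(2, ℤ)) ∈ Gamma0 N := bperf_neg_one_mem N
  let _ : Fintype (SL(2, ℤ) ⧸ Gamma0 N) := Subgroup.fintypeQuotientOfFiniteIndex
  obtain ⟨Φ, hΦ⟩ := exists_isBPrim (Gamma0 N) φ hφ
  obtain ⟨R, hR, hR'⟩ := bperf_exists_reps (bTau (Gamma0 N)) (bTau_cube (Gamma0 N))
  have hEΦ : ∀ γ ∈ Gamma0 N, ∀ g, bEdge Φ (γ * g) = bEdge Φ g := bEdge_invariant hΦ
  -- the reduction of the primitive
  set Φb : OnePoint ℚ → ZMod p := fun c => ((Φ c : ℤ) : ZMod p) with hΦb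
  have hEb : ∀ g, bEdge Φb g = ((bEdge Φ g : ℤ) : ZMod p) := fun g =>
    bEdge_map (Int.castAddHom (ZMod p)) Φ g
  have hEΦb : ∀ γ ∈ Gamma0 N, ∀ g, bEdge Φb (γ * g) = bEdge Φb g := by
    intro γ hγ g
    rw [hEb, hEb, hEΦ γ hγ]
  have hEΦb0 : ∀ g, g * (S * T⁻¹) * g⁻¹ ∈ Gamma0 N → bEdge Φb g = 0 := by
    intro g hg
    rw [hEb, bEdge_eq_zero_of_conj_mem hΦ g hg, Int.cast_zero]
  set m : SL(2, ℤ) ⧸ Gamma0 N → ZMod p := bDesc (Gamma0 N) (bEdge Φb) with hm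
  have hmcast : ∀ x, m x = ((bDesc (Gamma0 N) (bEdge Φ) x : ℤ) : ZMod p) := fun x => hEb _
  have hmmk : ∀ g, m (QuotientGroup.mk g⁻¹) = bEdge Φb g := by
    intro g
    rw [hm, bDesc_mk _ _ hEΦb, inv_inv]
  have hmσ : ∀ x, m (bSigma (Gamma0 N) x) = - m x := by
    intro x
    rw [hm, bDesc_sigma _ hEΦb]
    exact bEdge_mul_S Φb _
  have hmτ1 : ∀ x, m (bTau (Gamma0 N) x) = bEdge Φb ((x.out)⁻¹ * (S * T⁻¹)) :=
    fun x => bDesc_tau _ hEΦb x
  have hmτ2 : ∀ x, m (bTau (Gamma0 N) (bTau (Gamma0 N) x)) =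
      bEdge Φb ((x.out)⁻¹ * (S * T⁻¹) * (S * T⁻¹)) := by
    intro x
    rw [hm, bDesc_tau _ hEΦb, bDesc_tau (Γ := Gamma0 N) (fun g => bEdge Φb (g * (S * T⁻¹)))
      (fun γ hγ g => by simpa [mul_assoc] using hEΦb γ hγ (g * (S * T⁻¹))) x]
    rfl
  have hmτ : ∀ x, m x + m (bTau (Gamma0 N) x) + m (bTau (Gamma0 N) (bTau (Gamma0 N) x)) = 0 := by
    intro x
    rw [hmτ2, hmτ1]
    exact bEdge_closed Φb _
  have hm0 : ∀ x, bTau (Gamma0 N) x = x → m x = 0 := fun x hx =>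
    hEΦb0 _ (bTau_fixed_out x hx)
  have h2ne : (2 : ZMod p) ≠ 0 := by
    intro h2
    have h2' : ((2 : ℕ) : ZMod p) = 0 := by exact_mod_cast h2
    rw [ZMod.natCast_eq_zero_iff] at h2'
    exact hp2 ((Nat.prime_dvd_prime_iff_eq hp Nat.prime_two).mp h2')
  -- orthogonality to `Z⁰`
  have hperp : ∀ n : SL(2, ℤ) ⧸ Gamma0 N → ZMod p, (∀ x, n (bSigma (Gamma0 N) x) = - n x) →
      (∀ x, n x + n (bTau (Gamma0 N) x) + n (bTau (Gamma0 N) (bTau (Gamma0 N) x)) = 0) →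
      (∀ x, bTau (Gamma0 N) x = x → n x = 0) →
      ∑ x ∈ R, (m x * n (bTau (Gamma0 N) x) - m (bTau (Gamma0 N) x) * n x) = 0 := by
    intro n hnσ hnτ hn0
    obtain ⟨ψ, Ψ, hb, hψpar, hΨ, hhb, hedge⟩ := bperf_lift N p hp2 n hnσ hnτ hn0
    have hdvd := h ψ hψpar
    rw [hlPair_eq_bBeta N hΦ hΨ R hR hR'] at hdvd
    have hz : ((bBeta (bTau (Gamma0 N)) R (bDesc (Gamma0 N) (bEdge Φ))
        (bDesc (Gamma0 N) (bEdge Ψ)) : ℤ) : ZMod p) = 0 :=
      (ZMod.intCast_zmod_eq_zero_iff_dvd _ p).mpr hdvd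
    have hbd := bperf_boundary (Gamma0 N) R hR hR' Φb hb hEΦb hEΦb0 hhb
    have hM' : ∀ x, ((bDesc (Gamma0 N) (bEdge Ψ) x : ℤ) : ZMod p)
        = n x + bDesc (Gamma0 N) (bEdge hb) x := by
      intro x
      have := hedge (x.out)⁻¹
      rw [inv_inv, QuotientGroup.out_eq'] at this
      exact this
    unfold bBeta at hz hbd
    rw [Int.cast_sum] at hz
    have hcomb : ∑ x ∈ R, (m x * n (bTau (Gamma0 N) x) - m (bTau (Gamma0 N) x) * n x)
        = ∑ x ∈ R, (((bDesc (Gamma0 N) (bEdge Φ) x * bDesc (Gamma0 N) (bEdge Ψ) (bTau (Gamma0 N) x)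
            - bDesc (Gamma0 N) (bEdge Φ) (bTau (Gamma0 N) x) * bDesc (Gamma0 N) (bEdge Ψ) x : ℤ))
            : ZMod p)
          - ∑ x ∈ R, (bDesc (Gamma0 N) (bEdge Φb) x * bDesc (Gamma0 N) (bEdge hb) (bTau (Gamma0 N) x)
            - bDesc (Gamma0 N) (bEdge Φb) (bTau (Gamma0 N) x) * bDesc (Gamma0 N) (bEdge hb) x) := by
      rw [← Finset.sum_sub_distrib]
      refine Finset.sum_congr rfl fun x _ => ?_
      rw [Int.cast_sub, Int.cast_mul, Int.cast_mul, hM' x, hM' (bTau (Gamma0 N) x),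
        ← hmcast x, ← hmcast (bTau (Gamma0 N) x)]
      ring
    rw [hcomb, hz, hbd, sub_zero]
  obtain ⟨hh, hhστ, hmh⟩ := bstar h2ne (bSigma (Gamma0 N)) (bTau (Gamma0 N))
    (bSigma_sq (Gamma0 N) hneg) (bTau_cube (Gamma0 N)) R hR hR' m hmσ hmτ hm0 hperp
  -- `F_φ - H` is constant
  set Ff : SL(2, ℤ) → ZMod p := fun g => Φb (bAct g OnePoint.infty) with hFf
  set Hf : SL(2, ℤ) → ZMod p := fun g => hh (QuotientGroup.mk g⁻¹) with hHf
  have hHS : ∀ g, Hf (g * S) = hh (bSigma (Gamma0 N) (QuotientGroup.mk g⁻¹)) := by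
    intro g
    rw [bSigma_mk_inv]
  have hHU : ∀ g, Hf (g * (S * T⁻¹)) = hh (bTau (Gamma0 N) (QuotientGroup.mk g⁻¹)) := by
    intro g
    rw [bTau_mk_inv]
  have hHSU : ∀ g, Hf (g * S) = Hf (g * (S * T⁻¹)) := by
    intro g
    rw [hHS, hHU, hhστ]
  have hDS : ∀ g, Ff (g * S) - Hf (g * S) = Ff g - Hf g := by
    intro g
    have h1 : Ff (g * S) - Ff g = bEdge Φb g := by
      simp only [hFf]
      rw [bke_S_infty]
      rfl
    have h2 := hmh (QuotientGroup.mk g⁻¹)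
    rw [hmmk, ← hHU] at h2
    have h3 := hHSU g
    have h4 : hh (QuotientGroup.mk g⁻¹) = Hf g := rfl
    rw [h4] at h2
    linear_combination h1 + h2 - h3
  have hDT : ∀ g, Ff (g * T) - Hf (g * T) = Ff g - Hf g := by
    intro g
    have h1 : Ff (g * T) = Ff g := by
      simp only [hFf]
      rw [bke_T_infty]
    have h2 := hHSU (g * T * S⁻¹)
    rw [inv_mul_cancel_right] at h2
    have h3 : g * T * S⁻¹ * (S * T⁻¹) = g := by group
    rw [h3] at h2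
    rw [h1, h2]
  have hconst : ∀ g, Ff g - Hf g = Ff 1 - Hf 1 :=
    fun g => bfarey_const (fun g => Ff g - Hf g) hDS hDT g
  have hdiv : ∀ x : Additive (Gamma0 N), (p : ℤ) ∣ φ x := by
    intro x
    set γ : Gamma0 N := Additive.toMul x with hγ
    have h1 := hΦ γ OnePoint.infty
    have h2 : Ff (γ : SL(2, ℤ)) = Ff 1 + ((φ (Additive.ofMul γ) : ℤ) : ZMod p) := by
      simp only [hFf, hΦb]
      rw [h1, bAct_one, Int.cast_add]
    have h3 : Hf (γ : SL(2, ℤ)) = Hf 1 := by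
      simp only [hHf]
      congr 1
      rw [QuotientGroup.eq, inv_inv, inv_one, mul_one]
      exact γ.2
    have h4 := hconst (γ : SL(2, ℤ))
    have h5 : ((φ (Additive.ofMul γ) : ℤ) : ZMod p) = 0 := by
      linear_combination h4 - h2 + h3
    exact (ZMod.intCast_zmod_eq_zero_iff_dvd _ p).mp h5
  exact bperf_div_hom φ (p : ℤ) hdiv

end

end Fermat.Agent.S41lib
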