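/-
S41 (item 78), block A, piece A-MAIN, final wiring (helper20): `iharaStatement : IharaStatement`,
unconditional.  Pieces: A2-GLUE `a2_hinv` (helper9), A3 `a3_core` (helper10's proof; helper9,
helper18, helper29, helper14, helper11), A5 `ihara_of_core` (helper12).
-/
import Mathlib
import Fermat.Agent.S41lib.A5Eis
import Fermat.Agent.S41lib.A2Glue
import Fermat.Agent.S41lib.A3Fin

set_option autoImplicit false

open CongruenceSubgroup
open scoped MatrixGroups

namespace Fermat.Agent.S41lib

/-- **Ihara's lemma** (block A of S41), in the form of `Interface.lean`. -/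
theorem iharaStatement : IharaStatement :=
  ihara_of_core (fun N q p _ _ hq hqN hp hp2 hqp φ₁ φ₂ h₁ h₂ hker =>
    have h := a2_hinv N q hq hqN φ₁ φ₂ hker
    ⟨a3_core N q p hq hqN hp hp2 hqp φ₁ h₁ h.1, a3_core N q p hq hqN hp hp2 hqp φ₂ h₂ h.2⟩)

end Fermat.Agent.S41lib
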