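/-
S41 (item 78), block A, piece A-MAIN (helper20): `IharaStatement` from the three pieces
A2 (h-conjugation invariance from the amalgam), A3 (the mod-`p` congruence subgroup property,
helper10's proof) and A5 (Eisenstein property), written against the pieces as hypotheses.
-/
import Mathlib
import Fermat.Agent.S41lib.Interface

set_option autoImplicit false

open CongruenceSubgroup ModularCurve.Period Fermat.Agent.GalRep
open scoped MatrixGroups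

namespace Fermat.Agent.S41lib

/-- **A-MAIN, abstract form**: if a property `P` of homomorphisms `Γ₀(N) → 𝔽_p` holds on the
kernel of the level raising map (A2), forces vanishing on the elements with `d ≡ 1 mod N` for
parabolic homomorphisms (A3), and such homomorphisms are `T_ℓ`-eigen with eigenvalue `ℓ + 1`
(A5), then the conclusion of `IharaStatement` holds with `D = 1`. -/
theorem ihara_of_pieces {N q p : ℕ} [NeZero N] [NeZero q]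
    (P : (Additive (Gamma0 N) →+ ZMod p) → Prop)
    (hA2 : ∀ φ₁ φ₂ : Additive (Gamma0 N) →+ ZMod p,
      degRes N q (ZMod p) φ₁ + degResq N q (ZMod p) φ₂ = 0 → P φ₁ ∧ P φ₂)
    (hA3 : ∀ φ : Additive (Gamma0 N) →+ ZMod p, IsParabolicHom (Gamma0 N) φ → P φ →
      ∀ γ : Gamma0 N, (((γ : SL(2, ℤ)) 1 1 : ℤ) : ZMod N) = 1 → φ (Additive.ofMul γ) = 0)
    (hA5 : ∀ φ : Additive (Gamma0 N) →+ ZMod p,
      (∀ γ : Gamma0 N, (((γ : SL(2, ℤ)) 1 1 : ℤ) : ZMod N) = 1 → φ (Additive.ofMul γ) = 0) →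
      ∀ ℓ : Nat.Primes, ¬ (ℓ : ℕ) ∣ N →
        heckeHom N ℓ (ZMod p) φ = (((ℓ : ℕ) : ℤ) + 1) • φ)
    (φ₁ φ₂ : Additive (Gamma0 N) →+ ZMod p)
    (h₁ : IsParabolicHom (Gamma0 N) φ₁) (h₂ : IsParabolicHom (Gamma0 N) φ₂)
    (h : degRes N q (ZMod p) φ₁ + degResq N q (ZMod p) φ₂ = 0) :
    ∃ D : ℕ, 0 < D ∧ ∀ ℓ : Nat.Primes, ¬ (ℓ : ℕ) ∣ D * N * q * p →
      ((ℓ : ℕ) ≡ 1 [MOD D] ∨ p ∣ (ℓ : ℕ) + 1) →
        heckeHom N ℓ (ZMod p) φ₁ = (((ℓ : ℕ) : ℤ) + 1) • φ₁ ∧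
        heckeHom N ℓ (ZMod p) φ₂ = (((ℓ : ℕ) : ℤ) + 1) • φ₂ := by
  obtain ⟨hP₁, hP₂⟩ := hA2 φ₁ φ₂ h
  refine ⟨1, one_pos, fun ℓ hℓ _ => ?_⟩
  have hℓN : ¬ (ℓ : ℕ) ∣ N := fun hd => hℓ (by
    rw [one_mul]; exact Dvd.dvd.mul_right (Dvd.dvd.mul_right hd q) p)
  exact ⟨hA5 φ₁ (hA3 φ₁ h₁ hP₁) ℓ hℓN, hA5 φ₂ (hA3 φ₂ h₂ hP₂) ℓ hℓN⟩

end Fermat.Agent.S41lib
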